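/-
T-RR [RR-alg], slice L6 (helper27): the generic dictionary between the nonzero primes of a
Dedekind `k`-algebra `B` with fraction field `F` and the places `v` of `F / k` whose valuation
ring contains `B`.

* `h27_placeOf k B P`              : the place of a prime;
* `h27_placeOf_adicValuation`      : its normalised valuation is `P.valuation F`;
* `h27_placeOf_injective`          : `P ↦ v_P` is injective;
* `h27_primeOfPlace`, `h27_placeOf_primeOfPlace`, `h27_primeOfPlace_placeOf` : the inverse, on the
  places whose valuation ring contains `B`.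
-/
import Mathlib
import Fermat.Agent.S24.PlaceBasic

set_option autoImplicit false
set_option linter.unusedSectionVars false

noncomputable section

namespace H27L6

open AlgebraicCurve IsDedekindDomain
open scoped WithZero

variable (k : Type*) [Field k] {F : Type*} [Field F] [Algebra k F]
  (B : Type*) [CommRing B] [IsDedekindDomain B] [Algebra B F] [IsFractionRing B F]
  [Algebra k B] [IsScalarTower k B F]

theorem h27_val_const_le (P : HeightOneSpectrum B) (c : k) :
    P.valuation F (algebraMap k F c) ≤ 1 := by
  rw [IsScalarTower.algebraMap_apply k B F]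
  exact P.valuation_le_one (K := F) (algebraMap k B c)

theorem h27_val_nontriv (P : HeightOneSpectrum B) :
    ∃ f : F, P.valuation F f ≠ 0 ∧ P.valuation F f ≠ 1 := by
  obtain ⟨π, hπ⟩ := P.valuation_exists_uniformizer F
  refine ⟨π, ?_, ?_⟩
  · rw [hπ]; exact WithZero.exp_ne_zero
  · rw [hπ, ← WithZero.exp_zero]
    intro h
    have := WithZero.exp_injective h
    omega

/-- The place of `F / k` attached to a nonzero prime of `B`. -/
def h27_placeOf (P : HeightOneSpectrum B) : Place k F :=
  RH24.h20_placeOfVal (P.valuation F) (h27_val_const_le k B P) (h27_val_nontriv B P)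

theorem h27_placeOf_toValuationSubring (P : HeightOneSpectrum B) :
    (h27_placeOf k B P).toValuationSubring = (P.valuation F).valuationSubring := rfl

theorem h27_placeOf_adicValuation (P : HeightOneSpectrum B) (f : F) :
    (h27_placeOf k B P).adicValuation f = P.valuation F f := by
  rcases eq_or_ne f 0 with rfl | hf
  · simp
  obtain ⟨e, he, h⟩ := RH24.h20_val_eq_pow_ord (h27_placeOf k B P) (P.valuation F) rfl
  obtain ⟨π, hπ⟩ := P.valuation_exists_uniformizer F
  have hπ0 : π ≠ 0 := by
    rintro rfl
    rw [map_zero] at hπ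
    exact WithZero.exp_ne_zero hπ.symm
  have h1 := h π hπ0
  rw [hπ] at h1
  have h2 := WithZero.exp_injective h1
  have he1 : e = 1 := by
    have h3 : (e : ℤ) * (h27_placeOf k B P).ord π = 1 := by omega
    have h4 : (e : ℤ) ∣ 1 := Dvd.intro _ h3
    have h5 : (e : ℤ) = 1 := Int.eq_one_of_dvd_one (by positivity) h4
    exact_mod_cast h5
  subst he1
  rw [h f hf, RH24.h20_adicValuation_eq _ hf]
  simp

theorem h27_placeOf_ord (P : HeightOneSpectrum B) (f : F) :
    (h27_placeOf k B P).ord f = -(WithZero.log (P.valuation F f)) := by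
  rw [Place.ord, h27_placeOf_adicValuation]

theorem h27_mem_placeOf (P : HeightOneSpectrum B) (b : B) :
    algebraMap B F b ∈ (h27_placeOf k B P).toValuationSubring := by
  rw [h27_placeOf_toValuationSubring, Valuation.mem_valuationSubring_iff]
  exact P.valuation_le_one (K := F) b

theorem h27_placeOf_adicValuation_lt_one_iff (P : HeightOneSpectrum B) (b : B) :
    (h27_placeOf k B P).adicValuation (algebraMap B F b) < 1 ↔ b ∈ P.asIdeal := by
  rw [h27_placeOf_adicValuation]
  exact P.valuation_lt_one_iff_mem (K := F) b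

theorem h27_placeOf_ord_pos_iff (P : HeightOneSpectrum B) {b : B} (hb : b ≠ 0) :
    0 < (h27_placeOf k B P).ord (algebraMap B F b) ↔ b ∈ P.asIdeal := by
  have hb' : algebraMap B F b ≠ 0 := by
    intro h
    exact hb ((map_eq_zero_iff _ (IsFractionRing.injective B F)).mp h)
  rw [← RH24.h20_adicValuation_lt_one_iff _ hb', h27_placeOf_adicValuation_lt_one_iff]

theorem h27_placeOf_injective : Function.Injective (h27_placeOf (F := F) k B) := by
  intro P Q h
  ext b
  rw [← h27_placeOf_adicValuation_lt_one_iff (F := F) k B P b,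
    ← h27_placeOf_adicValuation_lt_one_iff (F := F) k B Q b, h]

variable {k B}

/-- The inclusion `B → 𝒪_v` for a place whose valuation ring contains `B`. -/
def h27_toLocal (v : Place k F) (hv : ∀ b : B, algebraMap B F b ∈ v.toValuationSubring) :
    B →+* v.toValuationSubring :=
  (algebraMap B F).codRestrict v.toValuationSubring.toSubring hv

@[simp]
theorem h27_toLocal_coe (v : Place k F) (hv : ∀ b : B, algebraMap B F b ∈ v.toValuationSubring)
    (b : B) : ((h27_toLocal v hv b : v.toValuationSubring) : F) = algebraMap B F b := rfl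

theorem h27_mem_maximalIdeal_iff (v : Place k F) (a : v.toValuationSubring) :
    a ∈ IsLocalRing.maximalIdeal v.toValuationSubring ↔ v.adicValuation (a : F) < 1 := by
  rw [IsLocalRing.mem_maximalIdeal, mem_nonunits_iff, ← v.adicValuation_coe_eq_one_iff]
  have h1 : v.adicValuation (a : F) ≤ 1 := (RH24.h20_mem_iff_adicValuation_le_one v _).mp a.2
  exact ⟨fun h => lt_of_le_of_ne h1 h, fun h => h.ne⟩

/-- There is a nonzero element of `B` of positive order at any place containing `B`. -/
theorem h27_exists_mem_lt_one (v : Place k F)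
    (hv : ∀ b : B, algebraMap B F b ∈ v.toValuationSubring) :
    ∃ d : B, d ≠ 0 ∧ v.adicValuation (algebraMap B F d) < 1 := by
  have hne : ∃ x : F, x ∉ v.toValuationSubring := by
    by_contra hcon
    exact v.ne_top' (_root_.eq_top_iff.mpr fun x _ => by
      by_contra hx
      exact hcon ⟨x, hx⟩)
  obtain ⟨x, hx⟩ := hne
  obtain ⟨n, d, hd, hnd⟩ := IsFractionRing.div_surjective (A := B) x
  have hd0 : d ≠ 0 := nonZeroDivisors.ne_zero hd
  have hd0' : algebraMap B F d ≠ 0 := by
    intro h
    exact hd0 ((map_eq_zero_iff _ (IsFractionRing.injective B F)).mp h)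
  refine ⟨d, hd0, ?_⟩
  by_contra hcon
  have hd1 : v.adicValuation (algebraMap B F d) = 1 :=
    le_antisymm ((RH24.h20_mem_iff_adicValuation_le_one v _).mp (hv d)) (not_lt.mp hcon)
  apply hx
  rw [RH24.h20_mem_iff_adicValuation_le_one, ← hnd, map_div₀, hd1, div_one]
  exact (RH24.h20_mem_iff_adicValuation_le_one v _).mp (hv n)

/-- The prime of `B` below a place whose valuation ring contains `B`. -/
def h27_primeOfPlace (v : Place k F) (hv : ∀ b : B, algebraMap B F b ∈ v.toValuationSubring) :
    HeightOneSpectrum B where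
  asIdeal := (IsLocalRing.maximalIdeal v.toValuationSubring).comap (h27_toLocal v hv)
  isPrime := Ideal.comap_isPrime _ _
  ne_bot := by
    intro h
    obtain ⟨d, hd0, hd⟩ := h27_exists_mem_lt_one v hv
    have hmem : d ∈ (IsLocalRing.maximalIdeal v.toValuationSubring).comap (h27_toLocal v hv) := by
      rw [Ideal.mem_comap, h27_mem_maximalIdeal_iff]
      exact hd
    rw [h, Ideal.mem_bot] at hmem
    exact hd0 hmem

theorem h27_mem_primeOfPlace (v : Place k F)
    (hv : ∀ b : B, algebraMap B F b ∈ v.toValuationSubring) (b : B) :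
    b ∈ (h27_primeOfPlace v hv).asIdeal ↔ v.adicValuation (algebraMap B F b) < 1 := by
  show b ∈ (IsLocalRing.maximalIdeal v.toValuationSubring).comap _ ↔ _
  rw [Ideal.mem_comap, h27_mem_maximalIdeal_iff]
  rfl

variable (k B)

theorem h27_primeOfPlace_placeOf (P : HeightOneSpectrum B) :
    h27_primeOfPlace (h27_placeOf (F := F) k B P) (h27_mem_placeOf k B P) = P := by
  ext b
  rw [h27_mem_primeOfPlace, h27_placeOf_adicValuation_lt_one_iff]

theorem h27_placeOf_primeOfPlace (v : Place k F)
    (hv : ∀ b : B, algebraMap B F b ∈ v.toValuationSubring) :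
    h27_placeOf k B (h27_primeOfPlace v hv) = v := by
  apply Place.ext
  show (((h27_primeOfPlace v hv).valuation F).valuationSubring) = v.toValuationSubring
  rw [← HeightOneSpectrum.valuationSubringAtPrime_eq_valuationSubring]
  refine ValuationSubring.eq_of_le_of_ne_top _ ?_ v.ne_top'
  intro x hx
  rw [HeightOneSpectrum.valuationSubringAtPrime_eq_valuationSubring,
    Valuation.mem_valuationSubring_iff] at hx
  obtain ⟨n, d, hnd⟩ := (h27_primeOfPlace v hv).exists_primeCompl_mul_eq_of_integer x hx
  have hd : algebraMap B F (d : B) ≠ 0 := by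
    intro h0
    apply d.2
    have : (d : B) = 0 := (map_eq_zero_iff _ (IsFractionRing.injective B F)).mp h0
    rw [this]
    exact Ideal.zero_mem _
  have hd1 : v.adicValuation (algebraMap B F (d : B)) = 1 := by
    have h1 : ¬ v.adicValuation (algebraMap B F (d : B)) < 1 := by
      rw [← h27_mem_primeOfPlace v hv]
      exact d.2
    have h2 : v.adicValuation (algebraMap B F (d : B)) ≤ 1 :=
      (RH24.h20_mem_iff_adicValuation_le_one v _).mp (hv d)
    exact le_antisymm h2 (not_lt.mp h1)
  have hn : v.adicValuation (algebraMap B F n) ≤ 1 :=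
    (RH24.h20_mem_iff_adicValuation_le_one v _).mp (hv n)
  rw [RH24.h20_mem_iff_adicValuation_le_one]
  have hx' : x = algebraMap B F n * (algebraMap B F (d : B))⁻¹ := by
    have : x * algebraMap B F (d : B) = algebraMap B F n := hnd
    rw [← this]
    field_simp
  rw [hx', map_mul, map_inv₀, hd1, inv_one, mul_one]
  exact hn

/-- Every place whose valuation ring contains `B` is the place of a unique prime of `B`. -/
theorem h27_exists_placeOf_eq (v : Place k F)
    (hv : ∀ b : B, algebraMap B F b ∈ v.toValuationSubring) :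
    ∃ P : HeightOneSpectrum B, h27_placeOf k B P = v :=
  ⟨h27_primeOfPlace v hv, h27_placeOf_primeOfPlace k B v hv⟩

include k in
/-- A `ℤᵐ⁰`-valued valuation of `F`, `≤ 1` on `B`, and `< 1` somewhere on `B \ {0}`, is a power of
the `P`-adic valuation for the prime `P = {b | w b < 1}`. -/
theorem h27_val_eq_pow (w : Valuation F ℤᵐ⁰) (hw : ∀ b : B, w (algebraMap B F b) ≤ 1)
    (hnt : ∃ b : B, b ≠ 0 ∧ w (algebraMap B F b) < 1) :
    ∃ (P : HeightOneSpectrum B) (e : ℕ), 0 < e ∧
      (∀ b : B, b ∈ P.asIdeal ↔ w (algebraMap B F b) < 1) ∧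
      ∀ f : F, f ≠ 0 → w f = WithZero.exp (-(e * -(WithZero.log (P.valuation F f)) : ℤ)) := by
  have hK : ∀ c : k, w (algebraMap k F c) ≤ 1 := fun c => by
    rw [IsScalarTower.algebraMap_apply k B F]; exact hw _
  have hnt' : ∃ f : F, w f ≠ 0 ∧ w f ≠ 1 := by
    obtain ⟨b, hb0, hb⟩ := hnt
    refine ⟨algebraMap B F b, ?_, hb.ne⟩
    rw [Valuation.ne_zero_iff]
    intro h
    exact hb0 ((map_eq_zero_iff _ (IsFractionRing.injective B F)).mp h)
  set v : Place k F := RH24.h20_placeOfVal w hK hnt' with hvdef
  have hv : ∀ b : B, algebraMap B F b ∈ v.toValuationSubring := fun b =>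
    (Valuation.mem_valuationSubring_iff _ _).mpr (hw b)
  obtain ⟨e, he, h⟩ := RH24.h20_val_eq_pow_ord v w rfl
  refine ⟨h27_primeOfPlace v hv, e, he, ?_, ?_⟩
  · intro b
    rw [h27_mem_primeOfPlace]
    by_cases hb : b = 0
    · subst hb
      simp
    have hb' : algebraMap B F b ≠ 0 := by
      intro h0
      exact hb ((map_eq_zero_iff _ (IsFractionRing.injective B F)).mp h0)
    rw [RH24.h20_adicValuation_lt_one_iff v hb', h _ hb', ← WithZero.exp_zero,
      WithZero.exp_lt_exp]
    have he' : (0 : ℤ) < e := by exact_mod_cast he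
    constructor
    · intro h1
      have : (0 : ℤ) < e * v.ord (algebraMap B F b) := mul_pos he' h1
      omega
    · intro h1
      have h2 : (0 : ℤ) < e * v.ord (algebraMap B F b) := by omega
      exact (mul_pos_iff_of_pos_left he').mp h2
  · intro f hf
    rw [h f hf, ← h27_placeOf_ord k B (h27_primeOfPlace v hv) f, h27_placeOf_primeOfPlace k B v hv]

end H27L6

end
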