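import Mathlib

/-!
# T-RR [RR-alg]: shared definitions for "lattice pairs over P¹" (helper1)

`k` a field, `K = RatFunc k = k(y)`, `R0 = k[X]`, `Rinf k` = valuation ring at infinity
(rational functions of degree `≤ 0`), `V` a finite-dimensional `K`-vector space.

* pure linear algebra over `k`: for `k`-subspaces `A B` of `V`:
  `h0 A B = dim (A ⊓ B)`, `h1 A B = dim V/(A ⊔ B)`, `chi = h0 - h1`, `FinPair`, `Comm` (commensurable),
  `relIndex A A' = dim A/(A ⊓ A') - dim A'/(A ⊓ A')`.
* lattices are `Submodule k[X] V` resp. `Submodule (Rinf k) V` with Mathlib's `Submodule.IsLattice`;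
  `sk M = M.restrictScalars k` is the underlying `k`-subspace.
* duals are Mathlib's `LinearMap.BilinForm.dualSubmodule`; the twist by `c : K` is `twist c M`.
-/

set_option autoImplicit false
set_option linter.style.longLine false

open Polynomial

noncomputable section

namespace RRalg

section LinearAlgebra

variable {k : Type*} [Field k] {V : Type*} [AddCommGroup V] [Module k V]

/-- `h⁰(A, B) = dim_k (A ∩ B)`. -/
def h0 (A B : Submodule k V) : ℕ := Module.finrank k ↥(A ⊓ B)

/-- `h¹(A, B) = dim_k V / (A + B)`. -/
def h1 (A B : Submodule k V) : ℕ := Module.finrank k (V ⧸ (A ⊔ B))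

/-- `χ(A, B) = h⁰ - h¹`. -/
def chi (A B : Submodule k V) : ℤ := (h0 A B : ℤ) - (h1 A B : ℤ)

/-- Both `A ∩ B` and `V / (A + B)` are finite-dimensional. -/
def FinPair (A B : Submodule k V) : Prop :=
  FiniteDimensional k ↥(A ⊓ B) ∧ FiniteDimensional k (V ⧸ (A ⊔ B))

/-- `A'` has finite codimension in `A` (no inclusion required: this is about `A / (A ∩ A')`). -/
def FinCodim (A A' : Submodule k V) : Prop :=
  FiniteDimensional k (↥A ⧸ (A ⊓ A').comap A.subtype)

/-- `dim_k A / (A ∩ A')`. -/
def codim (A A' : Submodule k V) : ℕ :=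
  Module.finrank k (↥A ⧸ (A ⊓ A').comap A.subtype)

/-- `A` and `A'` are commensurable. -/
def Comm (A A' : Submodule k V) : Prop := FinCodim A A' ∧ FinCodim A' A

/-- The relative index `[A : A'] = dim A/(A ∩ A') - dim A'/(A ∩ A')`. -/
def relIndex (A A' : Submodule k V) : ℤ := (codim A A' : ℤ) - (codim A' A : ℤ)

end LinearAlgebra

section Rings

variable (k : Type*) [Field k]

/-- The valuation ring at infinity of `k(y)`: rational functions of degree `≤ 0`. -/
def Rinf : Subalgebra k (RatFunc k) where
  carrier := {f | f = 0 ∨ f.intDegree ≤ 0}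
  mul_mem' := by
    rintro a b (rfl | ha) (rfl | hb)
    · left; simp
    · left; simp
    · left; simp
    · by_cases ha0 : a = 0
      · left; simp [ha0]
      by_cases hb0 : b = 0
      · left; simp [hb0]
      right
      rw [RatFunc.intDegree_mul ha0 hb0]
      omega
  add_mem' := by
    rintro a b (rfl | ha) (rfl | hb)
    · left; simp
    · simpa using Or.inr hb
    · simpa using Or.inr ha
    · by_cases hb0 : b = 0
      · subst hb0; simpa using Or.inr ha
      by_cases hab : a + b = 0
      · left; exact hab
      right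
      exact (RatFunc.intDegree_add_le hb0 hab).trans (max_le ha hb)
  algebraMap_mem' := by
    intro r
    right
    show (RatFunc.C r).intDegree ≤ 0
    rw [RatFunc.intDegree_C]

theorem mem_Rinf {f : RatFunc k} : f ∈ Rinf k ↔ f = 0 ∨ f.intDegree ≤ 0 := Iff.rfl

end Rings

section Lattices

variable {k : Type*} [Field k] {V : Type*} [AddCommGroup V] [Module (RatFunc k) V]
  [Module k V] [IsScalarTower k (RatFunc k) V]

/-- The underlying `k`-subspace of a submodule over a `k`-subalgebra-like ring `R` acting on `V`. -/
abbrev sk {R : Type*} [CommRing R] [Algebra k R] [Module R V] [IsScalarTower k R V]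
    (M : Submodule R V) : Submodule k V := M.restrictScalars k

/-- The twist `c • M` of an `R`-submodule by an element `c` of `K = k(y)`. -/
def twist {R : Type*} [CommRing R] [Algebra R (RatFunc k)] [Module R V]
    [IsScalarTower R (RatFunc k) V] (c : RatFunc k) (M : Submodule R V) : Submodule R V :=
  M.map (DistribSMul.toLinearMap R V c)

theorem mem_twist {R : Type*} [CommRing R] [Algebra R (RatFunc k)] [Module R V]
    [IsScalarTower R (RatFunc k) V] (c : RatFunc k) (M : Submodule R V) (v : V) :
    v ∈ twist c M ↔ ∃ m ∈ M, c • m = v := by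
  rw [twist, Submodule.mem_map]
  rfl

end Lattices

end RRalg
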