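import Mathlib
import Fermat.Agent.RR.Defs

/-!
# T-RR [RR-alg] L3 (helper11): trace duals of lattices over a PID, abstract part

`R` a PID with fraction field `K`, `V` a finite-dimensional `K`-vector space, `β` a nondegenerate
bilinear form on `V`.  For lattices `M ≤ N` there is a `K`-linear automorphism `T` of `V` with
`T N = M^*` and `T M = N^*` (Smith normal form).  Consequently, for a field `k` acting compatibly,
`relIndex (M^*) (N^*) = relIndex N M` for arbitrary lattices `M`, `N`.
-/

set_option autoImplicit false
set_option linter.style.longLine false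
set_option linter.unusedSectionVars false
set_option linter.unusedVariables false

open Polynomial Submodule Module

noncomputable section

namespace H11RR

/-! ### pure linear algebra over `k` -/
section LinearAlgebra

variable {k : Type*} [Field k] {V : Type*} [AddCommGroup V] [Module k V]

/-- `codim` is invariant under linear automorphisms. -/
theorem h11rr_codim_map (T : V ≃ₗ[k] V) (A A' : Submodule k V) :
    RRalg.codim (A.map (T : V →ₗ[k] V)) (A'.map (T : V →ₗ[k] V)) = RRalg.codim A A' := by
  unfold RRalg.codim
  symm
  refine LinearEquiv.finrank_eq ?_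
  refine Submodule.Quotient.equiv _ _ (T.submoduleMap A) ?_
  ext ⟨y, hy⟩
  simp only [Submodule.mem_map, Submodule.mem_comap, Submodule.subtype_apply, Submodule.mem_inf,
    Subtype.exists]
  constructor
  · rintro ⟨x, hx, ⟨hxA, hxA'⟩, hxy⟩
    have : T x = y := by
      have := congrArg Subtype.val hxy
      simpa using this
    exact ⟨hy, ⟨x, hxA', by simpa using this⟩⟩
  · rintro ⟨_, ⟨x, hxA', hx⟩⟩
    have hx' : T x = y := by simpa using hx
    have hxA : x ∈ A := by
      obtain ⟨z, hz, hzy⟩ := hy
      have : T z = T x := by rw [hx']; simpa using hzy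
      rw [← T.injective this]; exact hz
    refine ⟨x, hxA, ⟨hxA, hxA'⟩, ?_⟩
    apply Subtype.ext
    simpa using hx'

/-- `codim A A'` only depends on `A` and `A ⊓ A'`. -/
theorem h11rr_codim_congr {A A' A'' : Submodule k V} (h : A ⊓ A' = A ⊓ A'') :
    RRalg.codim A A' = RRalg.codim A A'' := by
  unfold RRalg.codim
  rw [h]

/-- Second isomorphism theorem: `dim (A + A')/A = dim A'/(A ∩ A')`. -/
theorem h11rr_codim_sup (A A' : Submodule k V) :
    RRalg.codim (A' ⊔ A) A = RRalg.codim A' A := by
  unfold RRalg.codim
  symm
  have h : (A' ⊔ A) ⊓ A = A := inf_eq_right.mpr le_sup_right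
  rw [h]
  exact LinearEquiv.finrank_eq (LinearMap.quotientInfEquivSupQuotient A' A)

end LinearAlgebra

/-! ### lattices over a PID -/
section PID

variable {R K V : Type*} [CommRing R] [IsDomain R] [IsPrincipalIdealRing R] [Field K]
  [Algebra R K] [IsFractionRing R K] [AddCommGroup V] [Module K V] [Module R V]
  [IsScalarTower R K V] [FiniteDimensional K V]

/-- Smith normal form for a pair of lattices `M ≤ N`. -/
theorem h11rr_exists_snf (M N : Submodule R V) [IsLattice K M] [IsLattice K N] (h : M ≤ N) :
    ∃ (n : ℕ) (b : Basis (Fin n) K V) (a : Fin n → R), (∀ i, a i ≠ 0) ∧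
      N = span R (Set.range b) ∧ M = span R (Set.range fun i => a i • b i) := by
  classical
  have : Module.IsTorsionFree R K := inferInstance
  let bN := Module.Free.chooseBasis R N
  let M' : Submodule R N := M.comap N.subtype
  have e : M' ≃ₗ[R] M := Submodule.comapSubtypeEquivOfLe h
  have hrank : Module.finrank R M' = Module.finrank R N := by
    rw [LinearEquiv.finrank_eq e]
    unfold Module.finrank
    rw [IsLattice.rank' K M, IsLattice.rank' K N]
  obtain ⟨b', a, ab', hab⟩ := Submodule.exists_smith_normal_form_of_rank_eq bN hrank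
  let ι := Module.Free.ChooseBasisIndex R N
  let eι : ι ≃ Fin (Fintype.card ι) := Fintype.equivFin ι
  refine ⟨Fintype.card ι, (b'.extendOfIsLattice K).reindex eι, fun i => a (eι.symm i), ?_, ?_, ?_⟩
  · intro i hi
    change a (eι.symm i) = 0 at hi
    have h1 := hab (eι.symm i)
    rw [hi, zero_smul] at h1
    have h2 : ab' (eι.symm i) = 0 := Subtype.ext (by simpa using h1)
    exact ab'.ne_zero _ h2
  · have hr : Set.range ((b'.extendOfIsLattice K).reindex eι) =
        N.subtype '' Set.range b' := by
      ext x
      simp only [Basis.coe_reindex, Set.mem_range, Function.comp_apply,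
        Basis.extendOfIsLattice_apply, Set.mem_image, exists_exists_eq_and, Submodule.subtype_apply]
      constructor
      · rintro ⟨i, rfl⟩; exact ⟨_, rfl⟩
      · rintro ⟨i, rfl⟩; exact ⟨eι i, by simp⟩
    rw [hr, Submodule.span_image, b'.span_eq, Submodule.map_top, Submodule.range_subtype]
  · have hr : (Set.range fun i => a (eι.symm i) • ((b'.extendOfIsLattice K).reindex eι) i) =
        N.subtype '' (M'.subtype '' Set.range ab') := by
      ext x
      simp only [Basis.coe_reindex, Set.mem_range, Function.comp_apply,
        Basis.extendOfIsLattice_apply, Set.mem_image, exists_exists_eq_and, Submodule.subtype_apply]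
      constructor
      · rintro ⟨i, rfl⟩
        refine ⟨eι.symm i, ?_⟩
        rw [hab]; simp
      · rintro ⟨i, rfl⟩
        refine ⟨eι i, ?_⟩
        rw [hab]; simp
    rw [hr, Submodule.span_image, Submodule.span_image, ab'.span_eq, Submodule.map_top,
      Submodule.range_subtype]
    ext x
    simp only [Submodule.mem_map, Submodule.mem_comap, Submodule.subtype_apply, Subtype.exists,
      exists_and_left, exists_prop, M']
    constructor
    · intro hx; exact ⟨x, hx, h hx, rfl⟩
    · rintro ⟨y, hy, _, rfl⟩; exact hy

/-- Every lattice over a PID is spanned by a `K`-basis of `V`. -/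
theorem h11rr_exists_basis (N : Submodule R V) [IsLattice K N] :
    ∃ (n : ℕ) (b : Basis (Fin n) K V), N = span R (Set.range b) := by
  obtain ⟨n, b, a, -, hN, -⟩ := h11rr_exists_snf (K := K) N N le_rfl
  exact ⟨n, b, hN⟩

/-- The span of a `K`-basis is a lattice. -/
theorem h11rr_isLattice_span {ι : Type*} [Finite ι] (b : Basis ι K V) :
    IsLattice K (span R (Set.range b)) where
  fg := Submodule.fg_span (Set.finite_range b)
  span_eq_top := by
    rw [Submodule.span_span_of_tower]
    exact b.span_eq

variable (β : LinearMap.BilinForm K V) (hβ : β.Nondegenerate)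

include hβ in
/-- The dual of a lattice is a lattice. -/
theorem h11rr_isLattice_dual (N : Submodule R V) [IsLattice K N] :
    IsLattice K (β.dualSubmodule N) := by
  classical
  obtain ⟨n, b, hN⟩ := h11rr_exists_basis (K := K) N
  rw [hN, LinearMap.BilinForm.dualSubmodule_span_of_basis β hβ b]
  exact h11rr_isLattice_span _

include hβ in
/-- Double dual of a lattice (symmetric form). -/
theorem h11rr_dual_dual (hs : β.IsSymm) (N : Submodule R V) [IsLattice K N] :
    β.dualSubmodule (β.dualSubmodule N) = N := by
  classical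
  obtain ⟨n, b, hN⟩ := h11rr_exists_basis (K := K) N
  rw [hN, LinearMap.BilinForm.dualSubmodule_dualSubmodule_of_basis β hβ hs b]

include hβ in
/-- Key consequence of Smith normal form: for lattices `M ≤ N` there is a `K`-linear automorphism
`T` of `V` with `T N = M^*` and `T M = N^*`. -/
theorem h11rr_exists_equiv (M N : Submodule R V) [IsLattice K M] [IsLattice K N] (h : M ≤ N) :
    ∃ T : V ≃ₗ[K] V, (∀ x, x ∈ N ↔ T x ∈ β.dualSubmodule M) ∧
      (∀ x, x ∈ M ↔ T x ∈ β.dualSubmodule N) := by
  classical
  obtain ⟨n, b, a, ha, hN, hM⟩ := h11rr_exists_snf (K := K) M N h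
  have hc : ∀ i, algebraMap R K (a i) ≠ 0 := fun i =>
    (map_ne_zero_iff _ (IsFractionRing.injective R K)).mpr (ha i)
  let u : Fin n → Kˣ := fun i => Units.mk0 _ (hc i)
  let b₂ : Basis (Fin n) K V := b.unitsSMul u
  have hb₂ : ∀ i, b₂ i = a i • b i := by
    intro i
    rw [Basis.unitsSMul_apply]
    change (algebraMap R K (a i)) • b i = a i • b i
    rw [algebraMap_smul]
  have hM₂ : M = span R (Set.range b₂) := by
    rw [hM]; congr 1; ext x; simp only [Set.mem_range, hb₂]
  let D := β.dualBasis hβ b
  let D₂ := β.dualBasis hβ b₂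
  have hND : β.dualSubmodule N = span R (Set.range D) := by
    rw [hN]; exact LinearMap.BilinForm.dualSubmodule_span_of_basis β hβ b
  have hMD : β.dualSubmodule M = span R (Set.range D₂) := by
    rw [hM₂]; exact LinearMap.BilinForm.dualSubmodule_span_of_basis β hβ b₂
  let T : V ≃ₗ[K] V := b.repr.trans D₂.repr.symm
  have hT : ∀ x i, D₂.repr (T x) i = b.repr x i := by
    intro x i
    simp [T]
  have hD : ∀ y i, D₂.repr y i = algebraMap R K (a i) * D.repr y i := by
    intro y i
    rw [LinearMap.BilinForm.dualBasis_repr_apply, LinearMap.BilinForm.dualBasis_repr_apply, hb₂,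
      ← algebraMap_smul K (a i) (b i), map_smul, smul_eq_mul]
  refine ⟨T, fun x => ?_, fun x => ?_⟩
  · rw [hN, hMD, Basis.mem_span_iff_repr_mem, Basis.mem_span_iff_repr_mem]
    simp only [hT]
  · rw [hM₂, hND, Basis.mem_span_iff_repr_mem, Basis.mem_span_iff_repr_mem]
    refine forall_congr' fun i => ?_
    have h1 : b₂.repr x i = (algebraMap R K (a i))⁻¹ * b.repr x i := by
      rw [Basis.repr_unitsSMul]
      simp only [u, Units.smul_def, Units.val_inv_eq_inv_val, Units.val_mk0, smul_eq_mul]
    have h2 : D.repr (T x) i = (algebraMap R K (a i))⁻¹ * b.repr x i := by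
      rw [← hT x i, hD, ← mul_assoc, inv_mul_cancel₀ (hc i), one_mul]
    rw [h1, h2]

/-- The dual of a sum is the intersection of the duals. -/
theorem h11rr_dual_sup (M N : Submodule R V) :
    β.dualSubmodule (M ⊔ N) = β.dualSubmodule M ⊓ β.dualSubmodule N := by
  ext x
  simp only [LinearMap.BilinForm.mem_dualSubmodule, Submodule.mem_inf]
  constructor
  · intro hx
    exact ⟨fun y hy => hx y (Submodule.mem_sup_left hy), fun y hy => hx y (Submodule.mem_sup_right hy)⟩
  · rintro ⟨h1, h2⟩ y hy
    obtain ⟨m, hm, n, hn, rfl⟩ := Submodule.mem_sup.mp hy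
    rw [map_add]
    exact add_mem (h1 m hm) (h2 n hn)

/-- The dual is antitone. -/
theorem h11rr_dual_anti {M N : Submodule R V} (h : M ≤ N) :
    β.dualSubmodule N ≤ β.dualSubmodule M :=
  fun x hx y hy => hx y (h hy)

end PID

/-! ### the index formula -/
section Index

variable {k R K V : Type*} [Field k] [CommRing R] [IsDomain R] [IsPrincipalIdealRing R] [Field K]
  [Algebra R K] [IsFractionRing R K] [AddCommGroup V] [Module K V] [Module R V]
  [IsScalarTower R K V] [FiniteDimensional K V]
  [Algebra k R] [Algebra k K] [Module k V] [IsScalarTower k R V] [IsScalarTower k K V]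
  (β : LinearMap.BilinForm K V) (hβ : β.Nondegenerate)

include hβ in
/-- `dim M^*/(M^* ∩ N^*) = dim N/(N ∩ M)` for arbitrary lattices `M`, `N` over a PID. -/
theorem h11rr_codim_dual (M N : Submodule R V) [IsLattice K M] [IsLattice K N] :
    RRalg.codim ((β.dualSubmodule M).restrictScalars k) ((β.dualSubmodule N).restrictScalars k)
      = RRalg.codim (N.restrictScalars k) (M.restrictScalars k) := by
  obtain ⟨T, hT1, hT2⟩ := h11rr_exists_equiv β hβ M (M ⊔ N) le_sup_left
  have e1 : ((M ⊔ N).restrictScalars k).map ((T.restrictScalars k : V ≃ₗ[k] V) : V →ₗ[k] V)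
      = (β.dualSubmodule M).restrictScalars k := by
    ext y
    simp only [Submodule.mem_map, Submodule.restrictScalars_mem]
    constructor
    · rintro ⟨x, hx, rfl⟩
      exact (hT1 x).mp hx
    · intro hy
      refine ⟨T.symm y, (hT1 _).mpr (by simpa using hy), by simp⟩
  have e2 : (M.restrictScalars k).map ((T.restrictScalars k : V ≃ₗ[k] V) : V →ₗ[k] V)
      = (β.dualSubmodule (M ⊔ N)).restrictScalars k := by
    ext y
    simp only [Submodule.mem_map, Submodule.restrictScalars_mem]
    constructor
    · rintro ⟨x, hx, rfl⟩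
      exact (hT2 x).mp hx
    · intro hy
      refine ⟨T.symm y, (hT2 _).mpr (by simpa using hy), by simp⟩
  have e3 : (β.dualSubmodule M).restrictScalars k ⊓ (β.dualSubmodule N).restrictScalars k
      = (β.dualSubmodule M).restrictScalars k ⊓ (β.dualSubmodule (M ⊔ N)).restrictScalars k := by
    rw [h11rr_dual_sup]
    ext x
    simp only [Submodule.mem_inf, Submodule.restrictScalars_mem]
    tauto
  have e4 : (M ⊔ N).restrictScalars k = N.restrictScalars k ⊔ M.restrictScalars k := by
    rw [sup_comm, Submodule.restrictScalars_sup]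
  rw [h11rr_codim_congr e3, ← e1, ← e2, h11rr_codim_map, e4, h11rr_codim_sup]

include hβ in
/-- **L3**: `relIndex (M^*) (N^*) = relIndex N M` for arbitrary lattices `M`, `N` over a PID. -/
theorem h11rr_relIndex_dual (M N : Submodule R V) [IsLattice K M] [IsLattice K N] :
    RRalg.relIndex ((β.dualSubmodule M).restrictScalars k)
        ((β.dualSubmodule N).restrictScalars k)
      = RRalg.relIndex (N.restrictScalars k) (M.restrictScalars k) := by
  unfold RRalg.relIndex
  rw [h11rr_codim_dual β hβ M N, h11rr_codim_dual β hβ N M]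

end Index

end H11RR
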