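import Mathlib
import Fermat.Agent.RR.Defs

/-!
# T-RR [RR-alg] (helper1): the ring at infinity `Rinf k ⊂ k(y)`

* `h1r_decomp` : every rational function is a polynomial plus an element of `Rinf k`
  (even of negative degree).
* `h1r_poly_mem_twist` : a polynomial lies in `y^m Rinf` iff its degree is `≤ m`.
* instances: `IsFractionRing (Rinf k) (RatFunc k)`, `IsPrincipalIdealRing (Rinf k)`.
-/

set_option autoImplicit false
set_option linter.style.longLine false
set_option linter.unusedSectionVars false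
set_option linter.style.haveILetI false
set_option linter.unusedVariables false

open Polynomial

noncomputable section

namespace RRalg

variable {k : Type*} [Field k]

theorem h1r_mem_Rinf_of_deg {f : RatFunc k} (h : f.intDegree ≤ 0) : f ∈ Rinf k := Or.inr h

theorem h1r_zero_mem_Rinf : (0 : RatFunc k) ∈ Rinf k := Or.inl rfl

/-- `Rinf` is a valuation ring: `f ∈ Rinf` or `f⁻¹ ∈ Rinf`. -/
theorem h1r_mem_or_inv_mem (f : RatFunc k) : f ∈ Rinf k ∨ f⁻¹ ∈ Rinf k := by
  rcases le_total f.intDegree 0 with h | h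
  · exact Or.inl (Or.inr h)
  · right; right
    rw [RatFunc.intDegree_inv]
    omega

/-- Division with remainder: `f = s + g` with `s` a polynomial and `g = 0` or `deg g < 0`. -/
theorem h1r_decomp (f : RatFunc k) :
    ∃ (s : k[X]) (g : RatFunc k), (g = 0 ∨ g.intDegree < 0) ∧ f = algebraMap k[X] (RatFunc k) s + g := by
  classical
  set p := f.num with hp
  set q := f.denom with hq
  have hq0 : q ≠ 0 := f.denom_ne_zero
  have hq0' : algebraMap k[X] (RatFunc k) q ≠ 0 := by
    intro h
    exact hq0 ((map_eq_zero_iff _ (IsFractionRing.injective k[X] (RatFunc k))).mp h)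
  have hf : f = algebraMap k[X] (RatFunc k) p / algebraMap k[X] (RatFunc k) q :=
    (RatFunc.num_div_denom f).symm
  refine ⟨p / q, algebraMap k[X] (RatFunc k) (p % q) / algebraMap k[X] (RatFunc k) q, ?_, ?_⟩
  · by_cases hr : p % q = 0
    · left
      rw [hr, map_zero, zero_div]
    · right
      have hr' : algebraMap k[X] (RatFunc k) (p % q) ≠ 0 := by
        intro h
        exact hr ((map_eq_zero_iff _ (IsFractionRing.injective k[X] (RatFunc k))).mp h)
      rw [RatFunc.intDegree_div hr' hq0', RatFunc.intDegree_polynomial,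
        RatFunc.intDegree_polynomial]
      have hlt : (p % q).degree < q.degree := EuclideanDomain.mod_lt p hq0
      have := Polynomial.natDegree_lt_natDegree hr hlt
      omega
  · have hdm : q * (p / q) + p % q = p := EuclideanDomain.div_add_mod p q
    have h3 : algebraMap k[X] (RatFunc k) p = algebraMap k[X] (RatFunc k) q *
        algebraMap k[X] (RatFunc k) (p / q) + algebraMap k[X] (RatFunc k) (p % q) := by
      rw [← map_mul, ← map_add, hdm]
    rw [hf, h3]
    field_simp

/-- `K = k[y] + Rinf`. -/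
theorem h1r_decomp' (f : RatFunc k) :
    ∃ (s : k[X]) (g : RatFunc k), g ∈ Rinf k ∧ f = algebraMap k[X] (RatFunc k) s + g := by
  obtain ⟨s, g, hg, hf⟩ := h1r_decomp f
  refine ⟨s, g, ?_, hf⟩
  rcases hg with hg | hg
  · exact Or.inl hg
  · exact Or.inr hg.le

theorem h1r_intDegree_X_pow (m : ℕ) : ((RatFunc.X : RatFunc k) ^ m).intDegree = m := by
  have hX : (RatFunc.X : RatFunc k) ≠ 0 := RatFunc.X_ne_zero
  induction m with
  | zero => simp
  | succ n ih =>
    rw [pow_succ, RatFunc.intDegree_mul (pow_ne_zero _ hX) hX, RatFunc.intDegree_X, ih]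
    push_cast
    ring

theorem h1r_intDegree_X_zpow (m : ℤ) : ((RatFunc.X : RatFunc k) ^ m).intDegree = m := by
  obtain ⟨n, rfl | rfl⟩ := Int.eq_nat_or_neg m
  · rw [zpow_natCast, h1r_intDegree_X_pow]
  · rw [zpow_neg, zpow_natCast, RatFunc.intDegree_inv, h1r_intDegree_X_pow]

theorem h1r_X_zpow_ne_zero (m : ℤ) : ((RatFunc.X : RatFunc k) ^ m) ≠ 0 :=
  zpow_ne_zero _ RatFunc.X_ne_zero

theorem h1r_algebraMap_ne_zero {s : k[X]} (hs : s ≠ 0) : algebraMap k[X] (RatFunc k) s ≠ 0 := by
  intro h
  exact hs ((map_eq_zero_iff _ (IsFractionRing.injective k[X] (RatFunc k))).mp h)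

/-- membership in `y^m Rinf` in terms of the degree. -/
theorem h1r_mem_twist_iff (f : RatFunc k) (m : ℤ) :
    ((RatFunc.X : RatFunc k) ^ m)⁻¹ * f ∈ Rinf k ↔ f = 0 ∨ f.intDegree ≤ m := by
  by_cases hf : f = 0
  · simp [hf]
  have h2 : ((RatFunc.X : RatFunc k) ^ m)⁻¹ ≠ 0 := inv_ne_zero (h1r_X_zpow_ne_zero m)
  rw [mem_Rinf, RatFunc.intDegree_mul h2 hf, RatFunc.intDegree_inv, h1r_intDegree_X_zpow]
  constructor
  · rintro (h | h)
    · exact absurd h (mul_ne_zero h2 hf)
    · right; omega
  · rintro (h | h)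
    · exact absurd h hf
    · right; omega

/-- A polynomial lies in `y^m Rinf` iff its degree is `≤ m` (for `m ≥ 0`). -/
theorem h1r_poly_mem_twist_iff (s : k[X]) (m : ℕ) :
    ((RatFunc.X : RatFunc k) ^ (m : ℤ))⁻¹ * algebraMap k[X] (RatFunc k) s ∈ Rinf k
      ↔ s ∈ Polynomial.degreeLT k (m + 1) := by
  rw [h1r_mem_twist_iff, Polynomial.mem_degreeLT, RatFunc.intDegree_polynomial]
  by_cases hs : s = 0
  · simp [hs]
  constructor
  · rintro (h | h)
    · exact absurd h (h1r_algebraMap_ne_zero hs)
    · rw [Polynomial.degree_eq_natDegree hs]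
      have : s.natDegree ≤ m := by exact_mod_cast h
      exact_mod_cast Nat.lt_succ_of_le this
  · intro h
    right
    rw [Polynomial.degree_eq_natDegree hs] at h
    have : s.natDegree < m + 1 := by exact_mod_cast h
    exact_mod_cast Nat.lt_succ_iff.mp this

/-- A rational function which is a polynomial and lies in `Rinf` is a constant. -/
theorem h1r_poly_mem_Rinf_iff (s : k[X]) :
    algebraMap k[X] (RatFunc k) s ∈ Rinf k ↔ ∃ c : k, s = Polynomial.C c := by
  have := h1r_poly_mem_twist_iff s 0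
  simp only [Nat.cast_zero, zpow_zero, inv_one, one_mul, zero_add] at this
  rw [this, Polynomial.mem_degreeLT]
  constructor
  · intro h
    refine ⟨s.coeff 0, Polynomial.eq_C_of_degree_le_zero ?_⟩
    by_cases hs : s = 0
    · simp [hs]
    rw [Polynomial.degree_eq_natDegree hs] at h ⊢
    have : s.natDegree < 1 := by exact_mod_cast h
    exact_mod_cast Nat.lt_succ_iff.mp this
  · rintro ⟨c, rfl⟩
    exact lt_of_le_of_lt Polynomial.degree_C_le (by norm_num)

/-! ### instances -/

instance h1r_faithful : FaithfulSMul (Rinf k) (RatFunc k) :=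
  (faithfulSMul_iff_algebraMap_injective _ _).mpr Subtype.val_injective

instance h1r_isFractionRing : IsFractionRing (Rinf k) (RatFunc k) := by
  refine IsFractionRing.of_field (R := ↥(Rinf k)) (K := RatFunc k) (fun z => ?_)
  rcases h1r_mem_or_inv_mem z with h | h
  · exact ⟨⟨z, h⟩, 1, by simp⟩
  · by_cases hz : z = 0
    · exact ⟨0, 1, by simp [hz]⟩
    · refine ⟨1, ⟨z⁻¹, h⟩, ?_⟩
      show z = algebraMap (Rinf k) (RatFunc k) 1 / z⁻¹
      rw [map_one, one_div, inv_inv]

/-- Divisibility in `Rinf` is comparison of degrees. -/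
theorem h1r_dvd_of_deg_le {f g : Rinf k} (hf : (f : RatFunc k) ≠ 0)
    (h : (g : RatFunc k) = 0 ∨ (g : RatFunc k).intDegree ≤ (f : RatFunc k).intDegree) : f ∣ g := by
  by_cases hg : (g : RatFunc k) = 0
  · have : g = 0 := Subtype.ext hg
    rw [this]; exact dvd_zero f
  have hdeg : (g : RatFunc k).intDegree ≤ (f : RatFunc k).intDegree := by
    rcases h with h | h
    · exact absurd h hg
    · exact h
  refine ⟨⟨(g : RatFunc k) / f, Or.inr ?_⟩, ?_⟩
  · rw [RatFunc.intDegree_div hg hf]; omega
  · apply Subtype.ext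
    show (g : RatFunc k) = f * ((g : RatFunc k) / f)
    field_simp

instance h1r_isPrincipalIdealRing : IsPrincipalIdealRing (Rinf k) := by
  classical
  refine ⟨fun I => ?_⟩
  by_cases hI : I = ⊥
  · rw [hI]; exact ⟨⟨0, by simp⟩⟩
  -- the set of `-deg` of nonzero elements of `I`
  have hex : ∃ n : ℕ, ∃ f ∈ I, (f : RatFunc k) ≠ 0 ∧ (f : RatFunc k).intDegree = -(n : ℤ) := by
    obtain ⟨f, hfI, hf0⟩ := Submodule.exists_mem_ne_zero_of_ne_bot hI
    have hf0' : (f : RatFunc k) ≠ 0 := fun h => hf0 (Subtype.ext h)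
    have hdeg : (f : RatFunc k).intDegree ≤ 0 := by
      rcases f.2 with h | h
      · exact absurd h hf0'
      · exact h
    refine ⟨((f : RatFunc k).intDegree).natAbs, f, hfI, hf0', ?_⟩
    omega
  let n := Nat.find hex
  obtain ⟨f, hfI, hf0, hfdeg⟩ := Nat.find_spec hex
  refine ⟨⟨f, ?_⟩⟩
  apply le_antisymm
  · intro g hg
    rw [Ideal.submodule_span_eq, Ideal.mem_span_singleton]
    apply h1r_dvd_of_deg_le hf0
    by_cases hg0 : (g : RatFunc k) = 0
    · exact Or.inl hg0
    right
    have hgdeg : (g : RatFunc k).intDegree ≤ 0 := by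
      rcases g.2 with h | h
      · exact absurd h hg0
      · exact h
    by_contra hlt
    push Not at hlt
    have hmin := Nat.find_min hex (m := ((g : RatFunc k).intDegree).natAbs) (by
      show ((g : RatFunc k).intDegree).natAbs < Nat.find hex
      have : ((Nat.find hex : ℕ) : ℤ) = -(f : RatFunc k).intDegree := by rw [hfdeg]; ring
      omega)
    exact hmin ⟨g, hg, hg0, by omega⟩
  · rw [Ideal.submodule_span_eq, Ideal.span_singleton_le_iff_mem]
    exact hfI

end RRalg
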