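import Mathlib
import Fermat.Agent.RR.Defs
import Fermat.Agent.RR.Rinf
import Fermat.Agent.RR.L3Abstract

/-!
# T-RR [RR-alg] L4 (helper11): the residue functional and the injectivity
`M^* ∩ y⁻² Minf^* ↪ (V / (M + Minf))^∨`

`lam` is any nonzero `k`-linear functional on `k(y)` vanishing on `k[y] + y⁻² Rinf`
(it exists because `y⁻¹` is not in that sum).  Then `x ↦ (v ↦ lam (β x v))` is injective on `V`
and maps `M^* ∩ y⁻² Minf^*` into the annihilator of `M + Minf`.
-/

set_option autoImplicit false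
set_option linter.style.longLine false
set_option linter.unusedSectionVars false
set_option linter.unusedVariables false
set_option linter.style.haveILetI false

open Polynomial Submodule Module

noncomputable section

namespace H11RR

section Residue

variable (k : Type*) [Field k]

/-- The `k`-subspace `k[y]` of `k(y)`. -/
def h11rr_polySub : Submodule k (RatFunc k) :=
  LinearMap.range ((Algebra.linearMap k[X] (RatFunc k)).restrictScalars k)

/-- The `k`-subspace `y⁻² Rinf` of `k(y)`. -/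
def h11rr_infSub : Submodule k (RatFunc k) :=
  (Subalgebra.toSubmodule (RRalg.Rinf k)).map
    (LinearMap.mulLeft k ((RatFunc.X : RatFunc k) ^ (-2 : ℤ)))

variable {k}

theorem h11rr_mem_polySub {f : RatFunc k} :
    f ∈ h11rr_polySub k ↔ ∃ p : k[X], algebraMap k[X] (RatFunc k) p = f := by
  unfold h11rr_polySub
  rw [LinearMap.mem_range]
  rfl

theorem h11rr_mem_infSub {f : RatFunc k} :
    f ∈ h11rr_infSub k ↔ f = 0 ∨ f.intDegree ≤ -2 := by
  unfold h11rr_infSub
  rw [Submodule.mem_map, ← RRalg.h1r_mem_twist_iff]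
  have hX : ((RatFunc.X : RatFunc k) ^ (-2 : ℤ)) ≠ 0 := RRalg.h1r_X_zpow_ne_zero _
  constructor
  · rintro ⟨r, hr, rfl⟩
    rw [LinearMap.mulLeft_apply, ← mul_assoc, inv_mul_cancel₀ hX, one_mul]
    exact hr
  · intro h
    refine ⟨_, h, ?_⟩
    rw [LinearMap.mulLeft_apply, ← mul_assoc, mul_inv_cancel₀ hX, one_mul]

theorem h11rr_mul_mem_infSub {r : RatFunc k} (hr : r ∈ RRalg.Rinf k) :
    (RatFunc.X : RatFunc k) ^ (-2 : ℤ) * r ∈ h11rr_infSub k := by
  unfold h11rr_infSub
  exact Submodule.mem_map.mpr ⟨r, hr, rfl⟩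

/-- `y⁻¹ ∉ k[y] + y⁻² Rinf`. -/
theorem h11rr_inv_X_notMem :
    (RatFunc.X : RatFunc k)⁻¹ ∉ h11rr_polySub k ⊔ h11rr_infSub k := by
  intro h
  obtain ⟨f, hf, g, hg, hfg⟩ := Submodule.mem_sup.mp h
  obtain ⟨p, rfl⟩ := h11rr_mem_polySub.mp hf
  rw [h11rr_mem_infSub] at hg
  have hX : (RatFunc.X : RatFunc k) ≠ 0 := RatFunc.X_ne_zero
  have hXi : ((RatFunc.X : RatFunc k)⁻¹).intDegree = -1 := by
    rw [RatFunc.intDegree_inv, RatFunc.intDegree_X]
  have hXi0 : (RatFunc.X : RatFunc k)⁻¹ ≠ 0 := inv_ne_zero hX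
  by_cases hp : p = 0
  · subst hp
    rw [map_zero, zero_add] at hfg
    subst hfg
    rcases hg with hg | hg
    · exact hXi0 hg
    · rw [hXi] at hg; omega
  · have hp' : algebraMap k[X] (RatFunc k) p ≠ 0 := RRalg.h1r_algebraMap_ne_zero hp
    have hpd : 0 ≤ (algebraMap k[X] (RatFunc k) p).intDegree := by
      rw [RatFunc.intDegree_polynomial]; exact Int.natCast_nonneg _
    have hpeq : algebraMap k[X] (RatFunc k) p = (RatFunc.X : RatFunc k)⁻¹ + (-g) := by
      rw [← hfg]; ring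
    rcases hg with hg | hg
    · subst hg
      rw [neg_zero, add_zero] at hpeq
      rw [hpeq, hXi] at hpd
      omega
    · have hg0 : -g ≠ 0 := by
        intro h0
        rw [neg_eq_zero] at h0
        subst h0
        rw [neg_zero, add_zero] at hpeq
        rw [hpeq, hXi] at hpd
        omega
      have hle := RatFunc.intDegree_add_le hg0 (hpeq ▸ hp')
      rw [← hpeq, hXi, RatFunc.intDegree_neg] at hle
      have : max (-1 : ℤ) g.intDegree ≤ -1 := max_le le_rfl (by omega)
      omega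

variable (k)

/-- **The residue functional**: a nonzero `k`-linear functional on `k(y)` vanishing on `k[y]` and
on `y⁻² Rinf`. -/
theorem h11rr_exists_residue :
    ∃ lam : RatFunc k →ₗ[k] k, lam ≠ 0 ∧
      (∀ p : k[X], lam (algebraMap k[X] (RatFunc k) p) = 0) ∧
      (∀ r ∈ RRalg.Rinf k, lam ((RatFunc.X : RatFunc k) ^ (-2 : ℤ) * r) = 0) := by
  have hlt : h11rr_polySub k ⊔ h11rr_infSub k < ⊤ := by
    rw [lt_top_iff_ne_top]
    intro h
    exact h11rr_inv_X_notMem (h ▸ Submodule.mem_top)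
  obtain ⟨lam, hlam, hker⟩ := Submodule.exists_dual_map_eq_bot_of_lt_top hlt inferInstance
  refine ⟨lam, hlam, fun p => ?_, fun r hr => ?_⟩
  · have : lam (algebraMap k[X] (RatFunc k) p) ∈ (h11rr_polySub k ⊔ h11rr_infSub k).map lam :=
      Submodule.mem_map_of_mem (Submodule.mem_sup_left (h11rr_mem_polySub.mpr ⟨p, rfl⟩))
    rw [hker] at this
    exact (Submodule.mem_bot k).mp this
  · have : lam ((RatFunc.X : RatFunc k) ^ (-2 : ℤ) * r) ∈
        (h11rr_polySub k ⊔ h11rr_infSub k).map lam :=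
      Submodule.mem_map_of_mem (Submodule.mem_sup_right (h11rr_mul_mem_infSub hr))
    rw [hker] at this
    exact (Submodule.mem_bot k).mp this

end Residue

section Pairing

variable {k : Type*} [Field k] {V : Type*} [AddCommGroup V] [Module (RatFunc k) V]
  [Module k V] [IsScalarTower k (RatFunc k) V]

/-- `x ↦ (v ↦ lam (β x v))`, a `k`-linear map `V → V^∨`. -/
def h11rr_Psi (lam : RatFunc k →ₗ[k] k) (β : LinearMap.BilinForm (RatFunc k) V) :
    V →ₗ[k] Module.Dual k V where
  toFun x := lam ∘ₗ ((β x).restrictScalars k)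
  map_add' x y := by
    ext v
    simp
  map_smul' c x := by
    ext v
    simp only [LinearMap.coe_comp, LinearMap.coe_restrictScalars, Function.comp_apply,
      RingHom.id_apply, LinearMap.smul_apply, smul_eq_mul]
    rw [← algebraMap_smul (RatFunc k) c x, map_smul, LinearMap.smul_apply, smul_eq_mul,
      ← Algebra.smul_def, map_smul, smul_eq_mul]

@[simp]
theorem h11rr_Psi_apply (lam : RatFunc k →ₗ[k] k) (β : LinearMap.BilinForm (RatFunc k) V)
    (x v : V) : h11rr_Psi lam β x v = lam (β x v) := rfl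

/-- `Psi` is injective if `lam ≠ 0` and `β` is nondegenerate. -/
theorem h11rr_Psi_injective (lam : RatFunc k →ₗ[k] k) (hlam : lam ≠ 0)
    (β : LinearMap.BilinForm (RatFunc k) V) (hβ : β.Nondegenerate) :
    Function.Injective (h11rr_Psi lam β) := by
  rw [injective_iff_map_eq_zero]
  intro x hx
  apply hβ.1 x
  intro v
  by_contra hne
  apply hlam
  ext g
  have h1 : h11rr_Psi lam β x ((g / β x v) • v) = 0 := by rw [hx]; rfl
  rw [h11rr_Psi_apply, map_smul, smul_eq_mul, div_mul_cancel₀ _ hne] at h1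
  simpa using h1

variable [Module k[X] V] [IsScalarTower k[X] (RatFunc k) V] [IsScalarTower k k[X] V]

/-- `Psi` maps `M^* ∩ y⁻² Minf^*` into the annihilator of `M + Minf`. -/
theorem h11rr_Psi_mem_annihilator (lam : RatFunc k →ₗ[k] k)
    (hpoly : ∀ p : k[X], lam (algebraMap k[X] (RatFunc k) p) = 0)
    (hinf : ∀ r ∈ RRalg.Rinf k, lam ((RatFunc.X : RatFunc k) ^ (-2 : ℤ) * r) = 0)
    (β : LinearMap.BilinForm (RatFunc k) V)
    (M : Submodule k[X] V) (Minf : Submodule (RRalg.Rinf k) V) (x : V)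
    (hx : x ∈ RRalg.sk (k := k) (β.dualSubmodule M) ⊓
      RRalg.sk (k := k) (RRalg.twist ((RatFunc.X : RatFunc k) ^ (-2 : ℤ)) (β.dualSubmodule Minf))) :
    h11rr_Psi lam β x ∈ (RRalg.sk (k := k) M ⊔ RRalg.sk (k := k) Minf).dualAnnihilator := by
  rw [Submodule.mem_dualAnnihilator]
  intro w hw
  obtain ⟨hx1, hx2⟩ := Submodule.mem_inf.mp hx
  obtain ⟨m, hm, m', hm', rfl⟩ := Submodule.mem_sup.mp hw
  rw [map_add]
  have e1 : h11rr_Psi lam β x m = 0 := by
    have := hx1 m hm
    obtain ⟨p, hp⟩ := Submodule.mem_one.mp this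
    rw [h11rr_Psi_apply, ← hp]
    exact hpoly p
  have e2 : h11rr_Psi lam β x m' = 0 := by
    obtain ⟨x', hx', rfl⟩ := (RRalg.mem_twist _ _ _).mp hx2
    have := hx' m' hm'
    obtain ⟨r, hr⟩ := Submodule.mem_one.mp this
    rw [h11rr_Psi_apply, map_smul, LinearMap.smul_apply, smul_eq_mul, ← hr]
    exact hinf _ r.2
  rw [e1, e2, add_zero]

/-- **L4**: `h⁰(M^*, y⁻² Minf^*) ≤ h¹(M, Minf)`, for any nondegenerate `β` and any submodules
`M`, `Minf` with `V / (M + Minf)` finite-dimensional. -/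
theorem h11rr_h0_dual_le_h1 (β : LinearMap.BilinForm (RatFunc k) V) (hβ : β.Nondegenerate)
    (M : Submodule k[X] V) (Minf : Submodule (RRalg.Rinf k) V)
    (hfin : FiniteDimensional k (V ⧸ (RRalg.sk (k := k) M ⊔ RRalg.sk (k := k) Minf))) :
    RRalg.h0 (RRalg.sk (k := k) (β.dualSubmodule M))
        (RRalg.sk (k := k)
          (RRalg.twist ((RatFunc.X : RatFunc k) ^ (-2 : ℤ)) (β.dualSubmodule Minf)))
      ≤ RRalg.h1 (RRalg.sk (k := k) M) (RRalg.sk (k := k) Minf) := by
  obtain ⟨lam, hlam, hpoly, hinf⟩ := h11rr_exists_residue k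
  unfold RRalg.h0 RRalg.h1
  set W := RRalg.sk (k := k) M ⊔ RRalg.sk (k := k) Minf with hW
  set A := RRalg.sk (k := k) (β.dualSubmodule M) ⊓
    RRalg.sk (k := k) (RRalg.twist ((RatFunc.X : RatFunc k) ^ (-2 : ℤ)) (β.dualSubmodule Minf))
    with hA
  let Φ : A →ₗ[k] W.dualAnnihilator :=
    ((h11rr_Psi lam β).comp A.subtype).codRestrict W.dualAnnihilator
      (fun x => h11rr_Psi_mem_annihilator lam hpoly hinf β M Minf x.1 x.2)
  have hΦ : Function.Injective Φ := by
    intro x y hxy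
    have h1 : h11rr_Psi lam β x.1 = h11rr_Psi lam β y.1 := congrArg Subtype.val hxy
    exact Subtype.ext (h11rr_Psi_injective lam hlam β hβ h1)
  have e : Module.Dual k (V ⧸ W) ≃ₗ[k] W.dualAnnihilator := W.dualQuotEquivDualAnnihilator
  haveI : FiniteDimensional k (Module.Dual k (V ⧸ W)) := inferInstance
  haveI : FiniteDimensional k W.dualAnnihilator := LinearEquiv.finiteDimensional e
  calc Module.finrank k A ≤ Module.finrank k W.dualAnnihilator :=
        LinearMap.finrank_le_finrank_of_injective hΦ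
    _ = Module.finrank k (Module.Dual k (V ⧸ W)) := (LinearEquiv.finrank_eq e).symm
    _ = Module.finrank k (V ⧸ W) := Subspace.dual_finrank_eq

end Pairing

section Twist

variable {k : Type*} [Field k] {V : Type*} [AddCommGroup V] [Module (RatFunc k) V]
  [Module k V] [IsScalarTower k (RatFunc k) V]
  {R : Type*} [CommRing R] [Algebra R (RatFunc k)] [Module R V] [IsScalarTower R (RatFunc k) V]

theorem h11rr_twist_twist (c d : RatFunc k) (N : Submodule R V) :
    RRalg.twist c (RRalg.twist d N) = RRalg.twist (c * d) N := by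
  ext v
  simp only [RRalg.mem_twist]
  constructor
  · rintro ⟨m, ⟨m', hm', rfl⟩, rfl⟩
    exact ⟨m', hm', by rw [mul_smul]⟩
  · rintro ⟨m, hm, rfl⟩
    exact ⟨d • m, ⟨m, hm, rfl⟩, by rw [mul_smul]⟩

theorem h11rr_twist_one (N : Submodule R V) : RRalg.twist (1 : RatFunc k) N = N := by
  ext v
  simp only [RRalg.mem_twist, one_smul, exists_eq_right]

/-- The dual of a twist: `(c N)^* = c⁻¹ N^*`. -/
theorem h11rr_dual_twist (β : LinearMap.BilinForm (RatFunc k) V) (c : RatFunc k) (hc : c ≠ 0)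
    (N : Submodule R V) :
    β.dualSubmodule (RRalg.twist c N) = RRalg.twist c⁻¹ (β.dualSubmodule N) := by
  ext x
  rw [RRalg.mem_twist]
  simp only [LinearMap.BilinForm.mem_dualSubmodule]
  constructor
  · intro hx
    refine ⟨c • x, fun y hy => ?_, by rw [smul_smul, inv_mul_cancel₀ hc, one_smul]⟩
    have := hx (c • y) ((RRalg.mem_twist _ _ _).mpr ⟨y, hy, rfl⟩)
    rw [map_smul, smul_eq_mul] at this
    rw [map_smul, LinearMap.smul_apply, smul_eq_mul]
    exact this
  · rintro ⟨x', hx', rfl⟩ y hy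
    obtain ⟨y', hy', rfl⟩ := (RRalg.mem_twist _ _ _).mp hy
    have e : β (c⁻¹ • x') (c • y') = β x' y' := by
      rw [map_smul, map_smul, LinearMap.smul_apply, smul_eq_mul, smul_eq_mul, ← mul_assoc,
        mul_inv_cancel₀ hc, one_mul]
    rw [e]
    exact hx' y' hy'

end Twist

section Dual

variable {k : Type*} [Field k] {V : Type*} [AddCommGroup V] [Module (RatFunc k) V]
  [Module k V] [IsScalarTower k (RatFunc k) V] [Module k[X] V] [IsScalarTower k[X] (RatFunc k) V]
  [IsScalarTower k k[X] V] [FiniteDimensional (RatFunc k) V]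

/-- **L4 for the dual pair**: `h⁰(M, Minf) ≤ h¹(M^*, y⁻² Minf^*)` for lattices and a symmetric
nondegenerate form. -/
theorem h11rr_h0_le_h1_dual (β : LinearMap.BilinForm (RatFunc k) V) (hβ : β.Nondegenerate)
    (hs : β.IsSymm) (M : Submodule k[X] V) (Minf : Submodule (RRalg.Rinf k) V)
    [IsLattice (RatFunc k) M] [IsLattice (RatFunc k) Minf]
    (hfin : FiniteDimensional k (V ⧸ (RRalg.sk (k := k) (β.dualSubmodule M) ⊔
      RRalg.sk (k := k)
        (RRalg.twist ((RatFunc.X : RatFunc k) ^ (-2 : ℤ)) (β.dualSubmodule Minf))))) :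
    RRalg.h0 (RRalg.sk (k := k) M) (RRalg.sk (k := k) Minf)
      ≤ RRalg.h1 (RRalg.sk (k := k) (β.dualSubmodule M))
          (RRalg.sk (k := k)
            (RRalg.twist ((RatFunc.X : RatFunc k) ^ (-2 : ℤ)) (β.dualSubmodule Minf))) := by
  have hX : ((RatFunc.X : RatFunc k) ^ (-2 : ℤ)) ≠ 0 := RRalg.h1r_X_zpow_ne_zero _
  have key := h11rr_h0_dual_le_h1 β hβ (β.dualSubmodule M)
    (RRalg.twist ((RatFunc.X : RatFunc k) ^ (-2 : ℤ)) (β.dualSubmodule Minf)) hfin
  rw [h11rr_dual_dual β hβ hs M, h11rr_dual_twist β _ hX, h11rr_dual_dual β hβ hs Minf,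
    h11rr_twist_twist, mul_inv_cancel₀ hX, h11rr_twist_one] at key
  exact key

end Dual

end H11RR
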