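import Mathlib
import Fermat.Agent.RR.Defs

/-!
# T-RR [RR-alg] L2 (helper1): additivity of `χ` — pure linear algebra over a field `k`

For `k`-subspaces `A' ≤ A` and `B` of `V` with `dim A/A' = c < ∞`:
`(A, B)` is a finite pair iff `(A', B)` is, and `χ(A', B) = χ(A, B) - c`.
Consequences for commensurable subspaces and the relative index.
-/

set_option autoImplicit false
set_option linter.style.longLine false
set_option linter.unusedSectionVars false
set_option linter.style.haveILetI false
set_option linter.unusedVariables false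

open Submodule

noncomputable section

namespace RRalg

variable {k : Type*} [Field k] {V : Type*} [AddCommGroup V] [Module k V]

/-! ### symmetry -/

theorem h0_symm (A B : Submodule k V) : h0 A B = h0 B A := by
  unfold h0; rw [inf_comm]

theorem h1_symm (A B : Submodule k V) : h1 A B = h1 B A := by
  unfold h1; rw [sup_comm]

theorem chi_symm (A B : Submodule k V) : chi A B = chi B A := by
  unfold chi; rw [h0_symm, h1_symm]

theorem finPair_symm {A B : Submodule k V} (h : FinPair A B) : FinPair B A := by
  unfold FinPair at *; rw [inf_comm, sup_comm]; exact h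

theorem relIndex_antisymm (A A' : Submodule k V) : relIndex A A' = - relIndex A' A := by
  unfold relIndex; ring

theorem comm_symm {A A' : Submodule k V} (h : Comm A A') : Comm A' A := ⟨h.2, h.1⟩

/-! ### the three maps of the five-term exact sequence -/

section FiveTerm

variable (A A' B : Submodule k V)

/-- `A ∩ B → A / (A ∩ A')`. -/
def h1r_phi : ↥(A ⊓ B) →ₗ[k] (↥A ⧸ (A ⊓ A').comap A.subtype) :=
  ((A ⊓ A').comap A.subtype).mkQ.comp (Submodule.inclusion (inf_le_left : A ⊓ B ≤ A))

/-- `A / (A ∩ A') → V / (A' + B)`. -/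
def h1r_psi : (↥A ⧸ (A ⊓ A').comap A.subtype) →ₗ[k] (V ⧸ (A' ⊔ B)) :=
  ((A ⊓ A').comap A.subtype).liftQ ((A' ⊔ B).mkQ.comp A.subtype) (by
    intro x hx
    rw [LinearMap.mem_ker, LinearMap.comp_apply, Submodule.mkQ_apply,
      Submodule.Quotient.mk_eq_zero]
    exact (le_sup_left : A' ≤ A' ⊔ B) hx.2)

variable {A A' B}

theorem h1r_ker_phi (hle : A' ≤ A) :
    LinearMap.ker (h1r_phi A A' B) = (A' ⊓ B).comap (A ⊓ B).subtype := by
  ext ⟨x, hx⟩
  rw [LinearMap.mem_ker, h1r_phi, LinearMap.comp_apply, Submodule.mkQ_apply,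
    Submodule.Quotient.mk_eq_zero]
  simp only [Submodule.mem_comap, Submodule.subtype_apply, Submodule.coe_inclusion,
    Submodule.mem_inf]
  constructor
  · rintro ⟨-, h2⟩
    exact ⟨h2, hx.2⟩
  · rintro ⟨h1, -⟩
    exact ⟨hx.1, h1⟩

theorem h1r_ker_psi (hle : A' ≤ A) :
    LinearMap.ker (h1r_psi A A' B) = LinearMap.range (h1r_phi A A' B) := by
  ext y
  obtain ⟨⟨a, ha⟩, rfl⟩ := Submodule.mkQ_surjective _ y
  rw [LinearMap.mem_ker, LinearMap.mem_range]
  simp only [h1r_psi, Submodule.mkQ_apply, Submodule.liftQ_apply, LinearMap.comp_apply,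
    Submodule.subtype_apply, Submodule.Quotient.mk_eq_zero]
  constructor
  · intro h
    obtain ⟨a', ha', b, hb, hab⟩ := Submodule.mem_sup.mp h
    have hbA : b ∈ A := by
      have : b = a - a' := by rw [← hab]; abel
      rw [this]
      exact A.sub_mem ha (hle ha')
    refine ⟨⟨b, hbA, hb⟩, ?_⟩
    rw [h1r_phi, LinearMap.comp_apply, Submodule.mkQ_apply, Submodule.Quotient.eq]
    simp only [Submodule.mem_comap, Submodule.subtype_apply, Submodule.coe_sub,
      Submodule.coe_inclusion, Submodule.mem_inf]
    have : b - a = -a' := by rw [← hab]; abel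
    rw [this]
    exact ⟨A.neg_mem (hle ha'), A'.neg_mem ha'⟩
  · rintro ⟨⟨b, hbA, hbB⟩, hb⟩
    rw [h1r_phi, LinearMap.comp_apply, Submodule.mkQ_apply, Submodule.Quotient.eq] at hb
    simp only [Submodule.mem_comap, Submodule.subtype_apply, Submodule.coe_sub,
      Submodule.coe_inclusion, Submodule.mem_inf] at hb
    have : a = -(b - a) + b := by abel
    rw [this]
    exact Submodule.add_mem_sup (A'.neg_mem hb.2) hbB

theorem h1r_factor_surj (hle : A' ≤ A) :
    Function.Surjective (Submodule.factor (sup_le_sup_right hle B : A' ⊔ B ≤ A ⊔ B)) :=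
  Submodule.factor_surjective _

theorem h1r_ker_factor (hle : A' ≤ A) :
    LinearMap.ker (Submodule.factor (sup_le_sup_right hle B : A' ⊔ B ≤ A ⊔ B))
      = LinearMap.range (h1r_psi A A' B) := by
  ext y
  obtain ⟨v, rfl⟩ := Submodule.mkQ_surjective _ y
  rw [LinearMap.mem_ker, LinearMap.mem_range, Submodule.factor_mk, Submodule.mkQ_apply,
    Submodule.Quotient.mk_eq_zero]
  constructor
  · intro h
    obtain ⟨a, ha, b, hb, hab⟩ := Submodule.mem_sup.mp h
    refine ⟨Submodule.Quotient.mk ⟨a, ha⟩, ?_⟩
    simp only [h1r_psi, Submodule.liftQ_apply, LinearMap.comp_apply, Submodule.subtype_apply,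
      Submodule.mkQ_apply]
    rw [Submodule.Quotient.eq]
    have : a - v = -b := by rw [← hab]; abel
    rw [this]
    exact (le_sup_right : B ≤ A' ⊔ B) (B.neg_mem hb)
  · rintro ⟨z, hz⟩
    obtain ⟨⟨a, ha⟩, rfl⟩ := Submodule.mkQ_surjective _ z
    simp only [h1r_psi, Submodule.mkQ_apply, Submodule.liftQ_apply, LinearMap.comp_apply,
      Submodule.subtype_apply] at hz
    rw [Submodule.Quotient.eq] at hz
    have : v = a - (a - v) := by abel
    rw [this]
    exact (A ⊔ B).sub_mem ((le_sup_left : A ≤ A ⊔ B) ha) (sup_le_sup_right hle B hz)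

end FiveTerm

/-! ### L2 -/

/-- L2, first half: finiteness goes down. -/
theorem finPair_of_ge {A A' B : Submodule k V} (hle : A' ≤ A) (hfin : FinCodim A A')
    (hAB : FinPair A B) : FinPair A' B := by
  haveI := hAB.1
  haveI := hAB.2
  haveI : FiniteDimensional k (↥A ⧸ (A ⊓ A').comap A.subtype) := hfin
  refine ⟨?_, ?_⟩
  · exact FiniteDimensional.of_injective (Submodule.inclusion (inf_le_inf_right B hle))
      (Submodule.inclusion_injective _)
  · -- `V/(A'+B)` is an extension of `V/(A+B)` by the image of `A/A'`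
    haveI : Module.Finite k ↥(LinearMap.range (h1r_psi A A' B)) :=
      Module.Finite.range (h1r_psi A A' B)
    have hex : Function.Exact (LinearMap.range (h1r_psi A A' B)).subtype
        (Submodule.factor (sup_le_sup_right hle B : A' ⊔ B ≤ A ⊔ B)) := by
      rw [LinearMap.exact_iff, h1r_ker_factor hle, Submodule.range_subtype]
    exact Module.Finite.of_exact hex (h1r_factor_surj hle)

/-- L2, converse: finiteness goes up. -/
theorem finPair_of_le {A A' B : Submodule k V} (hle : A' ≤ A) (hfin : FinCodim A A')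
    (hAB : FinPair A' B) : FinPair A B := by
  haveI := hAB.1
  haveI := hAB.2
  haveI : FiniteDimensional k (↥A ⧸ (A ⊓ A').comap A.subtype) := hfin
  refine ⟨?_, ?_⟩
  · -- `A ∩ B` is an extension of a subspace of `A/A'` by `A' ∩ B`
    haveI : Module.Finite k ↥(LinearMap.ker (h1r_phi A A' B)) := by
      rw [h1r_ker_phi hle]
      exact Module.Finite.equiv (Submodule.comapSubtypeEquivOfLe
        (inf_le_inf_right B hle : A' ⊓ B ≤ A ⊓ B)).symm
    haveI : Module.Finite k ↥(LinearMap.range (h1r_phi A A' B)) :=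
      FiniteDimensional.finiteDimensional_submodule _
    have hex : Function.Exact (LinearMap.ker (h1r_phi A A' B)).subtype
        (h1r_phi A A' B).rangeRestrict := by
      rw [LinearMap.exact_iff, Submodule.range_subtype, LinearMap.ker_rangeRestrict]
    exact Module.Finite.of_exact hex (LinearMap.surjective_rangeRestrict _)
  · exact Module.Finite.of_surjective _ (h1r_factor_surj (B := B) hle)

/-- L2: additivity of `χ`. -/
theorem chi_of_le {A A' B : Submodule k V} (hle : A' ≤ A) (hfin : FinCodim A A')
    (hAB : FinPair A B) : FinPair A' B ∧ chi A' B = chi A B - codim A A' := by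
  have hA'B := finPair_of_ge hle hfin hAB
  refine ⟨hA'B, ?_⟩
  haveI := hAB.1
  haveI := hAB.2
  haveI := hA'B.1
  haveI := hA'B.2
  haveI : FiniteDimensional k (↥A ⧸ (A ⊓ A').comap A.subtype) := hfin
  -- rank–nullity three times
  have e1 := LinearMap.finrank_range_add_finrank_ker (h1r_phi A A' B)
  have e2 := LinearMap.finrank_range_add_finrank_ker (h1r_psi A A' B)
  have e3 := LinearMap.finrank_range_add_finrank_ker
    (Submodule.factor (sup_le_sup_right hle B : A' ⊔ B ≤ A ⊔ B))
  rw [h1r_ker_phi hle, (Submodule.comapSubtypeEquivOfLe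
    (inf_le_inf_right B hle : A' ⊓ B ≤ A ⊓ B)).finrank_eq] at e1
  rw [h1r_ker_psi hle] at e2
  rw [h1r_ker_factor hle, LinearMap.range_eq_top.mpr (h1r_factor_surj hle), finrank_top] at e3
  unfold chi h0 h1 codim
  omega

/-! ### commensurable subspaces -/

theorem h1r_finCodim_inf {A A' : Submodule k V} (h : FinCodim A A') : FinCodim A (A ⊓ A') := by
  unfold FinCodim at *
  rwa [← inf_assoc, inf_idem]

theorem h1r_codim_inf (A A' : Submodule k V) : codim A (A ⊓ A') = codim A A' := by
  unfold codim
  rw [← inf_assoc, inf_idem]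

theorem h1r_finCodim_inf' {A A' : Submodule k V} (h : FinCodim A' A) : FinCodim A' (A ⊓ A') := by
  unfold FinCodim at *
  rwa [inf_comm A A', ← inf_assoc, inf_idem]

theorem h1r_codim_inf' (A A' : Submodule k V) : codim A' (A ⊓ A') = codim A' A := by
  unfold codim
  rw [inf_comm A A', ← inf_assoc, inf_idem]

theorem chi_comm_left {A A' B : Submodule k V} (h : Comm A A') (hAB : FinPair A B) :
    FinPair A' B ∧ chi A' B = chi A B - relIndex A A' := by
  obtain ⟨h0fin, e0⟩ := chi_of_le (inf_le_left : A ⊓ A' ≤ A) (h1r_finCodim_inf h.1) hAB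
  have hA'B : FinPair A' B := finPair_of_le (inf_le_right : A ⊓ A' ≤ A') (h1r_finCodim_inf' h.2) h0fin
  obtain ⟨-, e1⟩ := chi_of_le (inf_le_right : A ⊓ A' ≤ A') (h1r_finCodim_inf' h.2) hA'B
  refine ⟨hA'B, ?_⟩
  rw [h1r_codim_inf] at e0
  rw [h1r_codim_inf'] at e1
  unfold relIndex
  omega

theorem chi_comm_right {A B B' : Submodule k V} (h : Comm B B') (hAB : FinPair A B) :
    FinPair A B' ∧ chi A B' = chi A B - relIndex B B' := by
  obtain ⟨h1, h2⟩ := chi_comm_left h (finPair_symm hAB)
  exact ⟨finPair_symm h1, by rw [chi_symm A B', chi_symm A B]; exact h2⟩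

/-- A complement gives a finite pair with `χ = 0`. -/
theorem h1r_chi_isCompl {A B : Submodule k V} (h : IsCompl A B) : FinPair A B ∧ chi A B = 0 := by
  have hinf : A ⊓ B = ⊥ := h.inf_eq_bot
  have hsup : A ⊔ B = ⊤ := h.sup_eq_top
  refine ⟨⟨?_, ?_⟩, ?_⟩
  · rw [hinf]; infer_instance
  · rw [hsup]; infer_instance
  · unfold chi h0 h1
    rw [hinf, hsup]
    have h1 : Module.finrank k (V ⧸ (⊤ : Submodule k V)) = 0 :=
      Module.finrank_zero_of_subsingleton
    rw [h1]
    simp

/-- The relative index is the difference of Euler characteristics against any test subspace. -/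
theorem relIndex_eq_chi_sub {A A' B : Submodule k V} (h : Comm A A') (hAB : FinPair A B) :
    relIndex A A' = chi A B - chi A' B := by
  have := (chi_comm_left h hAB).2
  omega

/-- Transitivity of the relative index. -/
theorem relIndex_trans {A A' A'' : Submodule k V} (h : Comm A A') (h' : Comm A' A'')
    (h'' : Comm A A'') : relIndex A A'' = relIndex A A' + relIndex A' A'' := by
  obtain ⟨B, hB⟩ := Submodule.exists_isCompl A
  have hAB := (h1r_chi_isCompl hB).1
  have hA'B := (chi_comm_left h hAB).1
  rw [relIndex_eq_chi_sub h hAB, relIndex_eq_chi_sub h' hA'B, relIndex_eq_chi_sub h'' hAB]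
  ring

theorem relIndex_self (A : Submodule k V) : relIndex A A = 0 := by
  unfold relIndex; ring

theorem comm_refl (A : Submodule k V) : Comm A A := by
  have : FinCodim A A := by
    unfold FinCodim
    have : (A ⊓ A).comap A.subtype = ⊤ := by
      rw [inf_idem]; exact Submodule.comap_subtype_self A
    rw [this]
    infer_instance
  exact ⟨this, this⟩

/-- For `A' ≤ A` the relative index is the codimension. -/
theorem relIndex_of_le {A A' : Submodule k V} (hle : A' ≤ A) : relIndex A A' = codim A A' := by
  unfold relIndex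
  have : codim A' A = 0 := by
    unfold codim
    have : (A' ⊓ A).comap A'.subtype = ⊤ := by
      rw [inf_eq_left.mpr hle]; exact Submodule.comap_subtype_self A'
    rw [this]
    exact Module.finrank_zero_of_subsingleton
  rw [this]
  simp

theorem comm_of_le {A A' : Submodule k V} (hle : A' ≤ A) (hfin : FinCodim A A') : Comm A A' := by
  refine ⟨hfin, ?_⟩
  unfold FinCodim
  have : (A' ⊓ A).comap A'.subtype = ⊤ := by
    rw [inf_eq_left.mpr hle]; exact Submodule.comap_subtype_self A'
  rw [this]
  infer_instance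

end RRalg
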