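import Mathlib
import Fermat.Agent.RR.L2
import Fermat.Agent.RR.Rinf

/-!
# T-RR [RR-alg] L1, part a (helper1): more linear algebra — finite codimension criteria,
invariance under linear automorphisms, twists.
-/

set_option autoImplicit false
set_option linter.style.longLine false
set_option linter.unusedSectionVars false
set_option linter.style.haveILetI false
set_option linter.unusedVariables false

open Polynomial Submodule

noncomputable section

namespace RRalg

section LinearAlgebra

variable {k : Type*} [Field k] {V : Type*} [AddCommGroup V] [Module k V]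

/-- Lemma S: if `A' ≤ A`, `A' + B = V` and `A ∩ B` is finite-dimensional, then `A/A'` is
finite-dimensional. -/
theorem finCodim_of_sup_eq_top {A A' B : Submodule k V} (hle : A' ≤ A) (hsup : A' ⊔ B = ⊤)
    (hfin : FiniteDimensional k ↥(A ⊓ B)) : FinCodim A A' := by
  unfold FinCodim
  haveI := hfin
  refine Module.Finite.of_surjective (h1r_phi A A' B) ?_
  intro y
  obtain ⟨⟨a, ha⟩, rfl⟩ := Submodule.mkQ_surjective _ y
  have hmem : a ∈ A' ⊔ B := by rw [hsup]; trivial
  obtain ⟨a', ha', b, hb, hab⟩ := Submodule.mem_sup.mp hmem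
  have hbA : b ∈ A := by
    have : b = a - a' := by rw [← hab]; abel
    rw [this]; exact A.sub_mem ha (hle ha')
  refine ⟨⟨b, hbA, hb⟩, ?_⟩
  rw [h1r_phi, LinearMap.comp_apply, Submodule.mkQ_apply, Submodule.mkQ_apply,
    Submodule.Quotient.eq]
  simp only [Submodule.mem_comap, Submodule.subtype_apply, Submodule.coe_sub,
    Submodule.coe_inclusion, Submodule.mem_inf]
  have : b - a = -a' := by rw [← hab]; abel
  rw [this]
  exact ⟨A.neg_mem (hle ha'), A'.neg_mem ha'⟩

/-- Monotonicity: a bigger subspace has smaller codimension. -/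
theorem finCodim_mono {A A' A'' : Submodule k V} (hle : A'' ≤ A') (h : FinCodim A A'') :
    FinCodim A A' := by
  unfold FinCodim at *
  haveI := h
  have hle' : (A ⊓ A'').comap A.subtype ≤ (A ⊓ A').comap A.subtype :=
    Submodule.comap_mono (inf_le_inf_left A hle)
  exact Module.Finite.of_surjective (Submodule.factor hle') (Submodule.factor_surjective hle')

/-- The quotient `A/(A ∩ A')` is transported by a linear automorphism. -/
def h1r_quotEquiv (e : V ≃ₗ[k] V) (A A' : Submodule k V) :
    (↥A ⧸ (A ⊓ A').comap A.subtype) ≃ₗ[k]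
      (↥(A.map (e : V →ₗ[k] V)) ⧸
        ((A.map (e : V →ₗ[k] V)) ⊓ (A'.map (e : V →ₗ[k] V))).comap
          (A.map (e : V →ₗ[k] V)).subtype) :=
  Submodule.Quotient.equiv _ _ (e.submoduleMap A) (by
    ext ⟨y, hy⟩
    simp only [Submodule.mem_map, Submodule.mem_comap, Submodule.subtype_apply,
      Submodule.mem_inf, Subtype.exists]
    constructor
    · rintro ⟨a, ha, ⟨-, ha'⟩, hay⟩
      have hya : y = e a := by
        have := congrArg Subtype.val hay
        simpa using this.symm
      exact ⟨hy, a, ha', hya.symm⟩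
    · rintro ⟨-, a, ha', hay⟩
      have haA : a ∈ A := by
        obtain ⟨a₀, ha₀, h₀⟩ := hy
        have : a₀ = a := e.injective (h₀.trans hay.symm)
        rw [← this]; exact ha₀
      refine ⟨a, haA, ⟨haA, ha'⟩, ?_⟩
      apply Subtype.ext
      simpa using hay)

theorem finCodim_map (e : V ≃ₗ[k] V) {A A' : Submodule k V} (h : FinCodim A A') :
    FinCodim (A.map (e : V →ₗ[k] V)) (A'.map (e : V →ₗ[k] V)) := by
  unfold FinCodim at *
  haveI := h
  exact Module.Finite.equiv (h1r_quotEquiv e A A')

theorem codim_map (e : V ≃ₗ[k] V) (A A' : Submodule k V) :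
    codim (A.map (e : V →ₗ[k] V)) (A'.map (e : V →ₗ[k] V)) = codim A A' := by
  unfold codim
  exact (h1r_quotEquiv e A A').finrank_eq.symm

theorem relIndex_map (e : V ≃ₗ[k] V) (A A' : Submodule k V) :
    relIndex (A.map (e : V →ₗ[k] V)) (A'.map (e : V →ₗ[k] V)) = relIndex A A' := by
  unfold relIndex
  rw [codim_map, codim_map]

theorem comm_map (e : V ≃ₗ[k] V) {A A' : Submodule k V} (h : Comm A A') :
    Comm (A.map (e : V →ₗ[k] V)) (A'.map (e : V →ₗ[k] V)) :=
  ⟨finCodim_map e h.1, finCodim_map e h.2⟩

theorem comm_of_map (e : V ≃ₗ[k] V) {A A' : Submodule k V}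
    (h : Comm (A.map (e : V →ₗ[k] V)) (A'.map (e : V →ₗ[k] V))) : Comm A A' := by
  have := comm_map e.symm h
  have hA : (A.map (e : V →ₗ[k] V)).map (e.symm : V →ₗ[k] V) = A := by
    ext x; simp
  have hA' : (A'.map (e : V →ₗ[k] V)).map (e.symm : V →ₗ[k] V) = A' := by
    ext x; simp
  rwa [hA, hA'] at this

/-- A subspace squeezed between commensurable subspaces. -/
theorem comm_of_between {A A' A'' : Submodule k V} (h1 : A'' ≤ A') (h2 : A' ≤ A)
    (h : FinCodim A A'') : Comm A A' ∧ Comm A' A'' := by
  have hA : FinCodim A A' := finCodim_mono h1 h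
  refine ⟨comm_of_le h2 hA, comm_of_le h1 ?_⟩
  -- `A'/A''` embeds into `A/A''`
  unfold FinCodim at h ⊢
  haveI := h
  have hmap : ((A' ⊓ A'').comap A'.subtype) ≤
      ((A ⊓ A'').comap A.subtype).comap (Submodule.inclusion h2) := by
    intro x hx
    simp only [Submodule.mem_comap, Submodule.subtype_apply, Submodule.coe_inclusion,
      Submodule.mem_inf] at hx ⊢
    exact ⟨h2 hx.1, hx.2⟩
  refine FiniteDimensional.of_injective
    (Submodule.mapQ _ _ (Submodule.inclusion h2) hmap) ?_
  rw [← LinearMap.ker_eq_bot, eq_bot_iff]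
  intro y hy
  obtain ⟨⟨a, ha⟩, rfl⟩ := Submodule.mkQ_surjective _ y
  rw [LinearMap.mem_ker, Submodule.mkQ_apply, Submodule.mapQ_apply,
    Submodule.Quotient.mk_eq_zero] at hy
  simp only [Submodule.mem_comap, Submodule.subtype_apply, Submodule.coe_inclusion,
    Submodule.mem_inf] at hy
  rw [Submodule.mem_bot, Submodule.mkQ_apply, Submodule.Quotient.mk_eq_zero]
  simp only [Submodule.mem_comap, Submodule.subtype_apply, Submodule.mem_inf]
  exact ⟨ha, hy.2⟩

end LinearAlgebra

section Twist

variable {k : Type*} [Field k] {V : Type*} [AddCommGroup V] [Module (RatFunc k) V]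
  [Module k V] [IsScalarTower k (RatFunc k) V]

/-- Multiplication by a nonzero `c ∈ k(y)` as a `k`-linear automorphism of `V`. -/
def mulEquiv (c : RatFunc k) (hc : c ≠ 0) : V ≃ₗ[k] V :=
  (LinearEquiv.smulOfNeZero (RatFunc k) V c hc).restrictScalars k

@[simp] theorem mulEquiv_apply (c : RatFunc k) (hc : c ≠ 0) (v : V) :
    mulEquiv (k := k) c hc v = c • v := rfl

variable {R : Type*} [CommRing R] [Algebra k R] [Algebra R (RatFunc k)] [Module R V]
  [IsScalarTower R (RatFunc k) V] [IsScalarTower k R V]

theorem sk_twist (c : RatFunc k) (hc : c ≠ 0) (M : Submodule R V) :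
    sk (k := k) (twist c M)
      = (sk (k := k) M).map ((mulEquiv (k := k) (V := V) c hc : V ≃ₗ[k] V) : V →ₗ[k] V) := by
  ext v
  simp only [Submodule.restrictScalars_mem, mem_twist, Submodule.mem_map, LinearEquiv.coe_coe,
    mulEquiv_apply]

theorem twist_twist (c c' : RatFunc k) (M : Submodule R V) :
    twist c (twist c' M) = twist (c * c') M := by
  ext v
  simp only [mem_twist]
  constructor
  · rintro ⟨w, ⟨m, hm, rfl⟩, rfl⟩
    exact ⟨m, hm, by rw [mul_smul]⟩
  · rintro ⟨m, hm, rfl⟩
    exact ⟨c' • m, ⟨m, hm, rfl⟩, by rw [mul_smul]⟩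

theorem twist_one (M : Submodule R V) : twist (1 : RatFunc k) M = M := by
  ext v
  simp only [mem_twist, one_smul, exists_eq_right]

theorem mem_twist_iff_inv (c : RatFunc k) (hc : c ≠ 0) (M : Submodule R V) (v : V) :
    v ∈ twist c M ↔ c⁻¹ • v ∈ M := by
  rw [mem_twist]
  constructor
  · rintro ⟨m, hm, rfl⟩
    rwa [smul_smul, inv_mul_cancel₀ hc, one_smul]
  · intro h
    exact ⟨c⁻¹ • v, h, by rw [smul_smul, mul_inv_cancel₀ hc, one_smul]⟩

theorem twist_mono (c : RatFunc k) {M M' : Submodule R V} (h : M ≤ M') :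
    twist c M ≤ twist c M' :=
  Submodule.map_mono h

theorem relIndex_twist_twist (c : RatFunc k) (hc : c ≠ 0) (M M' : Submodule R V) :
    relIndex (sk (k := k) (twist c M)) (sk (k := k) (twist c M'))
      = relIndex (sk (k := k) M) (sk (k := k) M') := by
  rw [sk_twist c hc, sk_twist c hc, relIndex_map]

theorem comm_twist_twist (c : RatFunc k) (hc : c ≠ 0) {M M' : Submodule R V}
    (h : Comm (sk (k := k) M) (sk (k := k) M')) :
    Comm (sk (k := k) (twist c M)) (sk (k := k) (twist c M')) := by
  rw [sk_twist c hc, sk_twist c hc]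
  exact comm_map _ h

/-- A twist of a lattice is a lattice. -/
theorem isLattice_twist [IsScalarTower R (RatFunc k) (RatFunc k)] (M : Submodule R V)
    [IsLattice (RatFunc k) M] (c : RatFunc k) (hc : c ≠ 0) : IsLattice (RatFunc k) (twist c M) where
  fg := by
    have h : M.FG := IsLattice.fg
    exact h.map _
  span_eq_top := by
    rw [eq_top_iff]
    intro v _
    have hv : c⁻¹ • v ∈ Submodule.span (RatFunc k) (M : Set V) := by
      rw [IsLattice.span_eq_top]; trivial
    have hsub : (M : Set V) ⊆ ((Submodule.span (RatFunc k) ((twist c M : Submodule R V) : Set V)).comap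
        (LinearMap.lsmul (RatFunc k) V c) : Submodule (RatFunc k) V) := by
      intro m hm
      simp only [Submodule.comap_coe, Set.mem_preimage, LinearMap.lsmul_apply, SetLike.mem_coe]
      exact Submodule.subset_span ((mem_twist c M _).mpr ⟨m, hm, rfl⟩)
    have := (Submodule.span_le.mpr hsub) hv
    simp only [Submodule.mem_comap, LinearMap.lsmul_apply] at this
    rwa [smul_smul, mul_inv_cancel₀ hc, one_smul] at this

end Twist

end RRalg
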