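import Mathlib
import Fermat.Agent.RR.L1a

/-!
# T-RR [RR-alg] L1, part b (helper1): the standard pair attached to a `K`-basis and its twists

For a `K`-basis `b` of `V`, `stdFin b = ⊕ k[y] bᵢ`, `stdInf b = ⊕ Rinf bᵢ`.  For `c ≠ 0` of degree
`m ≥ 0`: `stdFin b + c • stdInf b = V` and `stdFin b ∩ c • stdInf b` has dimension `n (m + 1)`.
-/

set_option autoImplicit false
set_option linter.style.longLine false
set_option linter.unusedSectionVars false
set_option linter.style.haveILetI false
set_option linter.unusedVariables false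

open Polynomial Submodule

noncomputable section

namespace RRalg

variable {k : Type*} [Field k] {V : Type*} [AddCommGroup V] [Module (RatFunc k) V]
  [Module k V] [IsScalarTower k (RatFunc k) V] [Module k[X] V] [IsScalarTower k[X] (RatFunc k) V]
  [IsScalarTower k k[X] V]

variable {ι : Type*} [Fintype ι] (b : Module.Basis ι (RatFunc k) V)

/-- The standard `k[y]`-lattice of a basis. -/
def stdFin : Submodule k[X] V := span k[X] (Set.range b)

/-- The standard `Rinf`-lattice of a basis. -/
def stdInf : Submodule (Rinf k) V := span (Rinf k) (Set.range b)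

theorem mem_stdFin (v : V) :
    v ∈ stdFin b ↔ ∀ i, ∃ s : k[X], b.repr v i = algebraMap k[X] (RatFunc k) s := by
  rw [stdFin, b.mem_span_iff_repr_mem k[X]]
  refine forall_congr' fun i => ?_
  constructor
  · rintro ⟨s, hs⟩; exact ⟨s, hs.symm⟩
  · rintro ⟨s, hs⟩; exact ⟨s, hs.symm⟩

theorem mem_stdInf (v : V) : v ∈ stdInf b ↔ ∀ i, b.repr v i ∈ Rinf k := by
  rw [stdInf, b.mem_span_iff_repr_mem (Rinf k)]
  refine forall_congr' fun i => ?_
  constructor
  · rintro ⟨s, hs⟩; rw [← hs]; exact s.2
  · intro h; exact ⟨⟨_, h⟩, rfl⟩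

theorem mem_twist_stdInf (c : RatFunc k) (hc : c ≠ 0) (v : V) :
    v ∈ twist c (stdInf b) ↔ ∀ i, c⁻¹ * b.repr v i ∈ Rinf k := by
  rw [mem_twist_iff_inv c hc, mem_stdInf]
  refine forall_congr' fun i => ?_
  rw [map_smul, Finsupp.smul_apply, smul_eq_mul]

instance stdFin_isLattice : IsLattice (RatFunc k) (stdFin b) where
  fg := Submodule.fg_span (Set.finite_range b)
  span_eq_top := by
    rw [eq_top_iff, ← b.span_eq]
    exact Submodule.span_mono (Submodule.subset_span)

instance stdInf_isLattice : IsLattice (RatFunc k) (stdInf b) where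
  fg := Submodule.fg_span (Set.finite_range b)
  span_eq_top := by
    rw [eq_top_iff, ← b.span_eq]
    exact Submodule.span_mono (Submodule.subset_span)

/-- `c⁻¹ f ∈ Rinf` iff `deg f ≤ deg c`. -/
theorem h1r_inv_mul_mem_iff (c : RatFunc k) (hc : c ≠ 0) (f : RatFunc k) :
    c⁻¹ * f ∈ Rinf k ↔ f = 0 ∨ f.intDegree ≤ c.intDegree := by
  by_cases hf : f = 0
  · simp [hf]
  have h2 : c⁻¹ ≠ 0 := inv_ne_zero hc
  rw [mem_Rinf, RatFunc.intDegree_mul h2 hf, RatFunc.intDegree_inv]
  constructor
  · rintro (h | h)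
    · exact absurd h (mul_ne_zero h2 hf)
    · right; omega
  · rintro (h | h)
    · exact absurd h hf
    · right; omega

theorem h1r_inv_mul_poly_mem_iff (c : RatFunc k) (hc : c ≠ 0) (m : ℕ) (hm : c.intDegree = m)
    (s : k[X]) :
    c⁻¹ * algebraMap k[X] (RatFunc k) s ∈ Rinf k ↔ s ∈ Polynomial.degreeLT k (m + 1) := by
  rw [h1r_inv_mul_mem_iff c hc, Polynomial.mem_degreeLT, RatFunc.intDegree_polynomial, hm]
  by_cases hs : s = 0
  · simp [hs]
  constructor
  · rintro (h | h)
    · exact absurd h (h1r_algebraMap_ne_zero hs)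
    · rw [Polynomial.degree_eq_natDegree hs]
      have : s.natDegree ≤ m := by exact_mod_cast h
      exact_mod_cast Nat.lt_succ_of_le this
  · intro h
    right
    rw [Polynomial.degree_eq_natDegree hs] at h
    have : s.natDegree < m + 1 := by exact_mod_cast h
    exact_mod_cast Nat.lt_succ_iff.mp this

/-- `stdFin b + c • stdInf b = V` when `deg c ≥ 0`. -/
theorem std_sup_eq_top (c : RatFunc k) (hc : c ≠ 0) (hdeg : 0 ≤ c.intDegree) :
    sk (k := k) (stdFin b) ⊔ sk (k := k) (twist c (stdInf b)) = ⊤ := by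
  rw [eq_top_iff]
  intro v _
  choose s g hg hsg using fun i => h1r_decomp (b.repr v i)
  have hv : v = b.equivFun.symm (fun i => algebraMap k[X] (RatFunc k) (s i))
      + b.equivFun.symm g := by
    apply b.equivFun.injective
    rw [map_add, LinearEquiv.apply_symm_apply, LinearEquiv.apply_symm_apply]
    ext i
    rw [Module.Basis.equivFun_apply, Pi.add_apply, hsg i]
  rw [hv]
  refine Submodule.add_mem_sup ?_ ?_
  · rw [Submodule.restrictScalars_mem, mem_stdFin]
    intro i
    refine ⟨s i, ?_⟩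
    rw [← Module.Basis.equivFun_apply, LinearEquiv.apply_symm_apply]
  · rw [Submodule.restrictScalars_mem, mem_twist_stdInf b c hc]
    intro i
    rw [← Module.Basis.equivFun_apply, LinearEquiv.apply_symm_apply, h1r_inv_mul_mem_iff c hc]
    rcases hg i with h | h
    · exact Or.inl h
    · right; omega

/-- The coordinate map `(ι → k[y]_{≤ m}) → V`. -/
def h1r_Psi (m : ℕ) : (ι → ↥(Polynomial.degreeLT k (m + 1))) →ₗ[k] V :=
  ((b.equivFun.symm : (ι → RatFunc k) ≃ₗ[RatFunc k] V).restrictScalars k :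
      (ι → RatFunc k) →ₗ[k] V).comp
    (LinearMap.pi fun i =>
      ((IsScalarTower.toAlgHom k k[X] (RatFunc k)).toLinearMap.comp
        (Polynomial.degreeLT k (m + 1)).subtype).comp (LinearMap.proj i))

theorem h1r_Psi_repr (m : ℕ) (s : ι → ↥(Polynomial.degreeLT k (m + 1))) (i : ι) :
    b.repr (h1r_Psi b m s) i = algebraMap k[X] (RatFunc k) (s i : k[X]) := by
  rw [← Module.Basis.equivFun_apply]
  simp only [h1r_Psi, LinearMap.comp_apply, LinearEquiv.coe_coe,
    LinearEquiv.restrictScalars_apply, LinearEquiv.apply_symm_apply, LinearMap.pi_apply,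
    LinearMap.proj_apply, Submodule.subtype_apply, AlgHom.toLinearMap_apply,
    IsScalarTower.coe_toAlgHom']

theorem h1r_Psi_injective (m : ℕ) : Function.Injective (h1r_Psi b m) := by
  intro s t hst
  funext i
  apply Subtype.ext
  have h := congrArg (fun v => b.repr v i) hst
  simp only [h1r_Psi_repr] at h
  exact IsFractionRing.injective k[X] (RatFunc k) h

theorem h1r_range_Psi (c : RatFunc k) (hc : c ≠ 0) (m : ℕ) (hm : c.intDegree = m) :
    LinearMap.range (h1r_Psi b m)
      = sk (k := k) (stdFin b) ⊓ sk (k := k) (twist c (stdInf b)) := by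
  ext v
  rw [LinearMap.mem_range, Submodule.mem_inf, Submodule.restrictScalars_mem,
    Submodule.restrictScalars_mem, mem_stdFin, mem_twist_stdInf b c hc]
  constructor
  · rintro ⟨s, rfl⟩
    refine ⟨fun i => ⟨s i, h1r_Psi_repr b m s i⟩, fun i => ?_⟩
    rw [h1r_Psi_repr, h1r_inv_mul_poly_mem_iff c hc m hm]
    exact (s i).2
  · rintro ⟨h1, h2⟩
    choose s hs using h1
    have hmem : ∀ i, s i ∈ Polynomial.degreeLT k (m + 1) := by
      intro i
      rw [← h1r_inv_mul_poly_mem_iff c hc m hm, ← hs i]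
      exact h2 i
    refine ⟨fun i => ⟨s i, hmem i⟩, ?_⟩
    apply b.repr.injective
    ext i
    rw [h1r_Psi_repr, hs i]

theorem h1r_finrank_degreeLT (n : ℕ) : Module.finrank k ↥(Polynomial.degreeLT k n) = n := by
  rw [(Polynomial.degreeLTEquiv k n).finrank_eq, Module.finrank_fin_fun]

/-- `dim (stdFin b ∩ c • stdInf b) = n (m + 1)` for `deg c = m ≥ 0`. -/
theorem std_h0 (c : RatFunc k) (hc : c ≠ 0) (m : ℕ) (hm : c.intDegree = m) :
    FiniteDimensional k ↥(sk (k := k) (stdFin b) ⊓ sk (k := k) (twist c (stdInf b))) ∧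
    h0 (sk (k := k) (stdFin b)) (sk (k := k) (twist c (stdInf b))) = Fintype.card ι * (m + 1) := by
  haveI : Module.Finite k ↥(Polynomial.degreeLT k (m + 1)) :=
    Module.Finite.equiv (Polynomial.degreeLTEquiv k (m + 1)).symm
  unfold h0
  rw [← h1r_range_Psi b c hc m hm]
  refine ⟨Module.Finite.range _, ?_⟩
  rw [LinearMap.finrank_range_of_inj (h1r_Psi_injective b m), Module.finrank_pi_fintype]
  simp only [h1r_finrank_degreeLT, Finset.sum_const, Finset.card_univ, smul_eq_mul]

/-- The (twisted) standard pair is a finite pair with `χ = n (m + 1)`. -/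
theorem std_chi (c : RatFunc k) (hc : c ≠ 0) (m : ℕ) (hm : c.intDegree = m) :
    FinPair (sk (k := k) (stdFin b)) (sk (k := k) (twist c (stdInf b))) ∧
    chi (sk (k := k) (stdFin b)) (sk (k := k) (twist c (stdInf b)))
      = (Fintype.card ι : ℤ) * ((m : ℤ) + 1) := by
  obtain ⟨hfin, hh0⟩ := std_h0 b c hc m hm
  have hsup := std_sup_eq_top b c hc (by rw [hm]; positivity)
  have hh1 : h1 (sk (k := k) (stdFin b)) (sk (k := k) (twist c (stdInf b))) = 0 := by
    unfold h1
    rw [hsup]
    exact Module.finrank_zero_of_subsingleton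
  refine ⟨⟨hfin, ?_⟩, ?_⟩
  · rw [hsup]; infer_instance
  · unfold chi
    rw [hh0, hh1]
    push_cast
    ring

/-- L1: the standard pair has `h⁰ = n`, `h¹ = 0`. -/
theorem standard_pair :
    FinPair (sk (k := k) (span k[X] (Set.range b))) (sk (k := k) (span (Rinf k) (Set.range b))) ∧
    h0 (sk (k := k) (span k[X] (Set.range b))) (sk (k := k) (span (Rinf k) (Set.range b)))
      = Fintype.card ι ∧
    h1 (sk (k := k) (span k[X] (Set.range b))) (sk (k := k) (span (Rinf k) (Set.range b))) = 0 := by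
  have h1' : twist (1 : RatFunc k) (stdInf b) = stdInf b := twist_one _
  obtain ⟨hfin, hh0⟩ := std_h0 b 1 one_ne_zero 0 (by simp)
  have hsup := std_sup_eq_top b 1 one_ne_zero (by simp)
  rw [h1'] at hfin hh0 hsup
  refine ⟨⟨hfin, ?_⟩, ?_, ?_⟩
  · show FiniteDimensional k (V ⧸ (sk (k := k) (stdFin b) ⊔ sk (k := k) (stdInf b)))
    rw [hsup]; infer_instance
  · show h0 (sk (k := k) (stdFin b)) (sk (k := k) (stdInf b)) = _
    rw [hh0]; simp
  · show h1 (sk (k := k) (stdFin b)) (sk (k := k) (stdInf b)) = 0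
    unfold h1
    rw [hsup]
    exact Module.finrank_zero_of_subsingleton

end RRalg
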