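import Mathlib
import Fermat.Agent.RR.L1b
import Fermat.Agent.RR.L3Abstract

/-!
# T-RR [RR-alg] L1, part c (helper1): commensurability of lattices, the twist index,
finiteness of all lattice pairs.
-/

set_option autoImplicit false
set_option linter.style.longLine false
set_option linter.unusedSectionVars false
set_option linter.style.haveILetI false
set_option linter.unusedVariables false

open Polynomial Submodule

noncomputable section

namespace RRalg

/-! ### clearing denominators -/
section Denominators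

variable {R K V : Type*} [CommRing R] [IsDomain R] [Field K]
  [Algebra R K] [IsFractionRing R K] [AddCommGroup V] [Module K V] [Module R V]
  [IsScalarTower R K V]

/-- If `M'` spans `V` over `K = Frac R`, every vector has a nonzero `R`-multiple in `M'`. -/
theorem h1r_exists_smul_mem (M' : Submodule R V) (hspan : span K (M' : Set V) = ⊤) (v : V) :
    ∃ d : R, d ≠ 0 ∧ d • v ∈ M' := by
  have hv : v ∈ span K (M' : Set V) := by rw [hspan]; trivial
  induction hv using Submodule.span_induction with
  | mem x hx => exact ⟨1, one_ne_zero, by rwa [one_smul]⟩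
  | zero => exact ⟨1, one_ne_zero, by rw [smul_zero]; exact M'.zero_mem⟩
  | add x y _ _ hx hy =>
    obtain ⟨d, hd, hdx⟩ := hx
    obtain ⟨e, he, hey⟩ := hy
    refine ⟨d * e, mul_ne_zero hd he, ?_⟩
    rw [smul_add]
    refine M'.add_mem ?_ ?_
    · rw [mul_comm, mul_smul]; exact M'.smul_mem e hdx
    · rw [mul_smul]; exact M'.smul_mem d hey
  | smul c x _ hx =>
    obtain ⟨d, hd, hdx⟩ := hx
    obtain ⟨a, s, hs, hc⟩ := IsFractionRing.div_surjective (A := R) c
    have hs0 : s ≠ 0 := nonZeroDivisors.ne_zero hs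
    have hsK : algebraMap R K s ≠ 0 := by
      intro h
      exact hs0 ((map_eq_zero_iff _ (IsFractionRing.injective R K)).mp h)
    refine ⟨s * d, mul_ne_zero hs0 hd, ?_⟩
    have : (s * d) • (c • x) = a • (d • x) := by
      rw [← algebraMap_smul K (s * d), ← algebraMap_smul K a, ← algebraMap_smul K d, smul_smul,
        smul_smul, ← hc, map_mul]
      congr 1
      field_simp
    rw [this]
    exact M'.smul_mem a hdx

/-- If `M` is finitely generated and `M'` spans `V`, then `d M ⊆ M'` for some `d ≠ 0`. -/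
theorem h1r_exists_smul_le (M M' : Submodule R V) (hfg : M.FG)
    (hspan : span K (M' : Set V) = ⊤) : ∃ d : R, d ≠ 0 ∧ ∀ m ∈ M, d • m ∈ M' := by
  classical
  obtain ⟨S, hS⟩ := hfg
  choose d hd hdm using fun v : V => h1r_exists_smul_mem (K := K) M' hspan v
  refine ⟨∏ x ∈ S, d x, Finset.prod_ne_zero_iff.mpr (fun x _ => hd x), ?_⟩
  intro m hm
  rw [← hS] at hm
  induction hm using Submodule.span_induction with
  | mem x hx =>
    rw [← Finset.mul_prod_erase S d hx, mul_comm, mul_smul]
    exact M'.smul_mem _ (hdm x)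
  | zero => rw [smul_zero]; exact M'.zero_mem
  | add x y _ _ hx hy => rw [smul_add]; exact M'.add_mem hx hy
  | smul c x _ hx => rw [smul_comm]; exact M'.smul_mem c hx

end Denominators

variable {k : Type*} [Field k] {V : Type*} [AddCommGroup V] [Module (RatFunc k) V]
  [Module k V] [IsScalarTower k (RatFunc k) V] [Module k[X] V] [IsScalarTower k[X] (RatFunc k) V]
  [IsScalarTower k k[X] V] [FiniteDimensional (RatFunc k) V]

/-! ### commensurability over `k[y]` -/

theorem h1r_std_sup_twist {ι : Type*} [Fintype ι] (b : Module.Basis ι (RatFunc k) V)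
    (c : RatFunc k) (hc : c ≠ 0) :
    sk (k := k) (twist c (stdFin b)) ⊔ sk (k := k) (twist c (stdInf b)) = ⊤ := by
  have h := std_sup_eq_top b (1 : RatFunc k) one_ne_zero (by simp)
  rw [twist_one] at h
  rw [sk_twist c hc, sk_twist c hc, ← Submodule.map_sup, h, Submodule.map_top,
    LinearMap.range_eq_top]
  exact (mulEquiv (k := k) (V := V) c hc).surjective

theorem h1r_finCodim_R0 (M M' : Submodule k[X] V) [IsLattice (RatFunc k) M]
    [IsLattice (RatFunc k) M'] : FinCodim (sk (k := k) M) (sk (k := k) M') := by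
  obtain ⟨n, b, hM⟩ := H11RR.h11rr_exists_basis (R := k[X]) (K := RatFunc k) M
  obtain ⟨d, hd, hdM⟩ := h1r_exists_smul_le (K := RatFunc k) M M' IsLattice.fg
    IsLattice.span_eq_top
  set c : RatFunc k := algebraMap k[X] (RatFunc k) d with hc_def
  have hc : c ≠ 0 := h1r_algebraMap_ne_zero hd
  have hcdeg : c.intDegree = (d.natDegree : ℤ) := RatFunc.intDegree_polynomial
  have hsmul : ∀ v : V, c • v = d • v := fun v => algebraMap_smul (RatFunc k) d v
  -- `c M ≤ M` and `c M ≤ M'`
  have hle : sk (k := k) (twist c M) ≤ sk (k := k) M := by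
    intro v hv
    obtain ⟨m, hm, rfl⟩ := (mem_twist c M v).mp hv
    rw [Submodule.restrictScalars_mem, hsmul]
    exact M.smul_mem d hm
  have hle' : sk (k := k) (twist c M) ≤ sk (k := k) M' := by
    intro v hv
    obtain ⟨m, hm, rfl⟩ := (mem_twist c M v).mp hv
    rw [Submodule.restrictScalars_mem, hsmul]
    exact hdM m hm
  refine finCodim_mono hle' ?_
  have hM' : M = stdFin b := hM
  refine finCodim_of_sup_eq_top (B := sk (k := k) (twist c (stdInf b))) hle ?_ ?_
  · rw [hM']; exact h1r_std_sup_twist b c hc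
  · rw [hM']; exact (std_h0 b c hc d.natDegree hcdeg).1

theorem comm_R0 (M M' : Submodule k[X] V) [IsLattice (RatFunc k) M] [IsLattice (RatFunc k) M'] :
    Comm (sk (k := k) M) (sk (k := k) M') :=
  ⟨h1r_finCodim_R0 M M', h1r_finCodim_R0 M' M⟩

/-! ### commensurability over `Rinf` -/

theorem h1r_finCodim_Rinf (M M' : Submodule (Rinf k) V) [IsLattice (RatFunc k) M]
    [IsLattice (RatFunc k) M'] : FinCodim (sk (k := k) M) (sk (k := k) M') := by
  obtain ⟨n, b, hM⟩ := H11RR.h11rr_exists_basis (R := Rinf k) (K := RatFunc k) M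
  obtain ⟨d, hd, hdM⟩ := h1r_exists_smul_le (K := RatFunc k) M M' IsLattice.fg
    IsLattice.span_eq_top
  set c : RatFunc k := (d : RatFunc k) with hc_def
  have hc : c ≠ 0 := fun h => hd (Subtype.ext h)
  have hcdeg : c.intDegree ≤ 0 := by
    rcases d.2 with h | h
    · exact absurd h hc
    · exact h
  have hsmul : ∀ v : V, c • v = d • v := fun v => rfl
  have hle : sk (k := k) (twist c M) ≤ sk (k := k) M := by
    intro v hv
    obtain ⟨m, hm, rfl⟩ := (mem_twist c M v).mp hv
    rw [Submodule.restrictScalars_mem, hsmul]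
    exact M.smul_mem d hm
  have hle' : sk (k := k) (twist c M) ≤ sk (k := k) M' := by
    intro v hv
    obtain ⟨m, hm, rfl⟩ := (mem_twist c M v).mp hv
    rw [Submodule.restrictScalars_mem, hsmul]
    exact hdM m hm
  refine finCodim_mono hle' ?_
  -- transport by `c`: it suffices that `M` has finite codimension in `c⁻¹ M`
  have hcinv : c⁻¹ ≠ 0 := inv_ne_zero hc
  have key : FinCodim (sk (k := k) (twist c⁻¹ M)) (sk (k := k) M) := by
    have hM' : M = stdInf b := hM
    have hle2 : sk (k := k) M ≤ sk (k := k) (twist c⁻¹ M) := by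
      intro v hv
      rw [Submodule.restrictScalars_mem, mem_twist_iff_inv c⁻¹ hcinv, inv_inv, hsmul]
      exact M.smul_mem d hv
    obtain ⟨m, hm⟩ : ∃ m : ℕ, c⁻¹.intDegree = m := by
      refine ⟨(c⁻¹.intDegree).toNat, ?_⟩
      rw [RatFunc.intDegree_inv]
      omega
    refine finCodim_of_sup_eq_top (B := sk (k := k) (stdFin b)) hle2 ?_ ?_
    · have h := std_sup_eq_top b (1 : RatFunc k) one_ne_zero (by simp)
      rw [twist_one] at h
      rw [hM', sup_comm]; exact h
    · rw [hM', inf_comm]; exact (std_h0 b c⁻¹ hcinv m hm).1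
  have := finCodim_map (mulEquiv (k := k) (V := V) c hc) key
  rw [← sk_twist c hc, ← sk_twist c hc, twist_twist, mul_inv_cancel₀ hc, twist_one] at this
  exact this

theorem comm_Rinf (M M' : Submodule (Rinf k) V) [IsLattice (RatFunc k) M]
    [IsLattice (RatFunc k) M'] : Comm (sk (k := k) M) (sk (k := k) M') :=
  ⟨h1r_finCodim_Rinf M M', h1r_finCodim_Rinf M' M⟩

/-! ### all lattice pairs are finite -/

theorem finPair_lattices (M : Submodule k[X] V) (Minf : Submodule (Rinf k) V)
    [IsLattice (RatFunc k) M] [IsLattice (RatFunc k) Minf] :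
    FinPair (sk (k := k) M) (sk (k := k) Minf) := by
  obtain ⟨n, b, hM⟩ := H11RR.h11rr_exists_basis (R := k[X]) (K := RatFunc k) M
  have h := (std_chi b (1 : RatFunc k) one_ne_zero 0 (by simp)).1
  rw [twist_one] at h
  have hM' : M = stdFin b := hM
  rw [hM']
  exact (chi_comm_right (comm_Rinf (stdInf b) Minf) h).1

/-- `χ` of a lattice pair relative to a standard pair. -/
theorem chi_lattices {ι : Type*} [Fintype ι] (b : Module.Basis ι (RatFunc k) V)
    (M : Submodule k[X] V) (Minf : Submodule (Rinf k) V)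
    [IsLattice (RatFunc k) M] [IsLattice (RatFunc k) Minf] :
    chi (sk (k := k) M) (sk (k := k) Minf)
      = (Fintype.card ι : ℤ) - relIndex (sk (k := k) (stdFin b)) (sk (k := k) M)
          - relIndex (sk (k := k) (stdInf b)) (sk (k := k) Minf) := by
  obtain ⟨h, hchi⟩ := std_chi b (1 : RatFunc k) one_ne_zero 0 (by simp)
  rw [twist_one] at h hchi
  obtain ⟨h1, e1⟩ := chi_comm_left (comm_R0 (stdFin b) M) h
  obtain ⟨h2, e2⟩ := chi_comm_right (comm_Rinf (stdInf b) Minf) h1
  rw [e2, e1, hchi]
  push_cast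
  ring

/-! ### the twist index -/

theorem h1r_relIndex_twist_X_std {ι : Type*} [Fintype ι] (b : Module.Basis ι (RatFunc k) V) :
    relIndex (sk (k := k) (twist (RatFunc.X : RatFunc k) (stdInf b))) (sk (k := k) (stdInf b))
      = Fintype.card ι := by
  have hX : (RatFunc.X : RatFunc k) ≠ 0 := RatFunc.X_ne_zero
  obtain ⟨hfX, hchiX⟩ := std_chi b (RatFunc.X : RatFunc k) hX 1 (by simp)
  obtain ⟨hf1, hchi1⟩ := std_chi b (1 : RatFunc k) one_ne_zero 0 (by simp)
  rw [twist_one] at hf1 hchi1
  haveI := isLattice_twist (stdInf b) (RatFunc.X : RatFunc k) hX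
  have hcomm := comm_Rinf (twist (RatFunc.X : RatFunc k) (stdInf b)) (stdInf b)
  have := (chi_comm_right hcomm hfX).2
  rw [hchiX, hchi1] at this
  push_cast at this
  linarith

theorem h1r_relIndex_twist_X (M : Submodule (Rinf k) V) [IsLattice (RatFunc k) M] :
    relIndex (sk (k := k) (twist (RatFunc.X : RatFunc k) M)) (sk (k := k) M)
      = Module.finrank (RatFunc k) V := by
  obtain ⟨n, b, hM⟩ := H11RR.h11rr_exists_basis (R := Rinf k) (K := RatFunc k) M
  have hM' : M = stdInf b := hM
  rw [hM', h1r_relIndex_twist_X_std b, Module.finrank_eq_card_basis b]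

theorem relIndex_twist (M : Submodule (Rinf k) V) [IsLattice (RatFunc k) M] (m : ℤ) :
    relIndex (sk (k := k) (twist ((RatFunc.X : RatFunc k) ^ m) M)) (sk (k := k) M)
      = m * (Module.finrank (RatFunc k) V : ℤ) := by
  have hX : (RatFunc.X : RatFunc k) ≠ 0 := RatFunc.X_ne_zero
  -- the recurrence `ρ (m + 1) = ρ m + n`
  have step : ∀ m : ℤ,
      relIndex (sk (k := k) (twist ((RatFunc.X : RatFunc k) ^ (m + 1)) M)) (sk (k := k) M)
        = relIndex (sk (k := k) (twist ((RatFunc.X : RatFunc k) ^ m) M)) (sk (k := k) M)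
          + (Module.finrank (RatFunc k) V : ℤ) := by
    intro m
    haveI h1 := isLattice_twist M ((RatFunc.X : RatFunc k) ^ m) (zpow_ne_zero _ hX)
    haveI h2 := isLattice_twist M ((RatFunc.X : RatFunc k) ^ (m + 1)) (zpow_ne_zero _ hX)
    have htw : twist ((RatFunc.X : RatFunc k) ^ (m + 1)) M
        = twist (RatFunc.X : RatFunc k) (twist ((RatFunc.X : RatFunc k) ^ m) M) := by
      rw [twist_twist, zpow_add₀ hX, zpow_one, mul_comm]
    rw [relIndex_trans (A' := sk (k := k) (twist ((RatFunc.X : RatFunc k) ^ m) M))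
      (comm_Rinf _ _) (comm_Rinf _ _) (comm_Rinf _ _)]
    rw [htw, h1r_relIndex_twist_X]
    ring
  induction m using Int.induction_on with
  | zero => rw [zpow_zero, twist_one, relIndex_self]; simp
  | succ i ih => rw [step, ih]; push_cast; ring
  | pred i ih =>
    have := step (-(i : ℤ) - 1)
    rw [sub_add_cancel, ih] at this
    linarith

end RRalg
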