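import Mathlib
import Fermat.Agent.RR.Defs

/-!
# T-RR [RR-alg] (helper11): the valuation ring at infinity `RRalg.Rinf k` is a PID with
fraction field `k(y)`.
-/

set_option autoImplicit false
set_option linter.style.longLine false
set_option linter.unusedSectionVars false

open Polynomial Submodule Module

noncomputable section

namespace H11RR

variable (k : Type*) [Field k]

theorem h11rr_mem_Rinf_of_intDegree_le {f : RatFunc k} (h : f.intDegree ≤ 0) : f ∈ RRalg.Rinf k :=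
  Or.inr h

theorem h11rr_intDegree_le_of_mem {f : RatFunc k} (h : f ∈ RRalg.Rinf k) : f.intDegree ≤ 0 := by
  rcases h with rfl | h
  · simp
  · exact h

/-- `k(y)` is the fraction field of the valuation ring at infinity. -/
instance h11rr_isFractionRing_Rinf : IsFractionRing (RRalg.Rinf k) (RatFunc k) := by
  refine IsFractionRing.of_field (RRalg.Rinf k) (RatFunc k) fun z => ?_
  by_cases hz : z.intDegree ≤ 0
  · exact ⟨⟨z, Or.inr hz⟩, 1, by simp⟩
  · have hz0 : z ≠ 0 := by rintro rfl; simp at hz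
    refine ⟨1, ⟨z⁻¹, Or.inr ?_⟩, by simp⟩
    rw [RatFunc.intDegree_inv]
    omega

/-- The valuation ring at infinity is a principal ideal domain. -/
instance h11rr_isPrincipalIdealRing_Rinf : IsPrincipalIdealRing (RRalg.Rinf k) := by
  refine ⟨fun I => ⟨?_⟩⟩
  by_cases hI : I = ⊥
  · exact ⟨0, by rw [hI]; simp⟩
  obtain ⟨f₁, hf₁, hf₁0⟩ := Submodule.exists_mem_ne_zero_of_ne_bot hI
  let P : ℤ → Prop := fun d => ∃ f ∈ I, f ≠ 0 ∧ (f : RatFunc k).intDegree = d
  have hbdd : ∃ b : ℤ, ∀ z : ℤ, P z → z ≤ b := by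
    refine ⟨0, ?_⟩
    rintro z ⟨f, -, -, rfl⟩
    exact h11rr_intDegree_le_of_mem k f.2
  have hex : ∃ z : ℤ, P z := ⟨_, f₁, hf₁, hf₁0, rfl⟩
  obtain ⟨d₀, ⟨f₀, hf₀, hf₀0, hd₀⟩, hmax⟩ := Int.exists_greatest_of_bdd hbdd hex
  refine ⟨f₀, ?_⟩
  apply le_antisymm
  · intro g hg
    by_cases hg0 : g = 0
    · rw [hg0]; exact zero_mem _
    have hgd : (g : RatFunc k).intDegree ≤ d₀ := hmax _ ⟨g, hg, hg0, rfl⟩
    have hg0' : (g : RatFunc k) ≠ 0 := fun h => hg0 (Subtype.ext h)
    have hf₀0' : (f₀ : RatFunc k) ≠ 0 := fun h => hf₀0 (Subtype.ext h)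
    have hq : (g : RatFunc k) / (f₀ : RatFunc k) ∈ RRalg.Rinf k := by
      right
      rw [RatFunc.intDegree_div hg0' hf₀0']
      omega
    change g ∈ Ideal.span {f₀}
    rw [Ideal.mem_span_singleton']
    refine ⟨⟨_, hq⟩, ?_⟩
    apply Subtype.ext
    change (g : RatFunc k) / (f₀ : RatFunc k) * (f₀ : RatFunc k) = g
    exact div_mul_cancel₀ _ hf₀0'
  · change Ideal.span {f₀} ≤ I
    rw [Ideal.span_singleton_le_iff_mem]
    exact hf₀

end H11RR
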