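import Mathlib
import Fermat.Agent.RR.Defs
import Fermat.Agent.RR.RinfInst
import Fermat.Agent.RR.L3Abstract

/-!
# T-RR [RR-alg] L3 (helper11): `relIndex (M^*) (N^*) = relIndex N M` over `k[y]` and over `Rinf k`,
in the exact shape of the hypotheses `hL3`, `hL3inf` of `RRalg.chi_add_chi_dual`.
-/

set_option autoImplicit false
set_option linter.style.longLine false
set_option linter.unusedSectionVars false

open Polynomial Submodule Module

noncomputable section

namespace H11RR

variable {k : Type*} [Field k] {V : Type*} [AddCommGroup V] [Module (RatFunc k) V]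
  [Module k V] [IsScalarTower k (RatFunc k) V] [Module k[X] V] [IsScalarTower k[X] (RatFunc k) V]
  [IsScalarTower k k[X] V] [FiniteDimensional (RatFunc k) V]

/-- **L3 over `k[y]`**. -/
theorem h11rr_relIndex_dual_R0 (β : LinearMap.BilinForm (RatFunc k) V) (hβ : β.Nondegenerate)
    (M N : Submodule k[X] V) [IsLattice (RatFunc k) M] [IsLattice (RatFunc k) N] :
    RRalg.relIndex (RRalg.sk (k := k) (β.dualSubmodule M)) (RRalg.sk (k := k) (β.dualSubmodule N))
      = RRalg.relIndex (RRalg.sk (k := k) N) (RRalg.sk (k := k) M) :=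
  h11rr_relIndex_dual (k := k) β hβ M N

/-- **L3 over `Rinf k`**. -/
theorem h11rr_relIndex_dual_Rinf (β : LinearMap.BilinForm (RatFunc k) V) (hβ : β.Nondegenerate)
    (M N : Submodule (RRalg.Rinf k) V) [IsLattice (RatFunc k) M] [IsLattice (RatFunc k) N] :
    RRalg.relIndex (RRalg.sk (k := k) (β.dualSubmodule M)) (RRalg.sk (k := k) (β.dualSubmodule N))
      = RRalg.relIndex (RRalg.sk (k := k) N) (RRalg.sk (k := k) M) :=
  h11rr_relIndex_dual (k := k) β hβ M N

/-- The two hypotheses `hL3`, `hL3inf` of `RRalg.chi_add_chi_dual`, verbatim. -/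
theorem h11rr_hL3 (β : LinearMap.BilinForm (RatFunc k) V) (hβ : β.Nondegenerate) :
    ∀ (M N : Submodule k[X] V), IsLattice (RatFunc k) M → IsLattice (RatFunc k) N →
      RRalg.relIndex (RRalg.sk (k := k) (β.dualSubmodule M)) (RRalg.sk (k := k) (β.dualSubmodule N))
        = RRalg.relIndex (RRalg.sk (k := k) N) (RRalg.sk (k := k) M) :=
  fun M N _ _ => h11rr_relIndex_dual_R0 β hβ M N

theorem h11rr_hL3inf (β : LinearMap.BilinForm (RatFunc k) V) (hβ : β.Nondegenerate) :
    ∀ (M N : Submodule (RRalg.Rinf k) V), IsLattice (RatFunc k) M → IsLattice (RatFunc k) N →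
      RRalg.relIndex (RRalg.sk (k := k) (β.dualSubmodule M)) (RRalg.sk (k := k) (β.dualSubmodule N))
        = RRalg.relIndex (RRalg.sk (k := k) N) (RRalg.sk (k := k) M) :=
  fun M N _ _ => h11rr_relIndex_dual_Rinf β hβ M N

/-- The dual of a `k[y]`-lattice is a lattice. -/
theorem h11rr_isLattice_dual_R0 (β : LinearMap.BilinForm (RatFunc k) V) (hβ : β.Nondegenerate)
    (M : Submodule k[X] V) [IsLattice (RatFunc k) M] : IsLattice (RatFunc k) (β.dualSubmodule M) :=
  h11rr_isLattice_dual β hβ M

/-- The dual of an `Rinf`-lattice is a lattice. -/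
theorem h11rr_isLattice_dual_Rinf (β : LinearMap.BilinForm (RatFunc k) V) (hβ : β.Nondegenerate)
    (M : Submodule (RRalg.Rinf k) V) [IsLattice (RatFunc k) M] :
    IsLattice (RatFunc k) (β.dualSubmodule M) :=
  h11rr_isLattice_dual β hβ M

end H11RR
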