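import Mathlib
import Fermat.Agent.RR.L1c
import Fermat.Agent.RR.L3

/-!
# T-RR [RR-alg] L5 (helper1): index bookkeeping `χ(M, M∞) + χ(M*, y⁻² M∞*) = 0`

`M* = β.dualSubmodule M` for a nondegenerate bilinear form `β` on `V` (the trace form in the
application).  Inputs: L1 (standard pair, twist index), L2 (additivity), L3 (helper11:
`relIndex (M*) (N*) = relIndex N M`).
-/

set_option autoImplicit false
set_option linter.style.longLine false
set_option linter.unusedSectionVars false
set_option linter.style.haveILetI false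
set_option linter.unusedVariables false

open Polynomial Submodule

noncomputable section

namespace RRalg

variable {k : Type*} [Field k] {V : Type*} [AddCommGroup V] [Module (RatFunc k) V]
  [Module k V] [IsScalarTower k (RatFunc k) V] [Module k[X] V] [IsScalarTower k[X] (RatFunc k) V]
  [IsScalarTower k k[X] V] [FiniteDimensional (RatFunc k) V]

/-- L5, with the L3 inputs as hypotheses (interface form). -/
theorem chi_add_chi_dual (β : LinearMap.BilinForm (RatFunc k) V) (hβ : β.Nondegenerate)
    (hL3 : ∀ (M N : Submodule k[X] V), IsLattice (RatFunc k) M → IsLattice (RatFunc k) N →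
      relIndex (sk (k := k) (β.dualSubmodule M)) (sk (k := k) (β.dualSubmodule N))
        = relIndex (sk (k := k) N) (sk (k := k) M))
    (hL3inf : ∀ (M N : Submodule (Rinf k) V), IsLattice (RatFunc k) M → IsLattice (RatFunc k) N →
      relIndex (sk (k := k) (β.dualSubmodule M)) (sk (k := k) (β.dualSubmodule N))
        = relIndex (sk (k := k) N) (sk (k := k) M))
    (M : Submodule k[X] V) (Minf : Submodule (Rinf k) V)
    [IsLattice (RatFunc k) M] [IsLattice (RatFunc k) Minf] :
    chi (sk (k := k) M) (sk (k := k) Minf)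
      + chi (sk (k := k) (β.dualSubmodule M))
          (sk (k := k) (twist ((RatFunc.X : RatFunc k) ^ (-2 : ℤ)) (β.dualSubmodule Minf))) = 0 := by
  classical
  have hX : (RatFunc.X : RatFunc k) ≠ 0 := RatFunc.X_ne_zero
  have hX2 : ((RatFunc.X : RatFunc k) ^ (-2 : ℤ)) ≠ 0 := zpow_ne_zero _ hX
  -- a basis and its dual basis
  let b := Module.finBasis (RatFunc k) V
  let b' := β.dualBasis hβ b
  have hcard : (Fintype.card (Fin (Module.finrank (RatFunc k) V)) : ℤ)
      = (Module.finrank (RatFunc k) V : ℤ) := by simp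
  have hdF : β.dualSubmodule (stdFin b) = stdFin b' :=
    LinearMap.BilinForm.dualSubmodule_span_of_basis β hβ b
  have hdI : β.dualSubmodule (stdInf b) = stdInf b' :=
    LinearMap.BilinForm.dualSubmodule_span_of_basis β hβ b
  -- lattice instances
  haveI hMd : IsLattice (RatFunc k) (β.dualSubmodule M) := H11RR.h11rr_isLattice_dual β hβ M
  haveI hMid : IsLattice (RatFunc k) (β.dualSubmodule Minf) :=
    H11RR.h11rr_isLattice_dual β hβ Minf
  haveI hMidt : IsLattice (RatFunc k)
      (twist ((RatFunc.X : RatFunc k) ^ (-2 : ℤ)) (β.dualSubmodule Minf)) :=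
    isLattice_twist _ _ hX2
  haveI hstdt : IsLattice (RatFunc k)
      (twist ((RatFunc.X : RatFunc k) ^ (-2 : ℤ)) (stdInf b')) :=
    isLattice_twist _ _ hX2
  -- the two Euler characteristics relative to the standard pairs
  have e1 := chi_lattices b M Minf
  have e2 := chi_lattices b' (β.dualSubmodule M)
    (twist ((RatFunc.X : RatFunc k) ^ (-2 : ℤ)) (β.dualSubmodule Minf))
  -- finite part
  have f1 : relIndex (sk (k := k) (stdFin b')) (sk (k := k) (β.dualSubmodule M))
      = - relIndex (sk (k := k) (stdFin b)) (sk (k := k) M) := by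
    rw [← hdF, hL3 (stdFin b) M inferInstance inferInstance, relIndex_antisymm]
  -- infinite part
  have f2 : relIndex (sk (k := k) (stdInf b'))
      (sk (k := k) (twist ((RatFunc.X : RatFunc k) ^ (-2 : ℤ)) (β.dualSubmodule Minf)))
      = 2 * (Module.finrank (RatFunc k) V : ℤ)
        - relIndex (sk (k := k) (stdInf b)) (sk (k := k) Minf) := by
    rw [relIndex_trans (A' := sk (k := k) (twist ((RatFunc.X : RatFunc k) ^ (-2 : ℤ)) (stdInf b')))
      (comm_Rinf _ _) (comm_Rinf _ _) (comm_Rinf _ _)]
    rw [relIndex_twist_twist _ hX2, relIndex_antisymm, relIndex_twist, ← hdI,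
      hL3inf (stdInf b) Minf inferInstance inferInstance, relIndex_antisymm (sk (k := k) Minf)]
    ring
  rw [e1, e2, f1, f2, hcard]
  ring

/-- L5, unconditional (using helper11's L3). -/
theorem chi_add_chi_dual' (β : LinearMap.BilinForm (RatFunc k) V) (hβ : β.Nondegenerate)
    (M : Submodule k[X] V) (Minf : Submodule (Rinf k) V)
    [IsLattice (RatFunc k) M] [IsLattice (RatFunc k) Minf] :
    chi (sk (k := k) M) (sk (k := k) Minf)
      + chi (sk (k := k) (β.dualSubmodule M))
          (sk (k := k) (twist ((RatFunc.X : RatFunc k) ^ (-2 : ℤ)) (β.dualSubmodule Minf))) = 0 :=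
  chi_add_chi_dual β hβ (H11RR.h11rr_hL3 β hβ) (H11RR.h11rr_hL3inf β hβ) M Minf

/-- The Euler characteristic of the dual pair in terms of the indices of the duals. -/
theorem chi_dual_eq (β : LinearMap.BilinForm (RatFunc k) V) (hβ : β.Nondegenerate)
    (M : Submodule k[X] V) (Minf : Submodule (Rinf k) V)
    [IsLattice (RatFunc k) M] [IsLattice (RatFunc k) Minf] :
    chi (sk (k := k) (β.dualSubmodule M))
        (sk (k := k) (twist ((RatFunc.X : RatFunc k) ^ (-2 : ℤ)) (β.dualSubmodule Minf)))
      = chi (sk (k := k) M) (sk (k := k) Minf)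
        + relIndex (sk (k := k) (β.dualSubmodule M)) (sk (k := k) M)
        + relIndex (sk (k := k) (β.dualSubmodule Minf)) (sk (k := k) Minf)
        - 2 * (Module.finrank (RatFunc k) V : ℤ) := by
  have hX : (RatFunc.X : RatFunc k) ≠ 0 := RatFunc.X_ne_zero
  have hX2 : ((RatFunc.X : RatFunc k) ^ (-2 : ℤ)) ≠ 0 := zpow_ne_zero _ hX
  haveI hMd : IsLattice (RatFunc k) (β.dualSubmodule M) := H11RR.h11rr_isLattice_dual β hβ M
  haveI hMid : IsLattice (RatFunc k) (β.dualSubmodule Minf) :=
    H11RR.h11rr_isLattice_dual β hβ Minf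
  haveI hMidt : IsLattice (RatFunc k)
      (twist ((RatFunc.X : RatFunc k) ^ (-2 : ℤ)) (β.dualSubmodule Minf)) :=
    isLattice_twist _ _ hX2
  have hfin := finPair_lattices (k := k) M Minf
  obtain ⟨h1, e1⟩ := chi_comm_left (comm_R0 M (β.dualSubmodule M)) hfin
  obtain ⟨h2, e2⟩ := chi_comm_right (comm_Rinf Minf
    (twist ((RatFunc.X : RatFunc k) ^ (-2 : ℤ)) (β.dualSubmodule Minf))) h1
  rw [e2, e1]
  have e3 : relIndex (sk (k := k) Minf)
      (sk (k := k) (twist ((RatFunc.X : RatFunc k) ^ (-2 : ℤ)) (β.dualSubmodule Minf)))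
      = relIndex (sk (k := k) Minf) (sk (k := k) (β.dualSubmodule Minf))
        + 2 * (Module.finrank (RatFunc k) V : ℤ) := by
    rw [relIndex_trans (A' := sk (k := k) (β.dualSubmodule Minf))
      (comm_Rinf _ _) (comm_Rinf _ _) (comm_Rinf _ _)]
    rw [relIndex_antisymm (sk (k := k) (β.dualSubmodule Minf)), relIndex_twist]
    ring
  rw [e3, relIndex_antisymm (sk (k := k) M), relIndex_antisymm (sk (k := k) Minf)]
  ring

end RRalg
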