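import Mathlib
import Fermat.Agent.RR.L5
import Fermat.Agent.RR.L4

/-!
# T-RR [RR-alg] (helper1): abstract Serre duality and the genus formula for lattice pairs

From L4 (helper11: two injectivity inequalities) and L5 (`χ + χ(dual) = 0`):
* `serre_duality`: `h⁰(M*, y⁻² M∞*) = h¹(M, M∞)` and `h¹(M*, y⁻² M∞*) = h⁰(M, M∞)`;
* `two_h1_sub_two`: if `h⁰(M, M∞) = 1` then
  `2 h¹(M, M∞) - 2 = [M* : M] + [M∞* : M∞] - 2 n`.
-/

set_option autoImplicit false
set_option linter.style.longLine false
set_option linter.unusedSectionVars false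
set_option linter.style.haveILetI false
set_option linter.unusedVariables false

open Polynomial Submodule

noncomputable section

namespace RRalg

variable {k : Type*} [Field k] {V : Type*} [AddCommGroup V] [Module (RatFunc k) V]
  [Module k V] [IsScalarTower k (RatFunc k) V] [Module k[X] V] [IsScalarTower k[X] (RatFunc k) V]
  [IsScalarTower k k[X] V] [FiniteDimensional (RatFunc k) V]

/-- The dual pair of a lattice pair is again a lattice pair, hence finite. -/
theorem finPair_dual (β : LinearMap.BilinForm (RatFunc k) V) (hβ : β.Nondegenerate)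
    (M : Submodule k[X] V) (Minf : Submodule (Rinf k) V)
    [IsLattice (RatFunc k) M] [IsLattice (RatFunc k) Minf] :
    FinPair (sk (k := k) (β.dualSubmodule M))
      (sk (k := k) (twist ((RatFunc.X : RatFunc k) ^ (-2 : ℤ)) (β.dualSubmodule Minf))) := by
  have hX2 : ((RatFunc.X : RatFunc k) ^ (-2 : ℤ)) ≠ 0 := zpow_ne_zero _ RatFunc.X_ne_zero
  haveI hMd : IsLattice (RatFunc k) (β.dualSubmodule M) := H11RR.h11rr_isLattice_dual β hβ M
  haveI hMid : IsLattice (RatFunc k) (β.dualSubmodule Minf) :=
    H11RR.h11rr_isLattice_dual β hβ Minf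
  haveI hMidt : IsLattice (RatFunc k)
      (twist ((RatFunc.X : RatFunc k) ^ (-2 : ℤ)) (β.dualSubmodule Minf)) :=
    isLattice_twist _ _ hX2
  exact finPair_lattices _ _

/-- **Serre duality for lattice pairs.** -/
theorem serre_duality (β : LinearMap.BilinForm (RatFunc k) V) (hβ : β.Nondegenerate)
    (hs : β.IsSymm) (M : Submodule k[X] V) (Minf : Submodule (Rinf k) V)
    [IsLattice (RatFunc k) M] [IsLattice (RatFunc k) Minf] :
    h0 (sk (k := k) (β.dualSubmodule M))
        (sk (k := k) (twist ((RatFunc.X : RatFunc k) ^ (-2 : ℤ)) (β.dualSubmodule Minf)))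
      = h1 (sk (k := k) M) (sk (k := k) Minf) ∧
    h1 (sk (k := k) (β.dualSubmodule M))
        (sk (k := k) (twist ((RatFunc.X : RatFunc k) ^ (-2 : ℤ)) (β.dualSubmodule Minf)))
      = h0 (sk (k := k) M) (sk (k := k) Minf) := by
  have hfin := finPair_lattices (k := k) M Minf
  have hfind := finPair_dual β hβ M Minf
  have i1 := H11RR.h11rr_h0_dual_le_h1 β hβ M Minf hfin.2
  have i2 := H11RR.h11rr_h0_le_h1_dual β hβ hs M Minf hfind.2
  have e := chi_add_chi_dual' β hβ M Minf
  unfold chi at e
  constructor <;> omega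

/-- **Genus formula for lattice pairs**: if `h⁰(M, M∞) = 1` then
`2 h¹ - 2 = [M* : M] + [M∞* : M∞] - 2 n`. -/
theorem two_h1_sub_two (β : LinearMap.BilinForm (RatFunc k) V) (hβ : β.Nondegenerate)
    (hs : β.IsSymm) (M : Submodule k[X] V) (Minf : Submodule (Rinf k) V)
    [IsLattice (RatFunc k) M] [IsLattice (RatFunc k) Minf]
    (hconst : h0 (sk (k := k) M) (sk (k := k) Minf) = 1) :
    2 * (h1 (sk (k := k) M) (sk (k := k) Minf) : ℤ) - 2
      = relIndex (sk (k := k) (β.dualSubmodule M)) (sk (k := k) M)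
        + relIndex (sk (k := k) (β.dualSubmodule Minf)) (sk (k := k) Minf)
        - 2 * (Module.finrank (RatFunc k) V : ℤ) := by
  obtain ⟨d1, d2⟩ := serre_duality β hβ hs M Minf
  have e := chi_dual_eq β hβ M Minf
  unfold chi at e
  rw [d1, d2, hconst] at e
  push_cast at e
  linarith

/-- The space of "canonical sections" `M* ∩ y⁻² M∞*` has dimension `h¹(M, M∞)`. -/
theorem finrank_canonical (β : LinearMap.BilinForm (RatFunc k) V) (hβ : β.Nondegenerate)
    (hs : β.IsSymm) (M : Submodule k[X] V) (Minf : Submodule (Rinf k) V)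
    [IsLattice (RatFunc k) M] [IsLattice (RatFunc k) Minf] :
    Module.finrank k ↥(sk (k := k) (β.dualSubmodule M) ⊓
        sk (k := k) (twist ((RatFunc.X : RatFunc k) ^ (-2 : ℤ)) (β.dualSubmodule Minf)))
      = h1 (sk (k := k) M) (sk (k := k) Minf) :=
  (serre_duality β hβ hs M Minf).1

end RRalg
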