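import Mathlib
import Fermat.Agent.RR.Duality

/-!
# T-RR [RR-alg] (helper1): the lattice pair `(B, B∞)` of a function field `F / k(y)`

`F` a finite separable extension of `K = RatFunc k`; `Bfin` = integral closure of `k[y]`,
`Binf` = integral closure of `Rinf k`, both are lattices in `F`.  If `k` is algebraically closed
then `B ∩ B∞ = k`, so `h⁰(B, B∞) = 1`.  Consequences (`rr_alg`):

* `dim_k (B* ∩ y⁻² B∞*) = g' := h¹(B, B∞)`  (duals w.r.t. the trace form),
* `2 g' - 2 = [B* : B] + [B∞* : B∞] - 2 [F : K]`.
-/

set_option autoImplicit false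
set_option linter.style.longLine false
set_option linter.unusedSectionVars false
set_option linter.style.haveILetI false
set_option linter.unusedVariables false

open Polynomial Submodule

noncomputable section

namespace RRalg

section Generic

variable {R K F : Type*} [CommRing R] [IsDomain R] [Field K] [Field F] [Algebra R K]
  [IsFractionRing R K] [Algebra K F] [Algebra R F] [IsScalarTower R K F]
  [FiniteDimensional K F]

/-- The integral closure of `R` in a finite separable extension of `Frac R` is a lattice. -/
theorem isLattice_integralClosure [IsIntegrallyClosed R] [IsNoetherianRing R]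
    [Algebra.IsSeparable K F] :
    IsLattice K (Subalgebra.toSubmodule (integralClosure R F)) where
  fg := by
    have h : Module.Finite R ↥(integralClosure R F) :=
      IsIntegralClosure.finite R K F (integralClosure R F)
    exact Module.Finite.iff_fg.mp h
  span_eq_top := by
    rw [eq_top_iff]
    intro x _
    have halg : IsAlgebraic R x :=
      (IsFractionRing.isAlgebraic_iff R K F).mpr (Algebra.IsAlgebraic.isAlgebraic x)
    obtain ⟨y, hy, hint⟩ := halg.exists_integral_multiple
    have hyK : algebraMap R K y ≠ 0 := by
      intro h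
      exact hy ((map_eq_zero_iff _ (IsFractionRing.injective R K)).mp h)
    have hx : x = (algebraMap R K y)⁻¹ • (y • x) := by
      rw [← algebraMap_smul K y x, smul_smul, inv_mul_cancel₀ hyK, one_smul]
    rw [hx]
    exact Submodule.smul_mem _ _ (Submodule.subset_span hint)

end Generic

variable (k : Type*) [Field k] (F : Type*) [Field F] [Algebra (RatFunc k) F]
  [Algebra k F] [IsScalarTower k (RatFunc k) F] [Algebra k[X] F]
  [IsScalarTower k[X] (RatFunc k) F] [IsScalarTower k k[X] F]

/-- The integral closure of `k[y]` in `F`, as a `k[y]`-submodule. -/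
def Bfin : Submodule k[X] F := Subalgebra.toSubmodule (integralClosure k[X] F)

/-- The integral closure of `Rinf k` in `F`, as an `Rinf`-submodule. -/
def Binf : Submodule (Rinf k) F := Subalgebra.toSubmodule (integralClosure (Rinf k) F)

variable {k F}

theorem mem_Bfin {x : F} : x ∈ Bfin k F ↔ IsIntegral k[X] x := Iff.rfl

theorem mem_Binf {x : F} : x ∈ Binf k F ↔ IsIntegral (Rinf k) x := Iff.rfl

variable [FiniteDimensional (RatFunc k) F] [Algebra.IsSeparable (RatFunc k) F]

instance Bfin_isLattice : IsLattice (RatFunc k) (Bfin k F) :=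
  isLattice_integralClosure (R := k[X]) (K := RatFunc k) (F := F)

instance Binf_isLattice : IsLattice (RatFunc k) (Binf k F) :=
  isLattice_integralClosure (R := Rinf k) (K := RatFunc k) (F := F)

/-- An element integral over both `k[y]` and `Rinf` is integral over `k`. -/
theorem isIntegral_of_mem_inf {x : F} (h1 : IsIntegral k[X] x) (h2 : IsIntegral (Rinf k) x) :
    IsIntegral k x := by
  have e1 := minpoly.isIntegrallyClosed_eq_field_fractions' (RatFunc k) h1
  have e2 := minpoly.isIntegrallyClosed_eq_field_fractions' (RatFunc k) h2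
  -- each coefficient of the minimal polynomial over `K` is a constant
  have hcoeff : ∀ i, ∃ a : k, (minpoly (RatFunc k) x).coeff i = algebraMap k (RatFunc k) a := by
    intro i
    have c1 : (minpoly (RatFunc k) x).coeff i
        = algebraMap k[X] (RatFunc k) ((minpoly k[X] x).coeff i) := by
      rw [e1, Polynomial.coeff_map]
    have c2 : (minpoly (RatFunc k) x).coeff i ∈ Rinf k := by
      rw [e2, Polynomial.coeff_map]
      exact ((minpoly (Rinf k) x).coeff i).2
    rw [c1] at c2
    obtain ⟨a, ha⟩ := (h1r_poly_mem_Rinf_iff _).mp c2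
    refine ⟨a, ?_⟩
    rw [c1, ha]
    rfl
  choose a ha using hcoeff
  have hK : IsIntegral (RatFunc k) x := h1.tower_top
  -- the polynomial over `k`
  let q : k[X] := ∑ i ∈ Finset.range ((minpoly (RatFunc k) x).natDegree + 1),
    Polynomial.monomial i (a i)
  have hqmap : q.map (algebraMap k (RatFunc k)) = minpoly (RatFunc k) x := by
    ext i
    simp only [q, Polynomial.coeff_map, Polynomial.finsetSum_coeff, Polynomial.coeff_monomial]
    rw [Finset.sum_ite_eq' (Finset.range ((minpoly (RatFunc k) x).natDegree + 1)) i]
    split_ifs with hi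
    · exact (ha i).symm
    · rw [map_zero]
      rw [Finset.mem_range, not_lt] at hi
      exact (Polynomial.coeff_eq_zero_of_natDegree_lt (by omega)).symm
  have hqmonic : q.Monic := by
    have := minpoly.monic hK
    rw [← hqmap] at this
    exact (Polynomial.monic_map_iff (f := algebraMap k (RatFunc k))).mp this
  refine ⟨q, hqmonic, ?_⟩
  have := minpoly.aeval (RatFunc k) x
  rw [← hqmap, Polynomial.aeval_def, Polynomial.eval₂_map,
    ← IsScalarTower.algebraMap_eq k (RatFunc k) F] at this
  exact this

/-- `B ∩ B∞ = k` when `k` is algebraically closed. -/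
theorem inf_Bfin_Binf [IsAlgClosed k] :
    sk (k := k) (Bfin k F) ⊓ sk (k := k) (Binf k F) = Submodule.span k {(1 : F)} := by
  ext x
  rw [Submodule.mem_inf, Submodule.restrictScalars_mem, Submodule.restrictScalars_mem,
    mem_Bfin, mem_Binf, Submodule.mem_span_singleton]
  constructor
  · rintro ⟨h1, h2⟩
    have hint := isIntegral_of_mem_inf h1 h2
    have hirr := minpoly.irreducible hint
    have hdeg := IsAlgClosed.degree_eq_one_of_irreducible k hirr
    obtain ⟨c, hc⟩ := minpoly.mem_range_of_degree_eq_one k x hdeg
    exact ⟨c, by rw [← hc, Algebra.smul_def, mul_one]⟩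
  · rintro ⟨c, rfl⟩
    have hc : c • (1 : F) = algebraMap k F c := by rw [Algebra.smul_def, mul_one]
    rw [hc]
    constructor
    · rw [IsScalarTower.algebraMap_apply k k[X] F]
      exact isIntegral_algebraMap
    · have : algebraMap k F c = algebraMap (Rinf k) F (algebraMap k (Rinf k) c) := by
        rw [IsScalarTower.algebraMap_apply k (RatFunc k) F]
        rfl
      rw [this]
      exact isIntegral_algebraMap

theorem h0_Bfin_Binf [IsAlgClosed k] :
    h0 (sk (k := k) (Bfin k F)) (sk (k := k) (Binf k F)) = 1 := by
  unfold h0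
  rw [inf_Bfin_Binf]
  exact finrank_span_singleton one_ne_zero

/-- **[RR-alg], lattice form.**  With `g' = h¹(B, B∞)`:
the space `B* ∩ y⁻² B∞*` has dimension `g'`, and `2 g' - 2 = [B* : B] + [B∞* : B∞] - 2 [F : K]`. -/
theorem rr_alg [IsAlgClosed k] :
    Module.finrank k ↥(sk (k := k) ((Algebra.traceForm (RatFunc k) F).dualSubmodule (Bfin k F)) ⊓
        sk (k := k) (twist ((RatFunc.X : RatFunc k) ^ (-2 : ℤ))
          ((Algebra.traceForm (RatFunc k) F).dualSubmodule (Binf k F))))
      = h1 (sk (k := k) (Bfin k F)) (sk (k := k) (Binf k F)) ∧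
    2 * (h1 (sk (k := k) (Bfin k F)) (sk (k := k) (Binf k F)) : ℤ) - 2
      = relIndex (sk (k := k) ((Algebra.traceForm (RatFunc k) F).dualSubmodule (Bfin k F)))
          (sk (k := k) (Bfin k F))
        + relIndex (sk (k := k) ((Algebra.traceForm (RatFunc k) F).dualSubmodule (Binf k F)))
          (sk (k := k) (Binf k F))
        - 2 * (Module.finrank (RatFunc k) F : ℤ) :=
  ⟨finrank_canonical _ (traceForm_nondegenerate (RatFunc k) F)
      (Algebra.traceForm_isSymm (RatFunc k)) (Bfin k F) (Binf k F),
    two_h1_sub_two _ (traceForm_nondegenerate (RatFunc k) F)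
      (Algebra.traceForm_isSymm (RatFunc k)) (Bfin k F) (Binf k F) h0_Bfin_Binf⟩

end RRalg
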