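import Mathlib
import Fermat.Agent.RR.Field

/-!
# T-RR E3, BRIDGE (helper1): `RatFunc k`-algebra structures versus `k⟮y⟯`

Two directions.

* **Abstract → concrete** (`section Abstract`): in the setting of `RR/Field.lean`
  (`[Algebra (RatFunc k) F] [Algebra k F] [IsScalarTower k (RatFunc k) F]`), the element
  `yGen k F := algebraMap (RatFunc k) F X` is transcendental over `k`, the image of `RatFunc k` is
  `k⟮yGen⟯`, and `F` is finite over `RatFunc k` iff it is finite over `k⟮yGen⟯`, with the same
  `finrank`.
* **Concrete → abstract** (`section Concrete`): for `y : F` transcendental over `K`, the algebra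
  structures `bridgeRatAlgebra y hy : Algebra (RatFunc K) F` (`X ↦ y`) and
  `bridgePolyAlgebra y : Algebra K[X] F`, with all the scalar towers.
-/

set_option autoImplicit false
set_option linter.style.longLine false
set_option linter.unusedSectionVars false
set_option linter.style.haveILetI false
set_option linter.unusedVariables false

open Polynomial IntermediateField

noncomputable section

namespace RRalg

section Abstract

variable (k : Type*) [Field k] (F : Type*) [Field F] [Algebra (RatFunc k) F] [Algebra k F]
  [IsScalarTower k (RatFunc k) F]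

/-- The image of `X` in `F`. -/
def yGen : F := algebraMap (RatFunc k) F RatFunc.X

theorem yGen_def : yGen k F = algebraMap (RatFunc k) F RatFunc.X := rfl

theorem bridge_algebraMap_poly (p : k[X]) :
    algebraMap (RatFunc k) F (algebraMap k[X] (RatFunc k) p) = aeval (yGen k F) p := by
  have h : ((IsScalarTower.toAlgHom k (RatFunc k) F).comp
      (IsScalarTower.toAlgHom k k[X] (RatFunc k))) = aeval (yGen k F) := by
    apply Polynomial.algHom_ext
    simp [yGen, RatFunc.algebraMap_X]
  exact congrArg (fun f : k[X] →ₐ[k] F => f p) h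

theorem bridge_algebraMap_eq (r : RatFunc k) :
    algebraMap (RatFunc k) F r = aeval (yGen k F) r.num / aeval (yGen k F) r.denom := by
  conv_lhs => rw [← RatFunc.num_div_denom r]
  rw [map_div₀, bridge_algebraMap_poly, bridge_algebraMap_poly]

theorem transcendental_yGen : Transcendental k (yGen k F) := by
  rw [transcendental_iff_injective]
  intro p q hpq
  rw [← bridge_algebraMap_poly, ← bridge_algebraMap_poly] at hpq
  exact RatFunc.algebraMap_injective k ((algebraMap (RatFunc k) F).injective hpq)

theorem mem_adjoin_yGen_iff (x : F) :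
    x ∈ k⟮yGen k F⟯ ↔ ∃ r : RatFunc k, algebraMap (RatFunc k) F r = x := by
  rw [IntermediateField.mem_adjoin_simple_iff]
  constructor
  · rintro ⟨r, s, rfl⟩
    refine ⟨algebraMap k[X] (RatFunc k) r / algebraMap k[X] (RatFunc k) s, ?_⟩
    rw [map_div₀, bridge_algebraMap_poly, bridge_algebraMap_poly]
  · rintro ⟨r, rfl⟩
    exact ⟨r.num, r.denom, bridge_algebraMap_eq k F r⟩

/-- `RatFunc k ≃ k⟮y⟯`. -/
def ratEquiv : RatFunc k ≃+* k⟮yGen k F⟯ :=
  RingEquiv.ofBijective
    ((algebraMap (RatFunc k) F).codRestrict (k⟮yGen k F⟯).toSubfield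
      (fun r => (mem_adjoin_yGen_iff k F _).mpr ⟨r, rfl⟩))
    ⟨fun a b h => (algebraMap (RatFunc k) F).injective (congrArg Subtype.val h),
      fun x => by
        obtain ⟨r, hr⟩ := (mem_adjoin_yGen_iff k F x.1).mp x.2
        exact ⟨r, Subtype.ext hr⟩⟩

theorem coe_ratEquiv (r : RatFunc k) :
    ((ratEquiv k F r : k⟮yGen k F⟯) : F) = algebraMap (RatFunc k) F r := rfl

theorem ratEquiv_comp :
    (algebraMap (k⟮yGen k F⟯) F).comp (ratEquiv k F).toRingHom
      = (RingEquiv.refl F).toRingHom.comp (algebraMap (RatFunc k) F) := by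
  ext r
  rfl

theorem rank_adjoin_yGen :
    Module.rank (RatFunc k) F = Module.rank (k⟮yGen k F⟯) F :=
  Algebra.rank_eq_of_equiv_equiv (ratEquiv k F) (RingEquiv.refl F) (ratEquiv_comp k F)

theorem finrank_adjoin_yGen :
    Module.finrank (k⟮yGen k F⟯) F = Module.finrank (RatFunc k) F :=
  (Algebra.finrank_eq_of_equiv_equiv (ratEquiv k F) (RingEquiv.refl F) (ratEquiv_comp k F)).symm

theorem finiteDimensional_adjoin_yGen [FiniteDimensional (RatFunc k) F] :
    FiniteDimensional (k⟮yGen k F⟯) F := by
  show Module.Finite _ _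
  rw [← Module.rank_lt_aleph0_iff, ← rank_adjoin_yGen]
  exact Module.rank_lt_aleph0 _ _

theorem finiteDimensional_of_adjoin_yGen [FiniteDimensional (k⟮yGen k F⟯) F] :
    FiniteDimensional (RatFunc k) F := by
  show Module.Finite _ _
  rw [← Module.rank_lt_aleph0_iff, rank_adjoin_yGen]
  exact Module.rank_lt_aleph0 _ _

end Abstract

section Concrete

variable {K F : Type*} [Field K] [Field F] [Algebra K F] (y : F) (hy : Transcendental K y)

/-- The `K`-algebra embedding `K(X) → F`, `X ↦ y`. -/
def bridgeAlgHom : RatFunc K →ₐ[K] F :=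
  RatFunc.liftAlgHom (aeval y)
    (nonZeroDivisors_le_comap_nonZeroDivisors_of_injective _ (transcendental_iff_injective.mp hy))

theorem bridgeAlgHom_algebraMap (p : K[X]) :
    bridgeAlgHom y hy (algebraMap K[X] (RatFunc K) p) = aeval y p := by
  have := RatFunc.liftAlgHom_apply_div (aeval y)
    (nonZeroDivisors_le_comap_nonZeroDivisors_of_injective _ (transcendental_iff_injective.mp hy))
    p 1
  rw [map_one, div_one, map_one, div_one] at this
  exact this

theorem bridgeAlgHom_X : bridgeAlgHom y hy RatFunc.X = y := by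
  rw [← RatFunc.algebraMap_X, bridgeAlgHom_algebraMap, aeval_X]

/-- `F` as a `K(X)`-algebra via `X ↦ y`. -/
@[reducible] def bridgeRatAlgebra : Algebra (RatFunc K) F := (bridgeAlgHom y hy).toRingHom.toAlgebra

/-- `F` as a `K[X]`-algebra via `X ↦ y`. -/
@[reducible] def bridgePolyAlgebra : Algebra K[X] F := (aeval y : K[X] →ₐ[K] F).toRingHom.toAlgebra

theorem bridge_tower_K_rat :
    letI := bridgeRatAlgebra y hy
    IsScalarTower K (RatFunc K) F := by
  letI := bridgeRatAlgebra y hy
  exact IsScalarTower.of_algebraMap_eq (fun c => ((bridgeAlgHom y hy).commutes c).symm)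

theorem bridge_tower_K_poly :
    letI := bridgePolyAlgebra (K := K) y
    IsScalarTower K K[X] F := by
  letI := bridgePolyAlgebra (K := K) y
  exact IsScalarTower.of_algebraMap_eq (fun c => ((aeval y : K[X] →ₐ[K] F).commutes c).symm)

theorem bridge_tower_poly_rat :
    letI := bridgeRatAlgebra y hy
    letI := bridgePolyAlgebra (K := K) y
    IsScalarTower K[X] (RatFunc K) F := by
  letI := bridgeRatAlgebra y hy
  letI := bridgePolyAlgebra (K := K) y
  exact IsScalarTower.of_algebraMap_eq (fun p => (bridgeAlgHom_algebraMap y hy p).symm)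

theorem bridge_yGen :
    letI := bridgeRatAlgebra y hy
    yGen K F = y := by
  letI := bridgeRatAlgebra y hy
  exact bridgeAlgHom_X y hy

theorem bridge_finiteDimensional [FiniteDimensional K⟮y⟯ F] :
    letI := bridgeRatAlgebra y hy
    FiniteDimensional (RatFunc K) F := by
  letI := bridgeRatAlgebra y hy
  haveI := bridge_tower_K_rat y hy
  have hyg : yGen K F = y := bridge_yGen y hy
  haveI : FiniteDimensional K⟮yGen K F⟯ F := by rw [hyg]; infer_instance
  exact finiteDimensional_of_adjoin_yGen K F

theorem bridge_finrank :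
    letI := bridgeRatAlgebra y hy
    Module.finrank (RatFunc K) F = Module.finrank K⟮y⟯ F := by
  letI := bridgeRatAlgebra y hy
  haveI := bridge_tower_K_rat y hy
  have hyg : yGen K F = y := bridge_yGen y hy
  rw [← finrank_adjoin_yGen K F, hyg]

end Concrete

end RRalg
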