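/-
T-RR [RR-alg], slice L6a (helper27): the different of a tamely ramified extension of Dedekind
domains, residue characteristic zero version.

* `h27_not_dvd_differentIdeal_of_charZero` : if `p B = P * Q` with `P`, `Q` coprime, `P ≠ ⊤`, and
  `A ⧸ p` has characteristic zero, then `¬ P ∣ differentIdeal A B` (the idempotent of `B ⧸ p B`
  cutting out `B ⧸ P` has trace `dim (B ⧸ P) ≠ 0`).
* `h27_count_differentIdeal` : for a prime `P ≠ ⊥` of `B` over `p`, with `A ⧸ p` of characteristic
  zero, the exponent of `P` in the different is exactly `e - 1`, `e` the exponent of `P` in `p B`.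
-/
import Mathlib

set_option autoImplicit false

namespace H27L6

open Module Algebra nonZeroDivisors UniqueFactorizationMonoid

attribute [local instance] FractionRing.liftAlgebra FractionRing.isScalarTower_liftAlgebra

section Different

variable (A : Type*) {B : Type*} [CommRing A] [CommRing B] [Algebra A B]
  [IsDedekindDomain A] [IsDedekindDomain B] [IsTorsionFree A B] [Module.Finite A B]

/-- If `p B = P * Q` with `P`, `Q` coprime and `A ⧸ p` of characteristic zero, then `P` does not
divide the different. -/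
theorem h27_not_dvd_differentIdeal_of_charZero
    [Algebra.IsSeparable (FractionRing A) (FractionRing B)]
    {p : Ideal A} [p.IsMaximal] [CharZero (A ⧸ p)] (P Q : Ideal B) (hPtop : P ≠ ⊤)
    (hPQ : IsCoprime P Q) (hP : P * Q = Ideal.map (algebraMap A B) p) :
    ¬ P ∣ differentIdeal A B := by
  let : Field (A ⧸ p) := Ideal.Quotient.field p
  let : Algebra (A ⧸ p) (B ⧸ Q) := Ideal.Quotient.algebraQuotientOfLEComap (by
      rw [← Ideal.map_le_iff_le_comap, ← hP]
      exact Ideal.mul_le_right)
  let : Algebra (A ⧸ p) (B ⧸ P) := Ideal.Quotient.algebraQuotientOfLEComap (by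
      rw [← Ideal.map_le_iff_le_comap, ← hP]
      exact Ideal.mul_le_left)
  have : IsScalarTower A (A ⧸ p) (B ⧸ Q) := .of_algebraMap_eq' rfl
  have : IsScalarTower A (A ⧸ p) (B ⧸ P) := .of_algebraMap_eq' rfl
  have : Module.Finite (A ⧸ p) (B ⧸ Q) :=
    Module.Finite.of_restrictScalars_finite A (A ⧸ p) (B ⧸ Q)
  have : Module.Finite (A ⧸ p) (B ⧸ P) :=
    Module.Finite.of_restrictScalars_finite A (A ⧸ p) (B ⧸ P)
  have : Nontrivial (B ⧸ P) := Ideal.Quotient.nontrivial_iff.mpr hPtop
  let e : (B ⧸ p.map (algebraMap A B)) ≃ₐ[A ⧸ p] ((B ⧸ P) × B ⧸ Q) :=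
    { __ := (Ideal.quotEquivOfEq hP.symm).trans (Ideal.quotientMulEquivQuotientProd P Q hPQ),
      commutes' := Quotient.ind fun _ ↦ rfl }
  obtain ⟨y, hy⟩ := Ideal.Quotient.mk_surjective (e.symm (1, 0))
  refine not_dvd_differentIdeal_of_intTrace_not_mem A P Q hP y ?_ ?_
  · have := congr((e $hy).2)
    simp at this
    simpa [e, Ideal.Quotient.eq_zero_iff_mem] using this
  · rw [← Ideal.Quotient.eq_zero_iff_mem, ← Algebra.trace_quotient_eq_of_isDedekindDomain,
      hy, Algebra.trace_eq_of_algEquiv, Algebra.trace_prod_apply]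
    simp only [map_zero, add_zero]
    have h1 : Algebra.trace (A ⧸ p) (B ⧸ P) 1 = (Module.finrank (A ⧸ p) (B ⧸ P) : A ⧸ p) := by
      have := Algebra.trace_algebraMap (R := A ⧸ p) (S := B ⧸ P) (1 : A ⧸ p)
      rw [map_one] at this
      rw [this, nsmul_eq_mul, mul_one]
    rw [h1]
    have hpos : 0 < Module.finrank (A ⧸ p) (B ⧸ P) := Module.finrank_pos
    exact_mod_cast hpos.ne'

/-- **Tame different, exact exponent.**  For a prime `P ≠ ⊥` of `B` over `p ≠ ⊥` with `A ⧸ p` of
characteristic zero, the exponent of `P` in the different is one less than its exponent in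
`p B`. -/
theorem h27_count_differentIdeal
    [Algebra.IsSeparable (FractionRing A) (FractionRing B)]
    {p : Ideal A} [p.IsMaximal] [CharZero (A ⧸ p)] (hp : p ≠ ⊥)
    (P : Ideal B) [P.IsPrime] (hP0 : P ≠ ⊥) (hPp : Ideal.map (algebraMap A B) p ≤ P) :
    Multiset.count P (normalizedFactors (differentIdeal A B)) =
      Multiset.count P (normalizedFactors (Ideal.map (algebraMap A B) p)) - 1 := by
  have hpB : Ideal.map (algebraMap A B) p ≠ ⊥ :=
    (Ideal.map_eq_bot_iff_of_injective (FaithfulSMul.algebraMap_injective A B)).not.mpr hp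
  have hPmax : P.IsMaximal := Ideal.IsPrime.isMaximal inferInstance hP0
  obtain ⟨Q, hsup, hfac⟩ := Ideal.eq_prime_pow_mul_coprime hpB P
  set e := Multiset.count P (normalizedFactors (Ideal.map (algebraMap A B) p)) with he
  have he1 : 1 ≤ e := by
    rw [he, Nat.one_le_iff_ne_zero, Ne, Multiset.count_eq_zero, not_not]
    have hprime : Prime P := (Ideal.prime_iff_isPrime hP0).mpr inferInstance
    obtain ⟨q, hq, hPq⟩ := exists_mem_normalizedFactors_of_dvd hpB hprime.irreducible
      (Ideal.dvd_iff_le.mpr hPp)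
    rw [associated_iff_eq] at hPq
    rwa [hPq]
  have hcop : IsCoprime (P ^ e) Q := (Ideal.isCoprime_iff_sup_eq.mpr hsup).pow_left
  have hPe_top : P ^ e ≠ ⊤ := by
    intro h
    have h1 : P ^ e ≤ P := Ideal.pow_le_self (by omega)
    rw [h] at h1
    exact hPmax.ne_top (top_le_iff.mp h1)
  have hnot : ¬ P ^ e ∣ differentIdeal A B :=
    h27_not_dvd_differentIdeal_of_charZero A (P ^ e) Q hPe_top hcop hfac.symm
  have hdvd : P ^ (e - 1) ∣ differentIdeal A B :=
    pow_sub_one_dvd_differentIdeal A P e hp ⟨Q, hfac⟩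
  have hirr : Irreducible P := ((Ideal.prime_iff_isPrime hP0).mpr inferInstance).irreducible
  refine UniqueFactorizationMonoid.count_normalizedFactors_eq hirr (normalize_eq _) hdvd ?_
  rwa [Nat.sub_add_cancel he1]

end Different

end H27L6
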