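/-
T-RR [RR-alg], slice L6b (helper27): `k`-dimension of quotients of a Dedekind `k`-algebra `B`
all of whose residue fields are `k`:  `dim_k B ⧸ I = number of prime factors of I` (with
multiplicity).
-/
import Mathlib

set_option autoImplicit false
set_option linter.unusedSectionVars false

namespace H27L6

open Module UniqueFactorizationMonoid

section Quot

variable (k : Type*) [Field k] {B : Type*} [CommRing B] [IsDedekindDomain B] [Algebra k B]

/-- For `a ∈ I`, `a ∉ P * I`: `span {a} ⊔ P * I = I`. -/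
theorem h27_span_sup_mul_eq {P I : Ideal B} [P.IsPrime] (hP : P ≠ ⊥) (hI : I ≠ ⊥) {a : B}
    (ha : a ∈ I) (ha' : a ∉ P * I) : Ideal.span {a} ⊔ P * I = I := by
  have hle : Ideal.span {a} ⊔ P * I ≤ I :=
    sup_le ((Ideal.span_singleton_le_iff_mem I).mpr ha) Ideal.mul_le_right
  obtain ⟨J', hJ'⟩ := Ideal.dvd_iff_le.mpr hle
  have h1 : I * J' ∣ P * I := by
    rw [← hJ']; exact Ideal.dvd_iff_le.mpr le_sup_right
  have h2 : J' ∣ P := by
    rw [mul_comm P I] at h1
    exact (mul_dvd_mul_iff_left hI).mp h1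
  have hirr : Irreducible P := ((Ideal.prime_iff_isPrime hP).mpr inferInstance).irreducible
  rcases (hirr.dvd_iff.mp h2) with hu | hassoc
  · rw [Ideal.isUnit_iff] at hu
    rw [hJ', hu, Ideal.mul_top]
  · exfalso
    rw [associated_iff_eq] at hassoc
    apply ha'
    have : a ∈ Ideal.span {a} ⊔ P * I :=
      Ideal.mem_sup_left (Ideal.mem_span_singleton_self a)
    rw [hJ', ← hassoc, mul_comm] at this
    exact this

/-- For `a ∉ P * I`, `a * x ∈ P * I` implies `x ∈ P`. -/
theorem h27_mem_of_mul_mem {P I : Ideal B} [hPm : P.IsMaximal] {a x : B} (ha : a ∈ I)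
    (ha' : a ∉ P * I) (hx : a * x ∈ P * I) : x ∈ P := by
  by_contra hxP
  obtain ⟨y, z, hz, hxyz⟩ := hPm.exists_inv hxP
  apply ha'
  have e : a = (a * x) * y + z * a := by
    linear_combination (-a) * hxyz
  rw [e]
  exact Ideal.add_mem _ (Ideal.mul_mem_right _ _ hx) (Ideal.mul_mem_mul hz ha)

/-- Multiplication by `a ∈ I` as a `k`-linear map `B ⧸ P → B ⧸ P * I`. -/
noncomputable def h27_psi (P I : Ideal B) {a : B} (ha : a ∈ I) : (B ⧸ P) →ₗ[k] (B ⧸ (P * I)) :=
  (Submodule.liftQ P ((Submodule.mkQ (P * I)).comp (LinearMap.mulLeft B a)) (by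
    intro x hx
    rw [LinearMap.mem_ker, LinearMap.comp_apply, LinearMap.mulLeft_apply, Submodule.mkQ_apply,
      Submodule.Quotient.mk_eq_zero]
    have h := Ideal.mul_mem_mul hx ha
    rwa [mul_comm x a] at h)).restrictScalars k

theorem h27_psi_mk (P I : Ideal B) {a : B} (ha : a ∈ I) (x : B) :
    h27_psi k P I ha (Ideal.Quotient.mk P x) = Ideal.Quotient.mk (P * I) (a * x) := rfl

/-- The projection `B ⧸ P * I → B ⧸ I` as a `k`-linear map. -/
noncomputable def h27_pi (P I : Ideal B) : (B ⧸ (P * I)) →ₗ[k] (B ⧸ I) :=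
  (Ideal.Quotient.factorₐ k (Ideal.mul_le_right : P * I ≤ I)).toLinearMap

theorem h27_pi_mk (P I : Ideal B) (x : B) :
    h27_pi k P I (Ideal.Quotient.mk (P * I) x) = Ideal.Quotient.mk I x := rfl

theorem h27_pi_surjective (P I : Ideal B) : Function.Surjective (h27_pi k P I) := by
  intro y
  obtain ⟨x, rfl⟩ := Ideal.Quotient.mk_surjective y
  exact ⟨Ideal.Quotient.mk (P * I) x, rfl⟩

theorem h27_psi_injective {P I : Ideal B} [hPm : P.IsMaximal] {a : B} (ha : a ∈ I)
    (ha' : a ∉ P * I) : Function.Injective (h27_psi k P I ha) := by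
  rw [← LinearMap.ker_eq_bot, LinearMap.ker_eq_bot']
  intro y hy
  obtain ⟨x, rfl⟩ := Ideal.Quotient.mk_surjective y
  rw [h27_psi_mk, Ideal.Quotient.eq_zero_iff_mem] at hy
  rw [Ideal.Quotient.eq_zero_iff_mem]
  exact h27_mem_of_mul_mem ha ha' hy

theorem h27_range_psi {P I : Ideal B} [P.IsPrime] (hP : P ≠ ⊥) (hI : I ≠ ⊥) {a : B} (ha : a ∈ I)
    (ha' : a ∉ P * I) : LinearMap.range (h27_psi k P I ha) = LinearMap.ker (h27_pi k P I) := by
  ext y
  obtain ⟨x, rfl⟩ := Ideal.Quotient.mk_surjective y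
  rw [LinearMap.mem_ker, h27_pi_mk, Ideal.Quotient.eq_zero_iff_mem, LinearMap.mem_range]
  constructor
  · rintro ⟨z, hz⟩
    obtain ⟨w, rfl⟩ := Ideal.Quotient.mk_surjective z
    rw [h27_psi_mk, Ideal.Quotient.eq] at hz
    have h1 : a * w ∈ I := Ideal.mul_mem_right _ _ ha
    have h2 : a * w - x ∈ I := Ideal.mul_le_right hz
    have : x = a * w - (a * w - x) := by ring
    rw [this]
    exact Ideal.sub_mem _ h1 h2
  · intro hx
    rw [← h27_span_sup_mul_eq hP hI ha ha', Ideal.mem_span_singleton_sup] at hx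
    obtain ⟨w, c, hc, rfl⟩ := hx
    refine ⟨Ideal.Quotient.mk P w, ?_⟩
    rw [h27_psi_mk, Ideal.Quotient.eq]
    have : a * w - (w * a + c) = -c := by ring
    rw [this]
    exact Ideal.neg_mem_iff _ |>.mpr hc

/-- **Additivity of the `k`-dimension.** -/
theorem h27_finrank_quot_mul {P I : Ideal B} [P.IsPrime] (hP : P ≠ ⊥) (hI : I ≠ ⊥)
    [Module.Finite k (B ⧸ P)] [Module.Finite k (B ⧸ I)] :
    Module.Finite k (B ⧸ (P * I)) ∧
      finrank k (B ⧸ (P * I)) = finrank k (B ⧸ I) + finrank k (B ⧸ P) := by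
  have hPm : P.IsMaximal := Ideal.IsPrime.isMaximal inferInstance hP
  have hlt : P * I < I := by
    refine lt_of_le_of_ne Ideal.mul_le_right ?_
    intro h
    have h' : P * I = ⊤ * I := by rw [Ideal.top_mul]; exact h
    exact hPm.ne_top (mul_right_cancel₀ hI h')
  obtain ⟨a, ha, ha'⟩ := SetLike.exists_of_lt hlt
  have hinj := h27_psi_injective k ha ha'
  have hrange := h27_range_psi k hP hI ha ha'
  have hfin_ker : Module.Finite k (LinearMap.ker (h27_pi k P I)) := by
    rw [← hrange]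
    exact Module.Finite.range _
  have hfin_quot : Module.Finite k ((B ⧸ (P * I)) ⧸ LinearMap.ker (h27_pi k P I)) :=
    Module.Finite.equiv ((h27_pi k P I).quotKerEquivOfSurjective (h27_pi_surjective k P I)).symm
  have hfin : Module.Finite k (B ⧸ (P * I)) :=
    Module.Finite.of_submodule_quotient (LinearMap.ker (h27_pi k P I))
  refine ⟨hfin, ?_⟩
  have h1 := LinearMap.finrank_range_add_finrank_ker (h27_pi k P I)
  rw [LinearMap.range_eq_top.mpr (h27_pi_surjective k P I), finrank_top, ← hrange,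
    LinearMap.finrank_range_of_inj hinj] at h1
  exact h1.symm

/-- **`dim_k B ⧸ I` is the number of prime factors of `I`**, when all residue fields have
`k`-dimension one. -/
theorem h27_finrank_quot_eq_card
    (hres : ∀ P : Ideal B, P.IsPrime → P ≠ ⊥ → Module.Finite k (B ⧸ P) ∧ finrank k (B ⧸ P) = 1)
    (I : Ideal B) (hI : I ≠ ⊥) :
    Module.Finite k (B ⧸ I) ∧ finrank k (B ⧸ I) = Multiset.card (normalizedFactors I) := by
  revert hI
  refine UniqueFactorizationMonoid.induction_on_prime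
    (P := fun I : Ideal B => I ≠ ⊥ →
      (Module.Finite k (B ⧸ I) ∧ finrank k (B ⧸ I) = Multiset.card (normalizedFactors I)))
    I ?_ ?_ ?_
  · intro h; exact absurd rfl h
  · intro J hJ _
    rw [Ideal.isUnit_iff] at hJ
    subst hJ
    have hsub : Subsingleton (B ⧸ (⊤ : Ideal B)) := Ideal.Quotient.subsingleton_iff.mpr rfl
    refine ⟨inferInstance, ?_⟩
    rw [finrank_zero_of_subsingleton, ← Ideal.one_eq_top, normalizedFactors_one,
      Multiset.card_zero]
  · intro J P hJ0 hPprime ih _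
    have hJ : J ≠ ⊥ := hJ0
    have hP0 : P ≠ ⊥ := hPprime.ne_zero
    have hPp : P.IsPrime := Ideal.isPrime_of_prime hPprime
    obtain ⟨hfinJ, hcardJ⟩ := ih hJ
    obtain ⟨hfinP, hcardP⟩ := hres P hPp hP0
    obtain ⟨hfin, hrank⟩ := h27_finrank_quot_mul k hP0 hJ
    refine ⟨hfin, ?_⟩
    rw [hrank, hcardJ, hcardP, normalizedFactors_mul hPprime.ne_zero hJ0,
      normalizedFactors_irreducible hPprime.irreducible, Multiset.card_add,
      Multiset.card_singleton, add_comm]

end Quot

end H27L6
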