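/-
T-RR [RR-alg], slice L6 (helper27): the codimension of `B` in its trace dual `B^*`.

AKLB setting (`A` Dedekind, `K = Frac A`, `L/K` finite separable, `B` the integral closure of `A`
in `L`), all of them algebras over a field `k`:

  `codim_k (B^* : B) = dim_k (B ⧸ differentIdeal A B)`.
-/
import Mathlib
import Fermat.Agent.RR.Defs
import Fermat.Agent.RR.L2
import Fermat.Agent.RR.L6a
import Fermat.Agent.RR.L6b

set_option autoImplicit false
set_option linter.unusedSectionVars false

namespace H27L6

open Module Algebra nonZeroDivisors UniqueFactorizationMonoid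

section CodimLemma

variable {k : Type*} [Field k] {V : Type*} [AddCommGroup V] [Module k V]

/-- A surjection from `A` with kernel `A ∩ A'` computes the codimension. -/
theorem h27_codim_eq_finrank {A A' : Submodule k V} {W : Type*} [AddCommGroup W] [Module k W]
    (f : ↥A →ₗ[k] W) (hf : Function.Surjective f) (hker : ∀ x : A, f x = 0 ↔ (x : V) ∈ A') :
    RRalg.codim A A' = finrank k W ∧ (Module.Finite k W → RRalg.FinCodim A A') := by
  have hk : LinearMap.ker f = (A ⊓ A').comap A.subtype := by
    ext x
    rw [LinearMap.mem_ker, hker, Submodule.mem_comap, Submodule.mem_inf]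
    simp
  have e : (↥A ⧸ (A ⊓ A').comap A.subtype) ≃ₗ[k] W :=
    (Submodule.quotEquivOfEq _ _ hk.symm).trans (f.quotKerEquivOfSurjective hf)
  refine ⟨e.finrank_eq, fun h => ?_⟩
  exact Module.Finite.equiv e.symm

end CodimLemma

section Dual

variable (k : Type*) [Field k] (A K : Type*) (L : Type*) (B : Type*) [CommRing A] [Field K]
  [CommRing B] [Field L]
  [Algebra A K] [Algebra B L] [Algebra A B] [Algebra K L] [Algebra A L]
  [IsScalarTower A K L] [IsScalarTower A B L]
  [IsDedekindDomain A] [IsFractionRing A K]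
  [FiniteDimensional K L] [Algebra.IsSeparable K L] [IsIntegralClosure B A L]
  [IsFractionRing B L] [IsDedekindDomain B] [IsTorsionFree A B]
  [Algebra k A] [Algebra k B] [Algebra k L] [IsScalarTower k A L] [IsScalarTower k B L]

/-- The `B`-linear isomorphism `B^* ⧸ B ≃ B ⧸ 𝔇`. -/
noncomputable def h27_dualQuotEquiv :
    ((FractionalIdeal.dual A K (1 : FractionalIdeal B⁰ L) : Submodule B L) ⧸
      ((1 : FractionalIdeal B⁰ L) : Submodule B L).comap
        (FractionalIdeal.dual A K (1 : FractionalIdeal B⁰ L) : Submodule B L).subtype)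
      ≃ₗ[B]
    (((1 : FractionalIdeal B⁰ L) : Submodule B L) ⧸
      ((differentIdeal A B : FractionalIdeal B⁰ L) : Submodule B L).comap
        ((1 : FractionalIdeal B⁰ L) : Submodule B L).subtype) := by
  have hI : FractionalIdeal.dual A K (1 : FractionalIdeal B⁰ L) ≠ 0 :=
    FractionalIdeal.dual_ne_zero A K one_ne_zero
  refine FractionalIdeal.quotientEquiv (FractionalIdeal.dual A K (1 : FractionalIdeal B⁰ L)) 1 1
    (differentIdeal A B : FractionalIdeal B⁰ L) ?_ ?_ ?_ ?_ hI
  · rw [coeIdeal_differentIdeal A K L B, mul_inv_cancel₀ hI, one_mul]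
  · exact FractionalIdeal.one_le_dual_one A K
  · exact FractionalIdeal.coeIdeal_le_one
  · rw [coeIdeal_differentIdeal A K L B]
    exact inv_ne_zero hI

/-- The `B`-linear map `B → 1 ⧸ 𝔇` (`1 = B ⊆ L`). -/
noncomputable def h27_oneQuot :
    B →ₗ[B] (((1 : FractionalIdeal B⁰ L) : Submodule B L) ⧸
      ((differentIdeal A B : FractionalIdeal B⁰ L) : Submodule B L).comap
        ((1 : FractionalIdeal B⁰ L) : Submodule B L).subtype) :=
  (Submodule.mkQ _).comp
    (LinearMap.codRestrict ((1 : FractionalIdeal B⁰ L) : Submodule B L) (Algebra.linearMap B L)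
      (fun b => by
        rw [FractionalIdeal.mem_coe, FractionalIdeal.mem_one_iff]
        exact ⟨b, rfl⟩))

theorem h27_oneQuot_surjective : Function.Surjective (h27_oneQuot A L B) := by
  intro y
  obtain ⟨⟨x, hx⟩, rfl⟩ := Submodule.mkQ_surjective _ y
  rw [FractionalIdeal.mem_coe, FractionalIdeal.mem_one_iff] at hx
  obtain ⟨b, rfl⟩ := hx
  exact ⟨b, rfl⟩

theorem h27_oneQuot_ker : LinearMap.ker (h27_oneQuot A L B) = differentIdeal A B := by
  ext b
  rw [LinearMap.mem_ker, h27_oneQuot, LinearMap.comp_apply, Submodule.mkQ_apply,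
    Submodule.Quotient.mk_eq_zero, Submodule.mem_comap]
  simp only [Submodule.subtype_apply, LinearMap.codRestrict_apply, Algebra.linearMap_apply,
    FractionalIdeal.mem_coe]
  rw [FractionalIdeal.mem_coeIdeal]
  constructor
  · rintro ⟨b', hb', h⟩
    rwa [← (IsFractionRing.injective B L) h]
  · intro hb
    exact ⟨b, hb, rfl⟩

/-- `B ⧸ 𝔇 ≃ 1 ⧸ 𝔇`. -/
noncomputable def h27_oneQuotEquiv :
    (B ⧸ differentIdeal A B) ≃ₗ[B]
    (((1 : FractionalIdeal B⁰ L) : Submodule B L) ⧸
      ((differentIdeal A B : FractionalIdeal B⁰ L) : Submodule B L).comap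
        ((1 : FractionalIdeal B⁰ L) : Submodule B L).subtype) :=
  (Submodule.quotEquivOfEq _ _ (h27_oneQuot_ker A L B).symm).trans
    ((h27_oneQuot A L B).quotKerEquivOfSurjective (h27_oneQuot_surjective A L B))

/-- The underlying `k`-space of the trace dual of `B`. -/
theorem h27_mem_dual_iff (x : L) :
    x ∈ ((Algebra.traceForm K L).dualSubmodule ((1 : Submodule B L).restrictScalars A)) ↔
      x ∈ (FractionalIdeal.dual A K (1 : FractionalIdeal B⁰ L) : Submodule B L) := by
  rw [FractionalIdeal.coe_dual_one, ← Submodule.restrictScalars_traceDual,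
    Submodule.restrictScalars_mem]

/-- The `k`-linear map `B^* → B ⧸ 𝔇`. -/
noncomputable def h27_dualToQuot :
    ↥(((Algebra.traceForm K L).dualSubmodule
        ((1 : Submodule B L).restrictScalars A)).restrictScalars k) →ₗ[k]
      (B ⧸ differentIdeal A B) :=
  ((h27_oneQuotEquiv A L B).symm.restrictScalars k).toLinearMap ∘ₗ
    ((h27_dualQuotEquiv A K L B).restrictScalars k).toLinearMap ∘ₗ
    ((Submodule.mkQ _).restrictScalars k) ∘ₗ
    ({ toFun := fun x => ⟨x.1, (h27_mem_dual_iff A K L B x.1).mp x.2⟩
       map_add' := fun _ _ => rfl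
       map_smul' := fun _ _ => rfl } :
      ↥(((Algebra.traceForm K L).dualSubmodule
        ((1 : Submodule B L).restrictScalars A)).restrictScalars k) →ₗ[k]
      ↥(FractionalIdeal.dual A K (1 : FractionalIdeal B⁰ L) : Submodule B L))

theorem h27_dualToQuot_surjective : Function.Surjective (h27_dualToQuot k A K L B) := by
  intro y
  obtain ⟨z, hz⟩ := ((h27_oneQuotEquiv A L B).symm.restrictScalars k).surjective y
  obtain ⟨w, hw⟩ := ((h27_dualQuotEquiv A K L B).restrictScalars k).surjective z
  obtain ⟨⟨x, hx⟩, hx'⟩ := Submodule.mkQ_surjective _ w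
  refine ⟨⟨x, (h27_mem_dual_iff A K L B x).mpr hx⟩, ?_⟩
  rw [← hz, ← hw, ← hx']
  rfl

theorem h27_dualToQuot_eq_zero_iff
    (x : ↥(((Algebra.traceForm K L).dualSubmodule
        ((1 : Submodule B L).restrictScalars A)).restrictScalars k)) :
    h27_dualToQuot k A K L B x = 0 ↔
      (x : L) ∈ (((1 : Submodule B L).restrictScalars A).restrictScalars k) := by
  have h1 : h27_dualToQuot k A K L B x =
      (h27_oneQuotEquiv A L B).symm ((h27_dualQuotEquiv A K L B)
        (Submodule.mkQ _ ⟨x.1, (h27_mem_dual_iff A K L B x.1).mp x.2⟩)) := rfl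
  rw [h1, LinearEquiv.map_eq_zero_iff, LinearEquiv.map_eq_zero_iff, Submodule.mkQ_apply,
    Submodule.Quotient.mk_eq_zero, Submodule.mem_comap]
  simp only [Submodule.subtype_apply, FractionalIdeal.coe_one, Submodule.restrictScalars_mem]

/-- **Codimension of `B` in its trace dual.** -/
theorem h27_codim_traceDual :
    RRalg.codim
        (((Algebra.traceForm K L).dualSubmodule
          ((1 : Submodule B L).restrictScalars A)).restrictScalars k)
        (((1 : Submodule B L).restrictScalars A).restrictScalars k)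
      = finrank k (B ⧸ differentIdeal A B) ∧
    (Module.Finite k (B ⧸ differentIdeal A B) →
      RRalg.FinCodim
        (((Algebra.traceForm K L).dualSubmodule
          ((1 : Submodule B L).restrictScalars A)).restrictScalars k)
        (((1 : Submodule B L).restrictScalars A).restrictScalars k)) :=
  h27_codim_eq_finrank (h27_dualToQuot k A K L B) (h27_dualToQuot_surjective k A K L B)
    (h27_dualToQuot_eq_zero_iff k A K L B)

/-- `B ≤ B^*`. -/
theorem h27_le_traceDual :
    (((1 : Submodule B L).restrictScalars A).restrictScalars k) ≤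
      (((Algebra.traceForm K L).dualSubmodule
          ((1 : Submodule B L).restrictScalars A)).restrictScalars k) := by
  intro x hx
  rw [Submodule.restrictScalars_mem] at hx ⊢
  rw [h27_mem_dual_iff]
  have := FractionalIdeal.one_le_dual_one A K (L := L) (B := B)
  rw [Submodule.restrictScalars_mem] at hx
  exact this (by rwa [FractionalIdeal.mem_coe.symm, FractionalIdeal.coe_one])

end Dual

end H27L6
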