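/-
T-RR [RR-alg], slice L6c (helper27): membership in the inverse of an ideal of a Dedekind domain
in terms of the adic valuations:

  `x ∈ J⁻¹ ↔ ∀ P, v_P x ≤ exp (count_P J)`.
-/
import Mathlib

set_option autoImplicit false
set_option linter.unusedSectionVars false

namespace H27L6

open Module UniqueFactorizationMonoid IsDedekindDomain nonZeroDivisors

section Val

variable {B : Type*} [CommRing B] [IsDedekindDomain B]

theorem h27_pow_dvd_iff (P : HeightOneSpectrum B) {J : Ideal B} (hJ : J ≠ ⊥) (n : ℕ) :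
    P.asIdeal ^ n ∣ J ↔ n ≤ Multiset.count P.asIdeal (normalizedFactors J) := by
  rw [pow_dvd_iff_le_emultiplicity, emultiplicity_eq_count_normalizedFactors P.irreducible hJ,
    normalize_eq]
  exact Nat.cast_le

theorem h27_le_pow_count (P : HeightOneSpectrum B) {J : Ideal B} (hJ : J ≠ ⊥) :
    J ≤ P.asIdeal ^ (Multiset.count P.asIdeal (normalizedFactors J)) :=
  Ideal.le_of_dvd ((h27_pow_dvd_iff P hJ _).mpr le_rfl)

theorem h27_exists_not_mem_pow (P : HeightOneSpectrum B) {J : Ideal B} (hJ : J ≠ ⊥) :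
    ∃ d ∈ J, d ∉ P.asIdeal ^ (Multiset.count P.asIdeal (normalizedFactors J) + 1) := by
  by_contra h
  have hle : J ≤ P.asIdeal ^ (Multiset.count P.asIdeal (normalizedFactors J) + 1) := by
    intro d hd
    by_contra hd'
    exact h ⟨d, hd, hd'⟩
  have := (h27_pow_dvd_iff P hJ _).mp (Ideal.dvd_iff_le.mpr hle)
  omega

variable (L : Type*) [Field L] [Algebra B L] [IsFractionRing B L]

/-- An element of `J` with exact valuation `exp (-count_P J)`. -/
theorem h27_exists_valuation_eq (P : HeightOneSpectrum B) {J : Ideal B} (hJ : J ≠ ⊥) :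
    ∃ d ∈ J, P.valuation L (algebraMap B L d) =
      WithZero.exp (-(Multiset.count P.asIdeal (normalizedFactors J) : ℤ)) := by
  obtain ⟨d, hdJ, hd⟩ := h27_exists_not_mem_pow P hJ
  refine ⟨d, hdJ, ?_⟩
  have h1 : P.intValuation d ≤
      WithZero.exp (-(Multiset.count P.asIdeal (normalizedFactors J) : ℤ)) :=
    (P.intValuation_le_pow_iff_mem d _).mpr (h27_le_pow_count P hJ hdJ)
  have h2 : ¬ P.intValuation d ≤
      WithZero.exp (-((Multiset.count P.asIdeal (normalizedFactors J) + 1 : ℕ) : ℤ)) :=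
    fun h => hd ((P.intValuation_le_pow_iff_mem d _).mp h)
  rw [HeightOneSpectrum.valuation_of_algebraMap]
  have hd0 : d ≠ 0 := by
    rintro rfl
    exact hd (Ideal.zero_mem _)
  have hne : P.intValuation d ≠ 0 := P.intValuation_ne_zero d hd0
  obtain ⟨a, ha⟩ : ∃ a : ℤ, P.intValuation d = WithZero.exp a :=
    ⟨WithZero.log (P.intValuation d), (WithZero.exp_log hne).symm⟩
  rw [ha] at h1 h2 ⊢
  rw [WithZero.exp_le_exp] at h1 h2
  congr 1
  push_cast at h2
  omega

/-- **Membership in `J⁻¹` by valuations.** -/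
theorem h27_mem_inv_iff_valuation {J : Ideal B} (hJ : J ≠ ⊥) (x : L) :
    x ∈ ((J : FractionalIdeal B⁰ L))⁻¹ ↔
      ∀ P : HeightOneSpectrum B, P.valuation L x ≤
        WithZero.exp ((Multiset.count P.asIdeal (normalizedFactors J) : ℤ)) := by
  have hJ' : (J : FractionalIdeal B⁰ L) ≠ 0 := FractionalIdeal.coeIdeal_ne_zero.mpr hJ
  rw [FractionalIdeal.mem_inv_iff hJ']
  constructor
  · intro h P
    obtain ⟨d, hdJ, hd⟩ := h27_exists_valuation_eq L P hJ
    have h1 := h (algebraMap B L d) ((FractionalIdeal.mem_coeIdeal _).mpr ⟨d, hdJ, rfl⟩)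
    rw [FractionalIdeal.mem_one_iff] at h1
    obtain ⟨b, hb⟩ := h1
    have h2 : P.valuation L (x * algebraMap B L d) ≤ 1 := by
      rw [← hb]; exact P.valuation_le_one b
    rw [map_mul, hd] at h2
    have h3 : P.valuation L x =
        P.valuation L x * WithZero.exp (-(Multiset.count P.asIdeal (normalizedFactors J) : ℤ)) *
          WithZero.exp ((Multiset.count P.asIdeal (normalizedFactors J) : ℤ)) := by
      rw [mul_assoc, ← WithZero.exp_add, neg_add_cancel, WithZero.exp_zero, mul_one]
    rw [h3]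
    calc _ ≤ 1 * WithZero.exp ((Multiset.count P.asIdeal (normalizedFactors J) : ℤ)) :=
          mul_le_mul_of_nonneg_right h2 zero_le
      _ = _ := one_mul _
  · intro h y hy
    obtain ⟨d, hdJ, rfl⟩ := (FractionalIdeal.mem_coeIdeal _).mp hy
    rw [FractionalIdeal.mem_one_iff]
    have := HeightOneSpectrum.mem_integers_of_valuation_le_one (R := B) L (x * algebraMap B L d) ?_
    · obtain ⟨b, hb⟩ := this
      exact ⟨b, hb⟩
    intro P
    have h1 : P.valuation L (algebraMap B L d) ≤
        WithZero.exp (-(Multiset.count P.asIdeal (normalizedFactors J) : ℤ)) := by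
      rw [HeightOneSpectrum.valuation_of_algebraMap]
      exact (P.intValuation_le_pow_iff_mem d _).mpr (h27_le_pow_count P hJ hdJ)
    rw [map_mul]
    calc P.valuation L x * P.valuation L (algebraMap B L d)
        ≤ WithZero.exp ((Multiset.count P.asIdeal (normalizedFactors J) : ℤ)) *
          WithZero.exp (-(Multiset.count P.asIdeal (normalizedFactors J) : ℤ)) :=
          mul_le_mul' (h P) h1
      _ = 1 := by rw [← WithZero.exp_add, add_neg_cancel, WithZero.exp_zero]

end Val

end H27L6
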