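/-
T-RR [RR-alg], slice L6 (helper27): the trace dual `B^*` of the integral closure `B` of a Dedekind
`k`-algebra `A` in a finite separable extension `L` of `K = Frac A`, when `k` is algebraically
closed of characteristic zero and all residue fields of `A` are `k`:

* `h27_relIndex_traceDual` : `relIndex (B^*) B = number of prime factors of the different`;
* `h27_count_different`    : the exponent of `P` in the different is `e_P - 1`;
* `h27_mem_traceDual_iff`  : `h ∈ B^* ↔ ∀ P, v_P h ≤ exp (e_P - 1)`.
-/
import Mathlib
import Fermat.Agent.RR.Defs
import Fermat.Agent.RR.L2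
import Fermat.Agent.RR.L6a
import Fermat.Agent.RR.L6b
import Fermat.Agent.RR.L6c
import Fermat.Agent.RR.L6Dual

set_option autoImplicit false
set_option linter.unusedSectionVars false

namespace H27L6

open Module Algebra nonZeroDivisors UniqueFactorizationMonoid IsDedekindDomain

attribute [local instance] FractionRing.liftAlgebra FractionRing.isScalarTower_liftAlgebra

section Residue

variable (k : Type*) [Field k]

/-- A field which is finite over an algebraically closed field `k` has `k`-dimension one. -/
theorem h27_finrank_eq_one_of_isAlgClosed [IsAlgClosed k] (E : Type*) [Field E] [Algebra k E]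
    [Module.Finite k E] : finrank k E = 1 := by
  have : Algebra.IsIntegral k E := Algebra.IsIntegral.of_finite k E
  have hbij := IsAlgClosed.algebraMap_bijective_of_isIntegral (k := k) (K := E)
  have e : k ≃ₗ[k] E := LinearEquiv.ofBijective (Algebra.linearMap k E) hbij
  rw [← e.finrank_eq, finrank_self]

variable (A : Type*) {B : Type*} [CommRing A] [CommRing B] [Algebra A B]
  [Algebra k A] [Algebra k B] [IsScalarTower k A B]

/-- If the residue field of `A` at `P ∩ A` is `k`, then `B ⧸ P` is finite over `k`. -/
theorem h27_finite_quot [Module.Finite A B] (P : Ideal B)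
    (hA : Function.Surjective (algebraMap k (A ⧸ P.under A))) : Module.Finite k (B ⧸ P) := by
  have hfin : Module.Finite A (B ⧸ P) := inferInstance
  obtain ⟨s, hs⟩ := hfin.fg_top
  refine ⟨⟨s, ?_⟩⟩
  rw [_root_.eq_top_iff]
  intro x _
  have hx : x ∈ Submodule.span A (s : Set (B ⧸ P)) := by rw [hs]; trivial
  induction hx using Submodule.span_induction with
  | mem y hy => exact Submodule.subset_span hy
  | zero => exact Submodule.zero_mem _
  | add y z _ _ hy hz => exact Submodule.add_mem _ (hy trivial) (hz trivial)
  | smul a y _ hy =>
    obtain ⟨c, hc⟩ := hA (Ideal.Quotient.mk _ a)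
    have hmem : a - algebraMap k A c ∈ P.under A := by
      rw [← Ideal.Quotient.eq_zero_iff_mem, map_sub, ← hc]
      simp
    have hmem' : algebraMap A B (a - algebraMap k A c) ∈ P := hmem
    have hzero : (a - algebraMap k A c) • y = 0 := by
      obtain ⟨b, rfl⟩ := Ideal.Quotient.mk_surjective y
      rw [Algebra.smul_def, IsScalarTower.algebraMap_apply A B (B ⧸ P),
        Ideal.Quotient.algebraMap_eq, ← map_mul, Ideal.Quotient.eq_zero_iff_mem]
      exact Ideal.mul_mem_right _ _ hmem'
    have e : a • y = c • y := by
      have h1 : a • y = (a - algebraMap k A c) • y + (algebraMap k A c) • y := by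
        rw [← add_smul, sub_add_cancel]
      rw [h1, hzero, zero_add, algebraMap_smul]
    rw [e]
    exact Submodule.smul_mem _ _ (hy trivial)

end Residue

section Main

variable (k : Type*) [Field k] [IsAlgClosed k] [CharZero k]
  (A K : Type*) (L : Type*) (B : Type*) [CommRing A] [Field K] [CommRing B] [Field L]
  [Algebra A K] [Algebra B L] [Algebra A B] [Algebra K L] [Algebra A L]
  [IsScalarTower A K L] [IsScalarTower A B L]
  [IsDedekindDomain A] [IsFractionRing A K]
  [FiniteDimensional K L] [Algebra.IsSeparable K L] [IsIntegralClosure B A L]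
  [IsFractionRing B L] [IsDedekindDomain B] [IsTorsionFree A B]
  [Algebra k A] [Algebra k B] [Algebra k L] [IsScalarTower k A L] [IsScalarTower k B L]
  [IsScalarTower k A B]

include K L in
theorem h27_isSeparable_fractionRing :
    Algebra.IsSeparable (FractionRing A) (FractionRing B) := by
  have H : RingHom.comp (algebraMap (FractionRing A) (FractionRing B))
      ↑(FractionRing.algEquiv A K).symm.toRingEquiv =
        RingHom.comp ↑(FractionRing.algEquiv B L).symm.toRingEquiv (algebraMap K L) := by
    apply IsLocalization.ringHom_ext A⁰
    ext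
    simp only [RingHom.coe_comp, RingHom.coe_coe,
      AlgEquiv.coe_ringEquiv, Function.comp_apply, AlgEquiv.commutes,
      ← IsScalarTower.algebraMap_apply]
    rw [IsScalarTower.algebraMap_apply A B L, AlgEquiv.commutes, ← IsScalarTower.algebraMap_apply]
  exact Algebra.IsSeparable.of_equiv_equiv _ _ H

include K L in
theorem h27_finite_AB : Module.Finite A B := IsIntegralClosure.finite A K L B

include L in
theorem h27_under_ne_bot (P : Ideal B) [P.IsPrime] (hP : P ≠ ⊥) : P.under A ≠ ⊥ := by
  have : Algebra.IsIntegral A B := IsIntegralClosure.isIntegral_algebra A L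
  exact mt Ideal.eq_bot_of_comap_eq_bot hP

include K L in
/-- Residue fields of `B` are `k`. -/
theorem h27_hres (hA : ∀ p : Ideal A, p.IsPrime → p ≠ ⊥ →
      Function.Surjective (algebraMap k (A ⧸ p)))
    (P : Ideal B) (hPp : P.IsPrime) (hP : P ≠ ⊥) :
    Module.Finite k (B ⧸ P) ∧ finrank k (B ⧸ P) = 1 := by
  have hfinAB : Module.Finite A B := h27_finite_AB A K L B
  have hp0 : P.under A ≠ ⊥ := h27_under_ne_bot A L B P hP
  have hfin : Module.Finite k (B ⧸ P) :=
    h27_finite_quot k A P (hA (P.under A) inferInstance hp0)
  refine ⟨hfin, ?_⟩
  have hPm : P.IsMaximal := Ideal.IsPrime.isMaximal hPp hP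
  let : Field (B ⧸ P) := Ideal.Quotient.field P
  exact h27_finrank_eq_one_of_isAlgClosed k (B ⧸ P)

/-- **(a)** `relIndex (B^*) B` is the number of prime factors of the different. -/
theorem h27_relIndex_traceDual (hA : ∀ p : Ideal A, p.IsPrime → p ≠ ⊥ →
      Function.Surjective (algebraMap k (A ⧸ p))) :
    RRalg.relIndex
        (((Algebra.traceForm K L).dualSubmodule
          ((1 : Submodule B L).restrictScalars A)).restrictScalars k)
        (((1 : Submodule B L).restrictScalars A).restrictScalars k)
      = Multiset.card (normalizedFactors (differentIdeal A B)) := by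
  have hsep := h27_isSeparable_fractionRing A K L B
  have hfinAB : Module.Finite A B := h27_finite_AB A K L B
  rw [RRalg.relIndex_of_le (h27_le_traceDual k A K L B), (h27_codim_traceDual k A K L B).1,
    (h27_finrank_quot_eq_card k (h27_hres k A K L B hA) (differentIdeal A B)
      differentIdeal_ne_bot).2]

include k K L in
/-- **Exponent of the different.** -/
theorem h27_count_different (P : HeightOneSpectrum B) :
    Multiset.count P.asIdeal (normalizedFactors (differentIdeal A B)) =
      Multiset.count P.asIdeal
        (normalizedFactors (Ideal.map (algebraMap A B) (P.asIdeal.under A))) - 1 := by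
  have hsep := h27_isSeparable_fractionRing A K L B
  have hfinAB : Module.Finite A B := h27_finite_AB A K L B
  have hp0 : P.asIdeal.under A ≠ ⊥ := h27_under_ne_bot A L B P.asIdeal P.ne_bot
  have hpm : (P.asIdeal.under A).IsMaximal := Ideal.IsPrime.isMaximal inferInstance hp0
  have hchar : CharZero (A ⧸ P.asIdeal.under A) := by
    let : Field (A ⧸ P.asIdeal.under A) := Ideal.Quotient.field _
    exact charZero_of_injective_algebraMap (algebraMap k (A ⧸ P.asIdeal.under A)).injective
  exact h27_count_differentIdeal A hp0 P.asIdeal P.ne_bot Ideal.map_comap_le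

/-- **(c)** membership in the trace dual by valuations. -/
theorem h27_mem_traceDual_iff (x : L) :
    x ∈ (Algebra.traceForm K L).dualSubmodule ((1 : Submodule B L).restrictScalars A) ↔
      ∀ P : HeightOneSpectrum B, P.valuation L x ≤
        WithZero.exp ((Multiset.count P.asIdeal (normalizedFactors (differentIdeal A B)) : ℤ)) := by
  have hsep := h27_isSeparable_fractionRing A K L B
  have hfinAB : Module.Finite A B := h27_finite_AB A K L B
  rw [h27_mem_dual_iff A K L B x, FractionalIdeal.mem_coe,
    ← h27_mem_inv_iff_valuation L (differentIdeal_ne_bot (A := A) (B := B)) x,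
    coeIdeal_differentIdeal A K L B, inv_inv]

end Main

end H27L6
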