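/-
T-RR [RR-alg], slice L6 FIN (helper27): the finite part `Bfin = integral closure of k[X] in F`.

* `h27_prime_poly`, `h27_hA_poly` : the nonzero primes of `k[X]` are the `(X - a)`, with residue
  field `k` (`k` algebraically closed);
* instances for `↥(integralClosure k[X] F)`;
* `h27_relIndex_Bfin` : `relIndex (Bfin^*) Bfin = number of prime factors of the different`.
-/
import Mathlib
import Fermat.Agent.RR.Field
import Fermat.Agent.RR.Bridge
import Fermat.Agent.RR.L6Main
import Fermat.Agent.RR.L6Place

set_option autoImplicit false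
set_option linter.unusedSectionVars false

noncomputable section

namespace H27L6

open Module Polynomial UniqueFactorizationMonoid IsDedekindDomain RRalg

section Poly

variable (k : Type*) [Field k] [IsAlgClosed k]

/-- Over an algebraically closed field the nonzero primes of `k[X]` are the `(X - a)`. -/
theorem h27_prime_poly (p : Ideal k[X]) (hp : p.IsPrime) (hp0 : p ≠ ⊥) :
    ∃ a : k, p = Ideal.span {X - C a} := by
  obtain ⟨g, hg⟩ := (IsPrincipalIdealRing.principal p).principal
  have hg' : p = Ideal.span {g} := hg
  have hg0 : g ≠ 0 := by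
    rintro rfl
    apply hp0
    rw [hg', Ideal.span_singleton_eq_bot]
  have hprime : Prime g := by
    rw [← Ideal.span_singleton_prime hg0, ← hg']
    exact hp
  have hirr : Irreducible g := hprime.irreducible
  have hdeg : g.degree = 1 := IsAlgClosed.degree_eq_one_of_irreducible k hirr
  obtain ⟨a, ha⟩ := IsAlgClosed.exists_root g (by rw [hdeg]; exact one_ne_zero)
  refine ⟨a, ?_⟩
  have hdvd : X - C a ∣ g := dvd_iff_isRoot.mpr ha
  have hassoc : Associated (X - C a) g := (irreducible_X_sub_C a).associated_of_dvd hirr hdvd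
  rw [hg']
  exact (Ideal.span_singleton_eq_span_singleton.mpr hassoc).symm

theorem h27_X_sub_C_ne_zero (a : k) : (X - C a : k[X]) ≠ 0 := X_sub_C_ne_zero a

theorem h27_span_X_sub_C_ne_bot (a : k) : Ideal.span {(X - C a : k[X])} ≠ ⊥ := by
  rw [Ne, Ideal.span_singleton_eq_bot]
  exact X_sub_C_ne_zero a

theorem h27_span_X_sub_C_isMaximal (a : k) : (Ideal.span {(X - C a : k[X])}).IsMaximal :=
  PrincipalIdealRing.isMaximal_of_irreducible (irreducible_X_sub_C a)

/-- The residue fields of `k[X]` at nonzero primes are `k`. -/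
theorem h27_hA_poly (p : Ideal k[X]) (hp : p.IsPrime) (hp0 : p ≠ ⊥) :
    Function.Surjective (algebraMap k (k[X] ⧸ p)) := by
  obtain ⟨a, rfl⟩ := h27_prime_poly k p hp hp0
  intro x
  obtain ⟨q, rfl⟩ := Ideal.Quotient.mk_surjective x
  refine ⟨q.eval a, ?_⟩
  have h1 : algebraMap k (k[X] ⧸ Ideal.span {X - C a}) (q.eval a)
      = Ideal.Quotient.mk (Ideal.span {X - C a}) (C (q.eval a)) := rfl
  rw [h1, eq_comm, Ideal.Quotient.eq, Ideal.mem_span_singleton]
  exact X_sub_C_dvd_sub_C_eval

end Poly

section Fin

variable (k : Type*) [Field k] [IsAlgClosed k] [CharZero k] (F : Type*) [Field F]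
  [Algebra (RatFunc k) F] [Algebra k F] [IsScalarTower k (RatFunc k) F] [Algebra k[X] F]
  [IsScalarTower k[X] (RatFunc k) F] [IsScalarTower k k[X] F]
  [FiniteDimensional (RatFunc k) F] [Algebra.IsSeparable (RatFunc k) F]

theorem h27_algebraMap_poly_injective : Function.Injective (algebraMap k[X] F) := by
  rw [IsScalarTower.algebraMap_eq k[X] (RatFunc k) F]
  exact (algebraMap (RatFunc k) F).injective.comp (IsFractionRing.injective k[X] (RatFunc k))

theorem h27_isTorsionFree_poly : IsTorsionFree k[X] F :=
  isTorsionFree_iff_algebraMap_injective.mpr (h27_algebraMap_poly_injective k F)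

theorem h27_isTorsionFree_B : IsTorsionFree k[X] ↥(integralClosure k[X] F) :=
  have := h27_isTorsionFree_poly k F
  inferInstance

theorem h27_isDedekindDomain_B : IsDedekindDomain ↥(integralClosure k[X] F) :=
  integralClosure.isDedekindDomain k[X] (RatFunc k) F

theorem h27_isFractionRing_B : IsFractionRing ↥(integralClosure k[X] F) F :=
  integralClosure.isFractionRing_of_finite_extension (A := k[X]) (RatFunc k) F

attribute [local instance] h27_isTorsionFree_B h27_isDedekindDomain_B h27_isFractionRing_B

theorem h27_one_eq_Bfin :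
    (1 : Submodule ↥(integralClosure k[X] F) F).restrictScalars k[X] = Bfin k F := by
  ext x
  rw [Submodule.restrictScalars_mem, Submodule.mem_one]
  constructor
  · rintro ⟨b, rfl⟩
    exact b.2
  · intro hx
    exact ⟨⟨x, hx⟩, rfl⟩

/-- **L6 (fin), colength form**: `[Bfin^* : Bfin]` is the number of prime factors of the
different of `Bfin / k[X]`. -/
theorem h27_relIndex_Bfin :
    relIndex (sk (k := k) ((Algebra.traceForm (RatFunc k) F).dualSubmodule (Bfin k F)))
        (sk (k := k) (Bfin k F))
      = Multiset.card (normalizedFactors (differentIdeal k[X] ↥(integralClosure k[X] F))) := by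
  have h := h27_relIndex_traceDual k k[X] (RatFunc k) F ↥(integralClosure k[X] F) (h27_hA_poly k)
  rw [h27_one_eq_Bfin] at h
  exact h

/-- **L6 (fin), pointwise form**. -/
theorem h27_mem_dual_Bfin_iff (x : F) :
    x ∈ (Algebra.traceForm (RatFunc k) F).dualSubmodule (Bfin k F) ↔
      ∀ P : HeightOneSpectrum ↥(integralClosure k[X] F), P.valuation F x ≤
        WithZero.exp ((Multiset.count P.asIdeal
          (normalizedFactors (differentIdeal k[X] ↥(integralClosure k[X] F))) : ℤ)) := by
  have h := h27_mem_traceDual_iff k[X] (RatFunc k) F ↥(integralClosure k[X] F) x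
  rw [h27_one_eq_Bfin] at h
  exact h

end Fin

end H27L6

end
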