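import Mathlib
import Fermat.Agent.RR.Rinf

/-!
# T-RR [RR-alg] L6 at infinity, part A (helper1): the ring `Rinf k`

`Rinf k` (rational functions of degree `≤ 0`) is a discrete valuation ring with uniformiser `X⁻¹`
and residue field `k`:

* `h1i_exists_const` : every `f ∈ Rinf` is `c + g` with `c ∈ k` and `deg g < 0`;
* `h1i_mem_of_prime` : every element of negative degree lies in every nonzero prime;
* `h1i_hA` : `k → Rinf ⧸ p` is surjective for every nonzero prime `p`;
* `h1i_prime_eq` : the only nonzero prime is `span {X⁻¹}`.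
-/

set_option autoImplicit false
set_option linter.style.longLine false
set_option linter.unusedSectionVars false
set_option linter.style.haveILetI false
set_option linter.unusedVariables false

open Polynomial

noncomputable section

namespace RRalg

variable {k : Type*} [Field k]

/-- the uniformiser `X⁻¹` of `Rinf` -/
def Xinv (k : Type*) [Field k] : Rinf k :=
  ⟨(RatFunc.X : RatFunc k)⁻¹, Or.inr (by rw [RatFunc.intDegree_inv, RatFunc.intDegree_X]; omega)⟩

theorem coe_Xinv : ((Xinv k : Rinf k) : RatFunc k) = (RatFunc.X : RatFunc k)⁻¹ := rfl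

theorem Xinv_ne_zero : Xinv k ≠ 0 := by
  intro h
  have := congrArg (fun f : Rinf k => (f : RatFunc k)) h
  simp only [coe_Xinv] at this
  exact inv_ne_zero RatFunc.X_ne_zero this

/-- Every element of `Rinf` is a constant plus an element of negative degree. -/
theorem h1i_exists_const (f : Rinf k) :
    ∃ c : k, ((f : RatFunc k) - algebraMap k (RatFunc k) c = 0) ∨
      ((f : RatFunc k) - algebraMap k (RatFunc k) c).intDegree < 0 := by
  obtain ⟨s, g, hg, hf⟩ := h1r_decomp (f : RatFunc k)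
  have hgR : g ∈ Rinf k := by
    rcases hg with hg | hg
    · exact Or.inl hg
    · exact Or.inr hg.le
  have hs : algebraMap k[X] (RatFunc k) s ∈ Rinf k := by
    have : algebraMap k[X] (RatFunc k) s = (f : RatFunc k) - g := by rw [hf]; ring
    rw [this]
    exact (Rinf k).sub_mem f.2 hgR
  obtain ⟨c, hc⟩ := (h1r_poly_mem_Rinf_iff s).mp hs
  refine ⟨c, ?_⟩
  have : (f : RatFunc k) - algebraMap k (RatFunc k) c = g := by
    rw [hf, hc]
    have : algebraMap k[X] (RatFunc k) (Polynomial.C c) = algebraMap k (RatFunc k) c := by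
      rw [← Polynomial.algebraMap_eq, ← IsScalarTower.algebraMap_apply]
    rw [this]; ring
  rw [this]
  exact hg

/-- An element of negative degree lies in every nonzero prime of `Rinf`. -/
theorem h1i_mem_of_prime (p : Ideal (Rinf k)) (hp : p.IsPrime) (hp0 : p ≠ ⊥) (g : Rinf k)
    (hg : (g : RatFunc k) = 0 ∨ (g : RatFunc k).intDegree < 0) : g ∈ p := by
  by_cases hg0 : (g : RatFunc k) = 0
  · have : g = 0 := Subtype.ext hg0
    rw [this]; exact p.zero_mem
  have hgd : (g : RatFunc k).intDegree < 0 := hg.resolve_left hg0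
  obtain ⟨u, hup, hu0⟩ := Submodule.exists_mem_ne_zero_of_ne_bot hp0
  have hu0' : (u : RatFunc k) ≠ 0 := fun h => hu0 (Subtype.ext h)
  have hud : (u : RatFunc k).intDegree ≤ 0 := u.2.resolve_left hu0'
  set m : ℕ := ((u : RatFunc k).intDegree).natAbs with hm
  have hpow : g ^ (m + 1) ∈ p := by
    have hdvd : u ∣ g ^ (m + 1) := by
      apply h1r_dvd_of_deg_le hu0'
      right
      have h1 : ((g ^ (m + 1) : Rinf k) : RatFunc k) = (g : RatFunc k) ^ (m + 1) := rfl
      rw [h1]
      have h2 : ((g : RatFunc k) ^ (m + 1)).intDegree = (m + 1 : ℕ) * (g : RatFunc k).intDegree := by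
        clear h1
        induction (m + 1) with
        | zero => simp
        | succ n ih =>
          rw [pow_succ, RatFunc.intDegree_mul (pow_ne_zero _ hg0) hg0, ih]
          push_cast; ring
      rw [h2]
      have h3 : ((m + 1 : ℕ) : ℤ) * (g : RatFunc k).intDegree ≤ ((m + 1 : ℕ) : ℤ) * (-1) := by
        apply mul_le_mul_of_nonneg_left (by omega) (by positivity)
      push_cast at h3 ⊢
      omega
    obtain ⟨c, hc⟩ := hdvd
    rw [hc]
    exact p.mul_mem_right c hup
  exact hp.mem_of_pow_mem _ hpow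

/-- Residue fields of `Rinf` are `k`. -/
theorem h1i_hA (p : Ideal (Rinf k)) (hp : p.IsPrime) (hp0 : p ≠ ⊥) :
    Function.Surjective (algebraMap k (Rinf k ⧸ p)) := by
  intro x
  obtain ⟨f, rfl⟩ := Ideal.Quotient.mk_surjective x
  obtain ⟨c, hc⟩ := h1i_exists_const f
  refine ⟨c, ?_⟩
  rw [IsScalarTower.algebraMap_apply k (Rinf k) (Rinf k ⧸ p), Ideal.Quotient.algebraMap_eq,
    eq_comm, Ideal.Quotient.eq]
  exact h1i_mem_of_prime p hp hp0 (f - algebraMap k (Rinf k) c) hc

theorem h1i_Xinv_mem (p : Ideal (Rinf k)) (hp : p.IsPrime) (hp0 : p ≠ ⊥) : Xinv k ∈ p :=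
  h1i_mem_of_prime p hp hp0 (Xinv k)
    (Or.inr (by rw [coe_Xinv, RatFunc.intDegree_inv, RatFunc.intDegree_X]; omega))

/-- An element of `Rinf` of degree `0` is a unit. -/
theorem h1i_isUnit_of_deg (f : Rinf k) (hf0 : (f : RatFunc k) ≠ 0)
    (hf : (f : RatFunc k).intDegree = 0) : IsUnit f := by
  refine ⟨⟨f, ⟨(f : RatFunc k)⁻¹, Or.inr (by rw [RatFunc.intDegree_inv, hf]; simp)⟩, ?_, ?_⟩, rfl⟩
  · apply Subtype.ext
    show (f : RatFunc k) * (f : RatFunc k)⁻¹ = 1
    exact mul_inv_cancel₀ hf0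
  · apply Subtype.ext
    show (f : RatFunc k)⁻¹ * (f : RatFunc k) = 1
    exact inv_mul_cancel₀ hf0

/-- Elements of negative degree are multiples of `X⁻¹`. -/
theorem h1i_mem_span_Xinv (g : Rinf k)
    (hg : (g : RatFunc k) = 0 ∨ (g : RatFunc k).intDegree < 0) : g ∈ Ideal.span {Xinv k} := by
  rw [Ideal.mem_span_singleton]
  apply h1r_dvd_of_deg_le
  · rw [coe_Xinv]; exact inv_ne_zero RatFunc.X_ne_zero
  · rcases hg with hg | hg
    · exact Or.inl hg
    · right
      rw [coe_Xinv, RatFunc.intDegree_inv, RatFunc.intDegree_X]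
      omega

/-- The only nonzero prime of `Rinf` is `(X⁻¹)`. -/
theorem h1i_prime_eq (p : Ideal (Rinf k)) (hp : p.IsPrime) (hp0 : p ≠ ⊥) :
    p = Ideal.span {Xinv k} := by
  apply le_antisymm
  · intro f hf
    by_cases hf0 : (f : RatFunc k) = 0
    · exact h1i_mem_span_Xinv f (Or.inl hf0)
    have hd : (f : RatFunc k).intDegree ≤ 0 := f.2.resolve_left hf0
    rcases hd.lt_or_eq with h | h
    · exact h1i_mem_span_Xinv f (Or.inr h)
    · exfalso
      exact hp.ne_top (Ideal.eq_top_of_isUnit_mem _ hf (h1i_isUnit_of_deg f hf0 h))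
  · rw [Ideal.span_singleton_le_iff_mem]
    exact h1i_Xinv_mem p hp hp0

theorem h1i_span_Xinv_ne_bot : Ideal.span {Xinv k} ≠ (⊥ : Ideal (Rinf k)) := by
  rw [Ne, Ideal.span_singleton_eq_bot]
  exact Xinv_ne_zero

theorem h1i_span_Xinv_ne_top : Ideal.span {Xinv k} ≠ (⊤ : Ideal (Rinf k)) := by
  rw [Ne, Ideal.span_singleton_eq_top]
  intro hu
  obtain ⟨⟨a, b, hab, hba⟩, ha⟩ := hu
  have ha' : a = Xinv k := ha
  subst ha'
  have h1 : ((Xinv k * b : Rinf k) : RatFunc k) = 1 := congrArg Subtype.val hab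
  have h2 : (RatFunc.X : RatFunc k)⁻¹ * (b : RatFunc k) = 1 := h1
  have hb : (b : RatFunc k) = RatFunc.X := by
    have := congrArg (fun z => (RatFunc.X : RatFunc k) * z) h2
    simpa [← mul_assoc, mul_inv_cancel₀ (RatFunc.X_ne_zero (K := k))] using this
  have hbd := b.2
  rw [hb] at hbd
  rcases hbd with h | h
  · exact RatFunc.X_ne_zero h
  · rw [RatFunc.intDegree_X] at h; omega

theorem h1i_span_Xinv_isMaximal : (Ideal.span {Xinv k} : Ideal (Rinf k)).IsMaximal := by
  rw [Ideal.isMaximal_iff]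
  refine ⟨?_, ?_⟩
  · intro h
    exact h1i_span_Xinv_ne_top ((Ideal.eq_top_iff_one _).mpr h)
  · intro J f hle hf hfJ
    by_cases hf0 : (f : RatFunc k) = 0
    · exact absurd (h1i_mem_span_Xinv f (Or.inl hf0)) hf
    have hd : (f : RatFunc k).intDegree ≤ 0 := f.2.resolve_left hf0
    rcases hd.lt_or_eq with h | h
    · exact absurd (h1i_mem_span_Xinv f (Or.inr h)) hf
    · have hu := h1i_isUnit_of_deg f hf0 h
      exact (Ideal.eq_top_iff_one _).mp (Ideal.eq_top_of_isUnit_mem _ hfJ hu)

instance h1i_isDomain : IsDomain (Rinf k) := inferInstance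

instance h1i_isDedekindDomain : IsDedekindDomain (Rinf k) := inferInstance

end RRalg
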