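import Mathlib
import Fermat.Agent.RR.Field
import Fermat.Agent.RR.Bridge
import Fermat.Agent.RR.L6Main
import Fermat.Agent.RR.L6Place
import Fermat.Agent.RR.L6InfA
import Fermat.Agent.S24.A1
import Fermat.Agent.S24.A2

/-!
# T-RR [RR-alg] L6 at infinity, part B (helper1): `Binf = integral closure of Rinf k in F`

* instances for `↥(integralClosure (Rinf k) F)`;
* `h1i_relIndex_Binf` : `relIndex (Binf^*) Binf = number of prime factors of the different`;
* `h1i_count_inf` : `[F : k(y)] - #{places over y = ∞} ≤ relIndex (Binf^*) Binf`.
-/

set_option autoImplicit false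
set_option linter.style.longLine false
set_option linter.unusedSectionVars false
set_option linter.style.haveILetI false
set_option linter.unusedVariables false
set_option linter.deprecated false

noncomputable section

namespace RRalg

open Module Polynomial UniqueFactorizationMonoid IsDedekindDomain AlgebraicCurve IntermediateField

section Inf

variable (k : Type*) [Field k] [IsAlgClosed k] [CharZero k] (F : Type*) [Field F]
  [Algebra (RatFunc k) F] [Algebra k F] [IsScalarTower k (RatFunc k) F] [Algebra k[X] F]
  [IsScalarTower k[X] (RatFunc k) F] [IsScalarTower k k[X] F]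
  [FiniteDimensional (RatFunc k) F] [Algebra.IsSeparable (RatFunc k) F]

theorem h1i_algebraMap_Rinf_injective : Function.Injective (algebraMap (Rinf k) F) := by
  rw [IsScalarTower.algebraMap_eq (Rinf k) (RatFunc k) F]
  exact (algebraMap (RatFunc k) F).injective.comp (IsFractionRing.injective (Rinf k) (RatFunc k))

theorem h1i_isTorsionFree_Rinf : IsTorsionFree (Rinf k) F :=
  isTorsionFree_iff_algebraMap_injective.mpr (h1i_algebraMap_Rinf_injective k F)

theorem h1i_isTorsionFree_B : IsTorsionFree (Rinf k) ↥(integralClosure (Rinf k) F) :=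
  have := h1i_isTorsionFree_Rinf k F
  inferInstance

theorem h1i_isDedekindDomain_B : IsDedekindDomain ↥(integralClosure (Rinf k) F) :=
  integralClosure.isDedekindDomain (Rinf k) (RatFunc k) F

theorem h1i_isFractionRing_B : IsFractionRing ↥(integralClosure (Rinf k) F) F :=
  integralClosure.isFractionRing_of_finite_extension (A := Rinf k) (RatFunc k) F

theorem h1i_tower_ABF : IsScalarTower (Rinf k) ↥(integralClosure (Rinf k) F) F :=
  IsScalarTower.of_algebraMap_eq (fun _ => rfl)

attribute [local instance] h1i_isTorsionFree_B h1i_isDedekindDomain_B h1i_isFractionRing_B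
  h1i_tower_ABF

theorem h1i_one_eq_Binf :
    (1 : Submodule ↥(integralClosure (Rinf k) F) F).restrictScalars (Rinf k) = Binf k F := by
  ext x
  rw [Submodule.restrictScalars_mem, Submodule.mem_one]
  constructor
  · rintro ⟨b, rfl⟩
    exact b.2
  · intro hx
    exact ⟨⟨x, hx⟩, rfl⟩

/-- **L6 (inf), colength form**. -/
theorem h1i_relIndex_Binf :
    relIndex (sk (k := k) ((Algebra.traceForm (RatFunc k) F).dualSubmodule (Binf k F)))
        (sk (k := k) (Binf k F))
      = Multiset.card (normalizedFactors
          (differentIdeal (Rinf k) ↥(integralClosure (Rinf k) F))) := by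
  have h := H27L6.h27_relIndex_traceDual k (Rinf k) (RatFunc k) F ↥(integralClosure (Rinf k) F)
    (fun p hp hp0 => h1i_hA p hp hp0)
  rw [h1i_one_eq_Binf] at h
  exact h

end Inf

end RRalg
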