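import Mathlib
import Fermat.Agent.RR.L6InfB

/-!
# T-RR [RR-alg] L6 at infinity, part C (helper1): counting

* `h1i_card_factors_map` : `𝔪 B` has `[F : k(y)]` prime factors (with multiplicity);
* `h1i_count_inf` : `[F : k(y)] - #{places over y = ∞} ≤ relIndex (Binf^*) Binf`.
-/

set_option autoImplicit false
set_option linter.style.longLine false
set_option linter.unusedSectionVars false
set_option linter.style.haveILetI false
set_option linter.unusedVariables false
set_option linter.deprecated false

noncomputable section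

namespace RRalg

open Module Polynomial UniqueFactorizationMonoid IsDedekindDomain AlgebraicCurve IntermediateField

section Inf

variable (k : Type*) [Field k] [IsAlgClosed k] [CharZero k] (F : Type*) [Field F]
  [Algebra (RatFunc k) F] [Algebra k F] [IsScalarTower k (RatFunc k) F] [Algebra k[X] F]
  [IsScalarTower k[X] (RatFunc k) F] [IsScalarTower k k[X] F]
  [FiniteDimensional (RatFunc k) F] [Algebra.IsSeparable (RatFunc k) F]

attribute [local instance] h1i_isTorsionFree_B h1i_isDedekindDomain_B h1i_isFractionRing_B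
  h1i_tower_ABF

theorem h1i_algebraMap_Xinv : algebraMap (Rinf k) F (Xinv k) = (yGen k F)⁻¹ := by
  rw [IsScalarTower.algebraMap_apply (Rinf k) (RatFunc k) F]
  show algebraMap (RatFunc k) F ((RatFunc.X : RatFunc k)⁻¹) = _
  rw [map_inv₀]
  rfl

theorem h1i_map_span_ne_bot :
    Ideal.map (algebraMap (Rinf k) ↥(integralClosure (Rinf k) F)) (Ideal.span {Xinv k}) ≠ ⊥ := by
  rw [Ideal.map_span, Set.image_singleton, Ne, Ideal.span_singleton_eq_bot]
  intro h
  have hinj : Function.Injective (algebraMap (Rinf k) ↥(integralClosure (Rinf k) F)) :=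
    FaithfulSMul.algebraMap_injective _ _
  exact Xinv_ne_zero (hinj (by rw [h, map_zero]))

/-- `dim_k B ⧸ 𝔪 B = [F : k(y)]`. -/
theorem h1i_finrank_quot_map :
    finrank k (↥(integralClosure (Rinf k) F) ⧸
      Ideal.map (algebraMap (Rinf k) ↥(integralClosure (Rinf k) F)) (Ideal.span {Xinv k}))
      = finrank (RatFunc k) F := by
  haveI hmax : (Ideal.span {Xinv k} : Ideal (Rinf k)).IsMaximal := h1i_span_Xinv_isMaximal
  haveI hfin : Module.Finite (Rinf k) ↥(integralClosure (Rinf k) F) :=
    H27L6.h27_finite_AB (Rinf k) (RatFunc k) F ↥(integralClosure (Rinf k) F)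
  have h1 := Ideal.finrank_quotient_map (R := Rinf k) (S := ↥(integralClosure (Rinf k) F))
    (Ideal.span {Xinv k}) (RatFunc k) F
  rw [← h1]
  have hsurj : Function.Surjective (algebraMap k (Rinf k ⧸ (Ideal.span {Xinv k} : Ideal (Rinf k)))) :=
    h1i_hA _ hmax.isPrime h1i_span_Xinv_ne_bot
  have hnontriv : Nontrivial (Rinf k ⧸ (Ideal.span {Xinv k} : Ideal (Rinf k))) :=
    Ideal.Quotient.nontrivial_iff.mpr hmax.ne_top
  have hinj : Function.Injective (algebraMap k (Rinf k ⧸ (Ideal.span {Xinv k} : Ideal (Rinf k)))) :=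
    (algebraMap k _).injective
  let i : k ≃+* (Rinf k ⧸ (Ideal.span {Xinv k} : Ideal (Rinf k))) :=
    RingEquiv.ofBijective (algebraMap k _) ⟨hinj, hsurj⟩
  refine Algebra.finrank_eq_of_equiv_equiv i (RingEquiv.refl _) ?_
  ext c
  show algebraMap (Rinf k ⧸ (Ideal.span {Xinv k} : Ideal (Rinf k)))
      (↥(integralClosure (Rinf k) F) ⧸ Ideal.map (algebraMap (Rinf k)
        ↥(integralClosure (Rinf k) F)) (Ideal.span {Xinv k}))
      (algebraMap k (Rinf k ⧸ (Ideal.span {Xinv k} : Ideal (Rinf k))) c)
    = algebraMap k (↥(integralClosure (Rinf k) F) ⧸ Ideal.map (algebraMap (Rinf k)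
        ↥(integralClosure (Rinf k) F)) (Ideal.span {Xinv k})) c
  rw [IsScalarTower.algebraMap_apply k (Rinf k) (Rinf k ⧸ (Ideal.span {Xinv k} : Ideal (Rinf k))),
    Ideal.Quotient.algebraMap_eq, Ideal.Quotient.algebraMap_quotient_map_quotient,
    IsScalarTower.algebraMap_apply k ↥(integralClosure (Rinf k) F)
      (↥(integralClosure (Rinf k) F) ⧸ Ideal.map (algebraMap (Rinf k)
        ↥(integralClosure (Rinf k) F)) (Ideal.span {Xinv k})),
    Ideal.Quotient.algebraMap_eq,
    ← IsScalarTower.algebraMap_apply k (Rinf k) ↥(integralClosure (Rinf k) F)]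

theorem h1i_card_factors_map :
    Multiset.card (normalizedFactors
      (Ideal.map (algebraMap (Rinf k) ↥(integralClosure (Rinf k) F)) (Ideal.span {Xinv k})))
      = finrank (RatFunc k) F := by
  have hres := H27L6.h27_hres k (Rinf k) (RatFunc k) F ↥(integralClosure (Rinf k) F)
    (fun p hp hp0 => h1i_hA p hp hp0)
  rw [← (H27L6.h27_finrank_quot_eq_card k hres _ (h1i_map_span_ne_bot k F)).2,
    h1i_finrank_quot_map]

theorem h1i_XinvB_mem (P : HeightOneSpectrum ↥(integralClosure (Rinf k) F)) :
    algebraMap (Rinf k) ↥(integralClosure (Rinf k) F) (Xinv k) ∈ P.asIdeal := by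
  have hunder : P.asIdeal.under (Rinf k) = Ideal.span {Xinv k} :=
    h1i_prime_eq _ inferInstance
      (H27L6.h27_under_ne_bot (Rinf k) F ↥(integralClosure (Rinf k) F) P.asIdeal P.ne_bot)
  have : Xinv k ∈ P.asIdeal.under (Rinf k) := by
    rw [hunder]; exact Ideal.mem_span_singleton_self _
  exact this

theorem h1i_XinvB_ne_zero :
    algebraMap (Rinf k) ↥(integralClosure (Rinf k) F) (Xinv k) ≠ 0 := by
  intro h
  have hinj : Function.Injective (algebraMap (Rinf k) ↥(integralClosure (Rinf k) F)) :=
    FaithfulSMul.algebraMap_injective _ _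
  exact Xinv_ne_zero (hinj (by rw [h, map_zero]))

theorem h1i_placeOf_ord_pos (P : HeightOneSpectrum ↥(integralClosure (Rinf k) F)) :
    0 < (H27L6.h27_placeOf (F := F) k ↥(integralClosure (Rinf k) F) P).ord (yGen k F)⁻¹ := by
  have h := (H27L6.h27_placeOf_ord_pos_iff (F := F) k ↥(integralClosure (Rinf k) F) P
    (h1i_XinvB_ne_zero k F)).mpr (h1i_XinvB_mem k F P)
  have e : algebraMap ↥(integralClosure (Rinf k) F) F
      (algebraMap (Rinf k) ↥(integralClosure (Rinf k) F) (Xinv k)) = (yGen k F)⁻¹ := by
    rw [← IsScalarTower.algebraMap_apply (Rinf k) ↥(integralClosure (Rinf k) F) F,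
      h1i_algebraMap_Xinv]
  rwa [e] at h

theorem h1i_finite_places :
    Finite {v : Place k F // 0 < v.ord (yGen k F)⁻¹} := by
  have hy : Transcendental k (yGen k F) := transcendental_yGen k F
  have hyi : Transcendental k (yGen k F)⁻¹ := RH24.h5a_transcendental_inv _ hy
  haveI : FiniteDimensional k⟮yGen k F⟯ F := finiteDimensional_adjoin_yGen k F
  haveI : FiniteDimensional k⟮(yGen k F)⁻¹⟯ F := by
    rw [RH24.h5a_adjoin_inv]; infer_instance
  exact RH24.finite_places_over _ hyi

/-- **COUNT-local at infinity.** -/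
theorem h1i_count_inf :
    ((Module.finrank (RatFunc k) F : ℕ) : ℤ)
        - Nat.card {v : Place k F // 0 < v.ord (yGen k F)⁻¹}
      ≤ relIndex (sk (k := k) ((Algebra.traceForm (RatFunc k) F).dualSubmodule (Binf k F)))
          (sk (k := k) (Binf k F)) := by
  classical
  rw [h1i_relIndex_Binf]
  set M := normalizedFactors
    (Ideal.map (algebraMap (Rinf k) ↥(integralClosure (Rinf k) F)) (Ideal.span {Xinv k})) with hMdef
  set D := normalizedFactors (differentIdeal (Rinf k) ↥(integralClosure (Rinf k) F)) with hDdef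
  have hM : Multiset.card M = finrank (RatFunc k) F := h1i_card_factors_map k F
  have hprime : ∀ P ∈ M, ∃ P' : HeightOneSpectrum ↥(integralClosure (Rinf k) F),
      P'.asIdeal = P := by
    intro P hP
    have hPprime : Prime P := prime_of_normalized_factor P hP
    exact ⟨⟨P, Ideal.isPrime_of_prime hPprime, hPprime.ne_zero⟩, rfl⟩
  -- (1) `M - M.dedup ≤ D`
  have h1 : M - M.dedup ≤ D := by
    rw [Multiset.le_iff_count]
    intro P
    rw [Multiset.count_sub]
    by_cases hP : P ∈ M
    · obtain ⟨P', rfl⟩ := hprime P hP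
      have hc := H27L6.h27_count_different k (Rinf k) (RatFunc k) F
        ↥(integralClosure (Rinf k) F) P'
      have hunder : P'.asIdeal.under (Rinf k) = Ideal.span {Xinv k} :=
        h1i_prime_eq _ inferInstance
          (H27L6.h27_under_ne_bot (Rinf k) F ↥(integralClosure (Rinf k) F) P'.asIdeal P'.ne_bot)
      rw [hunder] at hc
      rw [Multiset.count_dedup, if_pos hP]
      exact hc.ge
    · rw [Multiset.count_eq_zero_of_notMem hP]
      simp
  -- (2) the distinct primes inject into the places over infinity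
  have h2 : Multiset.card M.dedup ≤ Nat.card {v : Place k F // 0 < v.ord (yGen k F)⁻¹} := by
    haveI := h1i_finite_places k F
    let f : {P // P ∈ M.toFinset} → {v : Place k F // 0 < v.ord (yGen k F)⁻¹} := fun P =>
      ⟨H27L6.h27_placeOf (F := F) k ↥(integralClosure (Rinf k) F)
          (hprime P.1 (Multiset.mem_toFinset.mp P.2)).choose,
        h1i_placeOf_ord_pos k F _⟩
    have hf : Function.Injective f := by
      intro P Q hPQ
      have h3 := congrArg Subtype.val hPQ
      have h4 := H27L6.h27_placeOf_injective (F := F) k ↥(integralClosure (Rinf k) F) h3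
      apply Subtype.ext
      rw [← (hprime P.1 (Multiset.mem_toFinset.mp P.2)).choose_spec,
        ← (hprime Q.1 (Multiset.mem_toFinset.mp Q.2)).choose_spec, h4]
    have h5 := Nat.card_le_card_of_injective f hf
    have h6 : Nat.card {P // P ∈ M.toFinset} = Multiset.card M.dedup := by
      rw [Nat.card_eq_fintype_card, Fintype.card_coe]
      rfl
    rwa [h6] at h5
  have h3 : Multiset.card M - Multiset.card M.dedup ≤ Multiset.card D := by
    have := Multiset.card_le_card h1
    rwa [Multiset.card_sub (Multiset.dedup_le M)] at this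
  have h4 : Multiset.card M.dedup ≤ Multiset.card M := Multiset.card_le_card (Multiset.dedup_le M)
  omega

end Inf

end RRalg
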