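/-
T-RR [RR-alg], slice W (helper2): a valuation of `F` centred at infinity (`1 < w y`, trivial on
the constants) satisfies `w (p(y)) = w(y) ^ deg p` and is `≤ 1` on `Rinf k`.
Also the finite analogue: a valuation with `w y ≤ 1` is `≤ 1` on `k[X]`.
-/
import Mathlib
import Fermat.Agent.RR.Bridge
import Fermat.Agent.RR.Rinf

set_option autoImplicit false
set_option linter.unusedSectionVars false

noncomputable section

open scoped WithZero
open Polynomial

namespace RRalg

variable (k : Type*) [Field k] (F : Type*) [Field F] [Algebra (RatFunc k) F] [Algebra k F]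
  [IsScalarTower k (RatFunc k) F]

variable {k F}

/-- a valuation `≤ 1` on the constants is `1` on the nonzero constants -/
theorem h2w_const_eq_one (w : Valuation F ℤᵐ⁰) (hk : ∀ c : k, w (algebraMap k F c) ≤ 1)
    (c : k) (hc : c ≠ 0) : w (algebraMap k F c) = 1 := by
  refine le_antisymm (hk c) ?_
  have h1 := hk c⁻¹
  rw [map_inv₀, map_inv₀] at h1
  have hne : w (algebraMap k F c) ≠ 0 := by
    rw [Valuation.ne_zero_iff]
    exact (_root_.map_ne_zero _).mpr hc
  exact (inv_le_one₀ (zero_lt_iff.mpr hne)).mp h1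

/-- (W1) for `p ≠ 0`: `w (p(y)) = w(y) ^ deg p`. -/
theorem valInf_aeval (w : Valuation F ℤᵐ⁰) (hk : ∀ c : k, w (algebraMap k F c) ≤ 1)
    (hy : 1 < w (yGen k F)) (p : Polynomial k) (hp : p ≠ 0) :
    w (Polynomial.aeval (yGen k F) p) = w (yGen k F) ^ p.natDegree := by
  have hy0 : w (yGen k F) ≠ 0 := (zero_lt_one.trans hy).ne'
  have hterm : ∀ i, w (p.coeff i • yGen k F ^ i) ≤ w (yGen k F) ^ i := by
    intro i
    rw [Algebra.smul_def, map_mul, map_pow]
    calc w (algebraMap k F (p.coeff i)) * w (yGen k F) ^ i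
        ≤ 1 * w (yGen k F) ^ i := mul_le_mul_left (hk _) _
      _ = w (yGen k F) ^ i := one_mul _
  have htop : w (p.coeff p.natDegree • yGen k F ^ p.natDegree) = w (yGen k F) ^ p.natDegree := by
    have hlc : p.coeff p.natDegree ≠ 0 := Polynomial.leadingCoeff_ne_zero.mpr hp
    rw [Algebra.smul_def, map_mul, map_pow, h2w_const_eq_one w hk _ hlc, one_mul]
  rw [Polynomial.aeval_eq_sum_range, Finset.sum_range_succ]
  have hlow : w (∑ i ∈ Finset.range p.natDegree, p.coeff i • yGen k F ^ i)
      < w (yGen k F) ^ p.natDegree := by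
    apply Valuation.map_sum_lt w (pow_ne_zero _ hy0)
    intro i hi
    rw [Finset.mem_range] at hi
    exact (hterm i).trans_lt (pow_lt_pow_right₀ hy hi)
  rw [← htop] at hlow
  rw [Valuation.map_add_eq_of_lt_right w hlow, htop]

/-- (W2) a valuation centred at infinity is `≤ 1` on `Rinf k`. -/
theorem valInf_le_one (w : Valuation F ℤᵐ⁰) (hk : ∀ c : k, w (algebraMap k F c) ≤ 1)
    (hy : 1 < w (yGen k F)) (f : Rinf k) : w (algebraMap (Rinf k) F f) ≤ 1 := by
  have hcoe : algebraMap (Rinf k) F f = algebraMap (RatFunc k) F (f : RatFunc k) := rfl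
  rw [hcoe]
  rcases f.2 with h0 | hdeg
  · rw [h0, map_zero, map_zero]
    exact zero_le_one
  · have hy0 : w (yGen k F) ≠ 0 := (zero_lt_one.trans hy).ne'
    have hnum : (f : RatFunc k).num ≠ 0 ∨ (f : RatFunc k).num = 0 := (em _).symm
    rw [bridge_algebraMap_eq, map_div₀,
      valInf_aeval w hk hy _ (RatFunc.denom_ne_zero (f : RatFunc k))]
    by_cases hn : (f : RatFunc k).num = 0
    · rw [hn, map_zero, map_zero, zero_div]
      exact zero_le_one
    · rw [valInf_aeval w hk hy _ hn]
      rw [div_le_one₀ (pow_pos (zero_lt_iff.mpr hy0) _)]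
      have hd : (f : RatFunc k).num.natDegree ≤ (f : RatFunc k).denom.natDegree := by
        have := hdeg
        unfold RatFunc.intDegree at this
        omega
      exact pow_le_pow_right₀ hy.le hd

/-- (W1, finite analogue) if `w y ≤ 1` then `w (p(y)) ≤ 1`. -/
theorem valFin_aeval_le_one (w : Valuation F ℤᵐ⁰) (hk : ∀ c : k, w (algebraMap k F c) ≤ 1)
    (hy : w (yGen k F) ≤ 1) (p : Polynomial k) :
    w (Polynomial.aeval (yGen k F) p) ≤ 1 := by
  rw [Polynomial.aeval_eq_sum_range]
  apply Valuation.map_sum_le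
  intro i _
  rw [Algebra.smul_def, map_mul, map_pow]
  exact mul_le_one' (hk _) (pow_le_one' hy i)

/-- if `w (y - a) < 1` then `w y ≤ 1`. -/
theorem valFin_y_le_one (w : Valuation F ℤᵐ⁰) (hk : ∀ c : k, w (algebraMap k F c) ≤ 1)
    (a : k) (ha : w (yGen k F - algebraMap k F a) < 1) : w (yGen k F) ≤ 1 := by
  have h : yGen k F = (yGen k F - algebraMap k F a) + algebraMap k F a := by ring
  rw [h]
  exact (w.map_add _ _).trans (max_le ha.le (hk a))

end RRalg

end
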