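import Mathlib
import Fermat.Agent.RR.L6Main

/-!
# T-RR [RR-alg] VAL, generic form (helper1)

AKLB setting of `RR/L6Main.lean` (`A` Dedekind with residue fields `k`, alg. closed of char. 0,
`B` the integral closure of `A` in the finite separable extension `L / K`).

`h1v_val_generic`: let `w` be a `ℤᵐ⁰`-valued valuation of `L` which is `≤ 1` on `A`, and let
`t ∈ A` generate a maximal ideal with `w t < 1`.  Then for every `h` in the trace dual `B^*` of `B`
we have `w (h * t) < 1`.  (The different exponent at the centre `P` of `w` is exactly `e_P - 1`.)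
-/

set_option autoImplicit false
set_option linter.style.longLine false
set_option linter.unusedSectionVars false
set_option linter.style.haveILetI false
set_option linter.unusedVariables false

open Module Algebra nonZeroDivisors UniqueFactorizationMonoid IsDedekindDomain
open scoped WithZero

noncomputable section

namespace RRalg

section Integral

variable {A L : Type*} [CommRing A] [Field L] [Algebra A L]

/-- A valuation which is `≤ 1` on `A` is `≤ 1` on every element integral over `A`. -/
theorem h1v_le_one_of_isIntegral (w : Valuation L ℤᵐ⁰) (hwA : ∀ a : A, w (algebraMap A L a) ≤ 1)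
    {x : L} (hx : IsIntegral A x) : w x ≤ 1 := by
  let φ : A →+* w.integer := (algebraMap A L).codRestrict w.integer (fun a => hwA a)
  have h1 : IsIntegral w.integer ((RingHom.id L) x) :=
    IsIntegral.map_of_comp_eq φ (RingHom.id L) (by ext a; rfl) hx
  exact (Valuation.integer.integers w).isIntegral_iff_v_le_one.mp h1

end Integral

section Generic

variable (k : Type*) [Field k] [IsAlgClosed k] [CharZero k]
  (A K : Type*) (L : Type*) (B : Type*) [CommRing A] [Field K] [CommRing B] [Field L]
  [Algebra A K] [Algebra B L] [Algebra A B] [Algebra K L] [Algebra A L]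
  [IsScalarTower A K L] [IsScalarTower A B L]
  [IsDedekindDomain A] [IsFractionRing A K]
  [FiniteDimensional K L] [Algebra.IsSeparable K L] [IsIntegralClosure B A L]
  [IsFractionRing B L] [IsDedekindDomain B] [IsTorsionFree A B]
  [Algebra k A] [Algebra k B] [Algebra k L] [IsScalarTower k A L] [IsScalarTower k B L]
  [IsScalarTower k A B]

/-- The centre of a valuation `w ≤ 1` on `B`. -/
def h1v_centre (w : Valuation L ℤᵐ⁰) (hwB : ∀ b : B, w (algebraMap B L b) ≤ 1) : Ideal B where
  carrier := {b | w (algebraMap B L b) < 1}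
  add_mem' := by
    intro a b ha hb
    show w (algebraMap B L (a + b)) < 1
    rw [map_add]
    exact lt_of_le_of_lt (w.map_add _ _) (max_lt ha hb)
  zero_mem' := by
    show w (algebraMap B L 0) < 1
    rw [map_zero, map_zero]; exact zero_lt_one
  smul_mem' := by
    intro c b hb
    show w (algebraMap B L (c • b)) < 1
    rw [smul_eq_mul, map_mul, map_mul]
    calc w (algebraMap B L c) * w (algebraMap B L b)
        ≤ 1 * w (algebraMap B L b) := mul_le_mul_left (hwB c) _
      _ = w (algebraMap B L b) := one_mul _
      _ < 1 := hb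

theorem h1v_mem_centre (w : Valuation L ℤᵐ⁰) (hwB : ∀ b : B, w (algebraMap B L b) ≤ 1) (b : B) :
    b ∈ h1v_centre L B w hwB ↔ w (algebraMap B L b) < 1 := Iff.rfl

theorem h1v_centre_isPrime (w : Valuation L ℤᵐ⁰) (hwB : ∀ b : B, w (algebraMap B L b) ≤ 1) :
    (h1v_centre L B w hwB).IsPrime := by
  refine ⟨?_, ?_⟩
  · intro h
    have : (1 : B) ∈ h1v_centre L B w hwB := by rw [h]; trivial
    rw [h1v_mem_centre, map_one, map_one] at this
    exact lt_irrefl _ this
  · intro a b hab
    rw [h1v_mem_centre, map_mul, map_mul] at hab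
    by_contra hcon
    push Not at hcon
    obtain ⟨ha, hb⟩ := hcon
    rw [h1v_mem_centre, not_lt] at ha hb
    have ha1 : w (algebraMap B L a) = 1 := le_antisymm (hwB a) ha
    have hb1 : w (algebraMap B L b) = 1 := le_antisymm (hwB b) hb
    rw [ha1, hb1, one_mul] at hab
    exact lt_irrefl _ hab

include k K in
/-- **VAL, generic form.** -/
theorem h1v_val_generic (w : Valuation L ℤᵐ⁰) (hwA : ∀ a : A, w (algebraMap A L a) ≤ 1)
    (t : A) (ht0 : t ≠ 0) (htm : (Ideal.span {t} : Ideal A).IsMaximal)
    (hwt : w (algebraMap A L t) < 1)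
    (h : L) (hh : h ∈ (Algebra.traceForm K L).dualSubmodule
      ((1 : Submodule B L).restrictScalars A)) :
    w (h * algebraMap A L t) < 1 := by
  classical
  have hwB : ∀ b : B, w (algebraMap B L b) ≤ 1 := fun b =>
    h1v_le_one_of_isIntegral w hwA ((IsIntegralClosure.isIntegral_iff (A := B)).mpr ⟨b, rfl⟩)
  have hinjAB : Function.Injective (algebraMap A B) := FaithfulSMul.algebraMap_injective A B
  have htB0 : algebraMap A B t ≠ 0 := fun h0 => ht0 (hinjAB (by rw [h0, map_zero]))
  have htP : algebraMap A B t ∈ h1v_centre L B w hwB := by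
    rw [h1v_mem_centre, ← IsScalarTower.algebraMap_apply]; exact hwt
  have hPprime := h1v_centre_isPrime L B w hwB
  have hP0 : h1v_centre L B w hwB ≠ ⊥ := fun h0 => htB0 (by rw [h0] at htP; exact htP)
  let P : HeightOneSpectrum B := ⟨h1v_centre L B w hwB, hPprime, hP0⟩
  -- the prime below `P` is `(t)`
  have hunder : P.asIdeal.under A = Ideal.span {t} := by
    have hle : Ideal.span {t} ≤ P.asIdeal.under A := by
      rw [Ideal.span_singleton_le_iff_mem, Ideal.mem_comap]
      exact htP
    have hne : P.asIdeal.under A ≠ ⊤ := (Ideal.IsPrime.under A P.asIdeal).ne_top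
    exact (htm.eq_of_le hne hle).symm
  set J : Ideal B := Ideal.map (algebraMap A B) (Ideal.span {t}) with hJ
  have hJ0 : J ≠ ⊥ := by
    rw [hJ, Ideal.map_span, Set.image_singleton, Ne, Ideal.span_singleton_eq_bot]
    exact htB0
  set e := Multiset.count P.asIdeal (normalizedFactors J) with he
  have hcount := H27L6.h27_count_different k A K L B P
  rw [hunder] at hcount
  have he1 : 1 ≤ e := by
    rw [he, Nat.one_le_iff_ne_zero, Ne, Multiset.count_eq_zero, not_not]
    have hprime : Prime P.asIdeal := P.prime
    obtain ⟨q, hq, hPq⟩ := exists_mem_normalizedFactors_of_dvd hJ0 hprime.irreducible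
      (Ideal.dvd_iff_le.mpr (by
        rw [hJ, Ideal.map_span, Set.image_singleton, Ideal.span_singleton_le_iff_mem]
        exact htP))
    rw [associated_iff_eq] at hPq
    rwa [hPq]
  -- valuations
  have hvh : P.valuation L h ≤ WithZero.exp ((e : ℤ) - 1) := by
    have := (H27L6.h27_mem_traceDual_iff A K L B h).mp hh P
    rw [hcount] at this
    have hcast : ((e - 1 : ℕ) : ℤ) = (e : ℤ) - 1 := by omega
    rwa [hcast] at this
  have hvt : P.valuation L (algebraMap A L t) ≤ WithZero.exp (-(e : ℤ)) := by
    rw [IsScalarTower.algebraMap_apply A B L, HeightOneSpectrum.valuation_of_algebraMap]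
    refine (P.intValuation_le_pow_iff_mem _ _).mpr ?_
    apply H27L6.h27_le_pow_count P hJ0
    rw [hJ, Ideal.map_span, Set.image_singleton]
    exact Ideal.mem_span_singleton_self _
  have hvx : P.valuation L (h * algebraMap A L t) < 1 := by
    rw [map_mul]
    calc P.valuation L h * P.valuation L (algebraMap A L t)
        ≤ WithZero.exp ((e : ℤ) - 1) * WithZero.exp (-(e : ℤ)) := mul_le_mul' hvh hvt
      _ = WithZero.exp (-1 : ℤ) := by rw [← WithZero.exp_add]; congr 1; ring
      _ < 1 := by
        rw [← WithZero.exp_zero, WithZero.exp_lt_exp]; norm_num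
  obtain ⟨n, d, hnd⟩ := P.exists_primeCompl_mul_eq_of_integer (h * algebraMap A L t) hvx.le
  have hd : (d : B) ∉ P.asIdeal := d.2
  have hwd : w (algebraMap B L d) = 1 := by
    apply le_antisymm (hwB d)
    by_contra hlt
    exact hd ((h1v_mem_centre L B w hwB d).mpr (not_le.mp hlt))
  have hvd : P.valuation L (algebraMap B L d) = 1 :=
    (P.valuation_eq_one_iff_notMem (K := L)).mpr hd
  have hnP : n ∈ P.asIdeal := by
    have h1 : P.valuation L (algebraMap B L n) < 1 := by
      rw [← hnd, (P.valuation L).map_mul (h * algebraMap A L t), hvd, mul_one]; exact hvx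
    exact (P.valuation_lt_one_iff_mem (K := L) n).mp h1
  have hwn : w (algebraMap B L n) < 1 := (h1v_mem_centre L B w hwB n).mp hnP
  have : w (h * algebraMap A L t) = w (algebraMap B L n) := by
    rw [← hnd, w.map_mul (h * algebraMap A L t), hwd, mul_one]
  rw [this]
  exact hwn

end Generic

end RRalg
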