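/-
T-RR [RR-alg], slice VAL-fin (helper2): elements of the trace dual `Bfin^*` satisfy the finite
half of `ValCond`:  `w (y - a) < 1 → w (h (y - a)) < 1`.
Instance of helper1's `RRalg.h1v_val_generic` at `A = k[X]`, `t = X - C a`.
-/
import Mathlib
import Fermat.Agent.RR.L6Fin
import Fermat.Agent.RR.L6ValGen
import Fermat.Agent.RR.L6InfW_helper2

set_option autoImplicit false
set_option linter.unusedSectionVars false
set_option linter.style.haveILetI false

noncomputable section

open scoped WithZero
open Polynomial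

namespace RRalg

variable (k : Type*) [Field k] [IsAlgClosed k] [CharZero k] (F : Type*) [Field F]
  [Algebra (RatFunc k) F] [Algebra k F] [IsScalarTower k (RatFunc k) F] [Algebra k[X] F]
  [IsScalarTower k[X] (RatFunc k) F] [IsScalarTower k k[X] F]
  [FiniteDimensional (RatFunc k) F] [Algebra.IsSeparable (RatFunc k) F]

attribute [local instance] H27L6.h27_isTorsionFree_B H27L6.h27_isDedekindDomain_B
  H27L6.h27_isFractionRing_B

variable {k F}

/-- the image of a polynomial in `F` -/
theorem h2vf_algebraMap_poly (p : k[X]) : algebraMap k[X] F p = aeval (yGen k F) p := by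
  rw [IsScalarTower.algebraMap_apply k[X] (RatFunc k) F, bridge_algebraMap_poly]

theorem h2vf_algebraMap_X_sub_C (a : k) :
    algebraMap k[X] F (X - C a) = yGen k F - algebraMap k F a := by
  rw [h2vf_algebraMap_poly, map_sub, aeval_X, aeval_C]

/-- **VAL-fin.** -/
theorem valCond_fin (h : F)
    (hh : h ∈ (Algebra.traceForm (RatFunc k) F).dualSubmodule (Bfin k F))
    (w : Valuation F ℤᵐ⁰) (hw : ∀ c : k, w (algebraMap k F c) ≤ 1) (a : k)
    (ha : w (yGen k F - algebraMap k F a) < 1) :
    w (h * (yGen k F - algebraMap k F a)) < 1 := by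
  have hy : w (yGen k F) ≤ 1 := valFin_y_le_one w hw a ha
  have hwA : ∀ p : k[X], w (algebraMap k[X] F p) ≤ 1 := fun p => by
    rw [h2vf_algebraMap_poly]
    exact valFin_aeval_le_one w hw hy p
  have hh' : h ∈ (Algebra.traceForm (RatFunc k) F).dualSubmodule
      ((1 : Submodule ↥(integralClosure k[X] F) F).restrictScalars k[X]) := by
    rw [H27L6.h27_one_eq_Bfin]
    exact hh
  have key := h1v_val_generic k k[X] (RatFunc k) F ↥(integralClosure k[X] F) w hwA (X - C a)
    (X_sub_C_ne_zero a) (H27L6.h27_span_X_sub_C_isMaximal k a)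
    (by rw [h2vf_algebraMap_X_sub_C]; exact ha) h hh'
  rwa [h2vf_algebraMap_X_sub_C] at key

end RRalg

end
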