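/-
T-RR [RR-alg], slice VAL-inf (helper2): elements of `X⁻² • Binf^*` satisfy the infinite half of
`ValCond`:  `1 < w y → w (h y) < 1`.
Instance of helper1's `RRalg.h1v_val_generic` at `A = Rinf k`, `t = X⁻¹`.
-/
import Mathlib
import Fermat.Agent.RR.Field
import Fermat.Agent.RR.L6InfA
import Fermat.Agent.RR.L6ValGen
import Fermat.Agent.RR.L6InfW_helper2

set_option autoImplicit false
set_option synthInstance.maxHeartbeats 400000
set_option maxHeartbeats 1000000
set_option linter.unusedSectionVars false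
set_option linter.style.haveILetI false

noncomputable section

open scoped WithZero
open Module Polynomial

namespace RRalg

variable (k : Type*) [Field k] [IsAlgClosed k] [CharZero k] (F : Type*) [Field F]
  [Algebra (RatFunc k) F] [Algebra k F] [IsScalarTower k (RatFunc k) F] [Algebra k[X] F]
  [IsScalarTower k[X] (RatFunc k) F] [IsScalarTower k k[X] F]
  [FiniteDimensional (RatFunc k) F] [Algebra.IsSeparable (RatFunc k) F]

theorem h2vi_algebraMap_Rinf_injective : Function.Injective (algebraMap (Rinf k) F) := by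
  rw [IsScalarTower.algebraMap_eq (Rinf k) (RatFunc k) F]
  exact (algebraMap (RatFunc k) F).injective.comp (IsFractionRing.injective (Rinf k) (RatFunc k))

theorem h2vi_isTorsionFree_Rinf : IsTorsionFree (Rinf k) F :=
  isTorsionFree_iff_algebraMap_injective.mpr (h2vi_algebraMap_Rinf_injective k F)

theorem h2vi_isTorsionFree_Binf : IsTorsionFree (Rinf k) ↥(integralClosure (Rinf k) F) :=
  have := h2vi_isTorsionFree_Rinf k F
  inferInstance

theorem h2vi_isDedekindDomain_Binf : IsDedekindDomain ↥(integralClosure (Rinf k) F) :=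
  integralClosure.isDedekindDomain (Rinf k) (RatFunc k) F

theorem h2vi_isFractionRing_Binf : IsFractionRing ↥(integralClosure (Rinf k) F) F :=
  integralClosure.isFractionRing_of_finite_extension (A := Rinf k) (RatFunc k) F

attribute [local instance] h2vi_isTorsionFree_Binf h2vi_isDedekindDomain_Binf
  h2vi_isFractionRing_Binf

theorem h2vi_one_eq_Binf :
    (1 : Submodule ↥(integralClosure (Rinf k) F) F).restrictScalars (Rinf k) = Binf k F := by
  ext x
  rw [Submodule.restrictScalars_mem, Submodule.mem_one]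
  constructor
  · rintro ⟨b, rfl⟩
    exact b.2
  · intro hx
    exact ⟨⟨x, hx⟩, rfl⟩

variable {k F}

theorem h2vi_algebraMap_Xinv : algebraMap (Rinf k) F (Xinv k) = (yGen k F)⁻¹ := by
  have h : algebraMap (Rinf k) F (Xinv k) = algebraMap (RatFunc k) F ((Xinv k : Rinf k) : RatFunc k) :=
    rfl
  rw [h, coe_Xinv, map_inv₀]
  rfl

/-- **VAL-inf**, for elements of `Binf^*`. -/
theorem valCond_inf_dual (m : F)
    (hm : m ∈ (Algebra.traceForm (RatFunc k) F).dualSubmodule (Binf k F))
    (w : Valuation F ℤᵐ⁰) (hw : ∀ c : k, w (algebraMap k F c) ≤ 1) (hy : 1 < w (yGen k F)) :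
    w (m * (yGen k F)⁻¹) < 1 := by
  have hwA : ∀ f : Rinf k, w (algebraMap (Rinf k) F f) ≤ 1 := valInf_le_one w hw hy
  have hm' : m ∈ (Algebra.traceForm (RatFunc k) F).dualSubmodule
      ((1 : Submodule ↥(integralClosure (Rinf k) F) F).restrictScalars (Rinf k)) := by
    rw [h2vi_one_eq_Binf]
    exact hm
  have hwt : w (algebraMap (Rinf k) F (Xinv k)) < 1 := by
    rw [h2vi_algebraMap_Xinv, map_inv₀]
    exact inv_lt_one_of_one_lt₀ hy
  have key := h1v_val_generic k (Rinf k) (RatFunc k) F ↥(integralClosure (Rinf k) F) w hwA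
    (Xinv k) Xinv_ne_zero h1i_span_Xinv_isMaximal hwt m hm'
  rwa [h2vi_algebraMap_Xinv] at key

/-- **VAL-inf.** -/
theorem valCond_inf (h : F)
    (hh : h ∈ twist ((RatFunc.X : RatFunc k) ^ (-2 : ℤ))
      ((Algebra.traceForm (RatFunc k) F).dualSubmodule (Binf k F)))
    (w : Valuation F ℤᵐ⁰) (hw : ∀ c : k, w (algebraMap k F c) ≤ 1) (hy : 1 < w (yGen k F)) :
    w (h * yGen k F) < 1 := by
  obtain ⟨m, hm, rfl⟩ := (mem_twist _ _ _).mp hh
  have hy0 : yGen k F ≠ 0 := by
    intro h0
    rw [h0, map_zero] at hy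
    exact absurd hy (not_lt.mpr zero_le_one)
  have e : ((RatFunc.X : RatFunc k) ^ (-2 : ℤ)) • m * yGen k F = m * (yGen k F)⁻¹ := by
    rw [Algebra.smul_def, map_zpow₀]
    change (yGen k F) ^ (-2 : ℤ) * m * yGen k F = m * (yGen k F)⁻¹
    rw [zpow_neg, zpow_ofNat]
    field_simp
  rw [e]
  exact valCond_inf_dual m hm w hw hy

end RRalg

end
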