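import Mathlib
import Fermat.Agent.RR.Bridge
import Fermat.Agent.RR.Field
import Fermat.Agent.RR.L6ValFin
import Fermat.Agent.RR.L6ValInf
import Fermat.Agent.RR.L6FinCount
import Fermat.Agent.RR.L6InfC

/-!
# T-RR E3, BRIDGE, general form (helper1)

`RRalg.bridge_general`: for `K` algebraically closed of characteristic `0`, `F / K` a field
extension, `y : F` transcendental with `[F : K(y)] < ∞`, there are a finite-dimensional
`K`-subspace `W ⊆ F` of dimension `g'` and integers `Rfin`, `Rinf` such that

* every `h ∈ W` satisfies the valuation conditions (`h (y - a)` resp. `h y` lies in the maximal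
  ideal of every valuation centred at `y = a` resp. `y = ∞`);
* `∑_{a ∈ S} (n - #{places over a}) ≤ Rfin`, `n - #{places over ∞} ≤ Rinf`;
* `2 g' - 2 = Rfin + Rinf - 2 n`,  `n = [F : K(y)]`.
-/

set_option autoImplicit false
set_option linter.style.longLine false
set_option linter.unusedSectionVars false
set_option linter.style.haveILetI false
set_option linter.unusedVariables false

open Polynomial IntermediateField AlgebraicCurve
open scoped WithZero

noncomputable section

namespace RRalg

variable {K F : Type*} [Field K] [IsAlgClosed K] [CharZero K] [Field F] [Algebra K F]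

theorem bridge_general (y : F) (hy : Transcendental K y) [FiniteDimensional K⟮y⟯ F] :
    ∃ (W : Submodule K F) (g' : ℕ) (Rfin Rinf : ℤ),
      FiniteDimensional K W ∧ Module.finrank K W = g' ∧
      (∀ h ∈ W, ∀ w : Valuation F ℤᵐ⁰, (∀ c : K, w (algebraMap K F c) ≤ 1) →
        (∀ a : K, w (y - algebraMap K F a) < 1 → w (h * (y - algebraMap K F a)) < 1) ∧
        (1 < w y → w (h * y) < 1)) ∧
      (∀ S : Finset K, ∑ a ∈ S, ((Module.finrank K⟮y⟯ F : ℤ)
          - Nat.card {v : Place K F // 0 < v.ord (y - algebraMap K F a)}) ≤ Rfin) ∧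
      ((Module.finrank K⟮y⟯ F : ℤ) - Nat.card {v : Place K F // 0 < v.ord y⁻¹} ≤ Rinf) ∧
      2 * (g' : ℤ) - 2 = Rfin + Rinf - 2 * (Module.finrank K⟮y⟯ F : ℤ) := by
  letI := bridgePolyAlgebra (K := K) y
  letI := bridgeRatAlgebra y hy
  haveI := bridge_tower_K_rat y hy
  haveI := bridge_tower_K_poly (K := K) y
  haveI := bridge_tower_poly_rat y hy
  haveI := bridge_finiteDimensional y hy
  have hyg : yGen K F = y := bridge_yGen y hy
  have hn : Module.finrank (RatFunc K) F = Module.finrank K⟮y⟯ F := bridge_finrank y hy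
  obtain ⟨h1, h2⟩ := rr_alg (k := K) (F := F)
  have hfp := finPair_dual (Algebra.traceForm (RatFunc K) F)
    (traceForm_nondegenerate (RatFunc K) F) (Bfin K F) (Binf K F)
  refine ⟨sk (k := K) ((Algebra.traceForm (RatFunc K) F).dualSubmodule (Bfin K F)) ⊓
      sk (k := K) (twist ((RatFunc.X : RatFunc K) ^ (-2 : ℤ))
        ((Algebra.traceForm (RatFunc K) F).dualSubmodule (Binf K F))),
    RRalg.h1 (sk (k := K) (Bfin K F)) (sk (k := K) (Binf K F)),
    relIndex (sk (k := K) ((Algebra.traceForm (RatFunc K) F).dualSubmodule (Bfin K F)))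
      (sk (k := K) (Bfin K F)),
    relIndex (sk (k := K) ((Algebra.traceForm (RatFunc K) F).dualSubmodule (Binf K F)))
      (sk (k := K) (Binf K F)), hfp.1, h1, ?_, ?_, ?_, ?_⟩
  · intro h hh w hw
    obtain ⟨hh1, hh2⟩ := Submodule.mem_inf.mp hh
    refine ⟨fun a ha => ?_, fun hy1 => ?_⟩
    · have := valCond_fin (k := K) (F := F) h hh1 w hw a (by rw [hyg]; exact ha)
      rwa [hyg] at this
    · have := valCond_inf (k := K) (F := F) h hh2 w hw (by rw [hyg]; exact hy1)
      rwa [hyg] at this
  · intro S
    have := H27L6.h27_count_fin K F S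
    rw [hyg, hn] at this
    exact this
  · have := h1i_count_inf K F
    rw [hyg, hn] at this
    exact this
  · rw [← hn]
    exact h2

end RRalg
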