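import Fermat.Agent.RR.DictHol

/-!
# T-RR [DICT] (helper24): precomposition action on `Hol` and `Mer`

* `precompGL g hg`, `precomp γ : Hol →+* Hol`, `precompMerGL`, `precompMer γ : Mer →+* Mer`
  (precomposition `h ↦ h ∘ γ`), `precompMer_mul : precompMer (γ₁ * γ₂) = (precompMer γ₂).comp (precompMer γ₁)`
* `merVal_precompMer : merVal z₀ (precompMer γ h) = merVal (γ • z₀) h`
-/

set_option autoImplicit false

noncomputable section

open UpperHalfPlane ModularForm WithZero Filter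
open scoped MatrixGroups Manifold Topology

namespace H24D

/-- Precomposition with an element of `GL(2, ℝ)⁺`, as a ring endomorphism of `Hol`. -/
def precompGL (g : GL (Fin 2) ℝ) (hg : 0 < g.det.val) : Hol →+* Hol where
  toFun f := ⟨fun z => (f : ℍ → ℂ) (g • z), by
    have h1 : MDiff (f : ℍ → ℂ) := f.2
    exact h1.comp (mdifferentiable_smul hg)⟩
  map_one' := rfl
  map_mul' _ _ := rfl
  map_zero' := rfl
  map_add' _ _ := rfl

@[simp] theorem precompGL_apply (g : GL (Fin 2) ℝ) (hg : 0 < g.det.val) (f : Hol) (z : ℍ) :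
    (precompGL g hg f : ℍ → ℂ) z = (f : ℍ → ℂ) (g • z) := rfl

theorem precompGL_injective (g : GL (Fin 2) ℝ) (hg : 0 < g.det.val) :
    Function.Injective (precompGL g hg) := by
  intro f₁ f₂ h
  apply Subtype.ext
  funext z
  have := congrArg (fun F : Hol => (F : ℍ → ℂ) (g⁻¹ • z)) h
  simpa using this

theorem det_mapGL_pos (γ : SL(2, ℤ)) :
    0 < (Matrix.SpecialLinearGroup.mapGL ℝ γ : GL (Fin 2) ℝ).det.val := by
  simp

/-- Precomposition with an element of `SL(2, ℤ)`. -/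
def precomp (γ : SL(2, ℤ)) : Hol →+* Hol :=
  precompGL (Matrix.SpecialLinearGroup.mapGL ℝ γ) (det_mapGL_pos γ)

@[simp] theorem precomp_apply (γ : SL(2, ℤ)) (f : Hol) (z : ℍ) :
    (precomp γ f : ℍ → ℂ) z = (f : ℍ → ℂ) (γ • z) := rfl

theorem precomp_injective (γ : SL(2, ℤ)) : Function.Injective (precomp γ) :=
  precompGL_injective _ _

theorem precomp_one : precomp 1 = RingHom.id Hol := by
  ext f z
  simp

theorem precomp_mul (γ₁ γ₂ : SL(2, ℤ)) : precomp (γ₁ * γ₂) = (precomp γ₂).comp (precomp γ₁) := by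
  ext f z
  simp [mul_smul]

/-- Precomposition with an element of `GL(2, ℝ)⁺` on meromorphic functions. -/
def precompMerGL (g : GL (Fin 2) ℝ) (hg : 0 < g.det.val) : Mer →+* Mer :=
  IsFractionRing.map (A := Hol) (B := Hol) (K := Mer) (L := Mer) (precompGL_injective g hg)

@[simp] theorem precompMerGL_algebraMap (g : GL (Fin 2) ℝ) (hg : 0 < g.det.val) (f : Hol) :
    precompMerGL g hg (algebraMap Hol Mer f) = algebraMap Hol Mer (precompGL g hg f) := by
  unfold precompMerGL IsFractionRing.map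
  exact IsLocalization.map_eq _ f

/-- Precomposition with an element of `SL(2, ℤ)` on meromorphic functions. -/
def precompMer (γ : SL(2, ℤ)) : Mer →+* Mer :=
  precompMerGL (Matrix.SpecialLinearGroup.mapGL ℝ γ) (det_mapGL_pos γ)

@[simp] theorem precompMer_algebraMap (γ : SL(2, ℤ)) (f : Hol) :
    precompMer γ (algebraMap Hol Mer f) = algebraMap Hol Mer (precomp γ f) :=
  precompMerGL_algebraMap _ _ f

theorem precompMer_one : precompMer 1 = RingHom.id Mer := by
  apply IsLocalization.ringHom_ext (nonZeroDivisors Hol)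
  ext f
  simp [precomp_one]

theorem precompMer_mul (γ₁ γ₂ : SL(2, ℤ)) :
    precompMer (γ₁ * γ₂) = (precompMer γ₂).comp (precompMer γ₁) := by
  apply IsLocalization.ringHom_ext (nonZeroDivisors Hol)
  ext f
  simp [precomp_mul]

theorem precompMer_mul_apply (γ₁ γ₂ : SL(2, ℤ)) (h : Mer) :
    precompMer (γ₁ * γ₂) h = precompMer γ₂ (precompMer γ₁ h) := by
  rw [precompMer_mul]; rfl

/-- the Möbius map of `g` as a function `ℂ → ℂ` -/
def moebC (g : GL (Fin 2) ℝ) (w : ℂ) : ℂ := num g w / denom g w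

theorem analyticAt_moebC (g : GL (Fin 2) ℝ) (z₀ : ℍ) : AnalyticAt ℂ (moebC g) (z₀ : ℂ) := by
  unfold moebC
  have h1 : AnalyticAt ℂ (fun w : ℂ => num g w) (z₀ : ℂ) := by
    unfold num; fun_prop
  have h2 : AnalyticAt ℂ (fun w : ℂ => denom g w) (z₀ : ℂ) := by
    unfold denom; fun_prop
  exact h1.div h2 (denom_ne_zero g z₀)

theorem moebC_coe {g : GL (Fin 2) ℝ} (hg : 0 < g.det.val) (z : ℍ) :
    moebC g (z : ℂ) = ((g • z : ℍ) : ℂ) := by
  rw [coe_smul_of_det_pos hg]; rfl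

theorem ext_comp_smul_eventuallyEq {g : GL (Fin 2) ℝ} (hg : 0 < g.det.val) (f : ℍ → ℂ) (z₀ : ℍ) :
    ext (fun z => f (g • z)) =ᶠ[𝓝 (z₀ : ℂ)] (ext f) ∘ (moebC g) := by
  filter_upwards [isOpen_Hset.mem_nhds (coe_mem_Hset z₀)] with w hw
  have hw' : 0 < w.im := hw
  simp only [ext, Function.comp_apply]
  rw [ofComplex_apply_of_im_pos hw']
  have := moebC_coe hg ⟨w, hw'⟩
  rw [show ((⟨w, hw'⟩ : ℍ) : ℂ) = w from rfl] at this
  rw [this, ofComplex_apply]

theorem ordFun_le_ordFun_comp_smul {g : GL (Fin 2) ℝ} (hg : 0 < g.det.val) {f : ℍ → ℂ}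
    (hf : MDiff f) (z₀ : ℍ) :
    ordFun (g • z₀) f ≤ ordFun z₀ (fun z => f (g • z)) := by
  unfold ordFun
  rw [analyticOrderAt_congr (ext_comp_smul_eventuallyEq hg f z₀)]
  have hfa : AnalyticAt ℂ (ext f) (moebC g (z₀ : ℂ)) := by
    rw [moebC_coe hg]; exact analyticAt_ext hf _
  rw [hfa.analyticOrderAt_comp (analyticAt_moebC g z₀), moebC_coe hg]
  have h1 : analyticOrderAt (fun w => moebC g w - ((g • z₀ : ℍ) : ℂ)) (z₀ : ℂ) ≠ 0 := by
    have ha : AnalyticAt ℂ (fun w => moebC g w - ((g • z₀ : ℍ) : ℂ)) (z₀ : ℂ) :=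
      (analyticAt_moebC g z₀).sub analyticAt_const
    rw [ha.analyticOrderAt_ne_zero, moebC_coe hg, sub_self]
  have h2 : (1 : ℕ∞) ≤ analyticOrderAt (fun w => moebC g w - ((g • z₀ : ℍ) : ℂ)) (z₀ : ℂ) :=
    Order.one_le_iff_ne_zero.mpr h1
  calc analyticOrderAt (ext f) ((g • z₀ : ℍ) : ℂ)
      = analyticOrderAt (ext f) ((g • z₀ : ℍ) : ℂ) * 1 := (mul_one _).symm
    _ ≤ _ := mul_le_mul_right h2 _

theorem ordFun_comp_smul {g : GL (Fin 2) ℝ} (hg : 0 < g.det.val) {f : ℍ → ℂ}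
    (hf : MDiff f) (z₀ : ℍ) :
    ordFun z₀ (fun z => f (g • z)) = ordFun (g • z₀) f := by
  apply le_antisymm _ (ordFun_le_ordFun_comp_smul hg hf z₀)
  have hg' : 0 < (g⁻¹).det.val := by
    have : (g⁻¹).det.val = (g.det.val)⁻¹ := by simp
    rw [this]; positivity
  have hF : MDiff (fun z => f (g • z)) := hf.comp (mdifferentiable_smul hg)
  have := ordFun_le_ordFun_comp_smul hg' hF (g • z₀)
  simpa using this

theorem ordVal_precompGL (g : GL (Fin 2) ℝ) (hg : 0 < g.det.val) (z₀ : ℍ) (f : Hol) :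
    ordVal z₀ (precompGL g hg f) = ordVal (g • z₀) f := by
  by_cases hf : f = 0
  · subst hf; simp
  · have hf' : precompGL g hg f ≠ 0 := fun h => hf (precompGL_injective g hg (by simpa using h))
    rw [ordVal_apply _ _ hf', ordVal_apply _ _ hf]
    have h1 : ordNat z₀ (precompGL g hg f : ℍ → ℂ) = ordNat (g • z₀) (f : ℍ → ℂ) := by
      unfold ordNat
      exact congrArg ENat.toNat (ordFun_comp_smul hg f.2 z₀)
    rw [h1]

theorem merVal_precompMerGL (g : GL (Fin 2) ℝ) (hg : 0 < g.det.val) (z₀ : ℍ) (h : Mer) :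
    merVal z₀ (precompMerGL g hg h) = merVal (g • z₀) h := by
  obtain ⟨a, b, hb, rfl⟩ := IsFractionRing.div_surjective (A := Hol) h
  simp only [map_div₀, precompMerGL_algebraMap, merVal_algebraMap, ordVal_precompGL]

theorem merVal_precompMer (γ : SL(2, ℤ)) (z₀ : ℍ) (h : Mer) :
    merVal z₀ (precompMer γ h) = merVal (γ • z₀) h :=
  merVal_precompMerGL _ _ z₀ h

end H24D

end
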