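import Fermat.Agent.RR.DictPhi
import Fermat.Agent.S24.BI

/-!
# T-RR [DICT] (helper24): shared definitions for the DICT slices (definitions only)
-/

set_option autoImplicit false

noncomputable section

open UpperHalfPlane ModularForm WithZero Filter ModularCurve CongruenceSubgroup
open scoped MatrixGroups Manifold Topology Real

namespace H24D

open RH24 (Kbar Jbar iota jf jd Dv Jgen formalEval Dv_ne_zero)

/-- the derivative `j'` of `j` -/
def jprimeFun (z : ℍ) : ℂ := deriv (fun w : ℂ => jf (ofComplex w)) (z : ℂ)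

/-- the function `z ↦ P (j (d δ z))_d` -/
def polyFunAt (N : ℕ) [NeZero N] (δ : SL(2, ℤ)) (P : MvPolynomial (Dv N) Kbar) (z : ℍ) : ℂ :=
  MvPolynomial.eval₂ iota (fun d : Dv N => jd d.1 (δ • z)) P

/-- the valuation conditions satisfied by `h` with `div(h) + div(dJ) ≥ 0` -/
def ValCond (N : ℕ) [NeZero N] (h : modularFunctionFieldBar N) : Prop :=
  ∀ w : Valuation (modularFunctionFieldBar N) ℤᵐ⁰,
    (∀ c : Kbar, c ≠ 0 → w (algebraMap Kbar _ c) = 1) →
      (∀ a : Kbar, w (Jbar N - algebraMap Kbar _ a) < 1 →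
        w (h * (Jbar N - algebraMap Kbar _ a)) < 1) ∧
      (1 < w (Jbar N) → w (h * Jbar N) < 1)

end H24D

end
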