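/-
T-RR [DICT], slice DC1 (helper21): the valuation of `F = modularFunctionFieldBar N` at the cusp
`δ ∞`:  `H24D.polyFunAt_mem_HolInf`, `H24D.exists_wInf`.
-/
import Fermat.Agent.RR.DictDefs
import Fermat.Agent.S24.BC1
import Fermat.Agent.S24.BC2
import Fermat.Agent.S24.BC2J
import Fermat.Agent.S24.BA3
import Fermat.Agent.S24.BA12
import Fermat.Agent.S24.BJ3
import Fermat.Agent.S24.BJ12
import Fermat.Agent.S24.BH1
import Fermat.Agent.S24.BH3

set_option autoImplicit false

noncomputable section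

open UpperHalfPlane ModularForm WithZero Filter ModularCurve CongruenceSubgroup
open scoped MatrixGroups Manifold Topology Real

namespace H24D

open RH24 (Kbar Jbar iota jf jd Dv Jgen formalEval Dv_ne_zero)

/-! ### the domain `HolInf N` -/

theorem h21d_exists_ne_zero {N : ℕ} {a : RH24.HolInf N} (ha : a ≠ 0) :
    ∃ z, (a : ℍ → ℂ) z ≠ 0 := by
  by_contra h
  push Not at h
  exact ha (Subtype.ext (funext h))

instance h21d_noZeroDivisors (N : ℕ) : NoZeroDivisors (RH24.HolInf N) where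
  eq_zero_or_eq_zero_of_mul_eq_zero := by
    intro a b hab
    have h := RH24.Hol_noZeroDivisors a.1 b.1 a.2.1 b.2.1 (fun z => by
      have := congrArg (fun f : RH24.HolInf N => (f : ℍ → ℂ) z) hab
      simpa using this)
    rcases h with h | h
    · left; exact Subtype.ext (funext h)
    · right; exact Subtype.ext (funext h)

instance h21d_isDomain (N : ℕ) : IsDomain (RH24.HolInf N) := NoZeroDivisors.to_isDomain _

/-- evaluation at a point -/
def h21d_evalInf (N : ℕ) (z : ℍ) : RH24.HolInf N →+* ℂ :=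
  (Pi.evalRingHom (fun _ : ℍ => ℂ) z).comp (RH24.HolInf N).val.toRingHom

@[simp] theorem h21d_evalInf_apply (N : ℕ) (z : ℍ) (f : RH24.HolInf N) :
    h21d_evalInf N z f = (f : ℍ → ℂ) z := rfl

variable (N : ℕ) [NeZero N] (δ : SL(2, ℤ))

/-- `z ↦ j (d δ z)` as an element of `HolInf N` -/
def h21d_jdInf (d : Dv N) : RH24.HolInf N :=
  ⟨fun z => jd d.1 (δ • z), by
    refine ⟨?_, ?_, ?_⟩
    · haveI : NeZero d.1 := ⟨Dv_ne_zero d⟩
      exact RH24.mdiff_comp_smul δ _ (RH24.mdiff_jd d.1)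
    · intro z
      have := RH24.jdt_periodic N d δ⁻¹ z
      simpa [RH24.jdt, inv_inv] using this
    · have := RH24.jdt_moderateGrowth N d δ⁻¹
      have he : RH24.jdt d.1 δ⁻¹ = fun z => jd d.1 (δ • z) := by
        funext z
        simp [RH24.jdt, inv_inv]
      rwa [he] at this⟩

@[simp] theorem h21d_jdInf_apply (d : Dv N) (z : ℍ) :
    (h21d_jdInf N δ d : ℍ → ℂ) z = jd d.1 (δ • z) := rfl

/-- polynomials over `ℂ` in the `j (d δ z)` -/
def h21d_polyInf (P : MvPolynomial (Dv N) ℂ) : RH24.HolInf N :=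
  MvPolynomial.eval₂ (algebraMap ℂ (RH24.HolInf N)) (fun d => h21d_jdInf N δ d) P

theorem h21d_polyInf_apply (P : MvPolynomial (Dv N) ℂ) (z : ℍ) :
    (h21d_polyInf N δ P : ℍ → ℂ) z = MvPolynomial.eval (fun d : Dv N => jd d.1 (δ • z)) P := by
  have h := MvPolynomial.eval₂_comp_left (h21d_evalInf N z) (algebraMap ℂ (RH24.HolInf N))
    (fun d : Dv N => h21d_jdInf N δ d) P
  rw [h21d_evalInf_apply] at h
  unfold h21d_polyInf
  rw [h]
  rfl

/-- polynomials over `ℚ̄` in the `j (d δ z)` -/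
def h21d_polyInfK (P : MvPolynomial (Dv N) Kbar) : RH24.HolInf N :=
  MvPolynomial.eval₂ ((algebraMap ℂ (RH24.HolInf N)).comp iota) (fun d => h21d_jdInf N δ d) P

theorem h21d_polyInfK_apply (P : MvPolynomial (Dv N) Kbar) (z : ℍ) :
    (h21d_polyInfK N δ P : ℍ → ℂ) z = polyFunAt N δ P z := by
  have h := MvPolynomial.eval₂_comp_left (h21d_evalInf N z)
    ((algebraMap ℂ (RH24.HolInf N)).comp iota) (fun d : Dv N => h21d_jdInf N δ d) P
  rw [h21d_evalInf_apply] at h
  unfold h21d_polyInfK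
  rw [h]
  rfl

theorem h21d_coe_polyInfK (P : MvPolynomial (Dv N) Kbar) :
    (h21d_polyInfK N δ P : ℍ → ℂ) = polyFunAt N δ P :=
  funext (h21d_polyInfK_apply N δ P)

/-- **DC1 (a)** -/
theorem polyFunAt_mem_HolInf (N : ℕ) [NeZero N] (δ : SL(2, ℤ)) (P : MvPolynomial (Dv N) Kbar) :
    polyFunAt N δ P ∈ RH24.HolInf N := by
  rw [← h21d_coe_polyInfK]
  exact (h21d_polyInfK N δ P).2

/-! ### the order function on `HolInf N` -/

/-- the order at the cusp, as an integer -/
def h21d_o (a : RH24.HolInf N) : ℤ := (RH24.ordInf N (a : ℍ → ℂ)).untop₀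

theorem h21d_ordInf_ne_top {a : RH24.HolInf N} (ha : a ≠ 0) :
    RH24.ordInf N (a : ℍ → ℂ) ≠ ⊤ :=
  RH24.ordInf_ne_top N a.1 a.2.1 a.2.2.1 a.2.2.2 (h21d_exists_ne_zero ha)

theorem h21d_o_one : h21d_o N (1 : RH24.HolInf N) = 0 := by
  unfold h21d_o
  have h : ((1 : RH24.HolInf N) : ℍ → ℂ) = fun _ => (1 : ℂ) := rfl
  rw [h, RH24.ordInf_const N 1 one_ne_zero]
  rfl

theorem h21d_o_mul (a b : RH24.HolInf N) (ha : a ≠ 0) (hb : b ≠ 0) :
    h21d_o N (a * b) = h21d_o N a + h21d_o N b := by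
  unfold h21d_o
  have h : ((a * b : RH24.HolInf N) : ℍ → ℂ) = fun z => (a : ℍ → ℂ) z * (b : ℍ → ℂ) z := rfl
  rw [h, RH24.ordInf_mul N a.1 b.1 a.2.1 b.2.1 a.2.2.1 b.2.2.1 a.2.2.2 b.2.2.2]
  exact WithTop.untop₀_add (h21d_ordInf_ne_top N ha) (h21d_ordInf_ne_top N hb)

theorem h21d_o_add (a b : RH24.HolInf N) (ha : a ≠ 0) (hb : b ≠ 0) (hab : a + b ≠ 0) :
    min (h21d_o N a) (h21d_o N b) ≤ h21d_o N (a + b) := by
  unfold h21d_o
  have h : ((a + b : RH24.HolInf N) : ℍ → ℂ) = fun z => (a : ℍ → ℂ) z + (b : ℍ → ℂ) z := rfl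
  have h1 := RH24.ordInf_add N a.1 b.1 a.2.1 b.2.1 a.2.2.1 b.2.2.1 a.2.2.2 b.2.2.2
  have hab' := h21d_ordInf_ne_top N hab
  rw [h] at hab' ⊢
  have ha' := h21d_ordInf_ne_top N ha
  have hb' := h21d_ordInf_ne_top N hb
  revert h1 hab' ha' hb'
  generalize RH24.ordInf N (a : ℍ → ℂ) = x
  generalize RH24.ordInf N (b : ℍ → ℂ) = y
  generalize RH24.ordInf N (fun z => (a : ℍ → ℂ) z + (b : ℍ → ℂ) z) = t
  intro h1 ht hx hy
  lift x to ℤ using hx
  lift y to ℤ using hy
  lift t to ℤ using ht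
  simp only [WithTop.untop₀_coe]
  exact_mod_cast h1

/-! ### the realisation of `F` in `Frac (HolInf N)` -/

/-- constants in `Frac (HolInf N)` -/
def h21d_constInf : ℂ →+* FractionRing (RH24.HolInf N) :=
  (algebraMap (RH24.HolInf N) (FractionRing (RH24.HolInf N))).comp (algebraMap ℂ (RH24.HolInf N))

theorem h21d_eval₂_constInf (P : MvPolynomial (Dv N) ℂ) :
    MvPolynomial.eval₂ (h21d_constInf N)
        (fun d : Dv N => algebraMap (RH24.HolInf N) (FractionRing (RH24.HolInf N))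
          (h21d_jdInf N δ d)) P
      = algebraMap (RH24.HolInf N) (FractionRing (RH24.HolInf N)) (h21d_polyInf N δ P) := by
  have h := MvPolynomial.eval₂_comp_left
    (algebraMap (RH24.HolInf N) (FractionRing (RH24.HolInf N)))
    (algebraMap ℂ (RH24.HolInf N)) (fun d : Dv N => h21d_jdInf N δ d) P
  unfold h21d_polyInf
  rw [h]
  rfl

theorem h21d_formalEval_iff (P : MvPolynomial (Dv N) ℂ) :
    formalEval N P = 0 ↔
      MvPolynomial.eval₂ (h21d_constInf N)
        (fun d : Dv N => algebraMap (RH24.HolInf N) (FractionRing (RH24.HolInf N))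
          (h21d_jdInf N δ d)) P = 0 := by
  rw [RH24.qexp_principle, h21d_eval₂_constInf,
    map_eq_zero_iff _ (IsFractionRing.injective (RH24.HolInf N) (FractionRing (RH24.HolInf N)))]
  constructor
  · intro h
    apply Subtype.ext
    funext z
    rw [h21d_polyInf_apply]
    exact h (δ • z)
  · intro h z
    have h1 := h21d_polyInf_apply N δ P (δ⁻¹ • z)
    rw [h] at h1
    have h2 : δ • δ⁻¹ • z = z := by rw [smul_smul, mul_inv_cancel, one_smul]
    rw [h2] at h1
    exact h1.symm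

theorem h21d_exists_psi : ∃ ψ : modularFunctionFieldBar N →+* FractionRing (RH24.HolInf N),
    (∀ d, ψ (Jgen d) = algebraMap (RH24.HolInf N) (FractionRing (RH24.HolInf N))
      (h21d_jdInf N δ d)) ∧
    ∀ c : Kbar, ψ (algebraMap Kbar _ c) = h21d_constInf N (iota c) :=
  RH24.exists_real N (h21d_constInf N) _ (h21d_formalEval_iff N δ)

/-- the realisation of `F` at the cusp `δ ∞` -/
def h21d_psi : modularFunctionFieldBar N →+* FractionRing (RH24.HolInf N) :=
  Classical.choose (h21d_exists_psi N δ)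

theorem h21d_psi_Jgen (d : Dv N) :
    h21d_psi N δ (Jgen d) = algebraMap (RH24.HolInf N) (FractionRing (RH24.HolInf N))
      (h21d_jdInf N δ d) :=
  (Classical.choose_spec (h21d_exists_psi N δ)).1 d

theorem h21d_psi_const (c : Kbar) :
    h21d_psi N δ (algebraMap Kbar _ c) = h21d_constInf N (iota c) :=
  (Classical.choose_spec (h21d_exists_psi N δ)).2 c

theorem h21d_psi_aeval (P : MvPolynomial (Dv N) Kbar) :
    h21d_psi N δ (MvPolynomial.aeval (fun d : Dv N => Jgen d) P)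
      = algebraMap (RH24.HolInf N) (FractionRing (RH24.HolInf N)) (h21d_polyInfK N δ P) := by
  have h1 := MvPolynomial.eval₂_comp_left (h21d_psi N δ)
    (algebraMap Kbar (modularFunctionFieldBar N)) (fun d : Dv N => Jgen d) P
  have h2 := MvPolynomial.eval₂_comp_left
    (algebraMap (RH24.HolInf N) (FractionRing (RH24.HolInf N)))
    ((algebraMap ℂ (RH24.HolInf N)).comp iota) (fun d : Dv N => h21d_jdInf N δ d) P
  rw [MvPolynomial.aeval_def, h1]
  unfold h21d_polyInfK
  rw [h2]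
  congr 1
  · ext c
    exact h21d_psi_const N δ c
  · funext d
    exact h21d_psi_Jgen N δ d

theorem h21d_Jbar_eq_Jgen : Jbar N = Jgen (⟨1, one_dvd N⟩ : Dv N) := by
  apply Subtype.ext
  show ModularCurve.coeffEmb (AlgebraicClosure ℚ) ModularCurve.jq
    = ModularCurve.coeffEmb (AlgebraicClosure ℚ) (ModularCurve.qExpand ℚ 1 ModularCurve.jq)
  rw [ModularCurve.qExpand_one_apply]

theorem h21d_jd_one (z : ℍ) : jd 1 z = jf z := by
  unfold jd
  congr 1
  ext
  simp [ModularForm.heckeDiagMatrix, UpperHalfPlane.coe_smul, σ, num, denom]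

/-- the class of `j ∘ δ = j` in `HolInf N` -/
theorem h21d_jdInf_one : (h21d_jdInf N δ (⟨1, one_dvd N⟩ : Dv N) : ℍ → ℂ) = jf := by
  funext z
  rw [h21d_jdInf_apply, h21d_jd_one, RH24.jf_smul]

theorem h21d_jdInf_ne_zero (d : Dv N) : h21d_jdInf N δ d ≠ 0 := by
  intro h
  have h1 := h21d_psi_Jgen N δ d
  rw [h, map_zero] at h1
  have h2 : (Jgen d : modularFunctionFieldBar N) = 0 :=
    (map_eq_zero_iff _ (h21d_psi N δ).injective).mp h1
  -- `Jgen 1`-independent argument: use the order at the cusp of `j`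
  have h3 : formalEval N (MvPolynomial.X d) = 0 := by
    rw [h21d_formalEval_iff N δ, MvPolynomial.eval₂_X, h, map_zero]
  rw [RH24.qexp_principle] at h3
  simp only [MvPolynomial.eval_X] at h3
  -- `j (d z) = 0` for all `z` contradicts surjectivity-free fact `ordInf jf = -N`
  have h4 : ∀ z : ℍ, jf z = 0 := by
    intro z
    have h5 := h3 ((ModularForm.heckeDiagMatrix d.1)⁻¹ • z)
    unfold jd at h5
    rwa [smul_smul, mul_inv_cancel, one_smul] at h5
  have h6 := RH24.ordInf_jf N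
  have h7 : RH24.ordInf N jf = ⊤ := by
    have : jf = fun _ => (0 : ℂ) := funext h4
    rw [this]
    unfold RH24.ordInf
    rw [meromorphicOrderAt_eq_top_iff]
    exact Filter.Eventually.of_forall fun _ => rfl
  rw [h7] at h6
  exact WithTop.top_ne_coe h6

/-- **DC1 (b)**: the valuation of `F` at the cusp `δ ∞` -/
theorem exists_wInf (N : ℕ) [NeZero N] (δ : SL(2, ℤ)) :
    ∃ w : Valuation (modularFunctionFieldBar N) ℤᵐ⁰,
      (∀ c : Kbar, c ≠ 0 → w (algebraMap Kbar _ c) = 1) ∧ 1 < w (Jbar N) ∧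
      ∀ P Q : MvPolynomial (Dv N) Kbar,
        MvPolynomial.aeval (fun d : Dv N => Jgen d) P ≠ 0 →
        MvPolynomial.aeval (fun d : Dv N => Jgen d) Q ≠ 0 →
        w (MvPolynomial.aeval (fun d : Dv N => Jgen d) P /
            MvPolynomial.aeval (fun d : Dv N => Jgen d) Q)
          = WithZero.exp (-((RH24.ordInf N (polyFunAt N δ P)).untop₀
              - (RH24.ordInf N (polyFunAt N δ Q)).untop₀)) := by
  obtain ⟨w₀, hw₀⟩ := RH24.exists_valuation_of_order (h21d_o N) (h21d_o_one N)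
    (h21d_o_mul N) (h21d_o_add N)
  have hw₁ : ∀ a : RH24.HolInf N, a ≠ 0 →
      w₀ (algebraMap (RH24.HolInf N) (FractionRing (RH24.HolInf N)) a)
        = WithZero.exp (-(h21d_o N a)) := by
    intro a ha
    have h := hw₀ a 1 ha one_ne_zero
    rw [map_one, div_one, h21d_o_one, sub_zero] at h
    exact h
  refine ⟨w₀.comap (h21d_psi N δ), ?_, ?_, ?_⟩
  · intro c hc
    rw [Valuation.comap_apply, h21d_psi_const]
    have hne : iota c ≠ 0 := by
      intro h0
      exact hc ((map_eq_zero_iff _ iota.injective).mp h0)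
    have hne' : algebraMap ℂ (RH24.HolInf N) (iota c) ≠ 0 := by
      intro h0
      have := congrArg (fun f : RH24.HolInf N => (f : ℍ → ℂ) UpperHalfPlane.I) h0
      exact hne this
    show w₀ (algebraMap (RH24.HolInf N) (FractionRing (RH24.HolInf N))
      (algebraMap ℂ (RH24.HolInf N) (iota c))) = 1
    rw [hw₁ _ hne']
    have ho : h21d_o N (algebraMap ℂ (RH24.HolInf N) (iota c)) = 0 := by
      unfold h21d_o
      have h : ((algebraMap ℂ (RH24.HolInf N) (iota c) : RH24.HolInf N) : ℍ → ℂ)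
          = fun _ => iota c := rfl
      rw [h, RH24.ordInf_const N _ hne]
      rfl
    rw [ho, neg_zero, WithZero.exp_zero]
  · rw [Valuation.comap_apply, h21d_Jbar_eq_Jgen, h21d_psi_Jgen,
      hw₁ _ (h21d_jdInf_ne_zero N δ _)]
    have ho : h21d_o N (h21d_jdInf N δ (⟨1, one_dvd N⟩ : Dv N)) = -(N : ℤ) := by
      unfold h21d_o
      rw [h21d_jdInf_one, RH24.ordInf_jf]
      rfl
    rw [ho, neg_neg, ← WithZero.exp_zero, WithZero.exp_lt_exp]
    exact_mod_cast Nat.pos_of_ne_zero (NeZero.ne N)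
  · intro P Q hP hQ
    have hP' : h21d_polyInfK N δ P ≠ 0 := by
      intro h0
      apply hP
      apply (map_eq_zero_iff _ (h21d_psi N δ).injective).mp
      rw [h21d_psi_aeval, h0, map_zero]
    have hQ' : h21d_polyInfK N δ Q ≠ 0 := by
      intro h0
      apply hQ
      apply (map_eq_zero_iff _ (h21d_psi N δ).injective).mp
      rw [h21d_psi_aeval, h0, map_zero]
    rw [Valuation.comap_apply, map_div₀, h21d_psi_aeval, h21d_psi_aeval, hw₀ _ _ hP' hQ']
    unfold h21d_o
    rw [h21d_coe_polyInfK, h21d_coe_polyInfK]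

end H24D

end
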