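import Fermat.Agent.RR.DictDefs
import Fermat.Agent.S24.BC1
import Fermat.Agent.S24.BC2J
import Fermat.Agent.S24.BA3
import Fermat.Agent.S24.BH1
import Fermat.Agent.S24.BH3

/-!
# T-RR [DICT], slice DC1 (helper23): the valuation of the function field at the cusp `δ ∞`

(Twin of `RR/DictDC1_helper21.lean`, which carries the official names; the statements here
are prefixed `h23e_` so that both files can be imported together.)
-/

set_option autoImplicit false

noncomputable section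

open UpperHalfPlane ModularForm WithZero Filter ModularCurve CongruenceSubgroup
open scoped MatrixGroups Manifold Topology Real

namespace H24D

open RH24 (Kbar Jbar iota jf jd Dv Jgen formalEval Dv_ne_zero)

variable (N : ℕ) [NeZero N]

omit [NeZero N] in
/-- `HolInf N` is a domain. -/
theorem h23e_isDomain : IsDomain (RH24.HolInf N) := by
  have : Nontrivial (RH24.HolInf N) := by
    refine ⟨⟨0, 1, fun h => ?_⟩⟩
    have := congrArg (fun f : RH24.HolInf N => (f : ℍ → ℂ) UpperHalfPlane.I) h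
    simp at this
  have : NoZeroDivisors (RH24.HolInf N) := by
    refine ⟨fun {a b} hab => ?_⟩
    have h1 : ∀ z, (a : ℍ → ℂ) z * (b : ℍ → ℂ) z = 0 := fun z => by
      have := congrArg (fun f : RH24.HolInf N => (f : ℍ → ℂ) z) hab
      simpa using this
    rcases RH24.Hol_noZeroDivisors _ _ a.2.1 b.2.1 h1 with h | h
    · left; exact Subtype.ext (funext h)
    · right; exact Subtype.ext (funext h)
  exact NoZeroDivisors.to_isDomain _

/-- the order function on `HolInf N` -/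
def h23e_o (a : RH24.HolInf N) : ℤ := (RH24.ordInf N (a : ℍ → ℂ)).untop₀

omit [NeZero N] in
theorem h23e_exists_ne {a : RH24.HolInf N} (ha : a ≠ 0) : ∃ z, (a : ℍ → ℂ) z ≠ 0 := by
  by_contra h
  rw [not_exists] at h
  exact ha (Subtype.ext (funext fun z => not_not.mp (h z)))

theorem h23e_ordInf_ne_top {a : RH24.HolInf N} (ha : a ≠ 0) :
    RH24.ordInf N (a : ℍ → ℂ) ≠ ⊤ :=
  RH24.ordInf_ne_top N _ a.2.1 a.2.2.1 a.2.2.2 (h23e_exists_ne N ha)

theorem h23e_coe_o {a : RH24.HolInf N} (ha : a ≠ 0) :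
    ((h23e_o N a : ℤ) : WithTop ℤ) = RH24.ordInf N (a : ℍ → ℂ) :=
  WithTop.coe_untop₀_of_ne_top (h23e_ordInf_ne_top N ha)

theorem h23e_o_one : h23e_o N 1 = 0 := by
  unfold h23e_o
  have : RH24.ordInf N ((1 : RH24.HolInf N) : ℍ → ℂ) = 0 :=
    RH24.ordInf_const N 1 one_ne_zero
  rw [this]
  rfl

theorem h23e_o_mul (a b : RH24.HolInf N) (ha : a ≠ 0) (hb : b ≠ 0) :
    h23e_o N (a * b) = h23e_o N a + h23e_o N b := by
  have := h23e_isDomain N
  have hab : a * b ≠ 0 := mul_ne_zero ha hb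
  have h := RH24.ordInf_mul N _ _ a.2.1 b.2.1 a.2.2.1 b.2.2.1 a.2.2.2 b.2.2.2
  have h' : RH24.ordInf N ((a * b : RH24.HolInf N) : ℍ → ℂ) =
      RH24.ordInf N (a : ℍ → ℂ) + RH24.ordInf N (b : ℍ → ℂ) := h
  rw [← h23e_coe_o N hab, ← h23e_coe_o N ha, ← h23e_coe_o N hb] at h'
  exact_mod_cast h'

theorem h23e_o_add (a b : RH24.HolInf N) (ha : a ≠ 0) (hb : b ≠ 0) (hab : a + b ≠ 0) :
    min (h23e_o N a) (h23e_o N b) ≤ h23e_o N (a + b) := by
  have h := RH24.ordInf_add N _ _ a.2.1 b.2.1 a.2.2.1 b.2.2.1 a.2.2.2 b.2.2.2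
  have h' : min (RH24.ordInf N (a : ℍ → ℂ)) (RH24.ordInf N (b : ℍ → ℂ)) ≤
      RH24.ordInf N ((a + b : RH24.HolInf N) : ℍ → ℂ) := h
  rw [← h23e_coe_o N hab, ← h23e_coe_o N ha, ← h23e_coe_o N hb] at h'
  exact_mod_cast h'

omit [NeZero N] in
theorem h23e_jdt_inv (d : ℕ) (δ : SL(2, ℤ)) :
    RH24.jdt d δ⁻¹ = fun z => jd d (δ • z) := by
  funext z
  simp only [RH24.jdt, inv_inv]

theorem h23e_a_mem (δ : SL(2, ℤ)) (d : Dv N) :
    (fun z => jd d.1 (δ • z)) ∈ RH24.HolInf N := by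
  have : NeZero d.1 := ⟨Dv_ne_zero d⟩
  refine ⟨RH24.mdiff_comp_smul δ _ (RH24.mdiff_jd d.1), fun z => ?_, ?_⟩
  · have := RH24.jdt_periodic N d δ⁻¹ z
    rw [h23e_jdt_inv] at this
    exact this
  · have := RH24.jdt_moderateGrowth N d δ⁻¹
    rw [h23e_jdt_inv] at this
    exact this

/-- the translate `z ↦ j (d δ z)` as an element of `HolInf N` -/
def h23e_a (δ : SL(2, ℤ)) (d : Dv N) : RH24.HolInf N :=
  ⟨fun z => jd d.1 (δ • z), h23e_a_mem N δ d⟩

@[simp] theorem h23e_a_apply (δ : SL(2, ℤ)) (d : Dv N) (z : ℍ) :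
    (h23e_a N δ d : ℍ → ℂ) z = jd d.1 (δ • z) := rfl

/-- evaluation at a point, on `HolInf N` -/
def h23e_ev (z : ℍ) : RH24.HolInf N →+* ℂ :=
  (Pi.evalRingHom (fun _ : ℍ => ℂ) z).comp (RH24.HolInf N).val.toRingHom

omit [NeZero N] in
@[simp] theorem h23e_ev_apply (z : ℍ) (f : RH24.HolInf N) : h23e_ev N z f = (f : ℍ → ℂ) z := rfl

/-- polynomial (complex coefficients) in the translates, as an element of `HolInf N` -/
def h23e_polyC (δ : SL(2, ℤ)) (P : MvPolynomial (Dv N) ℂ) : RH24.HolInf N :=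
  MvPolynomial.eval₂ (algebraMap ℂ (RH24.HolInf N)) (h23e_a N δ) P

theorem h23e_polyC_apply (δ : SL(2, ℤ)) (P : MvPolynomial (Dv N) ℂ) (z : ℍ) :
    (h23e_polyC N δ P : ℍ → ℂ) z = MvPolynomial.eval (fun d : Dv N => jd d.1 (δ • z)) P := by
  have h := MvPolynomial.eval₂_comp_left (h23e_ev N z) (algebraMap ℂ (RH24.HolInf N))
    (h23e_a N δ) P
  rw [h23e_ev_apply] at h
  unfold h23e_polyC
  rw [h]
  rfl

/-- polynomial (coefficients in `ℚ̄`) in the translates, as an element of `HolInf N` -/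
def h23e_poly (δ : SL(2, ℤ)) (P : MvPolynomial (Dv N) Kbar) : RH24.HolInf N :=
  MvPolynomial.eval₂ ((algebraMap ℂ (RH24.HolInf N)).comp iota) (h23e_a N δ) P

theorem h23e_poly_apply (δ : SL(2, ℤ)) (P : MvPolynomial (Dv N) Kbar) (z : ℍ) :
    (h23e_poly N δ P : ℍ → ℂ) z = polyFunAt N δ P z := by
  have h := MvPolynomial.eval₂_comp_left (h23e_ev N z)
    ((algebraMap ℂ (RH24.HolInf N)).comp iota) (h23e_a N δ) P
  rw [h23e_ev_apply] at h
  unfold h23e_poly polyFunAt
  rw [h]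
  rfl

theorem h23e_coe_poly (δ : SL(2, ℤ)) (P : MvPolynomial (Dv N) Kbar) :
    ((h23e_poly N δ P : RH24.HolInf N) : ℍ → ℂ) = polyFunAt N δ P :=
  funext fun z => h23e_poly_apply N δ P z

/-- DC1 -/
theorem h23e_polyFunAt_mem_HolInf (δ : SL(2, ℤ)) (P : MvPolynomial (Dv N) Kbar) :
    polyFunAt N δ P ∈ RH24.HolInf N := by
  rw [← h23e_coe_poly]
  exact (h23e_poly N δ P).2

instance h23e_instIsDomain : IsDomain (RH24.HolInf N) := h23e_isDomain N

/-- constants in the fraction field of `HolInf N` -/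
def h23e_iota' : ℂ →+* FractionRing (RH24.HolInf N) :=
  (algebraMap (RH24.HolInf N) (FractionRing (RH24.HolInf N))).comp
    (algebraMap ℂ (RH24.HolInf N))

theorem h23e_eval₂_iota' (δ : SL(2, ℤ)) (P : MvPolynomial (Dv N) ℂ) :
    MvPolynomial.eval₂ (h23e_iota' N)
        (fun d : Dv N => algebraMap (RH24.HolInf N) (FractionRing (RH24.HolInf N)) (h23e_a N δ d)) P
      = algebraMap (RH24.HolInf N) (FractionRing (RH24.HolInf N)) (h23e_polyC N δ P) := by
  have h := MvPolynomial.eval₂_comp_left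
    (algebraMap (RH24.HolInf N) (FractionRing (RH24.HolInf N)))
    (algebraMap ℂ (RH24.HolInf N)) (h23e_a N δ) P
  unfold h23e_polyC
  rw [h]
  rfl

theorem h23e_formal_iff (δ : SL(2, ℤ)) (P : MvPolynomial (Dv N) ℂ) :
    formalEval N P = 0 ↔
      MvPolynomial.eval₂ (h23e_iota' N)
        (fun d : Dv N => algebraMap (RH24.HolInf N) (FractionRing (RH24.HolInf N))
          (h23e_a N δ d)) P = 0 := by
  rw [RH24.qexp_principle, h23e_eval₂_iota',
    map_eq_zero_iff _ (IsFractionRing.injective (RH24.HolInf N) (FractionRing (RH24.HolInf N)))]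
  constructor
  · intro h
    apply Subtype.ext
    funext z
    rw [h23e_polyC_apply]
    exact h (δ • z)
  · intro h z
    have h1 := h23e_polyC_apply N δ P (δ⁻¹ • z)
    rw [h] at h1
    rw [smul_inv_smul] at h1
    exact h1.symm

theorem h23e_exists_sigma (δ : SL(2, ℤ)) :
    ∃ φ : modularFunctionFieldBar N →+* FractionRing (RH24.HolInf N),
      (∀ d, φ (Jgen d) = algebraMap (RH24.HolInf N) (FractionRing (RH24.HolInf N))
        (h23e_a N δ d)) ∧
      ∀ c : Kbar, φ (algebraMap Kbar _ c) = h23e_iota' N (iota c) :=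
  RH24.exists_real N (h23e_iota' N) _ (h23e_formal_iff N δ)

theorem h23e_sigma_aeval (δ : SL(2, ℤ))
    (φ : modularFunctionFieldBar N →+* FractionRing (RH24.HolInf N))
    (h1 : ∀ d, φ (Jgen d) = algebraMap (RH24.HolInf N) (FractionRing (RH24.HolInf N))
        (h23e_a N δ d))
    (h2 : ∀ c : Kbar, φ (algebraMap Kbar _ c) = h23e_iota' N (iota c))
    (P : MvPolynomial (Dv N) Kbar) :
    φ (MvPolynomial.aeval (fun d : Dv N => Jgen d) P) =
      algebraMap (RH24.HolInf N) (FractionRing (RH24.HolInf N)) (h23e_poly N δ P) := by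
  have hcomp : φ.comp ((MvPolynomial.aeval (fun d : Dv N => Jgen d) :
      MvPolynomial (Dv N) Kbar →ₐ[Kbar] modularFunctionFieldBar N).toRingHom) =
      (algebraMap (RH24.HolInf N) (FractionRing (RH24.HolInf N))).comp
        (MvPolynomial.eval₂Hom ((algebraMap ℂ (RH24.HolInf N)).comp iota) (h23e_a N δ)) := by
    apply MvPolynomial.ringHom_ext
    · intro c
      simp only [RingHom.comp_apply, AlgHom.toRingHom_eq_coe, RingHom.coe_coe,
        MvPolynomial.aeval_C, MvPolynomial.coe_eval₂Hom, MvPolynomial.eval₂_C]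
      rw [h2]
      rfl
    · intro d
      simp only [RingHom.comp_apply, AlgHom.toRingHom_eq_coe, RingHom.coe_coe,
        MvPolynomial.aeval_X, MvPolynomial.coe_eval₂Hom, MvPolynomial.eval₂_X]
      rw [h1]
  exact RingHom.congr_fun hcomp P

omit [NeZero N] in
theorem h23e_heckeDiag_one_smul (z : ℍ) : ModularForm.heckeDiagMatrix 1 • z = z := by
  apply UpperHalfPlane.ext
  rw [ModularForm.coe_heckeDiagMatrix_smul one_ne_zero]
  simp

theorem h23e_Jbar_eq : Jbar N = Jgen (⟨1, one_dvd N⟩ : Dv N) := by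
  apply Subtype.ext
  show coeffEmb Kbar jq = coeffEmb Kbar (qExpand ℚ 1 jq)
  rw [qExpand_one_apply]

theorem h23e_o_a_one (δ : SL(2, ℤ)) :
    RH24.ordInf N ((h23e_a N δ (⟨1, one_dvd N⟩ : Dv N) : RH24.HolInf N) : ℍ → ℂ) = -(N : ℤ) := by
  have : ((h23e_a N δ (⟨1, one_dvd N⟩ : Dv N) : RH24.HolInf N) : ℍ → ℂ) = jf := by
    funext z
    rw [h23e_a_apply]
    show jf (ModularForm.heckeDiagMatrix 1 • (δ • z)) = jf z
    rw [h23e_heckeDiag_one_smul, RH24.jf_smul]
  rw [this]
  exact RH24.ordInf_jf N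

/-- DC1 -/
theorem h23e_exists_wInf (δ : SL(2, ℤ)) :
    ∃ w : Valuation (modularFunctionFieldBar N) ℤᵐ⁰,
      (∀ c : Kbar, c ≠ 0 → w (algebraMap Kbar _ c) = 1) ∧ 1 < w (Jbar N) ∧
      ∀ P Q : MvPolynomial (Dv N) Kbar,
        MvPolynomial.aeval (fun d : Dv N => Jgen d) P ≠ 0 →
        MvPolynomial.aeval (fun d : Dv N => Jgen d) Q ≠ 0 →
        w (MvPolynomial.aeval (fun d : Dv N => Jgen d) P /
            MvPolynomial.aeval (fun d : Dv N => Jgen d) Q)
          = WithZero.exp (-((RH24.ordInf N (polyFunAt N δ P)).untop₀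
              - (RH24.ordInf N (polyFunAt N δ Q)).untop₀)) := by
  obtain ⟨w₀, hw₀⟩ := RH24.exists_valuation_of_order (h23e_o N) (h23e_o_one N)
    (h23e_o_mul N) (h23e_o_add N)
  obtain ⟨φ, hφ1, hφ2⟩ := h23e_exists_sigma N δ
  have hw₀' : ∀ a : RH24.HolInf N, a ≠ 0 →
      w₀ (algebraMap (RH24.HolInf N) (FractionRing (RH24.HolInf N)) a)
        = WithZero.exp (-(h23e_o N a)) := by
    intro a ha
    have := hw₀ a 1 ha one_ne_zero
    rw [map_one, div_one, h23e_o_one, sub_zero] at this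
    exact this
  have haev := h23e_sigma_aeval N δ φ hφ1 hφ2
  refine ⟨w₀.comap φ, fun c hc => ?_, ?_, fun P Q hP hQ => ?_⟩
  · rw [Valuation.comap_apply, hφ2]
    have hne : algebraMap ℂ (RH24.HolInf N) (iota c) ≠ 0 := by
      intro h0
      have := congrArg (fun f : RH24.HolInf N => (f : ℍ → ℂ) UpperHalfPlane.I) h0
      have h1 : iota c = 0 := this
      exact hc (iota.injective (by rw [h1, map_zero]))
    show w₀ (algebraMap (RH24.HolInf N) (FractionRing (RH24.HolInf N))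
      (algebraMap ℂ (RH24.HolInf N) (iota c))) = 1
    rw [hw₀' _ hne]
    have ho : h23e_o N (algebraMap ℂ (RH24.HolInf N) (iota c)) = 0 := by
      unfold h23e_o
      have : RH24.ordInf N ((algebraMap ℂ (RH24.HolInf N) (iota c) : RH24.HolInf N) : ℍ → ℂ) = 0 :=
        RH24.ordInf_const N (iota c) (fun h1 => hc (iota.injective (by rw [h1, map_zero])))
      rw [this]
      rfl
    rw [ho, neg_zero, WithZero.exp_zero]
  · rw [Valuation.comap_apply, h23e_Jbar_eq, hφ1]
    have hne : h23e_a N δ (⟨1, one_dvd N⟩ : Dv N) ≠ 0 := by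
      intro h0
      have h1 := h23e_o_a_one N δ
      rw [h0] at h1
      have h2 : RH24.ordInf N (((0 : RH24.HolInf N)) : ℍ → ℂ) = ⊤ := by
        rw [RH24.h23c_ordInf_eq]
        rw [meromorphicOrderAt_eq_top_iff]
        exact Filter.Eventually.of_forall fun q => rfl
      rw [h2] at h1
      exact WithTop.top_ne_coe h1
    rw [hw₀' _ hne]
    have ho : h23e_o N (h23e_a N δ (⟨1, one_dvd N⟩ : Dv N)) = -(N : ℤ) := by
      unfold h23e_o
      rw [h23e_o_a_one]
      rfl
    rw [ho, neg_neg, ← WithZero.exp_zero, WithZero.exp_lt_exp]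
    exact_mod_cast NeZero.pos N
  · rw [Valuation.comap_apply, map_div₀, haev, haev]
    have hPne : h23e_poly N δ P ≠ 0 := by
      intro h0
      apply hP
      apply φ.injective
      rw [haev, h0, map_zero, map_zero]
    have hQne : h23e_poly N δ Q ≠ 0 := by
      intro h0
      apply hQ
      apply φ.injective
      rw [haev, h0, map_zero, map_zero]
    rw [hw₀ _ _ hPne hQne]
    unfold h23e_o
    rw [h23e_coe_poly, h23e_coe_poly]

end H24D

end
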