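import Fermat.Agent.RR.DictDefs
import Fermat.Agent.S24.B2
import Fermat.Agent.S24.BJ12

/-!
# T-RR [DICT], slice DJ (helper11): the derivative of `j`

Explicit formula `j' = -2πi · E₄² E₆ / Δ` (from the bracket identity
`2 E₄ D E₆ - 3 E₆ D E₄ = -1728 Δ`, helper6's `RH24.h6_br_eq`), hence holomorphy, weight 2,
orders `ord j' + 1 = ord (j - j z₀)`, and `j'/j → -2πi` at `i∞`.
-/

set_option autoImplicit false
set_option linter.style.longLine false
set_option linter.unusedVariables false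

noncomputable section

open UpperHalfPlane ModularForm WithZero Filter ModularCurve CongruenceSubgroup
open scoped MatrixGroups Manifold Topology Real

namespace H24D

open RH24 (Kbar Jbar iota jf jd Dv Jgen formalEval Dv_ne_zero)
open Derivative

local notation "Δ" => ModularForm.discriminant

theorem h11d_two_pi_I_ne_zero : (2 * π * Complex.I : ℂ) ≠ 0 := by
  simp [Real.pi_ne_zero]

theorem h11d_hasDerivAt_mf {k : ℤ} (f : ModularForm 𝒮ℒ k) (z : ℍ) :
    HasDerivAt (fun w : ℂ => f (ofComplex w)) ((2 * π * Complex.I) * D f z) (z : ℂ) := by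
  have h := (RH24.h6_analyticAt f z).differentiableAt.hasDerivAt
  rwa [RH24.h6_deriv_eq] at h

theorem h11d_ext_jf_eq (w : ℂ) :
    ext jf w = 1728 * E₄ (ofComplex w) ^ 3 / (E₄ (ofComplex w) ^ 3 - E₆ (ofComplex w) ^ 2) := by
  unfold ext RH24.jf
  rw [ModularForm.discriminant_eq_E₄_cube_sub_E₆_sq]
  by_cases h : E₄ (ofComplex w) ^ 3 - E₆ (ofComplex w) ^ 2 = 0
  · rw [h]; simp
  · field_simp

/-- **the explicit formula** `j' = -2πi E₄² E₆ / Δ` -/
theorem h11d_jprimeFun_eq (z : ℍ) :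
    jprimeFun z = -(2 * π * Complex.I) * (E₄ z ^ 2 * E₆ z / Δ z) := by
  unfold jprimeFun
  have hfun : (fun w : ℂ => jf (ofComplex w)) = fun w : ℂ =>
      1728 * E₄ (ofComplex w) ^ 3 / (E₄ (ofComplex w) ^ 3 - E₆ (ofComplex w) ^ 2) := by
    funext w
    exact h11d_ext_jf_eq w
  rw [hfun]
  have h4 := h11d_hasDerivAt_mf E₄ z
  have h6 := h11d_hasDerivAt_mf E₆ z
  have hΔ : Δ z ≠ 0 := ModularForm.discriminant_ne_zero z
  have hΔeq := ModularForm.discriminant_eq_E₄_cube_sub_E₆_sq z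
  have hden : E₄ z ^ 3 - E₆ z ^ 2 ≠ 0 := by
    intro h0
    apply hΔ
    rw [hΔeq, h0]; simp
  have hval4 : E₄ (ofComplex (z : ℂ)) = E₄ z := by rw [ofComplex_apply]
  have hval6 : E₆ (ofComplex (z : ℂ)) = E₆ z := by rw [ofComplex_apply]
  have hp4 : HasDerivAt (fun w : ℂ => E₄ (ofComplex w) ^ 3)
      (3 * E₄ z ^ 2 * ((2 * π * Complex.I) * D E₄ z)) (z : ℂ) := by
    have := h4.fun_pow 3
    simpa [hval4] using this
  have hp6 : HasDerivAt (fun w : ℂ => E₆ (ofComplex w) ^ 2)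
      (2 * E₆ z * ((2 * π * Complex.I) * D E₆ z)) (z : ℂ) := by
    have := h6.fun_pow 2
    simpa [hval6] using this
  have hnum : HasDerivAt (fun w : ℂ => 1728 * E₄ (ofComplex w) ^ 3)
      (1728 * (3 * E₄ z ^ 2 * ((2 * π * Complex.I) * D E₄ z))) (z : ℂ) :=
    hp4.const_mul (1728 : ℂ)
  have hdn : HasDerivAt (fun w : ℂ => E₄ (ofComplex w) ^ 3 - E₆ (ofComplex w) ^ 2)
      (3 * E₄ z ^ 2 * ((2 * π * Complex.I) * D E₄ z)
        - 2 * E₆ z * ((2 * π * Complex.I) * D E₆ z)) (z : ℂ) :=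
    hp4.fun_sub hp6
  have hq := hnum.fun_div hdn (by simp only [hval4, hval6]; exact hden)
  rw [hq.deriv]
  simp only [hval4, hval6]
  have hbr := RH24.h6_br_eq z
  unfold RH24.h6_br at hbr
  rw [hΔeq] at hbr ⊢
  have hbr' : 2 * E₄ z * D E₆ z - 3 * E₆ z * D E₄ z = -(E₄ z ^ 3 - E₆ z ^ 2) := by
    rw [hbr]; ring
  have hnum_eq : 1728 * (3 * E₄ z ^ 2 * (2 * π * Complex.I * D E₄ z)) * (E₄ z ^ 3 - E₆ z ^ 2) -
      1728 * E₄ z ^ 3 * (3 * E₄ z ^ 2 * (2 * π * Complex.I * D E₄ z)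
        - 2 * E₆ z * (2 * π * Complex.I * D E₆ z))
      = -(1728 * (2 * π * Complex.I) * E₄ z ^ 2 * E₆ z) * (E₄ z ^ 3 - E₆ z ^ 2) := by
    linear_combination (1728 * (2 * π * Complex.I) * E₄ z ^ 2 * E₆ z) * hbr'
  rw [hnum_eq]
  field_simp

/-- DJ -/
theorem mdiff_jprimeFun : MDiff jprimeFun := by
  have h4 : MDiff (fun z : ℍ => E₄ z) := ModularFormClass.holo E₄
  have h6 : MDiff (fun z : ℍ => E₆ z) := ModularFormClass.holo E₆
  have hΔ : MDiff (fun z : ℍ => Δ z) := CuspFormClass.holo CuspForm.discriminant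
  have hfun : jprimeFun = fun z : ℍ => -(2 * π * Complex.I) * (E₄ z ^ 2 * E₆ z / Δ z) := by
    funext z
    exact h11d_jprimeFun_eq z
  rw [hfun]
  intro z
  have h1 : MDiffAt (fun z : ℍ => E₄ z ^ 2 * E₆ z) z := ((h4.pow 2).mul h6) z
  have h2 : MDiffAt (fun z : ℍ => E₄ z ^ 2 * E₆ z / Δ z) z :=
    h1.div (hΔ z) (ModularForm.discriminant_ne_zero z)
  exact (mdifferentiableAt_const (c := -(2 * π * Complex.I))).mul h2

/-- on the upper half plane `ext jprimeFun = deriv (ext jf)` -/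
theorem h11d_ext_jprimeFun {w : ℂ} (hw : 0 < w.im) :
    ext jprimeFun w = deriv (ext jf) w := by
  unfold ext jprimeFun
  rw [ofComplex_apply_of_im_pos hw]

theorem h11d_ext_jprimeFun_eventuallyEq (z₀ : ℍ) :
    ext jprimeFun =ᶠ[𝓝 (z₀ : ℂ)] deriv (ext jf) := by
  filter_upwards [isOpen_upperHalfPlaneSet.mem_nhds z₀.im_pos] with w hw
  exact h11d_ext_jprimeFun hw

/-- DJ -/
theorem ordFun_jprimeFun (z₀ : ℍ) :
    ordFun z₀ jprimeFun + 1 = ordFun z₀ (fun z => jf z - jf z₀) := by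
  unfold ordFun
  rw [analyticOrderAt_congr (h11d_ext_jprimeFun_eventuallyEq z₀)]
  have han : AnalyticAt ℂ (ext jf) (z₀ : ℂ) := analyticAt_ext RH24.mdiff_jf z₀
  have h1 := han.analyticOrderAt_deriv_add_one
  rw [h1]
  have h2 : (fun w : ℂ => ext jf w - ext jf (z₀ : ℂ)) = ext (fun z => jf z - jf z₀) := by
    funext w
    unfold ext
    rw [ofComplex_apply]
  rw [h2]

/-- DJ -/
theorem jprimeFun_smul (γ : SL(2, ℤ)) (z : ℍ) :
    jprimeFun (γ • z) = denom (Matrix.SpecialLinearGroup.mapGL ℝ γ) z ^ 2 * jprimeFun z := by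
  set g : GL (Fin 2) ℝ := Matrix.SpecialLinearGroup.mapGL ℝ γ with hg
  have hdet' : 0 < g.det.val := by
    rw [hg, Matrix.SpecialLinearGroup.det_mapGL]
    simp
  have hdet : 0 < g.val.det := hdet'
  have hdet1 : g.val.det = 1 := by
    have h2 : (g.det : ℝ) = 1 := by
      rw [hg, Matrix.SpecialLinearGroup.det_mapGL]
      rfl
    exact h2
  set G : ℂ → ℂ := fun w => ↑(g • ofComplex w) with hG
  have hGd : HasDerivAt G (g.val.det / denom g z ^ 2) (z : ℂ) :=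
    (z.hasStrictDerivAt_smul hdet).hasDerivAt
  have hGz : G z = ((γ • z : ℍ) : ℂ) := by
    change ((g • ofComplex (z : ℂ) : ℍ) : ℂ) = _
    rw [ofComplex_apply]
    rfl
  have hJd : HasDerivAt (ext jf) (jprimeFun (γ • z)) (G z) := by
    rw [hGz]
    exact (analyticAt_ext RH24.mdiff_jf (γ • z)).differentiableAt.hasDerivAt
  have hcomp := hJd.comp (z : ℂ) hGd
  have hev : (ext jf ∘ G) =ᶠ[𝓝 (z : ℂ)] ext jf := by
    filter_upwards [isOpen_upperHalfPlaneSet.mem_nhds z.im_pos] with w hw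
    simp only [Function.comp_apply, hG]
    unfold ext
    rw [ofComplex_apply]
    exact RH24.h15b_jf_mapGL_smul γ (ofComplex w)
  have h1 : deriv (ext jf ∘ G) (z : ℂ) = jprimeFun (γ • z) * (g.val.det / denom g z ^ 2) :=
    hcomp.deriv
  have h2 : deriv (ext jf ∘ G) (z : ℂ) = jprimeFun z := hev.deriv_eq
  have hden : denom g z ^ 2 ≠ 0 := pow_ne_zero _ (denom_ne_zero g z)
  rw [h2, hdet1] at h1
  rw [h1]
  push_cast
  field_simp

/-- DJ -/
theorem tendsto_jprimeFun_div_jf :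
    Tendsto (fun z : ℍ => jprimeFun z / jf z) atImInfty (𝓝 (-(2 * π * Complex.I))) := by
  have h4 := RH24.h6_E4_tendsto
  have h6 := RH24.h6_E6_tendsto
  have hne : ∀ᶠ z : ℍ in atImInfty, E₄ z ≠ 0 :=
    h4.eventually_ne one_ne_zero
  have hdiv : Tendsto (fun z : ℍ => E₆ z / E₄ z) atImInfty (𝓝 (1 / 1)) :=
    h6.div h4 one_ne_zero
  have hlim : Tendsto (fun z : ℍ => -(2 * π * Complex.I) * (E₆ z / E₄ z)) atImInfty
      (𝓝 (-(2 * π * Complex.I) * (1 / 1))) := hdiv.const_mul _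
  have hval : -(2 * π * Complex.I) * (1 / 1) = -(2 * π * Complex.I) := by simp
  rw [hval] at hlim
  refine hlim.congr' ?_
  filter_upwards [hne] with z hz
  rw [h11d_jprimeFun_eq]
  unfold RH24.jf
  have hΔ : Δ z ≠ 0 := ModularForm.discriminant_ne_zero z
  field_simp

end H24D

end
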