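import Fermat.Agent.RR.DictDC2_helper23
import Fermat.Agent.RR.DictDJ_helper11

/-!
# T-RR [DICT], slice DC2 (helper23): vanishing at the cusp from orders (final statement)
-/

set_option autoImplicit false

noncomputable section

open UpperHalfPlane ModularForm WithZero Filter ModularCurve CongruenceSubgroup
open scoped MatrixGroups Manifold Topology Real

namespace H24D

open RH24 (Kbar Jbar iota jf jd Dv Jgen formalEval Dv_ne_zero)

/-- DC2 -/
theorem isZeroAtImInfty_of_ordInf_lt (N : ℕ) [NeZero N] (X Y G : ℍ → ℂ)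
    (hX : X ∈ RH24.HolInf N) (hY : Y ∈ RH24.HolInf N) (hY0 : ∃ z, Y z ≠ 0) (hG : MDiff G)
    (hrel : ∀ z, G z * Y z * jf z = X z * jprimeFun z)
    (hord : RH24.ordInf N Y < RH24.ordInf N X) : IsZeroAtImInfty G :=
  h23d_isZeroAtImInfty_of_ordInf_lt_aux _ tendsto_jprimeFun_div_jf N X Y G hX hY hY0 hrel hord

end H24D

end
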