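import Fermat.Agent.RR.DictDefs
import Fermat.Agent.S24.BC2J

/-!
# T-RR [DICT], slice DC2 (helper23): vanishing at the cusp from orders
-/

set_option autoImplicit false

noncomputable section

open UpperHalfPlane ModularForm WithZero Filter ModularCurve CongruenceSubgroup
open scoped MatrixGroups Manifold Topology Real

namespace H24D

open RH24 (Kbar Jbar iota jf jd Dv Jgen formalEval Dv_ne_zero)

local notation "𝕢" => Function.Periodic.qParam

/-- `j ≠ 0` near `i∞`. -/
theorem h23d_eventually_jf_ne_zero : ∀ᶠ z : ℍ in atImInfty, jf z ≠ 0 := by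
  have h1 : ∀ᶠ z : ℍ in atImInfty, E₄ z ≠ 0 :=
    RH24.h23c_tendsto_E4.eventually_ne one_ne_zero
  filter_upwards [h1] with z hz
  unfold RH24.jf
  exact div_ne_zero (pow_ne_zero 3 hz) (discriminant_ne_zero z)

/-- quotient of two elements of `HolInf N` with increasing orders tends to `0` at `i∞`. -/
theorem h23d_tendsto_div (N : ℕ) [NeZero N] (X Y : ℍ → ℂ)
    (hX : X ∈ RH24.HolInf N) (hY : Y ∈ RH24.HolInf N)
    (hord : RH24.ordInf N Y < RH24.ordInf N X) :
    Tendsto (fun z : ℍ => X z / Y z) atImInfty (𝓝 0) := by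
  obtain ⟨hX1, hX2, hX3⟩ := hX
  obtain ⟨hY1, hY2, hY3⟩ := hY
  have hA := RH24.h23c_meromorphicAt N hX1 hX2 hX3
  have hB := RH24.h23c_meromorphicAt N hY1 hY2 hY3
  have hpos : 0 < meromorphicOrderAt (RH24.h23c_G N X / RH24.h23c_G N Y) 0 := by
    rw [meromorphicOrderAt_div hA hB, ← RH24.h23c_ordInf_eq, ← RH24.h23c_ordInf_eq]
    have hYtop : RH24.ordInf N Y ≠ ⊤ := ne_top_of_lt hord
    obtain ⟨n, hn⟩ := WithTop.ne_top_iff_exists.mp hYtop
    rw [← hn] at hord ⊢
    cases hx : RH24.ordInf N X with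
    | top => simp
    | coe m =>
      rw [hx] at hord
      have : n < m := by exact_mod_cast hord
      have h2 : ((m : WithTop ℤ) - (n : WithTop ℤ)) = ((m - n : ℤ) : WithTop ℤ) := by
        rfl
      rw [h2]
      exact_mod_cast sub_pos.mpr this
  have ht := tendsto_zero_of_meromorphicOrderAt_pos hpos
  have h2 := ht.comp (RH24.h23c_tendsto_qParam N)
  refine h2.congr fun z => ?_
  simp only [Function.comp_apply, Pi.div_apply]
  rw [RH24.h23c_G_qParam N hX2 z, RH24.h23c_G_qParam N hY2 z]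

/-- DC2 with the limit of `j'/j` as a hypothesis. -/
theorem h23d_isZeroAtImInfty_of_ordInf_lt_aux (c : ℂ)
    (hlim : Tendsto (fun z : ℍ => jprimeFun z / jf z) atImInfty (𝓝 c))
    (N : ℕ) [NeZero N] (X Y G : ℍ → ℂ)
    (hX : X ∈ RH24.HolInf N) (hY : Y ∈ RH24.HolInf N) (hY0 : ∃ z, Y z ≠ 0)
    (hrel : ∀ z, G z * Y z * jf z = X z * jprimeFun z)
    (hord : RH24.ordInf N Y < RH24.ordInf N X) : IsZeroAtImInfty G := by
  have h1 := h23d_tendsto_div N X Y hX hY hord
  have h2 := h1.mul hlim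
  rw [zero_mul] at h2
  -- `Y ≠ 0` near `i∞`
  have hYne : ∀ᶠ z : ℍ in atImInfty, Y z ≠ 0 := by
    obtain ⟨hY1, hY2, hY3⟩ := hY
    have hB := RH24.h23c_meromorphicAt N hY1 hY2 hY3
    have htop : meromorphicOrderAt (RH24.h23c_G N Y) 0 ≠ ⊤ := by
      rw [← RH24.h23c_ordInf_eq]
      exact RH24.ordInf_ne_top N Y hY1 hY2 hY3 hY0
    have hev := (meromorphicOrderAt_ne_top_iff_eventually_ne_zero hB).mp htop
    have := (RH24.h23c_tendsto_qParam N).eventually hev
    filter_upwards [this] with z hz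
    rwa [RH24.h23c_G_qParam N hY2 z] at hz
  show Tendsto G atImInfty (𝓝 0)
  refine h2.congr' ?_
  filter_upwards [hYne, h23d_eventually_jf_ne_zero] with z hz1 hz2
  have := hrel z
  field_simp
  linear_combination -this

end H24D

end
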