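/-
T-RR [DICT], slice DH (helper15): an element of `Mer = Frac(Hol)` without poles is holomorphic.
Statement = NOTES/T-RR-DICT.md (DH).
-/
import Fermat.Agent.RR.DictDefs
import Fermat.Agent.H23.Removable

set_option autoImplicit false

noncomputable section

open UpperHalfPlane ModularForm WithZero Filter ModularCurve CongruenceSubgroup
open scoped MatrixGroups Manifold Topology Real

namespace H24D

/-- Removable singularities: a quotient of holomorphic functions on `ℍ` which is bounded near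
every point extends to a holomorphic function. -/
theorem h15d_exists_mdiff_mul_eq {P D : ℍ → ℂ} (hP : MDiff P) (hD : MDiff D)
    (hDne : ∃ z, D z ≠ 0)
    (hloc : ∀ w₀ ∈ {z : ℂ | 0 < z.im}, ∃ C : ℝ, ∀ᶠ w in 𝓝[≠] w₀,
      ‖(P ∘ ofComplex) w / (D ∘ ofComplex) w‖ ≤ C) :
    ∃ g : ℍ → ℂ, MDiff g ∧ ∀ z, g z * D z = P z := by
  classical
  have hΩo : IsOpen {z : ℂ | 0 < z.im} := isOpen_upperHalfPlaneSet
  have hP' : DifferentiableOn ℂ (P ∘ ofComplex) {z : ℂ | 0 < z.im} := mdifferentiable_iff.mp hP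
  have hD' : DifferentiableOn ℂ (D ∘ ofComplex) {z : ℂ | 0 < z.im} := mdifferentiable_iff.mp hD
  have hDa : AnalyticOnNhd ℂ (D ∘ ofComplex) {z : ℂ | 0 < z.im} := hD'.analyticOnNhd hΩo
  set G₀ : ℂ → ℂ := fun w => (P ∘ ofComplex) w / (D ∘ ofComplex) w with hG₀
  set g' : ℂ → ℂ := fun w => limUnder (𝓝[≠] w) G₀ with hg'
  have h1 : ∀ w₀ ∈ {z : ℂ | 0 < z.im}, ∀ᶠ w in 𝓝[≠] w₀, (D ∘ ofComplex) w ≠ 0 := by
    intro w₀ hw₀
    rcases (hDa w₀ hw₀).eventually_eq_zero_or_eventually_ne_zero with h0 | h0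
    · exfalso
      obtain ⟨z₁, hz₁⟩ := hDne
      have := hDa.eqOn_zero_of_preconnected_of_eventuallyEq_zero H23.isPreconnected_uhpSet hw₀ h0
        z₁.im_pos
      exact hz₁ (by simpa [Function.comp_apply, ofComplex_apply] using this)
    · exact h0
  have hG₀diff : ∀ w ∈ {z : ℂ | 0 < z.im}, (D ∘ ofComplex) w ≠ 0 → DifferentiableAt ℂ G₀ w := by
    intro w hw hne
    exact (hP'.differentiableAt (hΩo.mem_nhds hw)).div (hD'.differentiableAt (hΩo.mem_nhds hw)) hne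
  have h2 : ∀ w ∈ {z : ℂ | 0 < z.im}, (D ∘ ofComplex) w ≠ 0 → g' w = G₀ w := by
    intro w hw hne
    exact ((hG₀diff w hw hne).continuousAt.tendsto.mono_left nhdsWithin_le_nhds).limUnder_eq
  have h3 : ∀ w₀ ∈ {z : ℂ | 0 < z.im}, DifferentiableAt ℂ g' w₀ := by
    intro w₀ hw₀
    obtain ⟨C, hC⟩ := hloc w₀ hw₀
    have hev : ∀ᶠ w in 𝓝 w₀, w ∈ {z : ℂ | 0 < z.im} ∧
        (w ≠ w₀ → (D ∘ ofComplex) w ≠ 0) ∧ (w ≠ w₀ → ‖G₀ w‖ ≤ C) := by
      have h1' := eventually_nhdsWithin_iff.mp (h1 w₀ hw₀)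
      have hC' := eventually_nhdsWithin_iff.mp hC
      filter_upwards [hΩo.mem_nhds hw₀, h1', hC'] with w hwΩ hwD hwB
      exact ⟨hwΩ, fun hne => hwD hne, fun hne => hwB hne⟩
    obtain ⟨t, ht, hto, hw₀t⟩ := eventually_nhds_iff.mp hev
    have hdiff : DifferentiableOn ℂ G₀ (t \ {w₀}) := by
      intro w hw
      exact (hG₀diff w (ht w hw.1).1 ((ht w hw.1).2.1 hw.2)).differentiableWithinAt
    have hbdd : BddAbove (norm ∘ G₀ '' (t \ {w₀})) := by
      refine ⟨C, ?_⟩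
      rintro _ ⟨w, hw, rfl⟩
      exact (ht w hw.1).2.2 hw.2
    have hupd := Complex.differentiableOn_update_limUnder_of_bddAbove (hto.mem_nhds hw₀t) hdiff hbdd
    have heq : ∀ w ∈ t, g' w = Function.update G₀ w₀ (limUnder (𝓝[≠] w₀) G₀) w := by
      intro w hw
      by_cases hww : w = w₀
      · subst hww; simp [hg']
      · rw [Function.update_of_ne hww]
        exact h2 w (ht w hw).1 ((ht w hw).2.1 hww)
    have : g' =ᶠ[𝓝 w₀] Function.update G₀ w₀ (limUnder (𝓝[≠] w₀) G₀) := by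
      filter_upwards [hto.mem_nhds hw₀t] with w hw using heq w hw
    exact ((hupd.differentiableAt (hto.mem_nhds hw₀t)).congr_of_eventuallyEq this)
  have hgm : MDiff (fun z : ℍ => g' (z : ℂ)) := by
    rw [mdifferentiable_iff]
    intro w hw
    have : (fun z : ℍ => g' (z : ℂ)) ∘ ofComplex =ᶠ[𝓝 w] g' := by
      filter_upwards [hΩo.mem_nhds hw] with w' hw'
      simp [Function.comp_apply, ofComplex_apply_of_im_pos hw']
    exact ((h3 w hw).congr_of_eventuallyEq this).differentiableWithinAt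
  refine ⟨fun z => g' (z : ℂ), hgm, ?_⟩
  have hF : MDiff (fun z : ℍ => g' (z : ℂ) * D z - P z) := (hgm.mul hD).sub hP
  have hzero := H23.eq_zero_of_mul_eq_zero hF hD hDne (fun z => by
    by_cases hz : D z = 0
    · simp [hz]
    · have hz' : (D ∘ ofComplex) (z : ℂ) ≠ 0 := by
        simpa [Function.comp_apply, ofComplex_apply] using hz
      have := h2 (z : ℂ) z.im_pos hz'
      simp only [hG₀, Function.comp_apply, ofComplex_apply] at this
      rw [this, div_mul_cancel₀ _ hz, sub_self, zero_mul])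
  intro z
  exact sub_eq_zero.mp (hzero z)

/-- local boundedness of `a / b` from the inequality of orders -/
theorem h15d_locally_bdd {a b : ℍ → ℂ} (ha : MDiff a) (hb : MDiff b)
    (hord : ∀ z₀ : ℍ, ordFun z₀ b ≤ ordFun z₀ a) (w₀ : ℂ) (hw₀ : w₀ ∈ {z : ℂ | 0 < z.im}) :
    ∃ C : ℝ, ∀ᶠ w in 𝓝[≠] w₀, ‖(a ∘ ofComplex) w / (b ∘ ofComplex) w‖ ≤ C := by
  set z₀ : ℍ := ⟨w₀, hw₀⟩ with hz₀
  have hA : AnalyticAt ℂ (ext a) w₀ := analyticAt_ext ha z₀
  have hB : AnalyticAt ℂ (ext b) w₀ := analyticAt_ext hb z₀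
  have hm : MeromorphicAt (ext a / ext b) w₀ := hA.meromorphicAt.div hB.meromorphicAt
  have ho : 0 ≤ meromorphicOrderAt (ext a / ext b) w₀ := by
    rw [meromorphicOrderAt_div hA.meromorphicAt hB.meromorphicAt, hA.meromorphicOrderAt_eq,
      hB.meromorphicOrderAt_eq]
    have h := hord z₀
    unfold ordFun at h
    change analyticOrderAt (ext b) w₀ ≤ analyticOrderAt (ext a) w₀ at h
    generalize analyticOrderAt (ext a) w₀ = m at h
    generalize analyticOrderAt (ext b) w₀ = n at h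
    cases m with
    | top =>
      cases n with
      | top => simp
      | coe n => simp
    | coe m =>
      cases n with
      | top => simp at h
      | coe n =>
        have h' : n ≤ m := by exact_mod_cast h
        have h'' : (0 : ℤ) ≤ (m : ℤ) - n := by omega
        simp only [ENat.map_natCast]
        exact_mod_cast h''
  obtain ⟨c, hc⟩ := tendsto_nhds_of_meromorphicOrderAt_nonneg hm ho
  refine ⟨‖c‖ + 1, ?_⟩
  have h1 : ∀ᶠ w in 𝓝[≠] w₀, ‖(ext a / ext b) w‖ < ‖c‖ + 1 :=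
    hc.norm.eventually_lt tendsto_const_nhds (by linarith)
  filter_upwards [h1] with w hw
  exact hw.le

/-- **DH**: an element of `Mer` without poles is holomorphic. -/
theorem exists_hol_of_merVal_le (g : Mer) (hg : ∀ z₀ : ℍ, merVal z₀ g ≤ 1) :
    ∃ f : Hol, algebraMap Hol Mer f = g := by
  obtain ⟨a, b, hb, rfl⟩ := IsFractionRing.div_surjective (A := Hol) g
  have hb0 : b ≠ 0 := nonZeroDivisors.ne_zero hb
  by_cases ha0 : a = 0
  · exact ⟨0, by simp [ha0]⟩
  have ha0' : (a : ℍ → ℂ) ≠ 0 := fun h => ha0 (Subtype.ext h)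
  have hb0' : (b : ℍ → ℂ) ≠ 0 := fun h => hb0 (Subtype.ext h)
  have hord : ∀ z₀, ordFun z₀ (b : ℍ → ℂ) ≤ ordFun z₀ (a : ℍ → ℂ) := by
    intro z₀
    have h := hg z₀
    rw [map_div₀, merVal_algebraMap, merVal_algebraMap, ordVal_apply z₀ a ha0,
      ordVal_apply z₀ b hb0] at h
    have hpos : (0 : ℤᵐ⁰) < WithZero.exp (-(ordNat z₀ (b : ℍ → ℂ) : ℤ)) :=
      lt_of_le_of_ne zero_le (Ne.symm WithZero.exp_ne_zero)
    rw [div_le_one₀ hpos, WithZero.exp_le_exp] at h
    have h' : ordNat z₀ (b : ℍ → ℂ) ≤ ordNat z₀ (a : ℍ → ℂ) := by omega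
    rw [← coe_ordNat b.2 hb0' z₀, ← coe_ordNat a.2 ha0' z₀]
    exact_mod_cast h'
  have hbne : ∃ z, (b : ℍ → ℂ) z ≠ 0 := by
    by_contra hcon
    push Not at hcon
    exact hb0' (funext hcon)
  obtain ⟨f, hf, hfe⟩ := h15d_exists_mdiff_mul_eq a.2 b.2 hbne
    (fun w₀ hw₀ => h15d_locally_bdd a.2 b.2 hord w₀ hw₀)
  refine ⟨⟨f, hf⟩, ?_⟩
  have hbM : algebraMap Hol Mer b ≠ 0 := by
    intro h
    exact hb0 ((IsFractionRing.injective Hol Mer) (by rw [h, map_zero]))
  rw [eq_div_iff hbM, ← map_mul]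
  congr 1
  exact Subtype.ext (funext hfe)

end H24D

end
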