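/-
T-RR E3, slice CI (helper2): `ℂ`-linear independence of the realisation of `ℚ̄`-linearly
independent elements of `F = modularFunctionFieldBar N`.

* `H2E3.h2ci_coeff_indep` : coefficientwise extension of scalars preserves linear independence.
* `H2E3.linearIndependent_real` : if `φ : F →+* E` is a realisation (`Jgen d ↦ a d`,
  `c ↦ ι' (iota c)`) and the `a d` satisfy exactly the formal relations over `ℂ`, then a
  `ℚ̄`-linearly independent family of `F` has `ℂ`-linearly independent image.
-/
import Mathlib
import Fermat.Agent.S24.BDefs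
import Fermat.Agent.S24.BA12

set_option autoImplicit false
set_option linter.unusedSectionVars false

noncomputable section

open ModularCurve

namespace H2E3

open RH24

/-- Coefficientwise extension of scalars preserves linear independence (finset form). -/
theorem h2ci_coeff_indep_finset {k K : Type*} [Field k] [Field K] (ι : k →+* K) {Γ : Type*}
    {I : Type*} (s : I → Γ → k) (hs : LinearIndependent k s) (t : Finset I) (c : I → K)
    (hc : ∀ γ, ∑ i ∈ t, c i * ι (s i γ) = 0) : ∀ i ∈ t, c i = 0 := by
  let _ : Algebra k K := ι.toAlgebra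
  let b := Module.Basis.ofVectorSpace k K
  have key : ∀ j, ∀ i ∈ t, b.repr (c i) j = 0 := by
    intro j
    have hrel : ∑ i ∈ t, (b.repr (c i) j) • s i = 0 := by
      funext γ
      have h1 := hc γ
      have h2 : ∑ i ∈ t, (s i γ) • c i = 0 := by
        rw [← h1]
        refine Finset.sum_congr rfl fun i _ => ?_
        rw [Algebra.smul_def, mul_comm]
        rfl
      have h3 := congrArg (fun x => b.repr x j) h2
      simp only [map_sum, map_smul, Finsupp.coe_finsetSum, Finset.sum_apply, Finsupp.smul_apply,
        smul_eq_mul, map_zero, Finsupp.coe_zero, Pi.zero_apply] at h3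
      rw [Finset.sum_apply]
      simp only [Pi.smul_apply, smul_eq_mul, Pi.zero_apply]
      rw [← h3]
      exact Finset.sum_congr rfl fun i _ => mul_comm _ _
    exact fun i hi => (linearIndependent_iff'.mp hs) t _ hrel i hi
  intro i hi
  have : b.repr (c i) = 0 := by
    ext j
    exact key j i hi
  simpa using this

/-- Coefficientwise extension of scalars preserves linear independence. -/
theorem h2ci_coeff_indep {k K : Type*} [Field k] [Field K] (ι : k →+* K) {Γ : Type*}
    {I : Type*} [Fintype I]
    (s : I → Γ → k) (hs : LinearIndependent k s) (c : I → K)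
    (hc : ∀ γ, ∑ i, c i * ι (s i γ) = 0) : c = 0 := by
  funext i
  exact h2ci_coeff_indep_finset ι s hs Finset.univ c hc i (Finset.mem_univ i)

variable (N : ℕ) [NeZero N]

/-- the realisation of a polynomial in the generators -/
theorem h2ci_phi_ev {E : Type*} [Field E] (ι' : ℂ →+* E) (a : Dv N → E)
    (φ : modularFunctionFieldBar N →+* E) (hJ : ∀ d, φ (Jgen d) = a d)
    (hc : ∀ c : Kbar, φ (algebraMap Kbar _ c) = ι' (iota c)) (P : MvPolynomial (Dv N) Kbar) :
    φ (h22b_ev N P) = MvPolynomial.eval₂ ι' a (MvPolynomial.map iota P) := by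
  have hcomp : φ.comp (h22b_ev N) =
      (MvPolynomial.eval₂Hom ι' a).comp (MvPolynomial.map iota) := by
    apply MvPolynomial.ringHom_ext
    · intro c
      rw [RingHom.comp_apply, RingHom.comp_apply, h22b_ev_C, hc, MvPolynomial.map_C,
        MvPolynomial.coe_eval₂Hom, MvPolynomial.eval₂_C]
    · intro d
      rw [RingHom.comp_apply, RingHom.comp_apply, h22b_ev_X, hJ, MvPolynomial.map_X,
        MvPolynomial.coe_eval₂Hom, MvPolynomial.eval₂_X]
  exact RingHom.congr_fun hcomp P

/-- the coefficients of an element of `F`, as a `ℚ̄`-linear map -/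
def h2ci_coeffLin : modularFunctionFieldBar N →ₗ[Kbar] (ℤ → Kbar) where
  toFun x γ := (x : LaurentSeries Kbar).coeff γ
  map_add' x y := by
    funext γ
    simp only [IntermediateField.coe_add, HahnSeries.coeff_add, Pi.add_apply]
  map_smul' c x := by
    funext γ
    simp only [IntermediateField.coe_smul, RingHom.id_apply, Pi.smul_apply]
    rw [Algebra.smul_def, algebraMap_laurentSeries_eq_single, HahnSeries.coeff_single_zero_mul,
      smul_eq_mul]

theorem h2ci_coeffLin_apply (x : modularFunctionFieldBar N) (γ : ℤ) :
    h2ci_coeffLin N x γ = (x : LaurentSeries Kbar).coeff γ := rfl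

theorem h2ci_coeffLin_injective : Function.Injective (h2ci_coeffLin N) := by
  intro x y hxy
  apply Subtype.ext
  apply HahnSeries.ext
  funext γ
  exact congrFun hxy γ

/-- **CI**: `ℂ`-linear independence of the realisation. -/
theorem linearIndependent_real {E : Type*} [Field E] (ι' : ℂ →+* E) (a : Dv N → E)
    (h : ∀ P : MvPolynomial (Dv N) ℂ, formalEval N P = 0 ↔ MvPolynomial.eval₂ ι' a P = 0)
    (φ : modularFunctionFieldBar N →+* E) (hJ : ∀ d, φ (Jgen d) = a d)
    (hc : ∀ c : Kbar, φ (algebraMap Kbar _ c) = ι' (iota c))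
    {I : Type*} [Fintype I] (f : I → modularFunctionFieldBar N) (hf : LinearIndependent Kbar f)
    (c : I → ℂ) (hrel : ∑ i, ι' (c i) * φ (f i) = 0) : c = 0 := by
  classical
  -- common denominator
  choose P Q hQ hPQ using fun i => h22b_exists_rep N (f i)
  set Qall : MvPolynomial (Dv N) Kbar := ∏ i, Q i with hQall
  have hQall0 : h22b_ev N Qall ≠ 0 := by
    rw [hQall, map_prod]
    exact Finset.prod_ne_zero_iff.mpr fun i _ => hQ i
  set P' : I → MvPolynomial (Dv N) Kbar := fun i => P i * ∏ j ∈ Finset.univ.erase i, Q j
    with hP'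
  have hfP : ∀ i, f i * h22b_ev N Qall = h22b_ev N (P' i) := by
    intro i
    have hsplit : Qall = Q i * ∏ j ∈ Finset.univ.erase i, Q j := by
      rw [hQall, ← Finset.mul_prod_erase Finset.univ Q (Finset.mem_univ i)]
    rw [hPQ i, hsplit, hP', map_mul, map_mul]
    field_simp [hQ i]
  -- the relation between polynomials
  set R : MvPolynomial (Dv N) ℂ := ∑ i, MvPolynomial.C (c i) * MvPolynomial.map iota (P' i)
    with hR
  have hR0 : MvPolynomial.eval₂ ι' a R = 0 := by
    rw [hR, MvPolynomial.eval₂_sum]
    have : ∀ i, MvPolynomial.eval₂ ι' a (MvPolynomial.C (c i) * MvPolynomial.map iota (P' i))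
        = (ι' (c i) * φ (f i)) * φ (h22b_ev N Qall) := by
      intro i
      rw [MvPolynomial.eval₂_mul, MvPolynomial.eval₂_C, ← h2ci_phi_ev N ι' a φ hJ hc, ← hfP i,
        map_mul, mul_assoc]
    rw [Finset.sum_congr rfl fun i _ => this i, ← Finset.sum_mul, hrel, zero_mul]
  have hform : formalEval N R = 0 := (h R).2 hR0
  -- the series `s i = f i * Qall(J)` over `ℚ̄`
  set s : I → ℤ → Kbar := fun i γ =>
    ((h22b_ev N (P' i) : modularFunctionFieldBar N) : LaurentSeries Kbar).coeff γ with hs
  have hsind : LinearIndependent Kbar s := by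
    have hmul : LinearIndependent Kbar (fun i => f i * h22b_ev N Qall) := by
      have := hf.map' (LinearMap.mulRight Kbar (h22b_ev N Qall)) (by
        rw [LinearMap.ker_eq_bot]
        intro x y hxy
        simp only [LinearMap.mulRight_apply] at hxy
        exact mul_right_cancel₀ hQall0 hxy)
      exact this
    have hco := hmul.map' (h2ci_coeffLin N) (LinearMap.ker_eq_bot.mpr (h2ci_coeffLin_injective N))
    have hse : s = (h2ci_coeffLin N) ∘ (fun i => f i * h22b_ev N Qall) := by
      funext i γ
      simp only [hs, Function.comp_apply, h2ci_coeffLin_apply, hfP]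
    rw [hse]
    exact hco
  apply h2ci_coeff_indep iota s hsind c
  intro γ
  have h5 := congrArg (fun x : LaurentSeries ℂ => x.coeff γ) hform
  simp only [hR, map_sum, map_mul, HahnSeries.coeff_zero] at h5
  rw [HahnSeries.coeff_sum] at h5
  rw [← h5]
  refine Finset.sum_congr rfl fun i _ => ?_
  have h6 : formalEval N (MvPolynomial.C (c i)) = HahnSeries.single 0 (c i) := by
    rw [formalEval, MvPolynomial.aeval_C, algebraMap_laurentSeries_eq_single]
  rw [h6, ← h22b_coeffMap_ev, HahnSeries.coeff_single_zero_mul, coeffMap_coeff]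

end H2E3

end
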