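/-
T-RR [DICT], slices DL + DI (helper2): linear independence over `ℚ̄` and over `ℂ`
(exact statements of NOTES/T-RR-DICT.md), from `Fermat/Agent/RR/E3CI.lean`.
-/
import Fermat.Agent.RR.DictDefs
import Fermat.Agent.RR.E3CI

set_option autoImplicit false

noncomputable section

open UpperHalfPlane ModularForm WithZero Filter ModularCurve CongruenceSubgroup
open scoped MatrixGroups Manifold Topology Real

namespace H24D

open RH24 (Kbar Jbar iota jf jd Dv Jgen formalEval Dv_ne_zero)

/-- **DL**: coefficientwise base change preserves linear independence of Laurent series. -/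
theorem linearIndependent_coeffMap_iota {ι : Type*} (v : ι → LaurentSeries Kbar)
    (hv : LinearIndependent Kbar v) :
    LinearIndependent ℂ (fun i => coeffMap iota (v i)) := by
  rw [linearIndependent_iff']
  intro t g hg
  -- the coefficient families
  have hs : LinearIndependent Kbar (fun i => fun γ : ℤ => (v i).coeff γ) := by
    rw [linearIndependent_iff'] at hv ⊢
    intro t' g' hg' i hi
    refine hv t' g' ?_ i hi
    apply HahnSeries.ext
    funext γ
    have h1 := congrFun hg' γ
    simp only [Finset.sum_apply, Pi.smul_apply, smul_eq_mul, Pi.zero_apply] at h1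
    rw [HahnSeries.coeff_sum, HahnSeries.coeff_zero, ← h1]
    refine Finset.sum_congr rfl fun j _ => ?_
    rw [HahnSeries.coeff_smul, smul_eq_mul]
  refine H2E3.h2ci_coeff_indep_finset iota _ hs t g ?_
  intro γ
  have h2 := congrArg (fun x : LaurentSeries ℂ => x.coeff γ) hg
  simp only [HahnSeries.coeff_zero] at h2
  rw [HahnSeries.coeff_sum] at h2
  rw [← h2]
  refine Finset.sum_congr rfl fun j _ => ?_
  rw [HahnSeries.coeff_smul, smul_eq_mul, coeffMap_coeff]

/-- **DI**: `ℂ`-linear independence of the realisations of `ℚ̄`-linearly independent elements. -/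
theorem linearIndependent_phi (N : ℕ) [NeZero N] {ι : Type*} [Fintype ι]
    (b : ι → modularFunctionFieldBar N) (hb : LinearIndependent Kbar b) (c : ι → ℂ)
    (hc : ∑ i, constMer (c i) * phi N (b i) = 0) : c = 0 :=
  H2E3.linearIndependent_real N constMer (fun d => jdMer d) (eval₂_constMer_eq_zero_iff N)
    (phi N) (phi_Jgen N) (phi_const N) b hb c hc

end H24D

end
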