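/-
T-RR [DICT], slice DP (helper15): packaging a cusp form of weight 2 on `Γ₀(N)` from a holomorphic
function with the weight-2 transformation law that vanishes at all cusps.
Statement = NOTES/T-RR-DICT.md (DP).
-/
import Fermat.Agent.RR.DictDefs

set_option autoImplicit false

noncomputable section

open UpperHalfPlane ModularForm WithZero Filter ModularCurve CongruenceSubgroup
open scoped MatrixGroups Manifold Topology Real

namespace H24D

/-- slash invariance from the transformation law -/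
theorem h15d_slash_eq (f : ℍ → ℂ) (γ : SL(2, ℤ))
    (h : ∀ z : ℍ, f (γ • z) = denom (Matrix.SpecialLinearGroup.mapGL ℝ γ) z ^ 2 * f z) :
    f ∣[(2 : ℤ)] γ = f := by
  funext z
  rw [ModularForm.SL_slash_apply, h z]
  have hd : denom (Matrix.SpecialLinearGroup.mapGL ℝ γ) z ≠ 0 := denom_ne_zero _ z
  have e : denom γ z = denom (Matrix.SpecialLinearGroup.mapGL ℝ γ) z := rfl
  rw [e, zpow_neg]
  have h2 : (denom (Matrix.SpecialLinearGroup.mapGL ℝ γ) z) ^ (2 : ℤ) =
      denom (Matrix.SpecialLinearGroup.mapGL ℝ γ) z ^ 2 := by norm_cast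
  rw [h2]
  field_simp

/-- **DP** -/
theorem exists_cuspForm (N : ℕ) [NeZero N] (f : ℍ → ℂ) (hf : MDiff f)
    (hinv : ∀ γ ∈ Gamma0 N, ∀ z : ℍ,
      f (γ • z) = denom (Matrix.SpecialLinearGroup.mapGL ℝ γ) z ^ 2 * f z)
    (hcusp : ∀ δ : SL(2, ℤ), IsZeroAtImInfty (f ∣[(2 : ℤ)] δ)) :
    ∃ F : CuspForm (Gamma0 N) 2, (F : ℍ → ℂ) = f := by
  refine ⟨{ toFun := f
            slash_action_eq' := ?_
            holo' := hf
            zero_at_cusps' := ?_ }, rfl⟩
  · rintro _ ⟨γ, hγ, rfl⟩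
    have := h15d_slash_eq f γ (hinv γ hγ)
    rwa [ModularForm.SL_slash] at this
  · intro c hc
    have hc' : IsCusp c 𝒮ℒ := (Subgroup.IsArithmetic.isCusp_iff_isCusp_SL2Z _).mp hc
    refine (OnePoint.isZeroAt_iff_forall_SL2Z hc').mpr (fun σ _ => ?_)
    exact hcusp σ

end H24D

end
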