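import Mathlib
import Fermat.Agent.RR.DictDefs
import Fermat.Agent.S24.BDegreeFinal

/-!
# T-RR [DICT], slice DV (helper26): a valuation that is trivial on `ℚ̄(J)` is `≤ 1` on `F`

A valuation of `F = modularFunctionFieldBar N` that is trivial on the constants and on all
`J - a` is trivial on `ℚ̄[J]` (the constants are algebraically closed), hence `≤ 1` on `ℚ̄(J)`,
hence `≤ 1` on `F`, which is finite over `ℚ̄(J)` (valuation rings are integrally closed).
-/

set_option autoImplicit false
set_option linter.style.haveILetI false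

noncomputable section

open ModularCurve IntermediateField

namespace H24D

open RH24 (Kbar Jbar)

section General

variable {k F : Type*} [Field k] [Field F] [Algebra k F] [IsAlgClosed k]
  {Γ : Type*} [LinearOrderedCommGroupWithZero Γ]

/-- A valuation which is trivial on the (algebraically closed) constants and on all `x - a` is
trivial on the nonzero polynomials in `x`. -/
theorem h26d_aeval_eq_one (w : Valuation F Γ) (x : F)
    (hc : ∀ c : k, c ≠ 0 → w (algebraMap k F c) = 1)
    (hx : ∀ a : k, w (x - algebraMap k F a) = 1)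
    (r : Polynomial k) (hr : r ≠ 0) : w (Polynomial.aeval x r) = 1 := by
  have hsplit := IsAlgClosed.splits r
  have hr' := hsplit.eq_prod_roots
  have h1 : Polynomial.aeval x r = algebraMap k F r.leadingCoeff *
      (r.roots.map (fun a => x - algebraMap k F a)).prod := by
    conv_lhs => rw [hr']
    rw [map_mul, Polynomial.aeval_C, map_multiset_prod, Multiset.map_map]
    congr 2
    apply Multiset.map_congr rfl
    intro a _
    simp [Function.comp]
  rw [h1, map_mul, hc _ (Polynomial.leadingCoeff_ne_zero.mpr hr), one_mul, map_multiset_prod,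
    Multiset.map_map]
  apply Multiset.prod_eq_one
  intro y hy
  obtain ⟨a, -, rfl⟩ := Multiset.mem_map.mp hy
  exact hx a

/-- Such a valuation is `≤ 1` on `k(x)`. -/
theorem h26d_le_one_of_mem_adjoin (w : Valuation F Γ) (x : F)
    (hc : ∀ c : k, c ≠ 0 → w (algebraMap k F c) = 1)
    (hx : ∀ a : k, w (x - algebraMap k F a) = 1)
    (y : F) (hy : y ∈ k⟮x⟯) : w y ≤ 1 := by
  obtain ⟨r, s, rfl⟩ := (IntermediateField.mem_adjoin_simple_iff k y).mp hy
  by_cases hr : Polynomial.aeval x r = 0
  · rw [hr, zero_div, map_zero]
    exact zero_le_one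
  by_cases hs : Polynomial.aeval x s = 0
  · rw [hs, div_zero, map_zero]
    exact zero_le_one
  have hr0 : r ≠ 0 := fun h => hr (by rw [h, map_zero])
  have hs0 : s ≠ 0 := fun h => hs (by rw [h, map_zero])
  rw [map_div₀, h26d_aeval_eq_one w x hc hx r hr0, h26d_aeval_eq_one w x hc hx s hs0, div_one]

omit [IsAlgClosed k] in
/-- An element integral over a subfield on which the valuation is `≤ 1` has valuation `≤ 1`. -/
theorem h26d_le_one_of_isIntegral (w : Valuation F Γ) (E : IntermediateField k F)
    (hE : ∀ a ∈ E, w a ≤ 1) (h : F) (hint : IsIntegral E h) : w h ≤ 1 := by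
  obtain ⟨f, hmonic, hf⟩ := hint
  let φ : E →+* w.integer := (algebraMap E F).codRestrict w.integer
    (fun a => (Valuation.mem_integer_iff w _).mpr (hE a a.2))
  have hcomp : (algebraMap (↥w.integer) F).comp φ = algebraMap E F := by
    ext a
    rfl
  have hint' : IsIntegral w.integer h := by
    refine ⟨f.map φ, hmonic.map φ, ?_⟩
    rw [Polynomial.eval₂_map, hcomp]
    exact hf
  exact (Valuation.integer.integers w).mem_of_integral hint'

end General

/-- **DV**: a valuation of `F` that is trivial on `ℚ̄(J)` is `≤ 1` on `F`. -/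
theorem valuation_le_one_of_trivial (N : ℕ) [NeZero N]
    (w : Valuation (modularFunctionFieldBar N) (WithZero (Multiplicative ℤ)))
    (hc : ∀ c : Kbar, c ≠ 0 → w (algebraMap Kbar _ c) = 1)
    (hJ : ∀ a : Kbar, w (Jbar N - algebraMap Kbar _ a) = 1)
    (h : modularFunctionFieldBar N) : w h ≤ 1 := by
  haveI := (RH24.B_degree N).1
  have hint : IsIntegral (Kbar⟮Jbar N⟯) h := IsIntegral.of_finite _ _
  refine h26d_le_one_of_isIntegral w (Kbar⟮Jbar N⟯) ?_ h hint
  intro a ha
  exact h26d_le_one_of_mem_adjoin w (Jbar N) hc hJ a ha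

end H24D

end
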