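import Mathlib

/-!
# T-RR [DICT] (helper24): holomorphic functions on the upper half plane

`Hol` = ring of holomorphic functions on `ℍ`, a domain; `Mer` = its fraction field;
`ordFun z₀` = order of vanishing at `z₀`.
-/

set_option autoImplicit false

noncomputable section

open UpperHalfPlane ModularForm WithZero
open scoped MatrixGroups Manifold Topology

namespace H24D

/-- The ring of holomorphic functions on the upper half plane. -/
def Hol : Subring (ℍ → ℂ) where
  carrier := {f | MDiff f}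
  mul_mem' := fun hf hg => hf.mul hg
  one_mem' := mdifferentiable_const
  add_mem' := fun hf hg => hf.add hg
  zero_mem' := mdifferentiable_const
  neg_mem' := fun hf => hf.neg

theorem mem_Hol {f : ℍ → ℂ} : f ∈ Hol ↔ MDiff f := Iff.rfl

/-- The extension by zero-ish (`ofComplex`) of a function on `ℍ` to `ℂ`. -/
def ext (f : ℍ → ℂ) : ℂ → ℂ := fun w => f (ofComplex w)

theorem ext_coe (f : ℍ → ℂ) (z : ℍ) : ext f (z : ℂ) = f z := by
  simp [ext]

/-- The open upper half plane as a subset of `ℂ`. -/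
def Hset : Set ℂ := {w : ℂ | 0 < w.im}

theorem isOpen_Hset : IsOpen Hset := isOpen_lt continuous_const Complex.continuous_im

theorem coe_mem_Hset (z : ℍ) : (z : ℂ) ∈ Hset := z.2

theorem analyticOnNhd_ext {f : ℍ → ℂ} (hf : MDiff f) : AnalyticOnNhd ℂ (ext f) Hset := by
  have h := UpperHalfPlane.mdifferentiable_iff.mp hf
  exact h.analyticOnNhd isOpen_Hset

theorem analyticAt_ext {f : ℍ → ℂ} (hf : MDiff f) (z : ℍ) : AnalyticAt ℂ (ext f) (z : ℂ) :=
  analyticOnNhd_ext hf _ (coe_mem_Hset z)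

/-- Order of vanishing of a function on `ℍ` at `z₀`. -/
def ordFun (z₀ : ℍ) (f : ℍ → ℂ) : ℕ∞ := analyticOrderAt (ext f) (z₀ : ℂ)

theorem ext_mul (f g : ℍ → ℂ) : ext (f * g) = ext f * ext g := rfl

theorem ext_add (f g : ℍ → ℂ) : ext (f + g) = ext f + ext g := rfl

theorem ext_one : ext (1 : ℍ → ℂ) = 1 := rfl

theorem isPreconnected_Hset : IsPreconnected Hset :=
  Convex.isPreconnected (convex_halfSpace_im_gt 0)

theorem ordFun_eq_top_iff {f : ℍ → ℂ} (hf : MDiff f) (z₀ : ℍ) : ordFun z₀ f = ⊤ ↔ f = 0 := by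
  constructor
  · intro h
    have h1 : ∀ᶠ z in 𝓝 (z₀ : ℂ), ext f z = 0 := analyticOrderAt_eq_top.mp h
    have h2 := (analyticOnNhd_ext hf).eqOn_zero_of_preconnected_of_eventuallyEq_zero
      isPreconnected_Hset (coe_mem_Hset z₀) h1
    funext z
    have := h2 (coe_mem_Hset z)
    rwa [ext_coe] at this
  · rintro rfl
    apply analyticOrderAt_eq_top.mpr
    exact Filter.Eventually.of_forall fun _ => rfl

theorem ordFun_mul {f g : ℍ → ℂ} (hf : MDiff f) (hg : MDiff g) (z₀ : ℍ) :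
    ordFun z₀ (f * g) = ordFun z₀ f + ordFun z₀ g := by
  unfold ordFun
  rw [ext_mul]
  exact analyticOrderAt_mul (analyticAt_ext hf z₀) (analyticAt_ext hg z₀)

theorem ordFun_add_ge (f g : ℍ → ℂ) (z₀ : ℍ) :
    min (ordFun z₀ f) (ordFun z₀ g) ≤ ordFun z₀ (f + g) := by
  unfold ordFun
  rw [ext_add]
  exact le_analyticOrderAt_add

theorem ordFun_one (z₀ : ℍ) : ordFun z₀ (1 : ℍ → ℂ) = 0 := by
  unfold ordFun
  rw [analyticOrderAt_eq_zero]
  right
  simp [ext]

theorem ordFun_eq_zero_iff {f : ℍ → ℂ} (hf : MDiff f) (z₀ : ℍ) : ordFun z₀ f = 0 ↔ f z₀ ≠ 0 := by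
  unfold ordFun
  rw [analyticOrderAt_eq_zero, ext_coe]
  constructor
  · rintro (h | h)
    · exact absurd (analyticAt_ext hf z₀) h
    · exact h
  · exact Or.inr

instance instNoZeroDivisorsHol : NoZeroDivisors Hol where
  eq_zero_or_eq_zero_of_mul_eq_zero := by
    intro a b hab
    by_contra hcon
    push Not at hcon
    obtain ⟨ha, hb⟩ := hcon
    have ha' : (a : ℍ → ℂ) ≠ 0 := fun h => ha (Subtype.ext h)
    have hb' : (b : ℍ → ℂ) ≠ 0 := fun h => hb (Subtype.ext h)
    have z₀ : ℍ := UpperHalfPlane.I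
    have h1 : ordFun z₀ (a : ℍ → ℂ) ≠ ⊤ := fun h => ha' ((ordFun_eq_top_iff a.2 z₀).mp h)
    have h2 : ordFun z₀ (b : ℍ → ℂ) ≠ ⊤ := fun h => hb' ((ordFun_eq_top_iff b.2 z₀).mp h)
    have h3 : ordFun z₀ ((a : ℍ → ℂ) * b) = ⊤ := by
      have : ((a : ℍ → ℂ) * b) = 0 := by
        have := congrArg Subtype.val hab
        simpa using this
      rw [this]
      exact (ordFun_eq_top_iff mdifferentiable_const z₀).mpr rfl
    rw [ordFun_mul a.2 b.2] at h3
    rcases WithTop.add_eq_top.mp h3 with h | h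
    · exact h1 h
    · exact h2 h

instance instIsDomainHol : IsDomain Hol := NoZeroDivisors.to_isDomain _

/-- The field of meromorphic functions on `ℍ` (fractions of holomorphic functions). -/
abbrev Mer : Type := FractionRing Hol

/-- The order of a nonzero holomorphic function, as a natural number. -/
def ordNat (z₀ : ℍ) (f : ℍ → ℂ) : ℕ := (ordFun z₀ f).toNat

theorem coe_ordNat {f : ℍ → ℂ} (hf : MDiff f) (hf0 : f ≠ 0) (z₀ : ℍ) :
    (ordNat z₀ f : ℕ∞) = ordFun z₀ f :=
  ENat.natCast_toNat (fun h => hf0 ((ordFun_eq_top_iff hf z₀).mp h))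

theorem ordNat_mul {f g : ℍ → ℂ} (hf : MDiff f) (hg : MDiff g) (hf0 : f ≠ 0) (hg0 : g ≠ 0)
    (z₀ : ℍ) : ordNat z₀ (f * g) = ordNat z₀ f + ordNat z₀ g := by
  have hfg : f * g ≠ 0 := by
    intro h
    have h1 : (⟨f, hf⟩ : Hol) * ⟨g, hg⟩ = 0 := Subtype.ext h
    rcases mul_eq_zero.mp h1 with h2 | h2
    · exact hf0 (congrArg Subtype.val h2)
    · exact hg0 (congrArg Subtype.val h2)
  have h := ordFun_mul hf hg z₀
  rw [← coe_ordNat (hf.mul hg) hfg, ← coe_ordNat hf hf0, ← coe_ordNat hg hg0] at h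
  exact_mod_cast h

theorem ordNat_add_ge {f g : ℍ → ℂ} (hf : MDiff f) (hg : MDiff g) (hf0 : f ≠ 0) (hg0 : g ≠ 0)
    (hfg : f + g ≠ 0) (z₀ : ℍ) : min (ordNat z₀ f) (ordNat z₀ g) ≤ ordNat z₀ (f + g) := by
  have h := ordFun_add_ge f g z₀
  rw [← coe_ordNat (hf.add hg) hfg, ← coe_ordNat hf hf0, ← coe_ordNat hg hg0] at h
  rcases min_le_iff.mp h with h1 | h1
  · exact min_le_iff.mpr (Or.inl (by exact_mod_cast h1))
  · exact min_le_iff.mpr (Or.inr (by exact_mod_cast h1))

open scoped Classical in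
/-- The valuation on `Hol` given by the order of vanishing at `z₀`. -/
def ordVal (z₀ : ℍ) : Valuation Hol ℤᵐ⁰ where
  toFun f := if (f : ℍ → ℂ) = 0 then 0 else exp (-(ordNat z₀ (f : ℍ → ℂ) : ℤ))
  map_zero' := by simp
  map_one' := by
    have h1 : ((1 : Hol) : ℍ → ℂ) ≠ 0 := by
      intro h
      have := congrFun h UpperHalfPlane.I
      simp at this
    rw [if_neg h1]
    have : ordNat z₀ ((1 : Hol) : ℍ → ℂ) = 0 := by
      unfold ordNat
      rw [show ((1 : Hol) : ℍ → ℂ) = 1 from rfl, ordFun_one]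
      rfl
    rw [this]
    simp
  map_mul' := by
    intro f g
    by_cases hf : (f : ℍ → ℂ) = 0
    · have : ((f * g : Hol) : ℍ → ℂ) = 0 := by
        rw [Subring.coe_mul, hf, zero_mul]
      rw [if_pos this, if_pos hf, zero_mul]
    by_cases hg : (g : ℍ → ℂ) = 0
    · have : ((f * g : Hol) : ℍ → ℂ) = 0 := by
        rw [Subring.coe_mul, hg, mul_zero]
      rw [if_pos this, if_pos hg, mul_zero]
    have hfg : ((f * g : Hol) : ℍ → ℂ) ≠ 0 := by
      intro h
      have h1 : f * g = 0 := Subtype.ext h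
      rcases mul_eq_zero.mp h1 with h2 | h2
      · exact hf (congrArg Subtype.val h2)
      · exact hg (congrArg Subtype.val h2)
    rw [if_neg hfg, if_neg hf, if_neg hg, ← exp_add, Subring.coe_mul,
      ordNat_mul f.2 g.2 hf hg]
    congr 1
    push_cast
    ring
  map_add_le_max' := by
    intro f g
    by_cases hfg : ((f + g : Hol) : ℍ → ℂ) = 0
    · rw [if_pos hfg]
      exact zero_le
    by_cases hf : (f : ℍ → ℂ) = 0
    · have : f = 0 := Subtype.ext hf
      subst this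
      simp
    by_cases hg : (g : ℍ → ℂ) = 0
    · have : g = 0 := Subtype.ext hg
      subst this
      simp
    rw [if_neg hfg, if_neg hf, if_neg hg]
    have h := ordNat_add_ge f.2 g.2 hf hg hfg z₀
    rw [le_max_iff, exp_le_exp, exp_le_exp]
    rcases min_le_iff.mp h with h1 | h1
    · left
      have : (ordNat z₀ (f : ℍ → ℂ) : ℤ) ≤ ordNat z₀ ((f + g : Hol) : ℍ → ℂ) := by
        exact_mod_cast h1
      omega
    · right
      have : (ordNat z₀ (g : ℍ → ℂ) : ℤ) ≤ ordNat z₀ ((f + g : Hol) : ℍ → ℂ) := by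
        exact_mod_cast h1
      omega

theorem ordVal_apply (z₀ : ℍ) (f : Hol) (hf : f ≠ 0) :
    ordVal z₀ f = WithZero.exp (-(ordNat z₀ (f : ℍ → ℂ) : ℤ)) := by
  have : (f : ℍ → ℂ) ≠ 0 := fun h => hf (Subtype.ext h)
  classical
  show (if (f : ℍ → ℂ) = 0 then 0 else _) = _
  rw [if_neg this]

theorem ordVal_eq_zero_iff (z₀ : ℍ) (f : Hol) : ordVal z₀ f = 0 ↔ f = 0 := by
  constructor
  · intro h
    by_contra hf
    rw [ordVal_apply z₀ f hf] at h
    exact WithZero.exp_ne_zero h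
  · rintro rfl
    exact map_zero _

theorem nonZeroDivisors_le_primeCompl (z₀ : ℍ) :
    nonZeroDivisors Hol ≤ (ordVal z₀).supp.primeCompl := by
  intro f hf
  show f ∉ (ordVal z₀).supp
  rw [Valuation.mem_supp_iff, ordVal_eq_zero_iff]
  exact nonZeroDivisors.ne_zero hf

/-- The valuation on `Mer` given by the order at `z₀`. -/
def merVal (z₀ : ℍ) : Valuation Mer ℤᵐ⁰ :=
  (ordVal z₀).extendToLocalization (nonZeroDivisors_le_primeCompl z₀) Mer

theorem merVal_algebraMap (z₀ : ℍ) (f : Hol) : merVal z₀ (algebraMap Hol Mer f) = ordVal z₀ f :=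
  Valuation.extendToLocalization_apply_map_apply _ _ _ f

end H24D

end
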