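import Fermat.Agent.RR.DictDefs

/-!
# T-RR [DICT] (helper24), assembly part 1: basic facts about `ordVal`, `phi`, `wFin`
(no slice needed here)
-/

set_option autoImplicit false

noncomputable section

open UpperHalfPlane ModularForm WithZero Filter ModularCurve CongruenceSubgroup
open scoped MatrixGroups Manifold Topology Real

namespace H24D

open RH24 (Kbar Jbar iota jf jd Dv Jgen formalEval Dv_ne_zero)

theorem ordVal_le_one (z₀ : ℍ) (f : Hol) : ordVal z₀ f ≤ 1 := by
  by_cases hf : f = 0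
  · subst hf; simp
  · rw [ordVal_apply z₀ f hf, ← WithZero.exp_zero, WithZero.exp_le_exp]
    have : (0 : ℤ) ≤ (ordNat z₀ (f : ℍ → ℂ) : ℤ) := Int.natCast_nonneg _
    omega

theorem ordVal_eq_one_iff (z₀ : ℍ) (f : Hol) : ordVal z₀ f = 1 ↔ (f : ℍ → ℂ) z₀ ≠ 0 := by
  by_cases hf : f = 0
  · subst hf
    simp
  · rw [ordVal_apply z₀ f hf, ← WithZero.exp_zero, WithZero.exp_inj]
    have hf' : (f : ℍ → ℂ) ≠ 0 := fun h => hf (Subtype.ext h)
    have h1 := coe_ordNat f.2 hf' z₀
    have h2 := ordFun_eq_zero_iff f.2 z₀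
    constructor
    · intro h
      have h3 : ordNat z₀ (f : ℍ → ℂ) = 0 := by omega
      rw [h3] at h1
      exact h2.mp (by rw [← h1]; rfl)
    · intro h
      have h3 := h2.mpr h
      rw [h3] at h1
      have h4 : ordNat z₀ (f : ℍ → ℂ) = 0 := by exact_mod_cast h1
      omega

theorem ordVal_lt_one_iff (z₀ : ℍ) (f : Hol) : ordVal z₀ f < 1 ↔ (f : ℍ → ℂ) z₀ = 0 := by
  rw [lt_iff_le_and_ne, ne_eq, ordVal_eq_one_iff, not_not]
  exact ⟨fun h => h.2, fun h => ⟨ordVal_le_one z₀ f, h⟩⟩

variable (N : ℕ) [NeZero N]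

/-- the divisor `1` of `N` -/
def dOne : Dv N := ⟨1, one_dvd N⟩

theorem Jgen_dOne : Jgen (dOne N) = Jbar N := by
  apply Subtype.ext
  show coeffEmb Kbar (qExpand ℚ 1 jq) = coeffEmb Kbar jq
  rw [qExpand_one_apply]

theorem jd_one (z : ℍ) : jd 1 z = jf z := by
  unfold RH24.jd
  have : heckeDiagMatrix 1 = 1 := by
    apply Units.ext
    rw [val_heckeDiagMatrix one_ne_zero]
    ext i j
    fin_cases i <;> fin_cases j <;> simp
  rw [this, one_smul]

theorem jdHol_dOne : jdHol (dOne N) = jHol := by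
  apply Subtype.ext
  funext z
  exact jd_one z

theorem phi_Jbar : phi N (Jbar N) = algebraMap Hol Mer jHol := by
  rw [← Jgen_dOne, phi_Jgen]
  unfold jdMer
  rw [jdHol_dOne]

/-- the valuation of the function field at a point of the upper half plane -/
def wFin (z₀ : ℍ) : Valuation (modularFunctionFieldBar N) ℤᵐ⁰ := (merVal z₀).comap (phi N)

theorem wFin_apply (z₀ : ℍ) (h : modularFunctionFieldBar N) :
    wFin N z₀ h = merVal z₀ (phi N h) := rfl

theorem wFin_const_le (z₀ : ℍ) (c : Kbar) : wFin N z₀ (algebraMap Kbar _ c) ≤ 1 := by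
  rw [wFin_apply, phi_const, constMer_apply, merVal_algebraMap]
  exact ordVal_le_one _ _

theorem wFin_J_sub (z₀ : ℍ) (a : Kbar) :
    wFin N z₀ (Jbar N - algebraMap Kbar _ a) = ordVal z₀ (jHol - constHol (iota a)) := by
  rw [wFin_apply, map_sub, phi_Jbar, phi_const, constMer_apply, ← map_sub, merVal_algebraMap]

theorem wFin_J_sub_lt_one_iff (z₀ : ℍ) (a : Kbar) :
    wFin N z₀ (Jbar N - algebraMap Kbar _ a) < 1 ↔ jf z₀ = iota a := by
  rw [wFin_J_sub, ordVal_lt_one_iff]
  show jf z₀ - iota a = 0 ↔ _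
  exact sub_eq_zero

theorem wFin_J_sub_eq_one_iff (z₀ : ℍ) (a : Kbar) :
    wFin N z₀ (Jbar N - algebraMap Kbar _ a) = 1 ↔ jf z₀ ≠ iota a := by
  rw [wFin_J_sub, ordVal_eq_one_iff]
  show jf z₀ - iota a ≠ 0 ↔ _
  exact sub_ne_zero

/-- invariance of the realisation under `Γ₀(N)` -/
theorem precompMer_phi (γ : SL(2, ℤ)) (hγ : γ ∈ Gamma0 N) (h : modularFunctionFieldBar N) :
    precompMer γ (phi N h) = phi N h := by
  have hc : ∀ c : ℂ, precompMer γ (constMer c) = constMer c := by
    intro c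
    have h0 : precomp γ (constHol c) = constHol c := by
      apply Subtype.ext
      funext z
      rfl
    rw [constMer_apply, precompMer_algebraMap, h0]
  have hd : ∀ d : Dv N, precompMer γ (jdMer d) = jdMer d := by
    intro d
    have h0 : precomp γ (jdHol d) = jdHol d := by
      apply Subtype.ext
      funext z
      show jd d.1 (γ • z) = jd d.1 z
      exact RH24.jd_smul_of_mem_Gamma0 N d γ hγ z
    unfold jdMer
    rw [precompMer_algebraMap, h0]
  have key : (precompMer γ).comp (phi N) = phi N := by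
    apply RH24.ringHom_ext_F
    · intro c
      have h1 : ((precompMer γ).comp (phi N)) (algebraMap Kbar _ c)
          = precompMer γ (phi N (algebraMap Kbar _ c)) := rfl
      rw [h1, phi_const, hc]
    · intro d
      have h1 : ((precompMer γ).comp (phi N)) (Jgen d) = precompMer γ (phi N (Jgen d)) := rfl
      rw [h1, phi_Jgen, hd]
  exact RingHom.congr_fun key h

/-- polynomials in the generators, realised -/
def polyHolK (P : MvPolynomial (Dv N) Kbar) : Hol :=
  MvPolynomial.eval₂ (constHol.comp iota) (fun d => jdHol d) P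

theorem polyHolK_apply (P : MvPolynomial (Dv N) Kbar) (z : ℍ) :
    (polyHolK N P : ℍ → ℂ) z = polyFunAt N 1 P z := by
  have h := MvPolynomial.eval₂_comp_left (evalAt z) (constHol.comp iota) (fun d : Dv N => jdHol d) P
  rw [evalAt_apply] at h
  unfold polyHolK polyFunAt
  rw [h]
  simp only [one_smul]
  rfl

theorem phi_aeval (P : MvPolynomial (Dv N) Kbar) :
    phi N (MvPolynomial.aeval (fun d : Dv N => Jgen d) P) = algebraMap Hol Mer (polyHolK N P) := by
  have h1 := MvPolynomial.eval₂_comp_left (algebraMap Hol Mer) (constHol.comp iota)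
    (fun d : Dv N => jdHol d) P
  unfold polyHolK
  rw [h1, MvPolynomial.aeval_def, MvPolynomial.eval₂_comp_left (phi N)]
  congr 1
  · ext c
    simp only [RingHom.comp_apply]
    exact phi_const N c
  · funext d
    exact phi_Jgen N d

theorem polyFunAt_smul (δ : SL(2, ℤ)) (P : MvPolynomial (Dv N) Kbar) (z : ℍ) :
    polyFunAt N δ P z = polyFunAt N 1 P (δ • z) := by
  unfold polyFunAt
  simp only [one_smul]

end H24D

end
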