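/-
T-RR slice E1 (helper21), part 1: primitives of cusp forms of weight 2 on `Γ₀(N)`.

* `IsPrimOf G g`: `G` is a holomorphic primitive of `g` on `ℍ` vanishing at `i∞`; uniqueness,
  existence for cusp-like `g` (`exists_isPrimOf_with`).
* `prim f`: the primitive of a cusp form `f ∈ S₂(Γ₀(N))`; it satisfies the prelude's
  `ModularCurve.HasEquivariantPrimitive N f (prim f)` (`hasEquivariantPrimitive_prim`).
* `periodMap_apply`: `periodMap N f γ = prim f (γ • z) - prim f z`.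
* `existsPeriodMapLinear`: the period map is `ℂ`-linear.
-/
import Mathlib
import Fermat.Prelude.Def_ModularCurve_PeriodHomPair
import Fermat.Prelude.Thm_Subgroup_IsArithmetic_exists_nat_mem_strictPeriods_conj
import Fermat.Prelude.Thm_CongruenceSubgroup_one_mem_strictPeriods_Gamma0

set_option autoImplicit false
set_option linter.unusedSectionVars false

open Complex Filter Topology Function
open UpperHalfPlane hiding I
open scoped Manifold MatrixGroups ModularForm Real Pointwise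

noncomputable section


namespace H21E1

/-- `G` is a primitive of `g` on `ℍ` that vanishes at `i∞`. -/
def IsPrimOf (G g : ℍ → ℂ) : Prop :=
  (∀ τ : ℍ, HasDerivAt (G ∘ ofComplex) (g τ) (τ : ℂ)) ∧ IsZeroAtImInfty G

lemma IsPrimOf.mdiff {G g : ℍ → ℂ} (h : IsPrimOf G g) : MDiff G := fun τ =>
  UpperHalfPlane.mdifferentiableAt_iff.mpr (h.1 τ).differentiableAt

lemma isPreconnected_upperHalfPlaneSet : IsPreconnected upperHalfPlaneSet :=
  (Complex.isConnected_of_upperHalfPlane subset_rfl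
    (fun x (hx : 0 < x.im) => (le_of_lt hx : 0 ≤ x.im))).isPreconnected

/-- A function on `ℍ` with zero derivative everywhere is constant. -/
lemma eq_of_hasDerivAt_zero {D : ℍ → ℂ}
    (hD : ∀ τ : ℍ, HasDerivAt (D ∘ ofComplex) 0 (τ : ℂ)) (z w : ℍ) : D z = D w := by
  have hdiff : DifferentiableOn ℂ (D ∘ ofComplex) upperHalfPlaneSet := fun x hx =>
    (hD ⟨x, hx⟩).differentiableAt.differentiableWithinAt
  have hderiv : upperHalfPlaneSet.EqOn (deriv (D ∘ ofComplex)) 0 := fun x hx =>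
    (hD ⟨x, hx⟩).deriv
  have := isOpen_upperHalfPlaneSet.is_const_of_deriv_eq_zero isPreconnected_upperHalfPlaneSet
    hdiff hderiv z.2 w.2
  simpa using this

lemma isZeroAtImInfty_sub {G₁ G₂ : ℍ → ℂ} (h₁ : IsZeroAtImInfty G₁) (h₂ : IsZeroAtImInfty G₂) :
    IsZeroAtImInfty (G₁ - G₂) := by
  have : Tendsto (fun x => G₁ x - G₂ x) atImInfty (𝓝 (0 - 0)) := Tendsto.sub h₁ h₂
  rw [sub_zero] at this
  exact this

lemma isZeroAtImInfty_add {G₁ G₂ : ℍ → ℂ} (h₁ : IsZeroAtImInfty G₁) (h₂ : IsZeroAtImInfty G₂) :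
    IsZeroAtImInfty (G₁ + G₂) := by
  have : Tendsto (fun x => G₁ x + G₂ x) atImInfty (𝓝 (0 + 0)) := Tendsto.add h₁ h₂
  rw [add_zero] at this
  exact this

lemma isZeroAtImInfty_smul (c : ℂ) {G : ℍ → ℂ} (h : IsZeroAtImInfty G) :
    IsZeroAtImInfty (c • G) := by
  have : Tendsto (fun x => c * G x) atImInfty (𝓝 (c * 0)) := Tendsto.const_mul c h
  rw [mul_zero] at this
  exact this

lemma isZeroAtImInfty_zero : IsZeroAtImInfty (0 : ℍ → ℂ) :=
  (tendsto_const_nhds : Tendsto (fun _ : ℍ => (0:ℂ)) atImInfty (𝓝 0))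

lemma IsPrimOf.unique {G₁ G₂ g : ℍ → ℂ} (h₁ : IsPrimOf G₁ g) (h₂ : IsPrimOf G₂ g) :
    G₁ = G₂ := by
  set D : ℍ → ℂ := G₁ - G₂ with hDdef
  have hD : ∀ τ : ℍ, HasDerivAt (D ∘ ofComplex) 0 (τ : ℂ) := fun τ => by
    have := (h₁.1 τ).sub (h₂.1 τ)
    rw [sub_self] at this
    exact this
  have hzero : IsZeroAtImInfty D := isZeroAtImInfty_sub h₁.2 h₂.2
  have hconst : ∀ z, D z = D UpperHalfPlane.I := fun z => eq_of_hasDerivAt_zero hD z _
  have hlim : Tendsto D atImInfty (𝓝 (D UpperHalfPlane.I)) := by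
    have : D = fun _ => D UpperHalfPlane.I := funext hconst
    rw [this]; exact tendsto_const_nhds
  have h0 : D UpperHalfPlane.I = 0 := tendsto_nhds_unique hlim hzero
  funext z
  have := hconst z
  rw [h0] at this
  simpa [hDdef, sub_eq_zero] using this

lemma IsPrimOf.add {G₁ G₂ g₁ g₂ : ℍ → ℂ} (h₁ : IsPrimOf G₁ g₁) (h₂ : IsPrimOf G₂ g₂) :
    IsPrimOf (G₁ + G₂) (g₁ + g₂) :=
  ⟨fun τ => (h₁.1 τ).add (h₂.1 τ), isZeroAtImInfty_add h₁.2 h₂.2⟩

lemma IsPrimOf.sub {G₁ G₂ g₁ g₂ : ℍ → ℂ} (h₁ : IsPrimOf G₁ g₁) (h₂ : IsPrimOf G₂ g₂) :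
    IsPrimOf (G₁ - G₂) (g₁ - g₂) :=
  ⟨fun τ => (h₁.1 τ).sub (h₂.1 τ), isZeroAtImInfty_sub h₁.2 h₂.2⟩

lemma IsPrimOf.smul {G g : ℍ → ℂ} (c : ℂ) (h : IsPrimOf G g) : IsPrimOf (c • G) (c • g) :=
  ⟨fun τ => (h.1 τ).const_smul c, isZeroAtImInfty_smul c h.2⟩

lemma IsPrimOf.zero : IsPrimOf (0 : ℍ → ℂ) 0 :=
  ⟨fun τ => hasDerivAt_const (τ : ℂ) (0 : ℂ), isZeroAtImInfty_zero⟩

end H21E1

namespace H21E1

local notation "𝕢" => Periodic.qParam

/-- cusp-like: holomorphic, periodic with some positive period, zero at `i∞`. -/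
def IsCuspLike (g : ℍ → ℂ) : Prop :=
  MDiff g ∧ (∃ h : ℝ, 0 < h ∧ Periodic (g ∘ ofComplex) h) ∧ IsZeroAtImInfty g

/-- cusp-like with a prescribed period. -/
def IsCuspLikeWith (h : ℝ) (g : ℍ → ℂ) : Prop :=
  MDiff g ∧ Periodic (g ∘ ofComplex) h ∧ IsZeroAtImInfty g

lemma IsCuspLikeWith.isCuspLike {h : ℝ} (hh : 0 < h) {g : ℍ → ℂ} (hg : IsCuspLikeWith h g) :
    IsCuspLike g := ⟨hg.1, ⟨h, hh, hg.2.1⟩, hg.2.2⟩

lemma hasDerivAt_qParam (h : ℝ) (z : ℂ) :
    HasDerivAt (𝕢 h) (2 * π * I / h * 𝕢 h z) z := by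
  unfold Periodic.qParam
  have h1 : HasDerivAt (fun z : ℂ => 2 * π * I * z / h) (2 * π * I / h) z := by
    have := ((hasDerivAt_id z).const_mul (2 * π * I)).div_const (h : ℂ)
    simpa using this
  have := h1.cexp
  simpa [mul_comm] using this

theorem exists_isPrimOf_with {h : ℝ} (hh : 0 < h) {g : ℍ → ℂ} (hg : IsCuspLikeWith h g) :
    ∃ G, IsPrimOf G g ∧ IsCuspLikeWith h G := by
  obtain ⟨hhol, hper, hzero⟩ := hg
  set ψ : ℂ → ℂ := cuspFunction h g with hψ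
  have hψdiff : DifferentiableOn ℂ ψ (Metric.ball 0 1) :=
    differentiableOn_cuspFunction_ball hh hper hhol hzero.isBoundedAtImInfty
  have hψ0 : ψ 0 = 0 := by
    rw [hψ, cuspFunction_apply_zero hh
      (analyticAt_cuspFunction_zero hh hper hhol hzero.isBoundedAtImInfty) hper]
    exact hzero.valueAtInfty_eq_zero
  set χ : ℂ → ℂ := dslope ψ 0 with hχ
  have hχdiff : DifferentiableOn ℂ χ (Metric.ball 0 1) :=
    (Complex.differentiableOn_dslope (Metric.ball_mem_nhds 0 one_pos)).mpr hψdiff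
  obtain ⟨Ψ, hΨ0, hΨ⟩ := (hχdiff.isExactOn_ball).with_val_at 0 0
  have hχmul : ∀ q : ℂ, q * χ q = ψ q := fun q => by
    have := sub_smul_dslope ψ 0 q
    simpa [hψ0, hχ] using this
  -- the primitive
  set c : ℂ := h / (2 * π * I) with hc
  have hpi : (2 * π * I : ℂ) ≠ 0 := by
    simp [Real.pi_ne_zero]
  have hhC : (h : ℂ) ≠ 0 := by exact_mod_cast hh.ne'
  set Gc : ℂ → ℂ := fun z => c * Ψ (𝕢 h z) with hGc
  set G : ℍ → ℂ := fun τ => Gc τ with hG
  have hGc_deriv : ∀ z : ℂ, 0 < z.im → HasDerivAt Gc (ψ (𝕢 h z)) z := by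
    intro z hz
    have hq : 𝕢 h z ∈ Metric.ball (0 : ℂ) 1 := by
      simpa using Periodic.norm_qParam_lt_one hh hz
    have h1 : HasDerivAt (fun z => Ψ (𝕢 h z)) (χ (𝕢 h z) * (2 * π * I / h * 𝕢 h z)) z :=
      (hΨ _ hq).comp z (hasDerivAt_qParam h z)
    have h2 := h1.const_mul c
    have e : c * (χ (𝕢 h z) * (2 * π * I / h * 𝕢 h z)) = ψ (𝕢 h z) := by
      rw [← hχmul (𝕢 h z), hc]
      field_simp
    rw [e] at h2
    exact h2
  have hcomp : ∀ τ : ℍ, G ∘ ofComplex =ᶠ[𝓝 (τ : ℂ)] Gc := by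
    intro τ
    filter_upwards [isOpen_upperHalfPlaneSet.mem_nhds τ.2] with z hz
    simp only [Function.comp_apply, hG]
    rw [ofComplex_apply_of_im_pos hz]
  have hprim : ∀ τ : ℍ, HasDerivAt (G ∘ ofComplex) (g τ) (τ : ℂ) := by
    intro τ
    have := (hGc_deriv τ τ.2).congr_of_eventuallyEq (hcomp τ)
    rwa [hψ, eq_cuspFunction τ hh.ne' hper] at this
  have hΨcont : ContinuousAt Ψ 0 := (hΨ 0 (by simp)).continuousAt
  have hGzero : IsZeroAtImInfty G := by
    have h1 : Tendsto (fun τ : ℍ => Ψ (𝕢 h τ)) atImInfty (𝓝 (Ψ 0)) :=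
      hΨcont.tendsto.comp (qParam_tendsto_atImInfty hh)
    have h2 : Tendsto (fun τ : ℍ => c * Ψ (𝕢 h τ)) atImInfty (𝓝 (c * Ψ 0)) := h1.const_mul c
    rw [hΨ0, mul_zero] at h2
    exact h2
  have hGper : Periodic (G ∘ ofComplex) h := by
    intro w
    by_cases hw : 0 < w.im
    · have hw' : 0 < (w + h).im := by simpa using hw
      simp only [Function.comp_apply, hG, hGc]
      rw [ofComplex_apply_of_im_pos hw, ofComplex_apply_of_im_pos hw']
      congr 2
      unfold Periodic.qParam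
      have : 2 * π * I * (w + h) / h = 2 * π * I * w / h + 2 * π * I := by
        field_simp
      rw [this, Complex.exp_add, Complex.exp_two_pi_mul_I, mul_one]
    · have hw0 : w.im ≤ 0 := not_lt.mp hw
      have hw' : (w + h).im ≤ 0 := by simpa using hw0
      simp only [Function.comp_apply]
      rw [ofComplex_apply_eq_of_im_nonpos hw' hw0]
  have hP : IsPrimOf G g := ⟨hprim, hGzero⟩
  exact ⟨G, hP, ⟨hP.mdiff, hGper, hGzero⟩⟩

theorem exists_isPrimOf {g : ℍ → ℂ} (hg : IsCuspLike g) : ∃ G, IsPrimOf G g ∧ IsCuspLike G := by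
  obtain ⟨hhol, ⟨h, hh, hper⟩, hzero⟩ := hg
  obtain ⟨G, hG, hG'⟩ := exists_isPrimOf_with hh ⟨hhol, hper, hzero⟩
  exact ⟨G, hG, hG'.isCuspLike hh⟩

end H21E1

namespace H21E1

/-! ### Chain rule along the Möbius action -/

section mobius

theorem hasDerivAt_mob {a b c d : ℂ} (hdet : a * d - b * c = 1) {z : ℂ} (hz : c * z + d ≠ 0) :
    HasDerivAt (fun w : ℂ => (a * w + b) / (c * w + d)) ((c * z + d) ^ (-2 : ℤ)) z := by
  have h1 : HasDerivAt (fun w : ℂ => a * w + b) a z := by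
    simpa using ((hasDerivAt_id z).const_mul a).add_const b
  have h2 : HasDerivAt (fun w : ℂ => c * w + d) c z := by
    simpa using ((hasDerivAt_id z).const_mul c).add_const d
  have h3 := h1.div h2 hz
  refine h3.congr_deriv ?_
  rw [zpow_neg, zpow_ofNat]
  field_simp
  linear_combination hdet

/-- the entries of `γ ∈ SL(2,ℤ)` as complex numbers satisfy `ad - bc = 1` -/
theorem sl_det_complex (γ : SL(2, ℤ)) :
    ((algebraMap ℤ ℝ (γ 0 0) : ℝ) : ℂ) * ((algebraMap ℤ ℝ (γ 1 1) : ℝ) : ℂ) -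
      ((algebraMap ℤ ℝ (γ 0 1) : ℝ) : ℂ) * ((algebraMap ℤ ℝ (γ 1 0) : ℝ) : ℂ) = 1 := by
  have h := γ.det_coe
  rw [Matrix.det_fin_two] at h
  have h' : ((γ 0 0 * γ 1 1 - γ 0 1 * γ 1 0 : ℤ) : ℂ) = 1 := by rw [h]; simp
  simpa using h'

theorem denom_eq (γ : SL(2, ℤ)) (z : ℍ) :
    denom (γ : GL (Fin 2) ℝ) z =
      ((algebraMap ℤ ℝ (γ 1 0) : ℝ) : ℂ) * z + ((algebraMap ℤ ℝ (γ 1 1) : ℝ) : ℂ) := by
  simp [denom]

/-- chain rule: the derivative of `z ↦ F (γ • z)`. -/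
theorem hasDerivAt_comp_smul {F f : ℍ → ℂ}
    (hF : ∀ τ : ℍ, HasDerivAt (F ∘ ofComplex) (f τ) (τ : ℂ)) (γ : SL(2, ℤ)) (τ : ℍ) :
    HasDerivAt ((fun z : ℍ => F (γ • z)) ∘ ofComplex)
      (f (γ • τ) * denom (γ : GL (Fin 2) ℝ) τ ^ (-2 : ℤ)) (τ : ℂ) := by
  set a : ℂ := ((algebraMap ℤ ℝ (γ 0 0) : ℝ) : ℂ) with ha
  set b : ℂ := ((algebraMap ℤ ℝ (γ 0 1) : ℝ) : ℂ) with hb
  set c : ℂ := ((algebraMap ℤ ℝ (γ 1 0) : ℝ) : ℂ) with hc
  set d : ℂ := ((algebraMap ℤ ℝ (γ 1 1) : ℝ) : ℂ) with hd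
  have hden : c * (τ : ℂ) + d ≠ 0 := by
    have := denom_ne_zero (γ : GL (Fin 2) ℝ) τ
    rwa [denom_eq] at this
  have hmob := hasDerivAt_mob (sl_det_complex γ) hden
  have hval : (a * (τ : ℂ) + b) / (c * (τ : ℂ) + d) = ((γ • τ : ℍ) : ℂ) :=
    (UpperHalfPlane.coe_specialLinearGroup_apply γ τ).symm
  have hF' : HasDerivAt (F ∘ ofComplex) (f (γ • τ)) ((a * (τ : ℂ) + b) / (c * (τ : ℂ) + d)) := by
    rw [hval]; exact hF (γ • τ)
  have hcomp := hF'.comp (τ : ℂ) hmob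
  rw [denom_eq]
  refine hcomp.congr_of_eventuallyEq ?_
  filter_upwards [isOpen_upperHalfPlaneSet.mem_nhds τ.2] with w hw
  simp only [Function.comp_apply]
  rw [ofComplex_apply_of_im_pos hw]
  have := UpperHalfPlane.coe_specialLinearGroup_apply γ ⟨w, hw⟩
  rw [← ofComplex_apply (γ • (⟨w, hw⟩ : ℍ)), this]

end mobius

/-! ### The primitive of a cusp form of weight 2 -/

section cusp

open CongruenceSubgroup ModularCurve ModularCurve.Period

variable {N : ℕ} [NeZero N]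

theorem cusp_isCuspLikeWith (f : CuspForm (Gamma0 N) 2) : IsCuspLikeWith 1 (⇑f) := by
  refine ⟨CuspFormClass.holo f, ?_, CuspFormClass.zero_at_infty f⟩
  have := SlashInvariantFormClass.periodic_comp_ofComplex f
    (CongruenceSubgroup.one_mem_strictPeriods_Gamma0 N)
  simpa using this

/-- the primitive of `f` vanishing at `i∞` -/
def prim (f : CuspForm (Gamma0 N) 2) : ℍ → ℂ :=
  (exists_isPrimOf_with one_pos (cusp_isCuspLikeWith f)).choose

theorem isPrimOf_prim (f : CuspForm (Gamma0 N) 2) : IsPrimOf (prim f) (⇑f) :=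
  (exists_isPrimOf_with one_pos (cusp_isCuspLikeWith f)).choose_spec.1

theorem prim_add (f g : CuspForm (Gamma0 N) 2) : prim (f + g) = prim f + prim g :=
  (isPrimOf_prim (f + g)).unique (by
    have := (isPrimOf_prim f).add (isPrimOf_prim g)
    rwa [← FunLike.coe_add] at this)

theorem prim_smul (c : ℂ) (f : CuspForm (Gamma0 N) 2) : prim (c • f) = c • prim f :=
  (isPrimOf_prim (c • f)).unique (by
    have := (isPrimOf_prim f).smul c
    rwa [← FunLike.coe_smul] at this)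

/-- `f (γ • τ) = denom γ τ ^ 2 * f τ` for `γ ∈ Γ₀(N)`. -/
theorem cusp_smul_eq (f : CuspForm (Gamma0 N) 2) (γ : Gamma0 N) (τ : ℍ) :
    f ((γ : SL(2, ℤ)) • τ) = denom ((γ : SL(2, ℤ)) : GL (Fin 2) ℝ) τ ^ (2 : ℤ) * f τ :=
  SlashInvariantForm.slash_action_eqn_SL'' f γ.2 τ

theorem prim_equivariant (f : CuspForm (Gamma0 N) 2) :
    IsEquivariantPrimitive (Gamma0 N) (prim f) := by
  intro γ
  refine ⟨prim f ((γ : SL(2, ℤ)) • UpperHalfPlane.I) - prim f UpperHalfPlane.I, fun z => ?_⟩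
  have hD : ∀ τ : ℍ, HasDerivAt
      ((fun z : ℍ => prim f ((γ : SL(2, ℤ)) • z) - prim f z) ∘ ofComplex) 0 (τ : ℂ) := by
    intro τ
    have h1 := hasDerivAt_comp_smul (isPrimOf_prim f).1 (γ : SL(2, ℤ)) τ
    have h2 := (isPrimOf_prim f).1 τ
    have h3 := h1.sub h2
    have e : f ((γ : SL(2, ℤ)) • τ) * denom ((γ : SL(2, ℤ)) : GL (Fin 2) ℝ) τ ^ (-2 : ℤ) - f τ
        = 0 := by
      rw [cusp_smul_eq, mul_comm, ← mul_assoc, ← zpow_add₀ (denom_ne_zero _ _)]
      simp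
    rw [e] at h3
    exact h3
  exact eq_of_hasDerivAt_zero hD z UpperHalfPlane.I

theorem isCusp_SL_smul_infty' (σ : SL(2, ℤ)) :
    IsCusp ((σ : GL (Fin 2) ℝ) • OnePoint.infty)
      (Subgroup.map (Matrix.SpecialLinearGroup.mapGL ℝ) (Gamma0 N)) := by
  rw [Subgroup.IsArithmetic.isCusp_iff_isCusp_SL2Z, isCusp_SL2Z_iff']
  exact ⟨σ, rfl⟩

/-- the translate `f ∣[2] δ` of a cusp form is cusp-like (periodic, holomorphic, zero at `i∞`) -/
theorem exists_isCuspLikeWith_slash (f : CuspForm (Gamma0 N) 2) (δ : SL(2, ℤ)) :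
    ∃ M : ℝ, 0 < M ∧ IsCuspLikeWith M ((⇑f : ℍ → ℂ) ∣[(2 : ℤ)] δ) := by
  obtain ⟨M, hM, hMper⟩ := Subgroup.IsArithmetic.exists_nat_mem_strictPeriods_conj
    (Subgroup.map (Matrix.SpecialLinearGroup.mapGL ℝ) (Gamma0 N))
  have hMσ : (M : ℝ) ∈ (ConjAct.toConjAct ((δ : GL (Fin 2) ℝ))⁻¹ •
      (Subgroup.map (Matrix.SpecialLinearGroup.mapGL ℝ) (Gamma0 N))).strictPeriods := by
    have h := hMper δ⁻¹
    rw [map_inv, map_inv] at h
    exact h
  have hMpos : (0 : ℝ) < (M : ℝ) := by exact_mod_cast hM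
  refine ⟨M, hMpos, ?_, ?_, ?_⟩
  · rw [ModularForm.SL_slash]
    exact (CuspFormClass.holo f).slash _ _
  · have := SlashInvariantFormClass.periodic_comp_ofComplex
      (SlashInvariantForm.translate f (δ : GL (Fin 2) ℝ)) hMσ
    rwa [SlashInvariantForm.coe_translate, ← ModularForm.SL_slash] at this
  · have h := CuspFormClass.zero_at_cusps f (isCusp_SL_smul_infty' (N := N) δ)
    have := h (δ : GL (Fin 2) ℝ) rfl
    rwa [← ModularForm.SL_slash] at this

/-- the primitive of a cusp form has a limit at every cusp -/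
theorem prim_tendsto_cusp (f : CuspForm (Gamma0 N) 2) (δ : SL(2, ℤ)) :
    ∃ L : ℂ, Tendsto (fun w : ℍ => prim f (δ • w)) atImInfty (𝓝 L) := by
  obtain ⟨M, hM, hg⟩ := exists_isCuspLikeWith_slash f δ
  obtain ⟨G, hG, -⟩ := exists_isPrimOf_with hM hg
  have hD : ∀ τ : ℍ, HasDerivAt
      ((fun z : ℍ => prim f (δ • z) - G z) ∘ ofComplex) 0 (τ : ℂ) := by
    intro τ
    have h1 := hasDerivAt_comp_smul (isPrimOf_prim f).1 δ τ
    have h2 := hG.1 τ
    have h3 := h1.sub h2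
    have e : f (δ • τ) * denom (δ : GL (Fin 2) ℝ) τ ^ (-2 : ℤ) -
        ((⇑f : ℍ → ℂ) ∣[(2 : ℤ)] δ) τ = 0 := by
      rw [ModularForm.SL_slash_apply, sub_self]
    rw [e] at h3
    exact h3
  refine ⟨prim f (δ • UpperHalfPlane.I) - G UpperHalfPlane.I, ?_⟩
  have hconst : ∀ z : ℍ, prim f (δ • z) =
      G z + (prim f (δ • UpperHalfPlane.I) - G UpperHalfPlane.I) := by
    intro z
    have := eq_of_hasDerivAt_zero hD z UpperHalfPlane.I
    beta_reduce at this
    linear_combination this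
  have h0 : Tendsto G atImInfty (𝓝 0) := hG.2
  have := h0.add_const (prim f (δ • UpperHalfPlane.I) - G UpperHalfPlane.I)
  rw [zero_add] at this
  exact this.congr fun z => (hconst z).symm

theorem hasEquivariantPrimitive_prim (f : CuspForm (Gamma0 N) 2) :
    HasEquivariantPrimitive N f (prim f) :=
  ⟨(isPrimOf_prim f).1, (isPrimOf_prim f).2, prim_equivariant f, prim_tendsto_cusp f⟩

/-- the period map in terms of the primitive -/
theorem periodMap_apply (f : CuspForm (Gamma0 N) 2) (γ : Gamma0 N) (z : ℍ) :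
    periodMap N f (Additive.ofMul γ) = prim f ((γ : SL(2, ℤ)) • z) - prim f z := by
  obtain ⟨F₀, h₀, hP⟩ := periodMap_def N f (hasEquivariantPrimitive_prim f)
  have hF₀ : F₀ = prim f := IsPrimOf.unique ⟨h₀.1, h₀.2.1⟩ (isPrimOf_prim f)
  subst hF₀
  rw [hP, IsEquivariantPrimitive.periodHom_apply, ← h₀.2.2.1.sub_eq_period γ z]

theorem periodMap_add (f g : CuspForm (Gamma0 N) 2) :
    periodMap N (f + g) = periodMap N f + periodMap N g := by
  refine AddMonoidHom.ext fun γ => ?_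
  have h1 := periodMap_apply (f + g) (Additive.toMul γ) UpperHalfPlane.I
  have h2 := periodMap_apply f (Additive.toMul γ) UpperHalfPlane.I
  have h3 := periodMap_apply g (Additive.toMul γ) UpperHalfPlane.I
  rw [prim_add] at h1
  simp only [Pi.add_apply] at h1
  rw [AddMonoidHom.add_apply]
  change periodMap N (f + g) (Additive.ofMul (Additive.toMul γ)) =
    periodMap N f (Additive.ofMul (Additive.toMul γ)) +
      periodMap N g (Additive.ofMul (Additive.toMul γ))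
  rw [h1, h2, h3]
  ring

theorem periodMap_smul (c : ℂ) (f : CuspForm (Gamma0 N) 2) :
    periodMap N (c • f) = c • periodMap N f := by
  refine AddMonoidHom.ext fun γ => ?_
  have h1 := periodMap_apply (c • f) (Additive.toMul γ) UpperHalfPlane.I
  have h2 := periodMap_apply f (Additive.toMul γ) UpperHalfPlane.I
  rw [prim_smul] at h1
  simp only [Pi.smul_apply, smul_eq_mul] at h1
  change periodMap N (c • f) (Additive.ofMul (Additive.toMul γ)) =
    c • periodMap N f (Additive.ofMul (Additive.toMul γ))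
  rw [h1, h2, smul_eq_mul]
  ring

/-- the period map as a linear map -/
def periodMapLin (N : ℕ) [NeZero N] :
    CuspForm (Gamma0 N) 2 →ₗ[ℂ] (Additive (Gamma0 N) →+ ℂ) where
  toFun := periodMap N
  map_add' := periodMap_add
  map_smul' := periodMap_smul

theorem existsPeriodMapLinear (N : ℕ) [NeZero N] : ExistsPeriodMapLinear N :=
  ⟨periodMapLin N, fun _ => rfl⟩

end cusp

end H21E1
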