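/-
T-RR slice E1 (helper21), part 2: the maximum principle on `Γ₀(N) \ ℍ`.

If `Φ` is holomorphic on `ℍ`, `Φ (γ z) - Φ z` is a purely imaginary constant for every
`γ ∈ Γ₀(N)` and `Φ ∘ δ` has a limit at `i∞` for every `δ ∈ SL(2,ℤ)`, then `Φ' = 0`.
(Apply the maximum modulus principle to `exp Φ`, whose absolute value is `Γ₀(N)`-invariant.)
-/
import Mathlib
import Fermat.Agent.RR.E1Prim

set_option autoImplicit false
set_option linter.unusedSectionVars false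

open Complex Filter Topology Function
open UpperHalfPlane hiding I
open scoped Manifold MatrixGroups ModularForm Real Pointwise

noncomputable section

namespace H21E1

open CongruenceSubgroup

section conj

variable (N : ℕ)

/-- `δ T^N δ⁻¹ ∈ Γ₀(N)` -/
theorem conj_T_pow_mem (δ : SL(2, ℤ)) : δ * ModularGroup.T ^ (N : ℤ) * δ⁻¹ ∈ Gamma0 N := by
  rw [Gamma0_mem]
  have h : ((δ * ModularGroup.T ^ (N : ℤ) * δ⁻¹ : SL(2, ℤ)) : Matrix (Fin 2) (Fin 2) ℤ) 1 0 =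
      -(δ 1 0) ^ 2 * (N : ℤ) := by
    rw [Matrix.SpecialLinearGroup.coe_mul, Matrix.SpecialLinearGroup.coe_mul,
      ModularGroup.coe_T_zpow, Matrix.SpecialLinearGroup.coe_inv, Matrix.adjugate_fin_two]
    simp [Matrix.mul_apply, Fin.sum_univ_two]
    ring
  rw [h]
  push_cast
  simp

theorem tendsto_vadd_atImInfty (x : ℝ) : Tendsto (fun w : ℍ => x +ᵥ w) atImInfty atImInfty := by
  rw [atImInfty, tendsto_comap_iff]
  have : (UpperHalfPlane.im ∘ fun w : ℍ => x +ᵥ w) = UpperHalfPlane.im := by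
    funext w
    simp [vadd_im]
  rw [this]
  exact tendsto_comap

end conj

section max

variable {N : ℕ} [NeZero N] {Φ φ : ℍ → ℂ}

/-- hypotheses of the maximum principle -/
structure MaxHyp (N : ℕ) (Φ φ : ℍ → ℂ) : Prop where
  deriv : ∀ τ : ℍ, HasDerivAt (Φ ∘ ofComplex) (φ τ) (τ : ℂ)
  inv : ∀ γ : Gamma0 N, ∃ c : ℂ, c.re = 0 ∧ ∀ z : ℍ, Φ ((γ : SL(2, ℤ)) • z) - Φ z = c
  cusp : ∀ δ : SL(2, ℤ), ∃ L : ℂ, Tendsto (fun w : ℍ => Φ (δ • w)) atImInfty (𝓝 L)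

theorem MaxHyp.periodic (h : MaxHyp N Φ φ) (δ : SL(2, ℤ)) (w : ℍ) :
    Φ (δ • (((N : ℕ) : ℝ) +ᵥ w)) = Φ (δ • w) := by
  obtain ⟨c, -, hc⟩ := h.inv ⟨_, conj_T_pow_mem N δ⟩
  obtain ⟨L, hL⟩ := h.cusp δ
  have hsmul : ∀ w : ℍ, (δ * ModularGroup.T ^ (N : ℤ) * δ⁻¹) • (δ • w) =
      δ • (((N : ℕ) : ℝ) +ᵥ w) := by
    intro w
    rw [mul_smul, inv_smul_smul, mul_smul, modular_T_zpow_smul]
    simp
  have hc' : ∀ w : ℍ, Φ (δ • (((N : ℕ) : ℝ) +ᵥ w)) - Φ (δ • w) = c := by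
    intro w
    rw [← hsmul]
    exact hc (δ • w)
  have hL' : Tendsto (fun w : ℍ => Φ (δ • (((N : ℕ) : ℝ) +ᵥ w))) atImInfty (𝓝 L) :=
    hL.comp (tendsto_vadd_atImInfty _)
  have h0 : Tendsto (fun w : ℍ => Φ (δ • (((N : ℕ) : ℝ) +ᵥ w)) - Φ (δ • w)) atImInfty
      (𝓝 (L - L)) := hL'.sub hL
  have h1 : Tendsto (fun w : ℍ => Φ (δ • (((N : ℕ) : ℝ) +ᵥ w)) - Φ (δ • w)) atImInfty
      (𝓝 c) := by
    have : (fun w : ℍ => Φ (δ • (((N : ℕ) : ℝ) +ᵥ w)) - Φ (δ • w)) = fun _ => c := funext hc'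
    rw [this]
    exact tendsto_const_nhds
  have hc0 : c = 0 := by
    have := tendsto_nhds_unique h1 h0
    rwa [sub_self] at this
  have := hc' w
  rw [hc0, sub_eq_zero] at this
  exact this

/-- the exponential of `Φ ∘ δ` -/
def expAt (Φ : ℍ → ℂ) (δ : SL(2, ℤ)) : ℍ → ℂ := fun w => Complex.exp (Φ (δ • w))

theorem MaxHyp.expAt_hasDerivAt (h : MaxHyp N Φ φ) (δ : SL(2, ℤ)) (τ : ℍ) :
    HasDerivAt (expAt Φ δ ∘ ofComplex)
      (Complex.exp (Φ (δ • τ)) * (φ (δ • τ) * denom (δ : GL (Fin 2) ℝ) τ ^ (-2 : ℤ))) (τ : ℂ) := by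
  have h1 := (hasDerivAt_comp_smul h.deriv δ τ).cexp
  simp only [Function.comp_apply, ofComplex_apply] at h1
  exact h1

theorem MaxHyp.expAt_mdiff (h : MaxHyp N Φ φ) (δ : SL(2, ℤ)) : MDiff (expAt Φ δ) := fun τ =>
  UpperHalfPlane.mdifferentiableAt_iff.mpr (h.expAt_hasDerivAt δ τ).differentiableAt

theorem MaxHyp.expAt_periodic (h : MaxHyp N Φ φ) (δ : SL(2, ℤ)) :
    Periodic (expAt Φ δ ∘ ofComplex) (((N : ℕ) : ℝ) : ℂ) := by
  intro w
  by_cases hw : 0 < w.im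
  · have hw' : 0 < (w + (((N : ℕ) : ℝ) : ℂ)).im := by simpa using hw
    simp only [Function.comp_apply, expAt]
    rw [ofComplex_apply_of_im_pos hw, ofComplex_apply_of_im_pos hw']
    have e : (⟨w + (((N : ℕ) : ℝ) : ℂ), hw'⟩ : ℍ) = ((N : ℕ) : ℝ) +ᵥ (⟨w, hw⟩ : ℍ) := by
      apply UpperHalfPlane.ext
      rw [coe_vadd]
      simp [add_comm]
    rw [e, h.periodic δ]
  · have hw0 : w.im ≤ 0 := not_lt.mp hw
    have hw' : (w + (((N : ℕ) : ℝ) : ℂ)).im ≤ 0 := by simpa using hw0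
    simp only [Function.comp_apply]
    rw [ofComplex_apply_eq_of_im_nonpos hw' hw0]

theorem MaxHyp.expAt_bounded (h : MaxHyp N Φ φ) (δ : SL(2, ℤ)) :
    IsBoundedAtImInfty (expAt Φ δ) := by
  obtain ⟨L, hL⟩ := h.cusp δ
  have : Tendsto (expAt Φ δ) atImInfty (𝓝 (Complex.exp L)) :=
    (Complex.continuous_exp.tendsto L).comp hL
  exact this.isBigO_one ℝ

theorem MaxHyp.norm_expAt_smul (h : MaxHyp N Φ φ) (γ : Gamma0 N) (z : ℍ) :
    ‖Complex.exp (Φ ((γ : SL(2, ℤ)) • z))‖ = ‖Complex.exp (Φ z)‖ := by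
  obtain ⟨c, hc0, hc⟩ := h.inv γ
  have := hc z
  rw [Complex.norm_exp, Complex.norm_exp]
  have e : Φ ((γ : SL(2, ℤ)) • z) = Φ z + c := by linear_combination this
  rw [e, Complex.add_re, hc0, add_zero]

/-- finitely many right coset representatives of `Γ₀(N)` in `SL(2,ℤ)` -/
theorem exists_finset_reps (N : ℕ) [NeZero N] :
    ∃ R : Finset SL(2, ℤ), ∀ σ : SL(2, ℤ), ∃ δ ∈ R, ∃ γ ∈ Gamma0 N, σ = γ * δ := by
  classical
  have hfin : Finite (SL(2, ℤ) ⧸ Gamma0 N) := Subgroup.finite_quotient_of_finiteIndex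
  let _inst := Fintype.ofFinite (SL(2, ℤ) ⧸ Gamma0 N)
  refine ⟨Finset.univ.image (fun q : SL(2, ℤ) ⧸ Gamma0 N => (Quotient.out q)⁻¹), fun σ => ?_⟩
  obtain ⟨g, hg⟩ := QuotientGroup.mk_out_eq_mul (Gamma0 N) σ⁻¹
  refine ⟨(Quotient.out ((σ⁻¹ : SL(2, ℤ)) : SL(2, ℤ) ⧸ Gamma0 N))⁻¹,
    Finset.mem_image.mpr ⟨_, Finset.mem_univ _, rfl⟩, (g : SL(2, ℤ)), g.2, ?_⟩
  rw [hg]
  group

theorem norm_qParam_le_of_half_le_im (N : ℕ) [NeZero N] (w : ℍ) (hw : 1 / 2 ≤ w.im) :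
    ‖Periodic.qParam ((N : ℕ) : ℝ) (w : ℂ)‖ ≤ Real.exp (-π / N) := by
  rw [Periodic.norm_qParam]
  apply Real.exp_le_exp.mpr
  have hN : (0 : ℝ) < N := Nat.cast_pos.mpr (Nat.pos_of_ne_zero (NeZero.ne N))
  rw [div_le_div_iff_of_pos_right hN]
  have : w.im = (w : ℂ).im := rfl
  rw [← this]
  nlinarith [Real.pi_pos]

/-- **Maximum principle**: under `MaxHyp`, the derivative `φ` of `Φ` vanishes identically. -/
theorem MaxHyp.deriv_eq_zero (h : MaxHyp N Φ φ) (τ : ℍ) : φ τ = 0 := by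
  classical
  have hN : (0 : ℝ) < ((N : ℕ) : ℝ) := Nat.cast_pos.mpr (Nat.pos_of_ne_zero (NeZero.ne N))
  obtain ⟨R, hR⟩ := exists_finset_reps N
  have hRne : R.Nonempty := by
    obtain ⟨δ, hδ, -⟩ := hR 1
    exact ⟨δ, hδ⟩
  set r : ℝ := Real.exp (-π / N) with hr
  have hr0 : 0 ≤ r := (Real.exp_pos _).le
  have hr1 : r < 1 := by
    rw [hr, Real.exp_lt_one_iff]
    exact div_neg_of_neg_of_pos (neg_lt_zero.mpr Real.pi_pos) hN
  set ψ : SL(2, ℤ) → ℂ → ℂ := fun δ => cuspFunction ((N : ℕ) : ℝ) (expAt Φ δ) with hψ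
  have hψdiff : ∀ δ, DifferentiableOn ℂ (ψ δ) (Metric.ball 0 1) := fun δ =>
    differentiableOn_cuspFunction_ball hN (h.expAt_periodic δ) (h.expAt_mdiff δ)
      (h.expAt_bounded δ)
  have hψeq : ∀ δ (w : ℍ), ψ δ (Periodic.qParam ((N : ℕ) : ℝ) (w : ℂ)) = expAt Φ δ w := fun δ w =>
    eq_cuspFunction w hN.ne' (h.expAt_periodic δ)
  have hsub : Metric.closedBall (0 : ℂ) r ⊆ Metric.ball 0 1 := Metric.closedBall_subset_ball hr1
  have hmaxex : ∀ δ : SL(2, ℤ), ∃ q ∈ Metric.closedBall (0 : ℂ) r,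
      IsMaxOn (fun x => ‖ψ δ x‖) (Metric.closedBall (0 : ℂ) r) q := fun δ =>
    (isCompact_closedBall (0 : ℂ) r).exists_isMaxOn ⟨0, Metric.mem_closedBall_self hr0⟩
      (((hψdiff δ).continuousOn.mono hsub).norm)
  choose q hq hmax using hmaxex
  obtain ⟨δ₀, -, hδ₀⟩ := R.exists_max_image (fun δ => ‖ψ δ (q δ)‖) hRne
  -- global bound
  have hbound : ∀ z : ℍ, ‖Complex.exp (Φ z)‖ ≤ ‖ψ δ₀ (q δ₀)‖ := by
    intro z
    obtain ⟨σ, hσ⟩ := ModularGroup.exists_one_half_le_im_smul z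
    obtain ⟨δ, hδR, γ, hγ, hσγ⟩ := hR σ⁻¹
    have hz : z = γ • (δ • (σ • z)) := by
      rw [← mul_smul, ← hσγ, inv_smul_smul]
    have h1 : ‖Complex.exp (Φ z)‖ = ‖expAt Φ δ (σ • z)‖ := by
      conv_lhs => rw [hz]
      exact h.norm_expAt_smul ⟨γ, hγ⟩ (δ • (σ • z))
    rw [h1, ← hψeq]
    have hmem : Periodic.qParam ((N : ℕ) : ℝ) ((σ • z : ℍ) : ℂ) ∈ Metric.closedBall (0 : ℂ) r := by
      rw [Metric.mem_closedBall, dist_zero_right]
      exact norm_qParam_le_of_half_le_im N _ hσ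
    exact (hmax δ hmem).trans (hδ₀ δ hδR)
  have hball : ∀ x ∈ Metric.ball (0 : ℂ) 1, ‖ψ δ₀ x‖ ≤ ‖ψ δ₀ (q δ₀)‖ := by
    intro x hx
    rcases eq_or_ne x 0 with rfl | hx0
    · exact hmax δ₀ (Metric.mem_closedBall_self hr0)
    · have hx1 : ‖x‖ < 1 := by simpa using hx
      have him := Periodic.im_invQParam_pos_of_norm_lt_one hN hx1 hx0
      have hqx := Periodic.qParam_right_inv hN.ne' hx0
      have := hψeq δ₀ ⟨_, him⟩
      rw [UpperHalfPlane.coe_mk, hqx] at this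
      rw [this]
      exact hbound _
  have hconst := Complex.eq_const_of_exists_le (hψdiff δ₀) hr0 hr1
    (fun x hx => ⟨q δ₀, hq δ₀, hball x hx⟩)
  have hexp : ∀ w : ℍ, expAt Φ δ₀ w = ψ δ₀ 0 := by
    intro w
    rw [← hψeq]
    refine hconst ?_
    rw [Metric.mem_ball, dist_zero_right]
    exact Periodic.norm_qParam_lt_one hN w.2
  -- the derivative vanishes
  have hzero : ∀ w : ℍ, φ (δ₀ • w) = 0 := by
    intro w
    have h1 := h.expAt_hasDerivAt δ₀ w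
    have h2 : HasDerivAt (expAt Φ δ₀ ∘ ofComplex) 0 (w : ℂ) := by
      have hc : HasDerivAt (fun _ : ℂ => ψ δ₀ 0) 0 (w : ℂ) := hasDerivAt_const _ _
      refine hc.congr_of_eventuallyEq ?_
      filter_upwards [isOpen_upperHalfPlaneSet.mem_nhds w.2] with x hx
      simp only [Function.comp_apply]
      rw [ofComplex_apply_of_im_pos hx]
      exact hexp _
    have h3 := h1.unique h2
    have hd : denom (δ₀ : GL (Fin 2) ℝ) w ^ (-2 : ℤ) ≠ 0 :=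
      zpow_ne_zero _ (denom_ne_zero _ _)
    rcases mul_eq_zero.mp h3 with h4 | h4
    · exact absurd h4 (Complex.exp_ne_zero _)
    · rcases mul_eq_zero.mp h4 with h5 | h5
      · exact h5
      · exact absurd h5 hd
  have := hzero (δ₀⁻¹ • τ)
  rwa [smul_inv_smul] at this

end max


end H21E1
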