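/-
T-RR slice E1 (helper21), part 3: injectivity of `ModularCurve.periodHomPair N`
(the injectivity half of the Eichler–Shimura statement S21).
-/
import Mathlib
import Fermat.Agent.RR.E1Prim
import Fermat.Agent.RR.E1Max

set_option autoImplicit false
set_option linter.unusedSectionVars false

open Complex Filter Topology Function
open UpperHalfPlane hiding I
open scoped Manifold MatrixGroups ModularForm Real Pointwise ComplexConjugate

noncomputable section

namespace H21E1

open CongruenceSubgroup ModularCurve ModularCurve.Period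

/-! ### The reflection `z ↦ -conj z` -/

section reflection

/-- the reflection `z ↦ -conj z` of the upper half plane -/
def refl (z : ℍ) : ℍ := UpperHalfPlane.J • z

theorem coe_refl (z : ℍ) : ((refl z : ℍ) : ℂ) = -conj (z : ℂ) := coe_J_smul z

theorem refl_im (z : ℍ) : (refl z).im = z.im := by
  have : (refl z).im = ((refl z : ℍ) : ℂ).im := rfl
  rw [this, coe_refl]
  simp

theorem refl_refl (z : ℍ) : refl (refl z) = z := by
  apply UpperHalfPlane.ext
  rw [coe_refl, coe_refl]
  simp

theorem tendsto_refl_atImInfty : Tendsto refl atImInfty atImInfty := by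
  rw [atImInfty, tendsto_comap_iff]
  have : (UpperHalfPlane.im ∘ refl) = UpperHalfPlane.im := by
    funext w
    simp [refl_im]
  rw [this]
  exact tendsto_comap

/-- `(J γ J) • (refl z) = refl (γ • z)` -/
theorem jConjSL_smul_refl (γ : SL(2, ℤ)) (z : ℍ) :
    (jConjSL γ) • (refl z) = refl (γ • z) := by
  apply UpperHalfPlane.ext
  rw [coe_refl, UpperHalfPlane.coe_specialLinearGroup_apply,
    UpperHalfPlane.coe_specialLinearGroup_apply, coe_refl]
  simp only [jConjSL_coe, jConjMat_apply_zero_zero, jConjMat_apply_zero_one,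
    jConjMat_apply_one_zero, jConjMat_apply_one_one, map_div₀, map_add, map_mul,
    Complex.conj_ofReal, map_neg, Complex.ofReal_neg, algebraMap_int_eq, Int.coe_castRingHom]
  have hd : ((γ 1 0 : ℤ) : ℝ) * conj (z : ℂ) + ((γ 1 1 : ℤ) : ℝ) ≠ 0 := by
    have h := denom_ne_zero (γ : GL (Fin 2) ℝ) z
    rw [denom_eq] at h
    have h2 := (map_ne_zero (starRingEnd ℂ)).mpr h
    simpa using h2
  field_simp
  ring

end reflection

/-! ### The conjugate primitive -/

section inj

variable {N : ℕ} [NeZero N]

/-- the holomorphic function `z ↦ conj (F (-conj z))`, `F = prim f` -/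
def cprim (f : CuspForm (Gamma0 N) 2) : ℍ → ℂ := fun z => conj (prim f (refl z))

theorem cprim_hasDerivAt (f : CuspForm (Gamma0 N) 2) (τ : ℍ) :
    HasDerivAt (cprim f ∘ ofComplex) (-conj (f (refl τ))) (τ : ℂ) := by
  have hG : HasDerivAt (prim f ∘ ofComplex) (f (refl τ)) (-(conj (τ : ℂ))) := by
    rw [← coe_refl]
    exact (isPrimOf_prim f).1 (refl τ)
  have hG₁ : HasDerivAt (fun w : ℂ => (prim f ∘ ofComplex) (-w)) (-(f (refl τ)))
      (conj (τ : ℂ)) := by
    have hneg : HasDerivAt (fun w : ℂ => -w) (-1 : ℂ) (conj (τ : ℂ)) :=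
      hasDerivAt_neg (conj (τ : ℂ))
    have := HasDerivAt.comp (h₂ := prim f ∘ ofComplex) (conj (τ : ℂ)) hG hneg
    rw [mul_neg_one] at this
    exact this
  have h3 := hG₁.conj_conj
  rw [Complex.conj_conj, map_neg] at h3
  refine h3.congr_of_eventuallyEq ?_
  filter_upwards [isOpen_upperHalfPlaneSet.mem_nhds τ.2] with w hw
  simp only [Function.comp_apply, cprim]
  rw [ofComplex_apply_of_im_pos hw]
  congr 2
  have := J_smul (⟨w, hw⟩ : ℍ)
  exact this

theorem cprim_smul_sub (f : CuspForm (Gamma0 N) 2) (γ : Gamma0 N) (z : ℍ) :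
    cprim f ((γ : SL(2, ℤ)) • z) - cprim f z =
      conj (periodMap N f (Additive.ofMul (jConjGamma0 N γ))) := by
  rw [periodMap_apply f (jConjGamma0 N γ) (refl z), jConjGamma0_coe, jConjSL_smul_refl]
  simp only [cprim, map_sub]

theorem cprim_tendsto_cusp (f : CuspForm (Gamma0 N) 2) (δ : SL(2, ℤ)) :
    ∃ L : ℂ, Tendsto (fun w : ℍ => cprim f (δ • w)) atImInfty (𝓝 L) := by
  obtain ⟨L, hL⟩ := prim_tendsto_cusp f (jConjSL δ)
  refine ⟨conj L, ?_⟩
  have h1 : Tendsto (fun w : ℍ => prim f ((jConjSL δ) • refl w)) atImInfty (𝓝 L) :=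
    hL.comp tendsto_refl_atImInfty
  have h2 := (Complex.continuous_conj.tendsto L).comp h1
  refine h2.congr fun w => ?_
  simp only [Function.comp_apply, cprim, jConjSL_smul_refl]

/-- **Harmonic Eichler–Shimura injectivity**: a period relation `P(f)(γ) + ε P(f)(JγJ) = 0`
(`ε = ±1`) forces `f = 0`. -/
theorem eq_zero_of_period_relation (f : CuspForm (Gamma0 N) 2) (ε : ℝ)
    (hrel : ∀ γ : Gamma0 N, periodMap N f (Additive.ofMul γ) +
      (ε : ℂ) * periodMap N f (Additive.ofMul (jConjGamma0 N γ)) = 0) : f = 0 := by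
  have hF := isPrimOf_prim f
  -- the period relation in terms of `c` and `e`
  have hce : ∀ γ : Gamma0 N, periodMap N f (Additive.ofMul γ) =
      -(ε : ℂ) * periodMap N f (Additive.ofMul (jConjGamma0 N γ)) := fun γ => by
    linear_combination hrel γ
  have h1 : MaxHyp N (fun z => prim f z + (ε : ℂ) * cprim f z)
      (fun τ => f τ + (ε : ℂ) * (-conj (f (refl τ)))) := by
    refine ⟨fun τ => ?_, fun γ => ?_, fun δ => ?_⟩
    · exact (hF.1 τ).add ((cprim_hasDerivAt f τ).const_mul (ε : ℂ))
    · refine ⟨periodMap N f (Additive.ofMul γ) +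
        (ε : ℂ) * conj (periodMap N f (Additive.ofMul (jConjGamma0 N γ))), ?_, fun z => ?_⟩
      · rw [hce γ]
        simp only [Complex.add_re, Complex.mul_re, Complex.neg_re, Complex.ofReal_re,
          Complex.neg_im, Complex.ofReal_im, Complex.conj_re, Complex.conj_im]
        ring
      · have e1 := periodMap_apply f γ z
        have e2 := cprim_smul_sub f γ z
        rw [e1, ← e2]
        ring
    · obtain ⟨L₁, hL₁⟩ := prim_tendsto_cusp f δ
      obtain ⟨L₂, hL₂⟩ := cprim_tendsto_cusp f δ
      exact ⟨L₁ + (ε : ℂ) * L₂, hL₁.add (hL₂.const_mul _)⟩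
  have h2 : MaxHyp N (fun z => Complex.I * (prim f z - (ε : ℂ) * cprim f z))
      (fun τ => Complex.I * (f τ - (ε : ℂ) * (-conj (f (refl τ))))) := by
    refine ⟨fun τ => ?_, fun γ => ?_, fun δ => ?_⟩
    · exact ((hF.1 τ).sub ((cprim_hasDerivAt f τ).const_mul (ε : ℂ))).const_mul Complex.I
    · refine ⟨Complex.I * (periodMap N f (Additive.ofMul γ) -
        (ε : ℂ) * conj (periodMap N f (Additive.ofMul (jConjGamma0 N γ)))), ?_, fun z => ?_⟩
      · rw [hce γ]
        simp only [Complex.mul_re, Complex.I_re, Complex.I_im, Complex.sub_re, Complex.sub_im,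
          Complex.mul_im, Complex.neg_re, Complex.ofReal_re, Complex.neg_im, Complex.ofReal_im,
          Complex.conj_re, Complex.conj_im]
        ring
      · have e1 := periodMap_apply f γ z
        have e2 := cprim_smul_sub f γ z
        rw [e1, ← e2]
        ring
    · obtain ⟨L₁, hL₁⟩ := prim_tendsto_cusp f δ
      obtain ⟨L₂, hL₂⟩ := cprim_tendsto_cusp f δ
      exact ⟨Complex.I * (L₁ - (ε : ℂ) * L₂), (hL₁.sub (hL₂.const_mul _)).const_mul _⟩
  ext τ
  have z1 := h1.deriv_eq_zero τ
  have z2 := h2.deriv_eq_zero τ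
  have z3 : f τ - (ε : ℂ) * (-conj (f (refl τ))) = 0 := by
    rcases mul_eq_zero.mp z2 with h | h
    · exact absurd h Complex.I_ne_zero
    · exact h
  have : (2 : ℂ) * f τ = 0 := by linear_combination z1 + z3
  simpa using this

/-- **E1**: the pair of period maps is injective. -/
theorem periodHomPair_injective (N : ℕ) [NeZero N] :
    Function.Injective (ModularCurve.periodHomPair N) := by
  obtain ⟨pml, hpml, hdef⟩ := periodHomPair_def N (existsPeriodMapLinear N)
  rw [hdef, injective_iff_map_eq_zero]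
  rintro ⟨f, g⟩ h
  rw [LinearMap.coprod_apply] at h
  simp only [LinearMap.comp_apply, LinearMap.add_apply, LinearMap.sub_apply, LinearMap.id_apply,
    hpml] at h
  set A := periodMap N f with hA
  set B := periodMap N g with hB
  set ι := charInvolution N ℂ ℂ with hι
  have hιι : ∀ ψ, ι (ι ψ) = ψ := charInvolution_charInvolution N ℂ ℂ
  have h' : ι A + A + (ι B - B) = 0 := by
    have := congrArg ι h
    rw [map_add, map_add, map_sub, hιι, hιι, map_zero] at this
    exact this
  have hAeq : A + ι A = 0 := by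
    have h2 : (2 : ℂ) • (A + ι A) = 0 := by
      rw [two_smul]
      have := congrArg₂ (· + ·) h h'
      simp only [add_zero] at this
      rw [← this]
      abel
    exact (smul_eq_zero.mp h2).resolve_left two_ne_zero
  have hBeq : B - ι B = 0 := by
    have h2 : (2 : ℂ) • (B - ι B) = 0 := by
      rw [two_smul]
      have := congrArg₂ (· - ·) h h'
      simp only [sub_zero] at this
      rw [← this]
      abel
    exact (smul_eq_zero.mp h2).resolve_left two_ne_zero
  have hf : f = 0 := by
    refine eq_zero_of_period_relation f 1 fun γ => ?_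
    have := congrArg (fun ψ : Additive (Gamma0 N) →+ ℂ => ψ (Additive.ofMul γ)) hAeq
    simpa [hι, hA] using this
  have hg : g = 0 := by
    refine eq_zero_of_period_relation g (-1) fun γ => ?_
    have := congrArg (fun ψ : Additive (Gamma0 N) →+ ℂ => ψ (Additive.ofMul γ)) hBeq
    simp only [AddMonoidHom.sub_apply, AddMonoidHom.zero_apply, hι, charInvolution_apply,
      toMul_ofMul, hB] at this
    push_cast
    linear_combination this
  rw [hf, hg]
  rfl

end inj

end H21E1
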