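/-
T-RR slice E1 (helper21), part 4: the period homomorphism of a cusp form is parabolic, hence
`LinearMap.range (periodHomPair N) ≤ parabolicHoms ℂ (Γ₀(N)) ℂ`.
-/
import Mathlib
import Fermat.Agent.RR.E1Prim
import Fermat.Agent.RR.E1Max

set_option autoImplicit false
set_option linter.unusedSectionVars false

open Complex Filter Topology Function
open UpperHalfPlane hiding I
open scoped Manifold MatrixGroups ModularForm Real Pointwise

noncomputable section

namespace H21E1

open CongruenceSubgroup ModularCurve ModularCurve.Period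

section parabolic

/-- an element of `SL(2,ℤ)` with lower left entry `0` acts on `ℍ` as an integer translation -/
theorem exists_vadd_of_lower_left_zero (M : SL(2, ℤ)) (h : M 1 0 = 0) :
    ∃ m : ℤ, ∀ w : ℍ, M • w = ((m : ℤ) : ℝ) +ᵥ w := by
  have hdet := M.det_coe
  rw [Matrix.det_fin_two, h, mul_zero, sub_zero] at hdet
  have h11 : M 1 1 * M 1 1 = 1 := by
    rcases Int.eq_one_or_neg_one_of_mul_eq_one hdet with h0 | h0
    · rw [h0, one_mul] at hdet; rw [hdet]; norm_num
    · rw [h0] at hdet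
      have : M 1 1 = -1 := by linarith
      rw [this]; norm_num
  have h01 : M 0 0 = M 1 1 := by
    have : M 0 0 * (M 1 1 * M 1 1) = M 1 1 := by rw [← mul_assoc, hdet, one_mul]
    rwa [h11, mul_one] at this
  refine ⟨M 0 1 * M 1 1, fun w => ?_⟩
  apply UpperHalfPlane.ext
  rw [UpperHalfPlane.coe_specialLinearGroup_apply, coe_vadd, h, h01]
  have h11' : ((M 1 1 : ℤ) : ℂ) * ((M 1 1 : ℤ) : ℂ) = 1 := by exact_mod_cast h11
  have hne : ((M 1 1 : ℤ) : ℂ) ≠ 0 := by
    intro h0
    rw [h0, mul_zero] at h11'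
    exact zero_ne_one h11'
  simp only [map_zero, Complex.ofReal_zero, zero_mul, zero_add, algebraMap_int_eq,
    Int.coe_castRingHom, Complex.ofReal_intCast]
  push_cast
  rw [div_eq_iff hne]
  linear_combination (-((M 0 1 : ℤ) : ℂ)) * h11'

/-- a primitive integer solution of the fixed point equation of `γ` with `(tr γ)² = 4` -/
theorem exists_coprime_fixed (a b c d : ℤ) (hdet : a * d - b * c = 1) (htr : (a + d) ^ 2 = 4) :
    ∃ p q : ℤ, IsCoprime p q ∧ c * p ^ 2 + (d - a) * p * q - b * q ^ 2 = 0 := by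
  rcases eq_or_ne c 0 with hc | hc
  · exact ⟨1, 0, isCoprime_one_left, by rw [hc]; ring⟩
  · have h2c : 2 * c ≠ 0 := mul_ne_zero two_ne_zero hc
    set g : ℤ := ((Int.gcd (a - d) (2 * c) : ℕ) : ℤ) with hg
    have hg0 : g ≠ 0 := by
      rw [hg]
      exact_mod_cast (Int.gcd_pos_of_ne_zero_right _ h2c).ne'
    obtain ⟨p, hp⟩ : g ∣ (a - d) := Int.gcd_dvd_left _ _
    obtain ⟨q, hq⟩ : g ∣ (2 * c) := Int.gcd_dvd_right _ _
    refine ⟨p, q, ?_, ?_⟩
    · have hcop : Int.gcd p q = 1 := by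
        have h1 : Int.gcd (a - d) (2 * c) = Int.gcd (a - d) (2 * c) * Int.gcd p q := by
          conv_lhs => rw [hp, hq, Int.gcd_mul_left]
          simp [hg]
        have hpos : 0 < Int.gcd (a - d) (2 * c) := Int.gcd_pos_of_ne_zero_right _ h2c
        exact (Nat.eq_of_mul_eq_mul_left hpos (by rw [mul_one]; exact h1.symm))
      exact Int.isCoprime_iff_gcd_eq_one.mpr hcop
    · have key : g ^ 2 * (2 * (c * p ^ 2 + (d - a) * p * q - b * q ^ 2)) = 0 := by
        have e : g ^ 2 * (2 * (c * p ^ 2 + (d - a) * p * q - b * q ^ 2)) =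
            2 * c * (g * p) ^ 2 + 2 * (d - a) * (g * p) * (g * q) - 2 * b * (g * q) ^ 2 := by ring
        rw [e, ← hp, ← hq]
        have : (a - d) ^ 2 + 4 * (b * c) = 0 := by
          have : (a - d) ^ 2 + 4 * (b * c) = (a + d) ^ 2 - 4 * (a * d - b * c) := by ring
          rw [this, htr, hdet]; norm_num
        linear_combination (-2 * c) * this
      rcases mul_eq_zero.mp key with h | h
      · exact absurd ((pow_eq_zero_iff two_ne_zero).mp h) hg0
      · exact (mul_eq_zero.mp h).resolve_left two_ne_zero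

/-- an element `γ ∈ SL(2,ℤ)` with `(tr γ)² = 4` is conjugate to a translation (up to sign):
`γ • (δ • w) = δ • (m + w)`. -/
theorem exists_conj_translation (γ : SL(2, ℤ))
    (htr : ((γ : Matrix (Fin 2) (Fin 2) ℤ)).trace ^ 2 = 4) :
    ∃ (δ : SL(2, ℤ)) (m : ℤ), ∀ w : ℍ, γ • (δ • w) = δ • (((m : ℤ) : ℝ) +ᵥ w) := by
  have hdet := γ.det_coe
  rw [Matrix.det_fin_two] at hdet
  rw [Matrix.trace_fin_two] at htr
  obtain ⟨p, q, ⟨u, v, huv⟩, hQ⟩ := exists_coprime_fixed (γ 0 0) (γ 0 1) (γ 1 0) (γ 1 1) hdet htr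
  let δ : SL(2, ℤ) := ⟨!![p, -v; q, u], by
    rw [Matrix.det_fin_two_of]; linarith⟩
  have hM : (δ⁻¹ * γ * δ) 1 0 = 0 := by
    have : ((δ⁻¹ * γ * δ : SL(2, ℤ)) : Matrix (Fin 2) (Fin 2) ℤ) 1 0 =
        γ 1 0 * p ^ 2 + (γ 1 1 - γ 0 0) * p * q - γ 0 1 * q ^ 2 := by
      rw [Matrix.SpecialLinearGroup.coe_mul, Matrix.SpecialLinearGroup.coe_mul,
        Matrix.SpecialLinearGroup.coe_inv, Matrix.adjugate_fin_two]
      simp [δ, Matrix.mul_apply, Fin.sum_univ_two, Matrix.vecMul, dotProduct]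
      ring
    rw [this, hQ]
  obtain ⟨m, hm⟩ := exists_vadd_of_lower_left_zero (δ⁻¹ * γ * δ) hM
  refine ⟨δ, m, fun w => ?_⟩
  rw [← hm w, ← mul_smul, ← mul_smul]
  congr 1
  group

end parabolic

section range

variable {N : ℕ} [NeZero N]

/-- the period homomorphism of a cusp form vanishes on parabolic elements -/
theorem periodMap_mem_parabolicHoms (f : CuspForm (Gamma0 N) 2) :
    periodMap N f ∈ parabolicHoms ℂ (Gamma0 N) ℂ := by
  rw [mem_parabolicHoms_iff]
  intro γ hγ
  obtain ⟨δ, m, hm⟩ := exists_conj_translation (γ : SL(2, ℤ)) hγ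
  obtain ⟨L, hL⟩ := prim_tendsto_cusp f δ
  have hc : ∀ w : ℍ, prim f (δ • (((m : ℤ) : ℝ) +ᵥ w)) - prim f (δ • w) =
      periodMap N f (Additive.ofMul γ) := by
    intro w
    rw [periodMap_apply f γ (δ • w), hm w]
  have hL' : Tendsto (fun w : ℍ => prim f (δ • (((m : ℤ) : ℝ) +ᵥ w))) atImInfty (𝓝 L) :=
    hL.comp (tendsto_vadd_atImInfty _)
  have h0 : Tendsto (fun w : ℍ => prim f (δ • (((m : ℤ) : ℝ) +ᵥ w)) - prim f (δ • w)) atImInfty
      (𝓝 (L - L)) := hL'.sub hL
  have h1 : Tendsto (fun w : ℍ => prim f (δ • (((m : ℤ) : ℝ) +ᵥ w)) - prim f (δ • w)) atImInfty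
      (𝓝 (periodMap N f (Additive.ofMul γ))) := by
    have : (fun w : ℍ => prim f (δ • (((m : ℤ) : ℝ) +ᵥ w)) - prim f (δ • w)) =
        fun _ => periodMap N f (Additive.ofMul γ) := funext hc
    rw [this]
    exact tendsto_const_nhds
  have := tendsto_nhds_unique h1 h0
  rwa [sub_self] at this

/-- the range of the pair of period maps consists of parabolic homomorphisms -/
theorem range_periodHomPair_le (N : ℕ) [NeZero N] :
    LinearMap.range (ModularCurve.periodHomPair N) ≤ parabolicHoms ℂ (Gamma0 N) ℂ := by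
  obtain ⟨pml, hpml, hdef⟩ := periodHomPair_def N (existsPeriodMapLinear N)
  rw [hdef]
  rintro _ ⟨⟨f, g⟩, rfl⟩
  rw [LinearMap.coprod_apply]
  simp only [LinearMap.comp_apply, LinearMap.add_apply, LinearMap.sub_apply, LinearMap.id_apply,
    hpml]
  have hf := periodMap_mem_parabolicHoms f
  have hg := periodMap_mem_parabolicHoms g
  exact Submodule.add_mem _
    (Submodule.add_mem _ hf (charInvolution_mem_parabolicHoms N ℂ ℂ hf))
    (Submodule.sub_mem _ hg (charInvolution_mem_parabolicHoms N ℂ ℂ hg))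

end range

end H21E1
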