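import Mathlib

/-!
# T-RR, slice E2 (helper16): abstract dimension bound for homomorphisms vanishing on conjugates

`G` a group generated by `g₁, g₂`, `Γ ≤ G` of finite index, `X = G ⧸ Γ`, `g₃ = g₁ * g₂`.
`V` = homomorphisms `Γ → ℂ` vanishing on every element of `Γ` conjugate in `G` to a power of
`g₁`, `g₂` or `g₃`.  Then `V` is finite-dimensional and
`finrank V + o₁ + o₂ + o₃ ≤ |X| + 2`, where `o_i` is the dimension of the space of
`g_i`-invariant functions on `X` (= the number of orbits of `g_i`).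
-/

set_option autoImplicit false
set_option linter.unusedSectionVars false
set_option linter.style.haveILetI false

namespace Fermat.Agent.H16E2

open scoped BigOperators

section cocycle

variable {G : Type*} [Group G] (Γ : Subgroup G)

/-- the Schreier element `r(g x)⁻¹ g r(x) ∈ Γ` -/
noncomputable def h16e2_sch (g : G) (x : G ⧸ Γ) : Γ :=
  ⟨(Quotient.out (g • x))⁻¹ * (g * Quotient.out x), by
    rw [← QuotientGroup.eq, QuotientGroup.out_eq']
    exact (MulAction.Quotient.coe_smul_out (H := Γ) g x).symm⟩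

theorem h16e2_sch_val (g : G) (x : G ⧸ Γ) :
    (h16e2_sch Γ g x : G) = (Quotient.out (g • x))⁻¹ * (g * Quotient.out x) := rfl

theorem h16e2_sch_mul (g h : G) (x : G ⧸ Γ) :
    h16e2_sch Γ (g * h) x = h16e2_sch Γ g (h • x) * h16e2_sch Γ h x := by
  apply Subtype.ext
  simp only [h16e2_sch_val, Subgroup.coe_mul, mul_smul]
  group

theorem h16e2_sch_one (x : G ⧸ Γ) : h16e2_sch Γ 1 x = 1 := by
  apply Subtype.ext
  simp [h16e2_sch_val]

/-- the cocycle attached to a homomorphism `φ : Γ → A` -/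
noncomputable def h16e2_F {A : Type*} [AddCommGroup A] (φ : Additive Γ →+ A) (g : G)
    (x : G ⧸ Γ) : A :=
  φ (Additive.ofMul (h16e2_sch Γ g x))

variable {Γ}
variable {A : Type*} [AddCommGroup A] (φ : Additive Γ →+ A)

theorem h16e2_F_mul (g h : G) (x : G ⧸ Γ) :
    h16e2_F Γ φ (g * h) x = h16e2_F Γ φ g (h • x) + h16e2_F Γ φ h x := by
  simp only [h16e2_F, h16e2_sch_mul, ofMul_mul, map_add]

theorem h16e2_F_one (x : G ⧸ Γ) : h16e2_F Γ φ 1 x = 0 := by
  simp only [h16e2_F, h16e2_sch_one, ofMul_one, map_zero]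

theorem h16e2_F_inv (g : G) (x : G ⧸ Γ) :
    h16e2_F Γ φ g⁻¹ x = - h16e2_F Γ φ g (g⁻¹ • x) := by
  have h := h16e2_F_mul φ g g⁻¹ x
  rw [mul_inv_cancel, h16e2_F_one] at h
  exact eq_neg_of_add_eq_zero_right h.symm

/-- telescoping: `F(g^m, x) = ∑_{i<m} F(g, g^i x)` -/
theorem h16e2_F_pow (g : G) (m : ℕ) (x : G ⧸ Γ) :
    h16e2_F Γ φ (g ^ m) x = ∑ i ∈ Finset.range m, h16e2_F Γ φ g (g ^ i • x) := by
  induction m with
  | zero => simp [h16e2_F_one]
  | succ m ih =>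
    rw [pow_succ', h16e2_F_mul, Finset.sum_range_succ, ih, add_comm]

/-- on `Γ` itself the cocycle at the base point recovers `φ` -/
theorem h16e2_F_base (γ : Γ) :
    h16e2_F Γ φ (γ : G) ((1 : G) : G ⧸ Γ) = φ (Additive.ofMul γ) := by
  have hfix : (γ : G) • ((1 : G) : G ⧸ Γ) = ((1 : G) : G ⧸ Γ) := by
    rw [MulAction.Quotient.smul_coe, QuotientGroup.eq]
    simp
  set r : G := Quotient.out (((1 : G) : G ⧸ Γ)) with hr
  have hrmem : r ∈ Γ := by
    have : ((r : G) : G ⧸ Γ) = ((1 : G) : G ⧸ Γ) := QuotientGroup.out_eq' _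
    rw [QuotientGroup.eq] at this
    simpa using Γ.inv_mem this
  have hs : h16e2_sch Γ (γ : G) ((1 : G) : G ⧸ Γ) = (⟨r, hrmem⟩ : Γ)⁻¹ * γ * ⟨r, hrmem⟩ := by
    apply Subtype.ext
    rw [h16e2_sch_val, hfix]
    simp [hr, mul_assoc]
  rw [h16e2_F, hs]
  simp only [ofMul_mul, ofMul_inv, map_add, map_neg]
  abel

end cocycle

section main

variable {G : Type*} [Group G] (Γ : Subgroup G)

/-- homomorphisms `Γ → ℂ` vanishing on the elements of `Γ` conjugate in `G` to a power of an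
element of `T` -/
def h16e2_V (T : Set G) : Submodule ℂ (Additive Γ →+ ℂ) where
  carrier := {φ | ∀ t ∈ T, ∀ (k : ℕ) (y : G) (h : y * t ^ k * y⁻¹ ∈ Γ),
    φ (Additive.ofMul (⟨_, h⟩ : Γ)) = 0}
  zero_mem' := fun _ _ _ _ _ => rfl
  add_mem' := by
    intro φ ψ hφ hψ t ht k y h
    show φ _ + ψ _ = 0
    rw [hφ t ht k y h, hψ t ht k y h, add_zero]
  smul_mem' := by
    intro c φ hφ t ht k y h
    show c • φ _ = 0
    rw [hφ t ht k y h, smul_zero]

/-- `g`-invariant functions on `X = G ⧸ Γ` -/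
def h16e2_Inv (g : G) : Submodule ℂ ((G ⧸ Γ) → ℂ) where
  carrier := {u | ∀ x, u (g • x) = u x}
  zero_mem' := fun _ => rfl
  add_mem' := by
    intro u v hu hv x
    show u _ + v _ = u _ + v _
    rw [hu x, hv x]
  smul_mem' := by
    intro c u hu x
    show c • u _ = c • u _
    rw [hu x]

/-- the twisted cocycle map `(φ, h) ↦ F_φ(g, ·) + (h ∘ g - h)` -/
noncomputable def h16e2_tw (g : G) :
    ((Additive Γ →+ ℂ) × ((G ⧸ Γ) → ℂ)) →ₗ[ℂ] ((G ⧸ Γ) → ℂ) where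
  toFun q := fun x => h16e2_F Γ q.1 g x + (q.2 (g • x) - q.2 x)
  map_add' := by
    intro q q'
    funext x
    simp only [h16e2_F, Prod.fst_add, Prod.snd_add, AddMonoidHom.add_apply, Pi.add_apply]
    ring
  map_smul' := by
    intro c q
    funext x
    simp only [h16e2_F, Prod.smul_fst, Prod.smul_snd, AddMonoidHom.smul_apply, Pi.smul_apply,
      smul_eq_mul, RingHom.id_apply]
    ring

variable {Γ}

theorem h16e2_tw_apply (g : G) (q : (Additive Γ →+ ℂ) × ((G ⧸ Γ) → ℂ)) (x : G ⧸ Γ) :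
    h16e2_tw Γ g q x = h16e2_F Γ q.1 g x + (q.2 (g • x) - q.2 x) := rfl

theorem h16e2_tw_mul (g h : G) (q : (Additive Γ →+ ℂ) × ((G ⧸ Γ) → ℂ)) (x : G ⧸ Γ) :
    h16e2_tw Γ (g * h) q x = h16e2_tw Γ g q (h • x) + h16e2_tw Γ h q x := by
  simp only [h16e2_tw_apply, h16e2_F_mul, mul_smul]
  ring

theorem h16e2_tw_one (q : (Additive Γ →+ ℂ) × ((G ⧸ Γ) → ℂ)) (x : G ⧸ Γ) :
    h16e2_tw Γ 1 q x = 0 := by
  simp only [h16e2_tw_apply, h16e2_F_one, one_smul]
  ring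

theorem h16e2_tw_inv (g : G) (q : (Additive Γ →+ ℂ) × ((G ⧸ Γ) → ℂ)) (x : G ⧸ Γ) :
    h16e2_tw Γ g⁻¹ q x = - h16e2_tw Γ g q (g⁻¹ • x) := by
  have h := h16e2_tw_mul g g⁻¹ q x
  rw [mul_inv_cancel, h16e2_tw_one] at h
  exact eq_neg_of_add_eq_zero_right h.symm

theorem h16e2_tw_pow (g : G) (m : ℕ) (q : (Additive Γ →+ ℂ) × ((G ⧸ Γ) → ℂ)) (x : G ⧸ Γ) :
    h16e2_tw Γ (g ^ m) q x = ∑ i ∈ Finset.range m, h16e2_tw Γ g q (g ^ i • x) := by
  induction m with
  | zero => simp [h16e2_tw_one]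
  | succ m ih =>
    rw [pow_succ', h16e2_tw_mul, Finset.sum_range_succ, ih, add_comm]

/-- if the twisted cocycle vanishes on two generators, it vanishes identically -/
theorem h16e2_tw_eq_zero {g₁ g₂ : G} (hgen : Subgroup.closure {g₁, g₂} = ⊤)
    (q : (Additive Γ →+ ℂ) × ((G ⧸ Γ) → ℂ))
    (h1 : h16e2_tw Γ g₁ q = 0) (h2 : h16e2_tw Γ g₂ q = 0) (g : G) :
    h16e2_tw Γ g q = 0 := by
  have hg : g ∈ Subgroup.closure {g₁, g₂} := by rw [hgen]; trivial
  induction hg using Subgroup.closure_induction with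
  | mem y hy =>
    rcases hy with rfl | hy
    · exact h1
    · rw [Set.mem_singleton_iff] at hy
      rw [hy]; exact h2
  | one => funext x; exact h16e2_tw_one q x
  | mul a b _ _ ha hb =>
    funext x
    rw [h16e2_tw_mul, ha, hb]
    simp
  | inv a _ ha =>
    funext x
    rw [h16e2_tw_inv, ha]
    simp

/-- a function invariant under two generators is constant -/
theorem h16e2_const_of_inv {g₁ g₂ : G} (hgen : Subgroup.closure {g₁, g₂} = ⊤)
    (w : (G ⧸ Γ) → ℂ) (h1 : ∀ x, w (g₁ • x) = w x) (h2 : ∀ x, w (g₂ • x) = w x) (x : G ⧸ Γ) :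
    w x = w ((1 : G) : G ⧸ Γ) := by
  have key : ∀ g : G, ∀ y : G ⧸ Γ, w (g • y) = w y := by
    intro g
    have hg : g ∈ Subgroup.closure {g₁, g₂} := by rw [hgen]; trivial
    induction hg using Subgroup.closure_induction with
    | mem y hy =>
      rcases hy with rfl | hy
      · exact h1
      · rw [Set.mem_singleton_iff] at hy
        rw [hy]; exact h2
    | one => intro y; rw [one_smul]
    | mul a b _ _ ha hb => intro y; rw [mul_smul, ha, hb]
    | inv a _ ha =>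
      intro y
      have := ha (a⁻¹ • y)
      rw [smul_inv_smul] at this
      exact this.symm
  have hx : x = (Quotient.out x : G) • (((1 : G) : G ⧸ Γ)) := by
    rw [MulAction.Quotient.smul_coe, smul_eq_mul, mul_one, QuotientGroup.out_eq']
  rw [hx, key]

/-- the kernel of `(tw g₁, tw g₂)` consists of pairs `(0, constant)` -/
theorem h16e2_ker {g₁ g₂ : G} (hgen : Subgroup.closure {g₁, g₂} = ⊤)
    (q : (Additive Γ →+ ℂ) × ((G ⧸ Γ) → ℂ))
    (h1 : h16e2_tw Γ g₁ q = 0) (h2 : h16e2_tw Γ g₂ q = 0) :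
    q.1 = 0 ∧ ∀ x, q.2 x = q.2 ((1 : G) : G ⧸ Γ) := by
  have hall := h16e2_tw_eq_zero hgen q h1 h2
  have hφ : q.1 = 0 := by
    refine AddMonoidHom.ext fun γ' => ?_
    obtain ⟨γ, rfl⟩ := Additive.ofMul.surjective γ'
    have h := congrFun (hall (γ : G)) (((1 : G) : G ⧸ Γ))
    rw [h16e2_tw_apply, h16e2_F_base] at h
    have hfix : (γ : G) • ((1 : G) : G ⧸ Γ) = ((1 : G) : G ⧸ Γ) := by
      rw [MulAction.Quotient.smul_coe, QuotientGroup.eq]
      simp
    rw [hfix, sub_self, add_zero] at h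
    simpa using h
  refine ⟨hφ, ?_⟩
  have hinv : ∀ g : G, ∀ x, q.2 (g • x) = q.2 x := by
    intro g x
    have h := congrFun (hall g) x
    rw [h16e2_tw_apply, hφ] at h
    simp only [h16e2_F, AddMonoidHom.zero_apply, zero_add, Pi.zero_apply] at h
    exact sub_eq_zero.1 h
  exact h16e2_const_of_inv hgen q.2 (hinv g₁) (hinv g₂)

end main

section count

variable {G : Type*} [Group G] {Γ : Subgroup G} [Fintype (G ⧸ Γ)]

theorem h16e2_sum_smul (g : G) (f : G ⧸ Γ → ℂ) : ∑ x, f (g • x) = ∑ x, f x :=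
  Fintype.sum_equiv (MulAction.toPerm g) _ _ (fun _ => rfl)

/-- some positive power of `g` acts trivially on `X` -/
theorem h16e2_exists_pow (g : G) : ∃ m : ℕ, 0 < m ∧ ∀ x : G ⧸ Γ, g ^ m • x = x := by
  classical
  let σ : Equiv.Perm (G ⧸ Γ) := MulAction.toPermHom G (G ⧸ Γ) g
  refine ⟨orderOf σ, orderOf_pos σ, fun x => ?_⟩
  have h1 : σ ^ orderOf σ = 1 := pow_orderOf_eq_one σ
  have h2 : MulAction.toPermHom G (G ⧸ Γ) (g ^ orderOf σ) = 1 := by
    rw [map_pow]; exact h1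
  have := congrArg (fun τ : Equiv.Perm (G ⧸ Γ) => τ x) h2
  simpa using this

theorem h16e2_inv_pow {g : G} {u : G ⧸ Γ → ℂ} (hu : u ∈ h16e2_Inv Γ g) (i : ℕ) (x : G ⧸ Γ) :
    u (g ^ i • x) = u x := by
  induction i with
  | zero => simp
  | succ i ih => rw [pow_succ', mul_smul, hu, ih]

/-- **key orthogonality**: the twisted cocycle of `g` is orthogonal to the `g`-invariant
functions, for homomorphisms vanishing on the conjugates of powers of `g`. -/
theorem h16e2_orth {T : Set G} {g : G} (hg : g ∈ T) {φ : Additive Γ →+ ℂ}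
    (hφ : φ ∈ h16e2_V Γ T) (h : G ⧸ Γ → ℂ) {u : G ⧸ Γ → ℂ} (hu : u ∈ h16e2_Inv Γ g) :
    ∑ x, h16e2_tw Γ g (φ, h) x * u x = 0 := by
  obtain ⟨m, hm0, hm⟩ := h16e2_exists_pow (Γ := Γ) g
  have hpow : ∀ x, h16e2_tw Γ (g ^ m) (φ, h) x = 0 := by
    intro x
    rw [h16e2_tw_apply, hm x, sub_self, add_zero]
    have hval : (h16e2_sch Γ (g ^ m) x : G)
        = (Quotient.out x)⁻¹ * g ^ m * ((Quotient.out x)⁻¹)⁻¹ := by
      rw [h16e2_sch_val, hm x]; group
    have hmem : (Quotient.out x)⁻¹ * g ^ m * ((Quotient.out x)⁻¹)⁻¹ ∈ Γ :=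
      hval ▸ (h16e2_sch Γ (g ^ m) x).2
    have heq : h16e2_sch Γ (g ^ m) x = ⟨_, hmem⟩ := Subtype.ext hval
    show φ (Additive.ofMul (h16e2_sch Γ (g ^ m) x)) = 0
    rw [heq]
    exact hφ g hg m _ hmem
  have hsum : (m : ℂ) * ∑ x, h16e2_tw Γ g (φ, h) x * u x
      = ∑ x, h16e2_tw Γ (g ^ m) (φ, h) x * u x := by
    calc (m : ℂ) * ∑ x, h16e2_tw Γ g (φ, h) x * u x
        = ∑ i ∈ Finset.range m, ∑ x, h16e2_tw Γ g (φ, h) x * u x := by
          rw [Finset.sum_const, Finset.card_range, nsmul_eq_mul]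
      _ = ∑ i ∈ Finset.range m, ∑ x, h16e2_tw Γ g (φ, h) (g ^ i • x) * u x := by
          refine Finset.sum_congr rfl fun i _ => ?_
          rw [← h16e2_sum_smul (g ^ i) (fun x => h16e2_tw Γ g (φ, h) x * u x)]
          refine Finset.sum_congr rfl fun x _ => ?_
          rw [h16e2_inv_pow hu]
      _ = ∑ x, ∑ i ∈ Finset.range m, h16e2_tw Γ g (φ, h) (g ^ i • x) * u x :=
          Finset.sum_comm
      _ = ∑ x, h16e2_tw Γ (g ^ m) (φ, h) x * u x := by
          refine Finset.sum_congr rfl fun x _ => ?_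
          rw [h16e2_tw_pow, Finset.sum_mul]
  have hz : ∑ x, h16e2_tw Γ (g ^ m) (φ, h) x * u x = 0 := by
    refine Finset.sum_eq_zero fun x _ => ?_
    rw [hpow x, zero_mul]
  rw [hz] at hsum
  have hm' : (m : ℂ) ≠ 0 := by exact_mod_cast hm0.ne'
  exact (mul_eq_zero.1 hsum).resolve_left hm'

/-- the pairing functional attached to `(u, v, w)`:
`(a, b) ↦ ∑ a (u + w ∘ g₂⁻¹) + ∑ b (v + w)` -/
noncomputable def h16e2_rho (g₂ : G) :
    ((G ⧸ Γ → ℂ) × (G ⧸ Γ → ℂ) × (G ⧸ Γ → ℂ)) →ₗ[ℂ]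
      Module.Dual ℂ ((G ⧸ Γ → ℂ) × (G ⧸ Γ → ℂ)) :=
  LinearMap.mk₂ ℂ
    (fun p e => ∑ x, (e.1 x * (p.1 x + p.2.2 (g₂⁻¹ • x)) + e.2 x * (p.2.1 x + p.2.2 x)))
    (by
      intro p p' e
      simp only [Prod.fst_add, Prod.snd_add, Pi.add_apply]
      rw [← Finset.sum_add_distrib]
      exact Finset.sum_congr rfl fun x _ => by ring)
    (by
      intro c p e
      simp only [Prod.smul_fst, Prod.smul_snd, Pi.smul_apply, smul_eq_mul]
      rw [Finset.mul_sum]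
      exact Finset.sum_congr rfl fun x _ => by ring)
    (by
      intro p e e'
      simp only [Prod.fst_add, Prod.snd_add, Pi.add_apply]
      rw [← Finset.sum_add_distrib]
      exact Finset.sum_congr rfl fun x _ => by ring)
    (by
      intro c p e
      simp only [Prod.smul_fst, Prod.smul_snd, Pi.smul_apply, smul_eq_mul]
      rw [Finset.mul_sum]
      exact Finset.sum_congr rfl fun x _ => by ring)

theorem h16e2_rho_apply (g₂ : G) (p : (G ⧸ Γ → ℂ) × (G ⧸ Γ → ℂ) × (G ⧸ Γ → ℂ))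
    (e : (G ⧸ Γ → ℂ) × (G ⧸ Γ → ℂ)) :
    h16e2_rho (Γ := Γ) g₂ p e
      = ∑ x, e.1 x * (p.1 x + p.2.2 (g₂⁻¹ • x)) + ∑ x, e.2 x * (p.2.1 x + p.2.2 x) := by
  rw [← Finset.sum_add_distrib]
  rfl

/-- orthogonality of the two ranges -/
theorem h16e2_rho_theta {T : Set G} {g₁ g₂ : G} (h1 : g₁ ∈ T) (h2 : g₂ ∈ T) (h3 : g₁ * g₂ ∈ T)
    {φ : Additive Γ →+ ℂ} (hφ : φ ∈ h16e2_V Γ T) (h : G ⧸ Γ → ℂ)
    {u v w : G ⧸ Γ → ℂ} (hu : u ∈ h16e2_Inv Γ g₁) (hv : v ∈ h16e2_Inv Γ g₂)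
    (hw : w ∈ h16e2_Inv Γ (g₁ * g₂)) :
    h16e2_rho (Γ := Γ) g₂ (u, v, w) (h16e2_tw Γ g₁ (φ, h), h16e2_tw Γ g₂ (φ, h)) = 0 := by
  rw [h16e2_rho_apply]
  simp only
  have e1 := h16e2_orth h1 hφ h hu
  have e2 := h16e2_orth h2 hφ h hv
  have e3 := h16e2_orth h3 hφ h hw
  have e4 : ∑ x, h16e2_tw Γ g₁ (φ, h) x * w (g₂⁻¹ • x)
      = ∑ x, h16e2_tw Γ g₁ (φ, h) (g₂ • x) * w x := by
    rw [← h16e2_sum_smul g₂ (fun x => h16e2_tw Γ g₁ (φ, h) x * w (g₂⁻¹ • x))]
    refine Finset.sum_congr rfl fun x _ => ?_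
    rw [inv_smul_smul]
  have e5 : ∑ x, h16e2_tw Γ (g₁ * g₂) (φ, h) x * w x
      = ∑ x, h16e2_tw Γ g₁ (φ, h) (g₂ • x) * w x + ∑ x, h16e2_tw Γ g₂ (φ, h) x * w x := by
    rw [← Finset.sum_add_distrib]
    refine Finset.sum_congr rfl fun x _ => ?_
    rw [h16e2_tw_mul]; ring
  calc ∑ x, h16e2_tw Γ g₁ (φ, h) x * (u x + w (g₂⁻¹ • x))
        + ∑ x, h16e2_tw Γ g₂ (φ, h) x * (v x + w x)
      = ∑ x, h16e2_tw Γ g₁ (φ, h) x * u x + ∑ x, h16e2_tw Γ g₂ (φ, h) x * v x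
        + (∑ x, h16e2_tw Γ g₁ (φ, h) x * w (g₂⁻¹ • x)
          + ∑ x, h16e2_tw Γ g₂ (φ, h) x * w x) := by
        simp only [mul_add, Finset.sum_add_distrib]; ring
    _ = 0 := by rw [e1, e2, e4, ← e5, e3]; ring

/-- the kernel of `rho` on invariant triples consists of `(-c, -c, c)` -/
theorem h16e2_rho_ker {g₁ g₂ : G} (hgen : Subgroup.closure {g₁, g₂} = ⊤)
    {u v w : G ⧸ Γ → ℂ} (hv : v ∈ h16e2_Inv Γ g₂) (hw : w ∈ h16e2_Inv Γ (g₁ * g₂))
    (h0 : h16e2_rho (Γ := Γ) g₂ (u, v, w) = 0) (hw0 : w ((1 : G) : G ⧸ Γ) = 0) :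
    u = 0 ∧ v = 0 ∧ w = 0 := by
  classical
  have hb : ∀ x, v x + w x = 0 := by
    intro x
    have := congrArg (fun f : Module.Dual ℂ ((G ⧸ Γ → ℂ) × (G ⧸ Γ → ℂ)) =>
      f (0, Pi.single x 1)) h0
    simpa [h16e2_rho_apply, Pi.single_apply] using this
  have ha : ∀ x, u x + w (g₂⁻¹ • x) = 0 := by
    intro x
    have := congrArg (fun f : Module.Dual ℂ ((G ⧸ Γ → ℂ) × (G ⧸ Γ → ℂ)) =>
      f (Pi.single x 1, 0)) h0
    simpa [h16e2_rho_apply, Pi.single_apply] using this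
  have hw2 : ∀ x, w (g₂ • x) = w x := by
    intro x
    have h1 := hb (g₂ • x)
    have h2 := hb x
    have h3 := hv x
    have : w (g₂ • x) = - v (g₂ • x) := by linear_combination h1
    rw [this, h3]; linear_combination -h2
  have hw1 : ∀ x, w (g₁ • x) = w x := by
    intro x
    have h1 := hw (g₂⁻¹ • x)
    rw [mul_smul, smul_inv_smul] at h1
    rw [h1]
    have h2 := hw2 (g₂⁻¹ • x)
    rw [smul_inv_smul] at h2
    exact h2.symm
  have hwc : ∀ x, w x = 0 := fun x => by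
    rw [h16e2_const_of_inv hgen w hw1 hw2 x, hw0]
  refine ⟨?_, ?_, ?_⟩
  · funext x
    have := ha x
    rw [hwc, add_zero] at this
    exact this
  · funext x
    have := hb x
    rw [hwc, add_zero] at this
    exact this
  · funext x; exact hwc x

/-- `Hom(Γ, ℂ)` is finite-dimensional -/
theorem h16e2_finite_hom {g₁ g₂ : G} (hgen : Subgroup.closure {g₁, g₂} = ⊤) :
    Module.Finite ℂ (Additive Γ →+ ℂ) := by
  let f : (Additive Γ →+ ℂ) →ₗ[ℂ] (G ⧸ Γ → ℂ) × (G ⧸ Γ → ℂ) :=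
    ((h16e2_tw Γ g₁).prod (h16e2_tw Γ g₂)).comp (LinearMap.inl ℂ _ _)
  have hf : Function.Injective f := by
    rw [injective_iff_map_eq_zero]
    intro φ hφ
    have h1 : h16e2_tw Γ g₁ (φ, 0) = 0 := congrArg Prod.fst hφ
    have h2 : h16e2_tw Γ g₂ (φ, 0) = 0 := congrArg Prod.snd hφ
    exact (h16e2_ker hgen (φ, 0) h1 h2).1
  exact Module.Finite.of_injective f hf

/-- **The abstract count.** -/
theorem h16e2_main {g₁ g₂ : G} (hgen : Subgroup.closure {g₁, g₂} = ⊤) (T : Set G)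
    (h1 : g₁ ∈ T) (h2 : g₂ ∈ T) (h3 : g₁ * g₂ ∈ T) :
    Module.finrank ℂ (h16e2_V Γ T) + Module.finrank ℂ (h16e2_Inv Γ g₁)
      + Module.finrank ℂ (h16e2_Inv Γ g₂) + Module.finrank ℂ (h16e2_Inv Γ (g₁ * g₂))
      ≤ Fintype.card (G ⧸ Γ) + 2 := by
  classical
  haveI := h16e2_finite_hom (Γ := Γ) hgen
  let x₀ : G ⧸ Γ := ((1 : G) : G ⧸ Γ)
  let Θ : (h16e2_V Γ T) × (G ⧸ Γ → ℂ) →ₗ[ℂ] (G ⧸ Γ → ℂ) × (G ⧸ Γ → ℂ) :=
    ((h16e2_tw Γ g₁).prod (h16e2_tw Γ g₂)).comp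
      (LinearMap.prodMap (h16e2_V Γ T).subtype LinearMap.id)
  let ρ : (h16e2_Inv Γ g₁) × (h16e2_Inv Γ g₂) × (h16e2_Inv Γ (g₁ * g₂)) →ₗ[ℂ]
      Module.Dual ℂ ((G ⧸ Γ → ℂ) × (G ⧸ Γ → ℂ)) :=
    (h16e2_rho (Γ := Γ) g₂).comp
      (LinearMap.prodMap (h16e2_Inv Γ g₁).subtype
        (LinearMap.prodMap (h16e2_Inv Γ g₂).subtype (h16e2_Inv Γ (g₁ * g₂)).subtype))
  -- kernels have dimension at most one
  have hkΘ : Module.finrank ℂ (LinearMap.ker Θ) ≤ 1 := by
    let κ : LinearMap.ker Θ →ₗ[ℂ] ℂ :=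
      ((LinearMap.proj x₀).comp (LinearMap.snd ℂ _ _)).comp (LinearMap.ker Θ).subtype
    have hκ : Function.Injective κ := by
      rw [injective_iff_map_eq_zero]
      rintro ⟨⟨φ, h⟩, hq⟩ hx
      have hq' : Θ (φ, h) = 0 := hq
      have e1 : h16e2_tw Γ g₁ ((φ : Additive Γ →+ ℂ), h) = 0 := congrArg Prod.fst hq'
      have e2 : h16e2_tw Γ g₂ ((φ : Additive Γ →+ ℂ), h) = 0 := congrArg Prod.snd hq'
      obtain ⟨hφ, hh⟩ := h16e2_ker hgen _ e1 e2
      have hx' : h x₀ = 0 := hx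
      apply Subtype.ext
      show (φ, h) = 0
      refine Prod.ext (Subtype.ext hφ) ?_
      funext x
      rw [hh x]
      exact hx'
    have := LinearMap.finrank_le_finrank_of_injective hκ
    simpa using this
  have hkρ : Module.finrank ℂ (LinearMap.ker ρ) ≤ 1 := by
    let κ : LinearMap.ker ρ →ₗ[ℂ] ℂ :=
      ((LinearMap.proj x₀).comp ((h16e2_Inv Γ (g₁ * g₂)).subtype.comp
        ((LinearMap.snd ℂ _ _).comp (LinearMap.snd ℂ _ _)))).comp (LinearMap.ker ρ).subtype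
    have hκ : Function.Injective κ := by
      rw [injective_iff_map_eq_zero]
      rintro ⟨⟨u, v, w⟩, hq⟩ hx
      have hq' : h16e2_rho (Γ := Γ) g₂ ((u : G ⧸ Γ → ℂ), (v : G ⧸ Γ → ℂ), (w : G ⧸ Γ → ℂ)) = 0 :=
        hq
      have hx' : (w : G ⧸ Γ → ℂ) x₀ = 0 := hx
      obtain ⟨hu, hv, hw⟩ := h16e2_rho_ker hgen v.2 w.2 hq' hx'
      apply Subtype.ext
      show (u, v, w) = 0
      exact Prod.ext (Subtype.ext hu) (Prod.ext (Subtype.ext hv) (Subtype.ext hw))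
    have := LinearMap.finrank_le_finrank_of_injective hκ
    simpa using this
  -- orthogonality
  have horth : LinearMap.range Θ ≤ (LinearMap.range ρ).dualCoannihilator := by
    rintro e ⟨⟨φ, h⟩, rfl⟩
    rw [Submodule.mem_dualCoannihilator]
    rintro f ⟨⟨u, v, w⟩, rfl⟩
    exact h16e2_rho_theta h1 h2 h3 φ.2 h u.2 v.2 w.2
  -- dimension bookkeeping
  have r1 := LinearMap.finrank_range_add_finrank_ker Θ
  have r2 := LinearMap.finrank_range_add_finrank_ker ρ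
  have r3 := Subspace.finrank_add_finrank_dualCoannihilator_eq (LinearMap.range ρ)
  have r4 := Submodule.finrank_mono horth
  have d1 : Module.finrank ℂ ((h16e2_V Γ T) × (G ⧸ Γ → ℂ))
      = Module.finrank ℂ (h16e2_V Γ T) + Fintype.card (G ⧸ Γ) := by
    rw [Module.finrank_prod, Module.finrank_fintype_fun_eq_card]
  have d2 : Module.finrank ℂ ((h16e2_Inv Γ g₁) × (h16e2_Inv Γ g₂) × (h16e2_Inv Γ (g₁ * g₂)))
      = Module.finrank ℂ (h16e2_Inv Γ g₁) + (Module.finrank ℂ (h16e2_Inv Γ g₂)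
        + Module.finrank ℂ (h16e2_Inv Γ (g₁ * g₂))) := by
    rw [Module.finrank_prod, Module.finrank_prod]
  have d3 : Module.finrank ℂ ((G ⧸ Γ → ℂ) × (G ⧸ Γ → ℂ))
      = Fintype.card (G ⧸ Γ) + Fintype.card (G ⧸ Γ) := by
    rw [Module.finrank_prod, Module.finrank_fintype_fun_eq_card]
  omega

end count

section orbits

variable {G : Type*} [Group G] {Γ : Subgroup G}

theorem h16e2_inv_zpow {g : G} {u : G ⧸ Γ → ℂ} (hu : u ∈ h16e2_Inv Γ g) (k : ℤ) (x : G ⧸ Γ) :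
    u (g ^ k • x) = u x := by
  have hinv : ∀ y, u (g⁻¹ • y) = u y := by
    intro y
    have := hu (g⁻¹ • y)
    rw [smul_inv_smul] at this
    exact this.symm
  induction k using Int.induction_on generalizing x with
  | zero => simp
  | succ i ih =>
    rw [zpow_add, zpow_one, mul_smul, ih, hu]
  | pred i ih =>
    rw [zpow_sub, zpow_one, mul_smul, ih, hinv]

/-- invariant functions = functions on the orbit space -/
noncomputable def h16e2_invEquiv (g : G) :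
    (h16e2_Inv Γ g) ≃ₗ[ℂ] (MulAction.orbitRel.Quotient (Subgroup.zpowers g) (G ⧸ Γ) → ℂ) where
  toFun u := fun q => Quotient.liftOn' q (u : G ⧸ Γ → ℂ) (by
    intro a b hab
    have hab' : a ∈ MulAction.orbit (Subgroup.zpowers g) b := hab
    obtain ⟨⟨h, hh⟩, rfl⟩ := hab'
    obtain ⟨k, rfl⟩ := Subgroup.mem_zpowers_iff.1 hh
    exact h16e2_inv_zpow u.2 k b)
  map_add' := by
    intro u v
    funext q
    induction q using Quotient.inductionOn' with
    | h a => rfl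
  map_smul' := by
    intro c u
    funext q
    induction q using Quotient.inductionOn' with
    | h a => rfl
  invFun f := ⟨fun x => f (Quotient.mk'' x), by
    intro x
    show f (Quotient.mk'' (g • x)) = f (Quotient.mk'' x)
    congr 1
    apply Quotient.sound'
    exact ⟨⟨g, Subgroup.mem_zpowers g⟩, rfl⟩⟩
  left_inv := by
    intro u
    apply Subtype.ext
    funext x
    rfl
  right_inv := by
    intro f
    funext q
    induction q using Quotient.inductionOn' with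
    | h a => rfl

theorem h16e2_finrank_inv [Finite (G ⧸ Γ)] (g : G) :
    Module.finrank ℂ (h16e2_Inv Γ g)
      = Nat.card (MulAction.orbitRel.Quotient (Subgroup.zpowers g) (G ⧸ Γ)) := by
  classical
  haveI : Fintype (G ⧸ Γ) := Fintype.ofFinite _
  haveI : Fintype (MulAction.orbitRel.Quotient (Subgroup.zpowers g) (G ⧸ Γ)) :=
    Fintype.ofFinite _
  rw [(h16e2_invEquiv (Γ := Γ) g).finrank_eq, Module.finrank_fintype_fun_eq_card,
    Nat.card_eq_fintype_card]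

theorem h16e2_Inv_inv (g : G) : h16e2_Inv Γ g⁻¹ = h16e2_Inv Γ g := by
  ext u
  constructor
  · intro hu x
    have := hu (g • x)
    rw [inv_smul_smul] at this
    exact this.symm
  · intro hu x
    have := hu (g⁻¹ • x)
    rw [smul_inv_smul] at this
    exact this.symm

/-- **The abstract count, in terms of orbits.** -/
theorem h16e2_main_orbits [Finite (G ⧸ Γ)] {g₁ g₂ : G}
    (hgen : Subgroup.closure {g₁, g₂} = ⊤) (T : Set G)
    (h1 : g₁ ∈ T) (h2 : g₂ ∈ T) (h3 : g₁ * g₂ ∈ T) :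
    Module.Finite ℂ (h16e2_V Γ T) ∧
    Module.finrank ℂ (h16e2_V Γ T)
      + Nat.card (MulAction.orbitRel.Quotient (Subgroup.zpowers g₁) (G ⧸ Γ))
      + Nat.card (MulAction.orbitRel.Quotient (Subgroup.zpowers g₂) (G ⧸ Γ))
      + Nat.card (MulAction.orbitRel.Quotient (Subgroup.zpowers (g₁ * g₂)) (G ⧸ Γ))
      ≤ Nat.card (G ⧸ Γ) + 2 := by
  classical
  haveI : Fintype (G ⧸ Γ) := Fintype.ofFinite _
  have hfin := h16e2_finite_hom (Γ := Γ) hgen
  refine ⟨inferInstance, ?_⟩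
  have := h16e2_main (Γ := Γ) hgen T h1 h2 h3
  rw [h16e2_finrank_inv, h16e2_finrank_inv, h16e2_finrank_inv] at this
  rw [Nat.card_eq_fintype_card (α := G ⧸ Γ)]
  exact this

end orbits

end Fermat.Agent.H16E2
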