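import Mathlib
import Fermat.Prelude.Def_ModularCurve_PeriodMap
import Fermat.Prelude.Def_ModularCurve_GenusNumerics
import Fermat.Agent.S24.C1
import Fermat.Agent.S24.C2
import Fermat.Agent.S24.C3
import Fermat.Agent.RR.E2Abs

/-!
# T-RR, slice E2 (helper16): `finrank parabolicHoms(Γ₀(N), ℂ) ≤ 2 · genusFormula N`

Purely combinatorial: the abstract count of `RR/E2Abs.lean` applied to `G = SL(2,ℤ)`,
`g₁ = S⁻¹`, `g₂ = S T`, `g₁ g₂ = T`, together with the orbit counts C1–C3 of T-RH (Layer C).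
-/

set_option autoImplicit false
set_option linter.style.haveILetI false

namespace Fermat.Agent.H16E2

open MatrixGroups CongruenceSubgroup ModularCurve.Period

theorem h16e2_S_pow_four : ModularGroup.S ^ 4 = 1 := by
  apply Subtype.ext
  have h : ((ModularGroup.S ^ 4 : SL(2, ℤ)) : Matrix (Fin 2) (Fin 2) ℤ)
      = ((ModularGroup.S ^ 2 : SL(2, ℤ)) : Matrix (Fin 2) (Fin 2) ℤ)
        * ((ModularGroup.S ^ 2 : SL(2, ℤ)) : Matrix (Fin 2) (Fin 2) ℤ) := by
    rw [← Matrix.SpecialLinearGroup.coe_mul, ← pow_add]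
  rw [h, RH24.h8_S_sq_coe, Matrix.mul_fin_two, Matrix.SpecialLinearGroup.coe_one,
    Matrix.one_fin_two]
  simp

theorem h16e2_ST_pow_six : (ModularGroup.S * ModularGroup.T) ^ 6 = 1 := by
  apply Subtype.ext
  have h : (((ModularGroup.S * ModularGroup.T) ^ 6 : SL(2, ℤ)) : Matrix (Fin 2) (Fin 2) ℤ)
      = (((ModularGroup.S * ModularGroup.T) ^ 3 : SL(2, ℤ)) : Matrix (Fin 2) (Fin 2) ℤ)
        * (((ModularGroup.S * ModularGroup.T) ^ 3 : SL(2, ℤ)) : Matrix (Fin 2) (Fin 2) ℤ) := by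
    rw [← Matrix.SpecialLinearGroup.coe_mul, ← pow_add]
  rw [h, RH24.h8_ST_cube_coe, Matrix.mul_fin_two, Matrix.SpecialLinearGroup.coe_one,
    Matrix.one_fin_two]
  simp

theorem h16e2_gen : Subgroup.closure {ModularGroup.S⁻¹, ModularGroup.S * ModularGroup.T}
    = (⊤ : Subgroup SL(2, ℤ)) := by
  rw [eq_top_iff, ← SpecialLinearGroup.SL2Z_generators, Subgroup.closure_le]
  have hS : ModularGroup.S ∈
      Subgroup.closure {ModularGroup.S⁻¹, ModularGroup.S * ModularGroup.T} := by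
    have := Subgroup.inv_mem _ (Subgroup.subset_closure
      (show ModularGroup.S⁻¹ ∈ ({ModularGroup.S⁻¹, ModularGroup.S * ModularGroup.T} :
        Set SL(2, ℤ)) from Set.mem_insert _ _))
    simpa using this
  have hT : ModularGroup.T ∈
      Subgroup.closure {ModularGroup.S⁻¹, ModularGroup.S * ModularGroup.T} := by
    have h1 := Subgroup.subset_closure
      (show ModularGroup.S⁻¹ ∈ ({ModularGroup.S⁻¹, ModularGroup.S * ModularGroup.T} :
        Set SL(2, ℤ)) from Set.mem_insert _ _)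
    have h2 := Subgroup.subset_closure
      (show ModularGroup.S * ModularGroup.T ∈
        ({ModularGroup.S⁻¹, ModularGroup.S * ModularGroup.T} : Set SL(2, ℤ)) from
        Set.mem_insert_of_mem _ rfl)
    have := Subgroup.mul_mem _ h1 h2
    simpa using this
  intro g hg
  rcases hg with rfl | hg
  · exact hS
  · rw [Set.mem_singleton_iff] at hg
    rw [hg]; exact hT

/-- a homomorphism to `ℂ` kills elements of finite order -/
theorem h16e2_hom_finite_order {Γ : Subgroup SL(2, ℤ)} (φ : Additive Γ →+ ℂ) (γ : Γ) (k : ℕ)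
    (hk : 0 < k) (h : γ ^ k = 1) : φ (Additive.ofMul γ) = 0 := by
  have h1 : φ (Additive.ofMul (γ ^ k)) = k • φ (Additive.ofMul γ) := by
    rw [ofMul_pow, map_nsmul]
  rw [h, ofMul_one, map_zero] at h1
  have hk' : (k : ℂ) ≠ 0 := by exact_mod_cast hk.ne'
  rw [nsmul_eq_mul] at h1
  exact (mul_eq_zero.1 h1.symm).resolve_left hk'

theorem h16e2_trace_conj_T (y : SL(2, ℤ)) (k : ℕ) :
    ((y * ModularGroup.T ^ k * y⁻¹ : SL(2, ℤ)) : Matrix (Fin 2) (Fin 2) ℤ).trace = 2 := by
  have h1 : ((y * ModularGroup.T ^ k * y⁻¹ : SL(2, ℤ)) : Matrix (Fin 2) (Fin 2) ℤ)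
      = (y : Matrix (Fin 2) (Fin 2) ℤ) * ((ModularGroup.T ^ k : SL(2, ℤ)) :
          Matrix (Fin 2) (Fin 2) ℤ) * ((y⁻¹ : SL(2, ℤ)) : Matrix (Fin 2) (Fin 2) ℤ) := by
    simp [Matrix.SpecialLinearGroup.coe_mul]
  rw [h1, Matrix.trace_mul_cycle]
  have h2 : ((y⁻¹ : SL(2, ℤ)) : Matrix (Fin 2) (Fin 2) ℤ) * (y : Matrix (Fin 2) (Fin 2) ℤ)
      = 1 := by
    rw [← Matrix.SpecialLinearGroup.coe_mul, inv_mul_cancel]
    rfl
  rw [h2, one_mul]
  have h3 : ((ModularGroup.T ^ k : SL(2, ℤ)) : Matrix (Fin 2) (Fin 2) ℤ) = !![1, (k : ℤ); 0, 1] := by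
    have := ModularGroup.coe_T_zpow (k : ℤ)
    rw [zpow_natCast] at this
    exact this
  rw [h3, Matrix.trace_fin_two]
  simp

/-- parabolic homomorphisms vanish on the conjugates of powers of `S⁻¹`, `S T`, `T` -/
theorem h16e2_parabolic_le (N : ℕ) :
    parabolicHoms ℂ (Gamma0 N) ℂ ≤
      h16e2_V (Gamma0 N) {ModularGroup.S⁻¹, ModularGroup.S * ModularGroup.T, ModularGroup.T} := by
  intro φ hφ t ht k y h
  rw [mem_parabolicHoms_iff] at hφ
  rcases ht with rfl | rfl | ht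
  · -- powers of S⁻¹: finite order
    apply h16e2_hom_finite_order φ _ 4 (by norm_num)
    apply Subtype.ext
    show (y * ModularGroup.S⁻¹ ^ k * y⁻¹) ^ 4 = 1
    rw [conj_pow, ← pow_mul, mul_comm, pow_mul, inv_pow, h16e2_S_pow_four]
    simp
  · apply h16e2_hom_finite_order φ _ 6 (by norm_num)
    apply Subtype.ext
    show (y * (ModularGroup.S * ModularGroup.T) ^ k * y⁻¹) ^ 6 = 1
    rw [conj_pow, ← pow_mul, mul_comm, pow_mul, h16e2_ST_pow_six]
    simp
  · rw [Set.mem_singleton_iff] at ht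
    subst ht
    apply hφ
    show ((y * ModularGroup.T ^ k * y⁻¹ : SL(2, ℤ)) : Matrix (Fin 2) (Fin 2) ℤ).trace ^ 2 = 4
    rw [h16e2_trace_conj_T]
    norm_num

/-- **E2.** The space of parabolic homomorphisms `Γ₀(N) → ℂ` is finite-dimensional of
dimension at most `2 g`. -/
theorem h16e2_finrank_le (N : ℕ) [NeZero N] :
    Module.Finite ℂ (parabolicHoms ℂ (Gamma0 N) ℂ) ∧
      (Module.finrank ℂ (parabolicHoms ℂ (Gamma0 N) ℂ) : ℚ) ≤ 2 * ModularCurve.genusFormula N := by
  have hT : ModularGroup.S⁻¹ * (ModularGroup.S * ModularGroup.T) = ModularGroup.T := by group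
  obtain ⟨hfin, hcount⟩ := h16e2_main_orbits (Γ := Gamma0 N) h16e2_gen
    {ModularGroup.S⁻¹, ModularGroup.S * ModularGroup.T, ModularGroup.T}
    (Set.mem_insert _ _) (Set.mem_insert_of_mem _ (Set.mem_insert _ _))
    (by rw [hT]; exact Set.mem_insert_of_mem _ (Set.mem_insert_of_mem _ rfl))
  haveI := hfin
  have hle := h16e2_parabolic_le N
  have hfinP : Module.Finite ℂ (parabolicHoms ℂ (Gamma0 N) ℂ) := by
    have hinj : Function.Injective (Submodule.inclusion hle) := Submodule.inclusion_injective hle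
    exact Module.Finite.of_injective _ hinj
  refine ⟨hfinP, ?_⟩
  have hmono : Module.finrank ℂ (parabolicHoms ℂ (Gamma0 N) ℂ)
      ≤ Module.finrank ℂ (h16e2_V (Gamma0 N)
        {ModularGroup.S⁻¹, ModularGroup.S * ModularGroup.T, ModularGroup.T}) :=
    Submodule.finrank_mono hle
  -- orbit counts
  have hS : Nat.card (MulAction.orbitRel.Quotient (Subgroup.zpowers ModularGroup.S⁻¹)
      (SL(2, ℤ) ⧸ Gamma0 N))
      = Nat.card (MulAction.orbitRel.Quotient (Subgroup.zpowers ModularGroup.S)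
      (SL(2, ℤ) ⧸ Gamma0 N)) := by
    rw [← h16e2_finrank_inv, ← h16e2_finrank_inv, h16e2_Inv_inv]
  rw [hT, hS] at hcount
  have c1 := RH24.card_cosets N
  have c2 := RH24.two_mul_card_orbits_S N
  have c3 := RH24.three_mul_card_orbits_ST N
  have c4 := RH24.card_orbits_T N
  rw [c1, c4] at hcount
  set oS := Nat.card (MulAction.orbitRel.Quotient (Subgroup.zpowers ModularGroup.S)
      (SL(2, ℤ) ⧸ Gamma0 N)) with hoS
  set oU := Nat.card (MulAction.orbitRel.Quotient
      (Subgroup.zpowers (ModularGroup.S * ModularGroup.T)) (SL(2, ℤ) ⧸ Gamma0 N)) with hoU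
  set d := Module.finrank ℂ (parabolicHoms ℂ (Gamma0 N) ℂ) with hd
  set v := Module.finrank ℂ (h16e2_V (Gamma0 N)
        {ModularGroup.S⁻¹, ModularGroup.S * ModularGroup.T, ModularGroup.T}) with hv
  have hcountQ : (d : ℚ) + oS + oU + ModularCurve.cuspCount N
      ≤ ModularCurve.dedekindPsi N + 2 := by
    have : d + oS + oU + ModularCurve.cuspCount N ≤ ModularCurve.dedekindPsi N + 2 := by omega
    exact_mod_cast this
  have c2Q : (2 : ℚ) * oS = ModularCurve.dedekindPsi N + ModularCurve.nuTwo N := by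
    exact_mod_cast c2
  have c3Q : (3 : ℚ) * oU = ModularCurve.dedekindPsi N + 2 * ModularCurve.nuThree N := by
    exact_mod_cast c3
  rw [ModularCurve.genusFormula]
  linarith

end Fermat.Agent.H16E2
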