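/-
T-RR (helper21): final assembly of S20 and S21 from
 * E1  (`H21E1.periodHomPair_injective`, `H21E1.range_periodHomPair_le`),
 * E2  (`Fermat.Agent.H16E2.h16e2_finrank_le`, helper16),
 * E3  (hypothesis: `genusFormula N ≤ finrank S₂(Γ₀(N))`, = Riemann-Roch + dictionary).
-/
import Mathlib
import Fermat.Agent.RR.E1
import Fermat.Agent.RR.E1Par
import Fermat.Agent.RR.E2

set_option autoImplicit false

open CongruenceSubgroup ModularCurve ModularCurve.Period

noncomputable section

namespace H21E1

/-- the E3 statement (lower bound from Riemann-Roch) -/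
def E3Statement (N : ℕ) : Prop :=
  ModularCurve.genusFormula N ≤ (Module.finrank ℂ (CuspForm (Gamma0 N) 2) : ℚ)

/-- the period pair map, corestricted to the parabolic homomorphisms -/
def periodHomPairPar (N : ℕ) [NeZero N] :
    (CuspForm (Gamma0 N) 2 × CuspForm (Gamma0 N) 2) →ₗ[ℂ] parabolicHoms ℂ (Gamma0 N) ℂ :=
  LinearMap.codRestrict _ (ModularCurve.periodHomPair N)
    (fun x => range_periodHomPair_le N (LinearMap.mem_range_self _ x))

theorem periodHomPairPar_injective (N : ℕ) [NeZero N] :
    Function.Injective (periodHomPairPar N) := by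
  intro x y h
  apply periodHomPair_injective N
  exact congrArg Subtype.val h

theorem finite_prod (N : ℕ) [NeZero N] :
    Module.Finite ℂ (CuspForm (Gamma0 N) 2 × CuspForm (Gamma0 N) 2) := by
  have hP := (Fermat.Agent.H16E2.h16e2_finrank_le N).1
  exact Module.Finite.of_injective (periodHomPairPar N) (periodHomPairPar_injective N)

theorem finite_cuspForm (N : ℕ) [NeZero N] : Module.Finite ℂ (CuspForm (Gamma0 N) 2) := by
  have hSS := finite_prod N
  exact Module.Finite.of_injective (LinearMap.inl ℂ (CuspForm (Gamma0 N) 2) (CuspForm (Gamma0 N) 2))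
    LinearMap.inl_injective

theorem two_mul_finrank_le (N : ℕ) [NeZero N] :
    2 * Module.finrank ℂ (CuspForm (Gamma0 N) 2)
      ≤ Module.finrank ℂ (parabolicHoms ℂ (Gamma0 N) ℂ) := by
  have hP := (Fermat.Agent.H16E2.h16e2_finrank_le N).1
  have hS := finite_cuspForm N
  have h := LinearMap.finrank_le_finrank_of_injective (periodHomPairPar_injective N)
  rw [Module.finrank_prod] at h
  omega

/-- upper bound `dim S₂(Γ₀(N)) ≤ g` (E1 + E2, no Riemann-Roch) -/
theorem finrank_cuspForm_le (N : ℕ) [NeZero N] :
    (Module.finrank ℂ (CuspForm (Gamma0 N) 2) : ℚ) ≤ ModularCurve.genusFormula N := by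
  have h1 := two_mul_finrank_le N
  have h2 := (Fermat.Agent.H16E2.h16e2_finrank_le N).2
  have h3 : (2 * Module.finrank ℂ (CuspForm (Gamma0 N) 2) : ℚ)
      ≤ (Module.finrank ℂ (parabolicHoms ℂ (Gamma0 N) ℂ) : ℚ) := by exact_mod_cast h1
  linarith

/-- **S20 from E3** -/
theorem S20_of_E3 (N : ℕ) [NeZero N] (h : E3Statement N) :
    (Module.finrank ℂ (CuspForm (Gamma0 N) 2) : ℚ) = ModularCurve.genusFormula N :=
  le_antisymm (finrank_cuspForm_le N) h

/-- **S21 from E3** -/
theorem S21_of_E3 (N : ℕ) [NeZero N] (h : E3Statement N) :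
    Function.Injective (ModularCurve.periodHomPair N)
      ∧ LinearMap.range (ModularCurve.periodHomPair N)
          = ModularCurve.Period.parabolicHoms ℂ (CongruenceSubgroup.Gamma0 N) ℂ := by
  refine ⟨periodHomPair_injective N, ?_⟩
  have hP := (Fermat.Agent.H16E2.h16e2_finrank_le N).1
  have hS := finite_cuspForm N
  have hSS := finite_prod N
  apply Submodule.eq_of_le_of_finrank_le (range_periodHomPair_le N)
  have h2 := (Fermat.Agent.H16E2.h16e2_finrank_le N).2
  have h3 : Module.finrank ℂ (LinearMap.range (ModularCurve.periodHomPair N))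
      = 2 * Module.finrank ℂ (CuspForm (Gamma0 N) 2) := by
    rw [LinearMap.finrank_range_of_inj (periodHomPair_injective N), Module.finrank_prod]
    omega
  have h4 : (Module.finrank ℂ (parabolicHoms ℂ (Gamma0 N) ℂ) : ℚ)
      ≤ (Module.finrank ℂ (LinearMap.range (ModularCurve.periodHomPair N)) : ℚ) := by
    rw [h3]
    push_cast
    have := h
    unfold E3Statement at this
    linarith
  exact_mod_cast h4

end H21E1
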