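/-
T-RR E3 (helper2, coordinator): the INTERFACE between
 * BRIDGE + VAL + COUNT (helper1: Riemann-Roch for `F = modularFunctionFieldBar N`), and
 * DICT (helper24: elements of `L(div dJ)` give weight 2 cusp forms).
Definitions only.
-/
import Mathlib
import Fermat.Agent.S24.Contract

set_option autoImplicit false

noncomputable section

open scoped WithZero

namespace H2E3

open RH24

/-- Valuation form of `div(h) + div(dJ) ≥ 0`: for every `ℤ`-valued valuation `w` of `F`
which is `≤ 1` on the constants,
* if `w` is centred at `J = a` then `h (J - a)` lies in the maximal ideal of `w`;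
* if `w` is centred at `J = ∞` then `h J` lies in the maximal ideal of `w`. -/
def ValCond (N : ℕ) [NeZero N] (h : ModularCurve.modularFunctionFieldBar N) : Prop :=
  ∀ w : Valuation (ModularCurve.modularFunctionFieldBar N) ℤᵐ⁰,
    (∀ c : Kbar, w (algebraMap Kbar (ModularCurve.modularFunctionFieldBar N) c) ≤ 1) →
      (∀ a : Kbar, w (Jbar N - algebraMap Kbar _ a) < 1 →
        w (h * (Jbar N - algebraMap Kbar _ a)) < 1) ∧
      (1 < w (Jbar N) → w (h * Jbar N) < 1)

/-- [DICT] (helper24): a finite-dimensional `ℚ̄`-subspace of `F` all of whose elements satisfy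
`ValCond` embeds, `ℂ`-linearly independently, into the weight 2 cusp forms. -/
def DictStatement (N : ℕ) [NeZero N] : Prop :=
  ∀ W : Submodule Kbar (ModularCurve.modularFunctionFieldBar N),
    FiniteDimensional Kbar W → (∀ h ∈ W, ValCond N h) →
      Module.finrank Kbar W ≤ Module.finrank ℂ (CuspForm (CongruenceSubgroup.Gamma0 N) 2)

/-- BRIDGE + VAL + COUNT (helper1): Riemann-Roch produces a subspace of dimension at least the
genus all of whose elements satisfy `ValCond`. -/
def BridgeStatement (N : ℕ) [NeZero N] : Prop :=
  ∃ W : Submodule Kbar (ModularCurve.modularFunctionFieldBar N),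
    FiniteDimensional Kbar W ∧ (∀ h ∈ W, ValCond N h) ∧
      ModularCurve.genusFormula N ≤ (Module.finrank Kbar W : ℚ)

theorem genusFormula_le_of (N : ℕ) [NeZero N] (hD : DictStatement N) (hB : BridgeStatement N) :
    ModularCurve.genusFormula N
      ≤ (Module.finrank ℂ (CuspForm (CongruenceSubgroup.Gamma0 N) 2) : ℚ) := by
  obtain ⟨W, hfin, hval, hle⟩ := hB
  have h := hD W hfin hval
  have h' : (Module.finrank Kbar W : ℚ)
      ≤ (Module.finrank ℂ (CuspForm (CongruenceSubgroup.Gamma0 N) 2) : ℚ) := by
    exact_mod_cast h
  exact hle.trans h'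

end H2E3

end
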