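import Fermat.Agent.RR.DictMain1
import Fermat.Agent.RR.DictDJ_helper11
import Fermat.Agent.RR.DictDH_helper15
import Fermat.Agent.RR.DictDV_helper26
import Fermat.Agent.RR.DictDC1_helper21
import Fermat.Agent.RR.DictDC2F_helper23
import Fermat.Agent.RR.DictDP_helper15
import Fermat.Agent.RR.E3CI
import Fermat.Agent.RR.E3Defs
import Fermat.Agent.RR.E1Final
import Fermat.Agent.S24.BL

/-!
# T-RR [DICT] (helper24), assembly part 2: `f_h = phi(h) j'` is holomorphic
-/

set_option autoImplicit false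

noncomputable section

open UpperHalfPlane ModularForm WithZero Filter ModularCurve CongruenceSubgroup
open scoped MatrixGroups Manifold Topology Real

namespace H24D

open RH24 (Kbar Jbar iota jf jd Dv Jgen formalEval Dv_ne_zero)

/-- `j'` as an element of `Hol` -/
def jprimeHol : Hol := ⟨jprimeFun, mdiff_jprimeFun⟩

@[simp] theorem jprimeHol_apply (z : ℍ) : (jprimeHol : ℍ → ℂ) z = jprimeFun z := rfl

theorem jHol_sub_const_ne_zero (c : ℂ) : jHol - constHol c ≠ 0 := by
  intro h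
  obtain ⟨z, hz⟩ := RH24.exists_jf_eq (c + 1)
  have h1 := congrArg (fun F : Hol => (F : ℍ → ℂ) z) h
  have h2 : jf z - c = 0 := h1
  rw [hz] at h2
  simp at h2

theorem coe_jHol_sub_const (c : ℂ) :
    ((jHol - constHol c : Hol) : ℍ → ℂ) = fun z => jf z - c := rfl

theorem jprimeHol_ne_zero : jprimeHol ≠ 0 := by
  intro h
  have h1 := ordFun_jprimeFun UpperHalfPlane.I
  have h2 : ordFun UpperHalfPlane.I jprimeFun = ⊤ := by
    rw [ordFun_eq_top_iff mdiff_jprimeFun]
    exact congrArg Subtype.val h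
  rw [h2] at h1
  have h3 : ordFun UpperHalfPlane.I (fun z => jf z - jf UpperHalfPlane.I) = ⊤ := by
    rw [← h1]; rfl
  have h4 := (ordFun_eq_top_iff (jHol - constHol (jf UpperHalfPlane.I)).2 UpperHalfPlane.I).mp h3
  exact jHol_sub_const_ne_zero (jf UpperHalfPlane.I) (Subtype.ext h4)

theorem ordVal_jprime (z₀ : ℍ) :
    ordVal z₀ jprimeHol * WithZero.exp (-1) = ordVal z₀ (jHol - constHol (jf z₀)) := by
  have hne := jHol_sub_const_ne_zero (jf z₀)
  rw [ordVal_apply z₀ _ jprimeHol_ne_zero, ordVal_apply z₀ _ hne, ← WithZero.exp_add]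
  congr 1
  have h1 := ordFun_jprimeFun z₀
  have h2 := coe_ordNat mdiff_jprimeFun (fun h => jprimeHol_ne_zero (Subtype.ext h)) z₀
  have h3 := coe_ordNat (jHol - constHol (jf z₀)).2 (fun h => hne (Subtype.ext h)) z₀
  rw [coe_jHol_sub_const] at h3
  rw [← h2, ← h3] at h1
  have h4 : ordNat z₀ jprimeFun + 1 = ordNat z₀ (fun z => jf z - jf z₀) := by exact_mod_cast h1
  have h5 : (ordNat z₀ (jprimeHol : ℍ → ℂ) : ℤ) + 1
      = (ordNat z₀ ((jHol - constHol (jf z₀) : Hol) : ℍ → ℂ) : ℤ) := by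
    rw [coe_jHol_sub_const]
    exact_mod_cast h4
  omega

theorem le_one_of_mul_exp_lt (x : ℤᵐ⁰) (h : x * WithZero.exp (-1) < 1) : x ≤ 1 := by
  by_cases hx : x = 0
  · rw [hx]; exact zero_le_one
  · rw [← WithZero.exp_log hx, ← WithZero.exp_add, ← WithZero.exp_zero, WithZero.exp_lt_exp] at h
    rw [← WithZero.exp_log hx, ← WithZero.exp_zero, WithZero.exp_le_exp]
    omega

theorem val_const_eq_one {F : Type*} [Field F] [Algebra Kbar F] (w : Valuation F ℤᵐ⁰)
    (hw : ∀ c : Kbar, w (algebraMap Kbar F c) ≤ 1) (c : Kbar) (hc : c ≠ 0) :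
    w (algebraMap Kbar F c) = 1 := by
  apply le_antisymm (hw c)
  have h1 := hw c⁻¹
  have h2 : w (algebraMap Kbar F c) * w (algebraMap Kbar F c⁻¹) = 1 := by
    rw [← map_mul, ← map_mul, mul_inv_cancel₀ hc, map_one, map_one]
  by_contra hlt
  rw [not_le] at hlt
  have h3 : w (algebraMap Kbar F c) * w (algebraMap Kbar F c⁻¹) < 1 := by
    calc w (algebraMap Kbar F c) * w (algebraMap Kbar F c⁻¹)
        ≤ w (algebraMap Kbar F c) * 1 := by gcongr
      _ = w (algebraMap Kbar F c) := mul_one _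
      _ < 1 := hlt
  rw [h2] at h3
  exact lt_irrefl _ h3

variable (N : ℕ) [NeZero N]

theorem merVal_phi_mul_jprime_le (h : modularFunctionFieldBar N) (hh : H2E3.ValCond N h)
    (z₀ : ℍ) : merVal z₀ (phi N h * algebraMap Hol Mer jprimeHol) ≤ 1 := by
  rw [map_mul, merVal_algebraMap]
  by_cases hA : ∃ a : Kbar, jf z₀ = iota a
  · obtain ⟨a, ha⟩ := hA
    have hv := (hh (wFin N z₀) (wFin_const_le N z₀)).1 a ((wFin_J_sub_lt_one_iff N z₀ a).mpr ha)
    rw [map_mul, wFin_apply, wFin_J_sub, ← ha, ← ordVal_jprime, ← mul_assoc] at hv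
    exact le_one_of_mul_exp_lt _ hv
  · push Not at hA
    have hv := valuation_le_one_of_trivial N (wFin N z₀)
      (val_const_eq_one (wFin N z₀) (wFin_const_le N z₀))
      (fun a => (wFin_J_sub_eq_one_iff N z₀ a).mpr (hA a)) h
    rw [wFin_apply] at hv
    exact mul_le_one' hv (ordVal_le_one _ _)

/-- the holomorphic function `f_h = phi(h) j'` -/
theorem exists_fh (h : modularFunctionFieldBar N) (hh : H2E3.ValCond N h) :
    ∃ f : Hol, algebraMap Hol Mer f = phi N h * algebraMap Hol Mer jprimeHol :=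
  exists_hol_of_merVal_le _ (merVal_phi_mul_jprime_le N h hh)

/-- `z ↦ denom γ z` as an element of `Hol` -/
def denomHol (γ : SL(2, ℤ)) : Hol :=
  ⟨fun z => denom (Matrix.SpecialLinearGroup.mapGL ℝ γ) z, mdifferentiable_denom _⟩

theorem precomp_jprimeHol (γ : SL(2, ℤ)) : precomp γ jprimeHol = denomHol γ ^ 2 * jprimeHol := by
  apply Subtype.ext
  funext z
  exact jprimeFun_smul γ z

theorem fh_smul (h : modularFunctionFieldBar N) (f : Hol)
    (hf : algebraMap Hol Mer f = phi N h * algebraMap Hol Mer jprimeHol)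
    (γ : SL(2, ℤ)) (hγ : γ ∈ Gamma0 N) (z : ℍ) :
    (f : ℍ → ℂ) (γ • z) = denom (Matrix.SpecialLinearGroup.mapGL ℝ γ) z ^ 2 * (f : ℍ → ℂ) z := by
  have h1 : algebraMap Hol Mer (precomp γ f) = algebraMap Hol Mer (denomHol γ ^ 2 * f) := by
    rw [← precompMer_algebraMap, hf, map_mul, precompMer_phi N γ hγ, precompMer_algebraMap,
      precomp_jprimeHol, map_mul, map_mul, hf]
    ring
  have h2 := IsFractionRing.injective Hol Mer h1
  exact congrArg (fun F : Hol => (F : ℍ → ℂ) z) h2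

end H24D

end
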