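import Fermat.Agent.RR.DictMain2

/-!
# T-RR [DICT] (helper24), assembly part 3: `f_h` vanishes at the cusps; the final inequality
-/

set_option autoImplicit false

noncomputable section

open UpperHalfPlane ModularForm WithZero Filter ModularCurve CongruenceSubgroup
open scoped MatrixGroups Manifold Topology Real

namespace H24D

open RH24 (Kbar Jbar iota jf jd Dv Jgen formalEval Dv_ne_zero)

variable (N : ℕ) [NeZero N]

theorem polyHolK_ne_zero (R : MvPolynomial (Dv N) Kbar)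
    (hR : MvPolynomial.aeval (fun d : Dv N => Jgen d) R ≠ 0) : polyHolK N R ≠ 0 := by
  intro h
  have h1 := phi_aeval N R
  rw [h, map_zero] at h1
  exact hR ((map_eq_zero_iff _ (phi_injective N)).mp h1)

theorem exists_polyFunAt_ne_zero (δ : SL(2, ℤ)) (R : MvPolynomial (Dv N) Kbar)
    (hR : MvPolynomial.aeval (fun d : Dv N => Jgen d) R ≠ 0) : ∃ z, polyFunAt N δ R z ≠ 0 := by
  have h1 := polyHolK_ne_zero N R hR
  have h2 : ∃ z', (polyHolK N R : ℍ → ℂ) z' ≠ 0 := by
    by_contra hcon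
    push Not at hcon
    exact h1 (Subtype.ext (funext hcon))
  obtain ⟨z', hz'⟩ := h2
  refine ⟨δ⁻¹ • z', ?_⟩
  rw [polyFunAt_smul, smul_inv_smul, ← polyHolK_apply]
  exact hz'

theorem polyFunAt_mul (δ : SL(2, ℤ)) (P Q : MvPolynomial (Dv N) Kbar) (z : ℍ) :
    polyFunAt N δ (P * Q) z = polyFunAt N δ P z * polyFunAt N δ Q z := by
  unfold polyFunAt
  exact MvPolynomial.eval₂_mul _ _

theorem polyFunAt_X_dOne (δ : SL(2, ℤ)) (z : ℍ) :
    polyFunAt N δ (MvPolynomial.X (dOne N)) z = jf z := by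
  unfold polyFunAt
  rw [MvPolynomial.eval₂_X]
  show jd 1 (δ • z) = jf z
  rw [jd_one, RH24.jf_smul]

theorem aeval_mul_X_dOne (P : MvPolynomial (Dv N) Kbar) :
    MvPolynomial.aeval (fun d : Dv N => Jgen d) (P * MvPolynomial.X (dOne N))
      = MvPolynomial.aeval (fun d : Dv N => Jgen d) P * Jbar N := by
  rw [map_mul, MvPolynomial.aeval_X, Jgen_dOne]

theorem fh_rel (h : modularFunctionFieldBar N) (f : Hol)
    (hf : algebraMap Hol Mer f = phi N h * algebraMap Hol Mer jprimeHol)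
    (P Q : MvPolynomial (Dv N) Kbar)
    (hQ : MvPolynomial.aeval (fun d : Dv N => Jgen d) Q ≠ 0)
    (hPQ : h = MvPolynomial.aeval (fun d : Dv N => Jgen d) P /
      MvPolynomial.aeval (fun d : Dv N => Jgen d) Q) (z : ℍ) :
    (f : ℍ → ℂ) z * polyFunAt N 1 Q z = polyFunAt N 1 P z * jprimeFun z := by
  have hQ' : algebraMap Hol Mer (polyHolK N Q) ≠ 0 := by
    rw [← phi_aeval]
    exact fun h0 => hQ ((map_eq_zero_iff _ (phi_injective N)).mp h0)
  have h1 : algebraMap Hol Mer (f * polyHolK N Q) = algebraMap Hol Mer (polyHolK N P * jprimeHol) := by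
    rw [map_mul, map_mul, hf, hPQ, map_div₀, phi_aeval, phi_aeval]
    field_simp
  have h2 := IsFractionRing.injective Hol Mer h1
  have h3 := congrArg (fun F : Hol => (F : ℍ → ℂ) z) h2
  simp only [Subring.coe_mul, Pi.mul_apply, polyHolK_apply, jprimeHol_apply] at h3
  exact h3

theorem fh_cusp (h : modularFunctionFieldBar N) (hh : H2E3.ValCond N h) (f : Hol)
    (hf : algebraMap Hol Mer f = phi N h * algebraMap Hol Mer jprimeHol) (δ : SL(2, ℤ)) :
    IsZeroAtImInfty ((f : ℍ → ℂ) ∣[(2 : ℤ)] δ) := by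
  by_cases h0 : h = 0
  · have hf0 : f = 0 := by
      apply IsFractionRing.injective Hol Mer
      rw [hf, h0, map_zero, zero_mul, map_zero]
    rw [hf0]
    have : ((0 : Hol) : ℍ → ℂ) ∣[(2 : ℤ)] δ = 0 := SlashAction.zero_slash _ _
    rw [this]
    exact Filter.zero_zeroAtFilter _
  obtain ⟨P, Q, hQ, hPQ⟩ := RH24.exists_frac N h
  have hP : MvPolynomial.aeval (fun d : Dv N => Jgen d) P ≠ 0 := by
    intro hP0
    rw [hP0, zero_div] at hPQ
    exact h0 hPQ
  have hJne : Jbar N ≠ 0 := by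
    intro hJ0
    have h1 := phi_Jbar N
    rw [hJ0, map_zero] at h1
    have h2 : jHol = 0 := IsFractionRing.injective Hol Mer (by rw [← h1, map_zero])
    have h3 := jHol_sub_const_ne_zero 0
    apply h3
    rw [h2, map_zero, sub_zero]
  have hPX : MvPolynomial.aeval (fun d : Dv N => Jgen d) (P * MvPolynomial.X (dOne N)) ≠ 0 := by
    rw [aeval_mul_X_dOne]
    exact mul_ne_zero hP hJne
  set X : ℍ → ℂ := polyFunAt N δ (P * MvPolynomial.X (dOne N)) with hXdef
  set Y : ℍ → ℂ := polyFunAt N δ Q with hYdef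
  have hX : X ∈ RH24.HolInf N := polyFunAt_mem_HolInf N δ _
  have hY : Y ∈ RH24.HolInf N := polyFunAt_mem_HolInf N δ _
  have hX0 : ∃ z, X z ≠ 0 := exists_polyFunAt_ne_zero N δ _ hPX
  have hY0 : ∃ z, Y z ≠ 0 := exists_polyFunAt_ne_zero N δ _ hQ
  have hG : MDiff ((f : ℍ → ℂ) ∣[(2 : ℤ)] δ) := by
    rw [ModularForm.SL_slash]
    exact f.2.slash 2 _
  have hrel : ∀ z, ((f : ℍ → ℂ) ∣[(2 : ℤ)] δ) z * Y z * jf z = X z * jprimeFun z := by
    intro z
    have h1 := fh_rel N h f hf P Q hQ hPQ (δ • z)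
    have h2 := jprimeFun_smul δ z
    have hd : denom (Matrix.SpecialLinearGroup.mapGL ℝ δ) z ≠ 0 := denom_ne_zero _ z
    rw [ModularForm.SL_slash_apply, hXdef, hYdef, polyFunAt_mul, polyFunAt_X_dOne,
      polyFunAt_smul N δ Q, polyFunAt_smul N δ P]
    rw [h2] at h1
    have h3 : (f : ℍ → ℂ) (δ • z) * denom (δ : GL (Fin 2) ℝ) z ^ (-(2 : ℤ)) * polyFunAt N 1 Q (δ • z)
        = polyFunAt N 1 P (δ • z) * jprimeFun z := by
      have hd' : denom (δ : GL (Fin 2) ℝ) z ≠ 0 := hd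
      have e1 : denom (δ : GL (Fin 2) ℝ) z ^ (-(2 : ℤ)) = (denom (δ : GL (Fin 2) ℝ) z ^ 2)⁻¹ := by
        rw [zpow_neg]; norm_cast
      rw [e1]
      have h1' : (f : ℍ → ℂ) (δ • z) * polyFunAt N 1 Q (δ • z)
          = polyFunAt N 1 P (δ • z) * (denom (δ : GL (Fin 2) ℝ) z ^ 2 * jprimeFun z) := h1
      field_simp
      linear_combination h1'
    linear_combination jf z * h3
  have hord : RH24.ordInf N Y < RH24.ordInf N X := by
    obtain ⟨w, hwc, hwJ, hwform⟩ := exists_wInf N δ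
    have hwc' : ∀ c : Kbar, w (algebraMap Kbar _ c) ≤ 1 := by
      intro c
      by_cases hc : c = 0
      · rw [hc, map_zero, map_zero]; exact zero_le_one
      · exact (hwc c hc).le
    have hv := (hh w hwc').2 hwJ
    have e1 : h * Jbar N = MvPolynomial.aeval (fun d : Dv N => Jgen d)
        (P * MvPolynomial.X (dOne N)) / MvPolynomial.aeval (fun d : Dv N => Jgen d) Q := by
      rw [aeval_mul_X_dOne, hPQ]
      ring
    rw [e1, hwform _ _ hPX hQ, ← WithZero.exp_zero, WithZero.exp_lt_exp] at hv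
    have hXt := RH24.ordInf_ne_top N X hX.1 hX.2.1 hX.2.2 hX0
    have hYt := RH24.ordInf_ne_top N Y hY.1 hY.2.1 hY.2.2 hY0
    have hXc : ((RH24.ordInf N X).untop₀ : WithTop ℤ) = RH24.ordInf N X :=
      WithTop.coe_untop₀_of_ne_top hXt
    have hYc : ((RH24.ordInf N Y).untop₀ : WithTop ℤ) = RH24.ordInf N Y :=
      WithTop.coe_untop₀_of_ne_top hYt
    rw [← hXc, ← hYc, WithTop.coe_lt_coe]
    simp only [hXdef, hYdef]
    omega
  exact isZeroAtImInfty_of_ordInf_lt N X Y _ hX hY hY0 hG hrel hord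

/-- the cusp form attached to `h` -/
theorem exists_cuspForm_of_valCond (h : modularFunctionFieldBar N) (hh : H2E3.ValCond N h) :
    ∃ F : CuspForm (Gamma0 N) 2, ∃ f : Hol, (F : ℍ → ℂ) = (f : ℍ → ℂ) ∧
      algebraMap Hol Mer f = phi N h * algebraMap Hol Mer jprimeHol := by
  obtain ⟨f, hf⟩ := exists_fh N h hh
  obtain ⟨F, hF⟩ := exists_cuspForm N (f : ℍ → ℂ) f.2 (fun γ hγ z => fh_smul N h f hf γ hγ z)
    (fun δ => fh_cusp N h hh f hf δ)
  exact ⟨F, f, hF, hf⟩

end H24D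

end
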