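import Fermat.Agent.RR.DictMain3

/-!
# T-RR [DICT] (helper24), assembly part 4: `H24D.dict N : H2E3.DictStatement N`
-/

set_option autoImplicit false
set_option linter.style.haveILetI false
set_option linter.unusedSectionVars false

noncomputable section

open UpperHalfPlane ModularForm WithZero Filter ModularCurve CongruenceSubgroup
open scoped MatrixGroups Manifold Topology Real

namespace H24D

open RH24 (Kbar Jbar iota jf jd Dv Jgen formalEval Dv_ne_zero)

variable (N : ℕ) [NeZero N]

theorem coe_sum_smul_cuspForm {m : ℕ} (c : Fin m → ℂ) (F : Fin m → CuspForm (Gamma0 N) 2)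
    (z : ℍ) : (∑ i, c i • F i : CuspForm (Gamma0 N) 2) z = ∑ i, c i * F i z := by
  have h : ∀ s : Finset (Fin m),
      (∑ i ∈ s, c i • F i : CuspForm (Gamma0 N) 2) z = ∑ i ∈ s, c i * F i z := by
    intro s
    induction s using Finset.induction_on with
    | empty => simp
    | insert a s ha ih =>
      rw [Finset.sum_insert ha, Finset.sum_insert ha, add_apply, ih]
      rfl
  exact h Finset.univ

set_option synthInstance.maxHeartbeats 400000 in
/-- **DICT** -/
theorem dict : H2E3.DictStatement N := by
  intro W hfin hW
  haveI := hfin
  haveI : Module.Finite ℂ (CuspForm (Gamma0 N) 2) := H21E1.finite_cuspForm N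
  set m := Module.finrank Kbar W with hm
  let b : Module.Basis (Fin m) Kbar W := Module.finBasis Kbar W
  have hb : LinearIndependent Kbar (fun i => ((b i : W) : modularFunctionFieldBar N)) := by
    have := b.linearIndependent
    exact this.map' W.subtype (Submodule.ker_subtype W)
  have hex : ∀ i : Fin m, ∃ F : CuspForm (Gamma0 N) 2, ∃ f : Hol,
      (F : ℍ → ℂ) = (f : ℍ → ℂ) ∧
      algebraMap Hol Mer f = phi N ((b i : W) : modularFunctionFieldBar N)
        * algebraMap Hol Mer jprimeHol :=
    fun i => exists_cuspForm_of_valCond N _ (hW _ (b i).2)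
  choose F f hFf hf using hex
  have hli : LinearIndependent ℂ F := by
    rw [Fintype.linearIndependent_iff]
    intro c hc
    have h1 : ∀ z : ℍ, ∑ i, c i * (f i : ℍ → ℂ) z = 0 := by
      intro z
      have := congrArg (fun G : CuspForm (Gamma0 N) 2 => G z) hc
      simp only [coe_sum_smul_cuspForm] at this
      rw [← this.trans (zero_apply z)] 
      refine Finset.sum_congr rfl (fun i _ => ?_)
      rw [← hFf i]
    have h2 : ∑ i, constHol (c i) * f i = 0 := by
      apply Subtype.ext
      funext z
      have e : ((∑ i, constHol (c i) * f i : Hol) : ℍ → ℂ) z = ∑ i, c i * (f i : ℍ → ℂ) z := by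
        have := map_sum (evalAt z) (fun i => constHol (c i) * f i) Finset.univ
        rw [evalAt_apply] at this
        rw [this]
        rfl
      rw [e, h1 z]
      rfl
    have h3 : (∑ i, constMer (c i) * phi N ((b i : W) : modularFunctionFieldBar N))
        * algebraMap Hol Mer jprimeHol = 0 := by
      have := congrArg (algebraMap Hol Mer) h2
      rw [map_sum, map_zero] at this
      rw [Finset.sum_mul, ← this]
      refine Finset.sum_congr rfl (fun i _ => ?_)
      rw [map_mul, hf i, constMer_apply]
      ring
    have h4 : ∑ i, constMer (c i) * phi N ((b i : W) : modularFunctionFieldBar N) = 0 := by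
      rcases mul_eq_zero.mp h3 with h | h
      · exact h
      · exact absurd ((map_eq_zero_iff _ (IsFractionRing.injective Hol Mer)).mp h)
          jprimeHol_ne_zero
    have h5 := H2E3.linearIndependent_real N constMer (fun d => jdMer d)
      (eval₂_constMer_eq_zero_iff N) (phi N) (phi_Jgen N) (phi_const N) _ hb c h4
    intro i
    rw [h5]
    rfl
  have := hli.fintype_card_le_finrank
  simpa using this

end H24D

end
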