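import Fermat.Agent.RR.DictAct
import Fermat.Agent.S24.BA12
import Fermat.Agent.S24.BJ12
import Fermat.Agent.S24.BJ3

/-!
# T-RR [DICT] (helper24): the realisation `phi N : F →+* Mer` of the function field
`F = modularFunctionFieldBar N` inside the field `Mer = Frac (Hol)` of meromorphic functions,
`Jgen d ↦ (z ↦ j (d z))`, `c ↦ iota c`; invariance under `Γ₀(N)`; the valuations `wFin N z₀`.
-/

set_option autoImplicit false

noncomputable section

open UpperHalfPlane ModularForm WithZero Filter ModularCurve CongruenceSubgroup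
open scoped MatrixGroups Manifold Topology

namespace H24D

open RH24 (Kbar Jbar iota jf jd Dv Jgen formalEval Dv_ne_zero)

/-- constant functions -/
def constHol : ℂ →+* Hol where
  toFun c := ⟨fun _ => c, mdifferentiable_const⟩
  map_one' := rfl
  map_mul' _ _ := rfl
  map_zero' := rfl
  map_add' _ _ := rfl

@[simp] theorem constHol_apply (c : ℂ) (z : ℍ) : (constHol c : ℍ → ℂ) z = c := rfl

/-- constants in `Mer` -/
def constMer : ℂ →+* Mer := (algebraMap Hol Mer).comp constHol

theorem constMer_apply (c : ℂ) : constMer c = algebraMap Hol Mer (constHol c) := rfl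

/-- evaluation at a point -/
def evalAt (z : ℍ) : Hol →+* ℂ where
  toFun f := (f : ℍ → ℂ) z
  map_one' := rfl
  map_mul' _ _ := rfl
  map_zero' := rfl
  map_add' _ _ := rfl

@[simp] theorem evalAt_apply (z : ℍ) (f : Hol) : evalAt z f = (f : ℍ → ℂ) z := rfl

/-- `j` as an element of `Hol` -/
def jHol : Hol := ⟨jf, RH24.mdiff_jf⟩

@[simp] theorem jHol_apply (z : ℍ) : (jHol : ℍ → ℂ) z = jf z := rfl

/-- `z ↦ j (d z)` as an element of `Hol` -/
def jdHol {N : ℕ} [NeZero N] (d : Dv N) : Hol :=
  ⟨jd d.1, haveI : NeZero d.1 := ⟨Dv_ne_zero d⟩; RH24.mdiff_jd d.1⟩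

@[simp] theorem jdHol_apply {N : ℕ} [NeZero N] (d : Dv N) (z : ℍ) :
    (jdHol d : ℍ → ℂ) z = jd d.1 z := rfl

/-- `z ↦ j (d z)` as an element of `Mer` -/
def jdMer {N : ℕ} [NeZero N] (d : Dv N) : Mer := algebraMap Hol Mer (jdHol d)

variable (N : ℕ) [NeZero N]

/-- polynomial in the `j (d z)` as an element of `Hol` -/
def polyHol (P : MvPolynomial (Dv N) ℂ) : Hol := MvPolynomial.eval₂ constHol (fun d => jdHol d) P

theorem polyHol_apply (P : MvPolynomial (Dv N) ℂ) (z : ℍ) :
    (polyHol N P : ℍ → ℂ) z = MvPolynomial.eval (fun d : Dv N => jd d.1 z) P := by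
  have h := MvPolynomial.eval₂_comp_left (evalAt z) constHol (fun d : Dv N => jdHol d) P
  rw [evalAt_apply] at h
  unfold polyHol
  rw [h]
  rfl

theorem eval₂_constMer (P : MvPolynomial (Dv N) ℂ) :
    MvPolynomial.eval₂ constMer (fun d : Dv N => jdMer d) P = algebraMap Hol Mer (polyHol N P) := by
  have h := MvPolynomial.eval₂_comp_left (algebraMap Hol Mer) constHol (fun d : Dv N => jdHol d) P
  unfold polyHol
  rw [h]
  rfl

theorem eval₂_constMer_eq_zero_iff (P : MvPolynomial (Dv N) ℂ) :
    formalEval N P = 0 ↔ MvPolynomial.eval₂ constMer (fun d : Dv N => jdMer d) P = 0 := by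
  rw [RH24.qexp_principle, eval₂_constMer, map_eq_zero_iff _ (IsFractionRing.injective Hol Mer)]
  constructor
  · intro h
    apply Subtype.ext
    funext z
    rw [polyHol_apply]
    exact h z
  · intro h z
    rw [← polyHol_apply, h]
    rfl

theorem exists_phi : ∃ φ : modularFunctionFieldBar N →+* Mer,
    (∀ d, φ (Jgen d) = jdMer d) ∧ ∀ c : Kbar, φ (algebraMap Kbar _ c) = constMer (iota c) :=
  RH24.exists_real N constMer (fun d => jdMer d) (eval₂_constMer_eq_zero_iff N)

/-- the realisation of the function field in `Mer` -/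
def phi : modularFunctionFieldBar N →+* Mer := Classical.choose (exists_phi N)

theorem phi_Jgen (d : Dv N) : phi N (Jgen d) = jdMer d := (Classical.choose_spec (exists_phi N)).1 d

theorem phi_const (c : Kbar) : phi N (algebraMap Kbar _ c) = constMer (iota c) :=
  (Classical.choose_spec (exists_phi N)).2 c

theorem phi_injective : Function.Injective (phi N) := (phi N).injective

end H24D

end
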