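/-
T-RR E3, slice COUNT-num (helper2): the numeric count.

From the T-RH contract (local data at `J = 0, 1728, ∞` and at the generic points), the lower
bounds of the relative indices `[B* : B]`, `[B∞* : B∞]` by the ramification over the places
(`hfin`, `hinf`: helper27 / helper1, slice L6) and the Riemann-Roch identity `hRR` (`RRalg.rr_alg`),
the number `g' = h¹(B, B∞)` is at least `genusFormula N`.
-/
import Mathlib
import Fermat.Agent.S24.Contract
import Fermat.Agent.S24.A2
import Fermat.Agent.S24.A4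
import Fermat.Agent.S24.A4Final
import Fermat.Agent.S24.A5
import Fermat.Agent.S24.BDegree
import Fermat.Agent.S24.BDegreeFinal
import Fermat.Agent.S24.C1
import Fermat.Agent.S24.C2
import Fermat.Agent.S24.C3

set_option autoImplicit false
set_option linter.style.haveILetI false

noncomputable section

open UpperHalfPlane ModularForm MatrixGroups CongruenceSubgroup AlgebraicCurve IntermediateField

namespace H2E3

open RH24

section Abstract

variable {K F : Type*} [Field K] [IsAlgClosed K] [CharZero K] [Field F] [Algebra K F]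

/-- the number of places over `y = a`, from the local data -/
theorem h2e3_card_fibre (y : F) (hy : Transcendental K y) [FiniteDimensional K⟮y⟯ F]
    {X : Type*} [Finite X] (hdeg : Module.finrank K⟮y⟯ F ≤ Nat.card X) (a : K) (r : Setoid X)
    (L : HasLocalData K (y - algebraMap K F a) r) :
    Nat.card {v : Place K F // 0 < v.ord (y - algebraMap K F a)} = Nat.card (Quotient r) := by
  have hz := h5a_transcendental_sub_const y hy a
  haveI hfd : FiniteDimensional K⟮y - algebraMap K F a⟯ F := by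
    rw [h5a_adjoin_sub_const]; infer_instance
  have hn : Module.finrank K⟮y - algebraMap K F a⟯ F = Module.finrank K⟮y⟯ F := by
    rw [h5a_adjoin_sub_const]
  exact card_places_over _ hz (by rw [hn]; exact hdeg) r L

/-- the number of places over `y = ∞`, from the local data -/
theorem h2e3_card_pole (y : F) (hy : Transcendental K y) [FiniteDimensional K⟮y⟯ F]
    {X : Type*} [Finite X] (hdeg : Module.finrank K⟮y⟯ F ≤ Nat.card X) (r : Setoid X)
    (L : HasLocalData K y⁻¹ r) :
    Nat.card {v : Place K F // 0 < v.ord y⁻¹} = Nat.card (Quotient r) := by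
  have hz := h5a_transcendental_inv y hy
  haveI hfd : FiniteDimensional K⟮y⁻¹⟯ F := by
    rw [h5a_adjoin_inv]; infer_instance
  have hn : Module.finrank K⟮y⁻¹⟯ F = Module.finrank K⟮y⟯ F := by
    rw [h5a_adjoin_inv]
  exact card_places_over _ hz (by rw [hn]; exact hdeg) r L

/-- one unramified fibre forces `[F : K(y)] = #X` -/
theorem h2e3_finrank_eq_card (y : F) (hy : Transcendental K y) [FiniteDimensional K⟮y⟯ F]
    {X : Type*} [Finite X] (hdeg : Module.finrank K⟮y⟯ F ≤ Nat.card X) (a : K)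
    (L : HasLocalData K (y - algebraMap K F a) (⊥ : Setoid X)) :
    Module.finrank K⟮y⟯ F = Nat.card X := by
  obtain ⟨Z, hZ1, hZ2, hZ3⟩ := h5a_fibre_data (h5a_A1_holds y hy) y hy (h5a_A5_holds X) hdeg a _ L
  rw [h5a_card_quotient_bot] at hZ3
  have hpos : ∀ v ∈ Z, (1 : ℤ) ≤ v.ord (y - algebraMap K F a) := fun v hv => (hZ1 v).mp hv
  have h1 : (Z.card : ℤ) ≤ ∑ v ∈ Z, v.ord (y - algebraMap K F a) := by
    have := Finset.sum_le_sum hpos
    simpa using this
  rw [hZ2, hZ3] at h1
  have h2 : Nat.card X ≤ Module.finrank K⟮y⟯ F := by exact_mod_cast h1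
  exact le_antisymm hdeg h2

/-- **COUNT-num, abstract form.** -/
theorem h2e3_count_abstract (y : F) (hy : Transcendental K y) [FiniteDimensional K⟮y⟯ F]
    {X : Type*} [Finite X] (hdeg : Module.finrank K⟮y⟯ F ≤ Nat.card X)
    (a₁ a₂ a₃ : K) (h12 : a₁ ≠ a₂) (r₁ r₂ r₃ : Setoid X)
    (L₁ : HasLocalData K (y - algebraMap K F a₁) r₁)
    (L₂ : HasLocalData K (y - algebraMap K F a₂) r₂)
    (L₃ : HasLocalData K y⁻¹ r₃)
    (Lgen : HasLocalData K (y - algebraMap K F a₃) (⊥ : Setoid X))
    (Rfin Rinf : ℤ) (g' : ℕ)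
    (hfin : ∀ S : Finset K, ∑ a ∈ S, ((Module.finrank K⟮y⟯ F : ℤ)
        - Nat.card {v : Place K F // 0 < v.ord (y - algebraMap K F a)}) ≤ Rfin)
    (hinf : (Module.finrank K⟮y⟯ F : ℤ) - Nat.card {v : Place K F // 0 < v.ord y⁻¹} ≤ Rinf)
    (hRR : 2 * (g' : ℤ) - 2 = Rfin + Rinf - 2 * (Module.finrank K⟮y⟯ F : ℤ)) :
    (Nat.card X : ℤ) - Nat.card (Quotient r₁) - Nat.card (Quotient r₂) - Nat.card (Quotient r₃)
      ≤ 2 * (g' : ℤ) - 2 := by
  classical
  have hn := h2e3_finrank_eq_card y hy hdeg a₃ Lgen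
  have c1 := h2e3_card_fibre y hy hdeg a₁ r₁ L₁
  have c2 := h2e3_card_fibre y hy hdeg a₂ r₂ L₂
  have c3 := h2e3_card_pole y hy hdeg r₃ L₃
  have hS := hfin {a₁, a₂}
  rw [Finset.sum_pair h12, c1, c2, hn] at hS
  rw [c3, hn] at hinf
  rw [hn] at hRR
  linarith

end Abstract

/-- **COUNT-num**, conditional on the four local statements of the T-RH contract. -/
theorem count_num_of_local (N : ℕ) [NeZero N]
    (Lgen : ∀ a : Kbar, a ≠ 0 → a ≠ 1728 →
      HasLocalData Kbar (Jbar N - algebraMap Kbar (ModularCurve.modularFunctionFieldBar N) a)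
        (⊥ : Setoid (SL(2, ℤ) ⧸ Gamma0 N)))
    (L0 : HasLocalData Kbar
      (Jbar N - algebraMap Kbar (ModularCurve.modularFunctionFieldBar N) 0)
      (MulAction.orbitRel (Subgroup.zpowers (ModularGroup.S * ModularGroup.T))
        (SL(2, ℤ) ⧸ Gamma0 N)))
    (L1728 : HasLocalData Kbar
      (Jbar N - algebraMap Kbar (ModularCurve.modularFunctionFieldBar N) 1728)
      (MulAction.orbitRel (Subgroup.zpowers ModularGroup.S) (SL(2, ℤ) ⧸ Gamma0 N)))
    (Linf : HasLocalData Kbar (Jbar N)⁻¹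
      (MulAction.orbitRel (Subgroup.zpowers ModularGroup.T) (SL(2, ℤ) ⧸ Gamma0 N)))
    (Rfin Rinf : ℤ) (g' : ℕ)
    (hfin : ∀ S : Finset Kbar, ∑ a ∈ S,
      ((Module.finrank Kbar⟮Jbar N⟯ (ModularCurve.modularFunctionFieldBar N) : ℤ)
        - Nat.card {v : Place Kbar (ModularCurve.modularFunctionFieldBar N) //
            0 < v.ord (Jbar N - algebraMap Kbar (ModularCurve.modularFunctionFieldBar N) a)})
        ≤ Rfin)
    (hinf : (Module.finrank Kbar⟮Jbar N⟯ (ModularCurve.modularFunctionFieldBar N) : ℤ)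
        - Nat.card {v : Place Kbar (ModularCurve.modularFunctionFieldBar N) //
            0 < v.ord (Jbar N)⁻¹} ≤ Rinf)
    (hRR : 2 * (g' : ℤ) - 2 = Rfin + Rinf
        - 2 * (Module.finrank Kbar⟮Jbar N⟯ (ModularCurve.modularFunctionFieldBar N) : ℤ)) :
    ModularCurve.genusFormula N ≤ (g' : ℚ) := by
  obtain ⟨hfd, hdeg⟩ := B_degree N
  haveI := hfd
  have h01 : (0 : Kbar) ≠ 1728 := by norm_num
  have key := h2e3_count_abstract (Jbar N) (B_transcendental N) hdeg 0 1728 1 h01 _ _ _
    L0 L1728 Linf (Lgen 1 one_ne_zero (by norm_num)) Rfin Rinf g' hfin hinf hRR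
  have c1 := card_cosets N
  have c2 := two_mul_card_orbits_S N
  have c3 := three_mul_card_orbits_ST N
  have c4 := card_orbits_T N
  change 2 * Nat.card (Quotient (MulAction.orbitRel (Subgroup.zpowers ModularGroup.S)
    (SL(2, ℤ) ⧸ Gamma0 N))) = _ at c2
  change 3 * Nat.card (Quotient (MulAction.orbitRel
    (Subgroup.zpowers (ModularGroup.S * ModularGroup.T)) (SL(2, ℤ) ⧸ Gamma0 N))) = _ at c3
  change Nat.card (Quotient (MulAction.orbitRel (Subgroup.zpowers ModularGroup.T)
    (SL(2, ℤ) ⧸ Gamma0 N))) = _ at c4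
  rw [c1, c4] at key
  set oS := Nat.card (Quotient (MulAction.orbitRel (Subgroup.zpowers ModularGroup.S)
      (SL(2, ℤ) ⧸ Gamma0 N))) with hoS
  set oU := Nat.card (Quotient (MulAction.orbitRel
      (Subgroup.zpowers (ModularGroup.S * ModularGroup.T)) (SL(2, ℤ) ⧸ Gamma0 N))) with hoU
  have keyQ : (ModularCurve.dedekindPsi N : ℚ) - oU - oS - ModularCurve.cuspCount N
      ≤ 2 * (g' : ℚ) - 2 := by exact_mod_cast key
  have c2Q : (2 : ℚ) * oS = ModularCurve.dedekindPsi N + ModularCurve.nuTwo N := by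
    exact_mod_cast c2
  have c3Q : (3 : ℚ) * oU = ModularCurve.dedekindPsi N + 2 * ModularCurve.nuThree N := by
    exact_mod_cast c3
  rw [ModularCurve.genusFormula]
  linarith

end H2E3

end
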