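/-
T-RR E3, slice COUNT-num (helper2), unconditional form: `H2E3.count_num`.
-/
import Fermat.Agent.RR.E3Count
import Fermat.Agent.S24.BLocalGen
import Fermat.Agent.S24.BLocalEll
import Fermat.Agent.S24.BLocalInf

set_option autoImplicit false

noncomputable section

open UpperHalfPlane ModularForm MatrixGroups CongruenceSubgroup AlgebraicCurve IntermediateField

namespace H2E3

open RH24

/-- **COUNT-num.** With `n = [F : ℚ̄(J)]`, if `Rfin`, `Rinf` bound the ramification over the
finite points resp. over `∞` from above and `2 g' - 2 = Rfin + Rinf - 2 n`, then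
`genusFormula N ≤ g'`. -/
theorem count_num (N : ℕ) [NeZero N] (Rfin Rinf : ℤ) (g' : ℕ)
    (hfin : ∀ S : Finset Kbar, ∑ a ∈ S,
      ((Module.finrank Kbar⟮Jbar N⟯ (ModularCurve.modularFunctionFieldBar N) : ℤ)
        - Nat.card {v : Place Kbar (ModularCurve.modularFunctionFieldBar N) //
            0 < v.ord (Jbar N - algebraMap Kbar (ModularCurve.modularFunctionFieldBar N) a)})
        ≤ Rfin)
    (hinf : (Module.finrank Kbar⟮Jbar N⟯ (ModularCurve.modularFunctionFieldBar N) : ℤ)
        - Nat.card {v : Place Kbar (ModularCurve.modularFunctionFieldBar N) //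
            0 < v.ord (Jbar N)⁻¹} ≤ Rinf)
    (hRR : 2 * (g' : ℤ) - 2 = Rfin + Rinf
        - 2 * (Module.finrank Kbar⟮Jbar N⟯ (ModularCurve.modularFunctionFieldBar N) : ℤ)) :
    ModularCurve.genusFormula N ≤ (g' : ℚ) :=
  count_num_of_local N (B_local_generic N) (B_local_zero N) (B_local_1728 N) (B_local_infty N)
    Rfin Rinf g' hfin hinf hRR

end H2E3

end
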