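/-
T-RR E3 (helper2): assembly of `H2E3.BridgeStatement N` (backup twin of helper24's
RR/BridgeFinal.lean) from `RRalg.rr_alg`, VAL (`valCond_fin`, `valCond_inf`), COUNT-local
(`H27L6.h27_count_fin`, `RRalg.h1i_count_inf`) and COUNT-num (`H2E3.count_num`).
-/
import Mathlib
import Fermat.Agent.RR.E3Defs
import Fermat.Agent.RR.E3CountFinal
import Fermat.Agent.RR.Field
import Fermat.Agent.RR.Bridge
import Fermat.Agent.RR.L6ValFin
import Fermat.Agent.RR.L6ValInf
import Fermat.Agent.RR.L6FinCount
import Fermat.Agent.RR.L6InfC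

set_option autoImplicit false
set_option linter.style.haveILetI false
set_option linter.unusedSectionVars false
set_option synthInstance.maxHeartbeats 400000
set_option maxHeartbeats 1000000

noncomputable section

open Polynomial IntermediateField AlgebraicCurve
open scoped WithZero

namespace H2E3

open RH24 RRalg

/-- abstract form: in the setting of `RR/Field.lean` the space `W = Bfin* ∩ X⁻² Binf*` is
finite-dimensional of dimension `g' = h¹(B, B∞)`, its elements satisfy both halves of `ValCond`
(for `y = yGen k F`), and `2 g' - 2 ≥` the ramification count. -/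
theorem h2e3_bridge_abstract (k : Type*) [Field k] [IsAlgClosed k] [CharZero k] (F : Type*)
    [Field F] [Algebra (RatFunc k) F] [Algebra k F] [IsScalarTower k (RatFunc k) F]
    [Algebra k[X] F] [IsScalarTower k[X] (RatFunc k) F] [IsScalarTower k k[X] F]
    [FiniteDimensional (RatFunc k) F] [Algebra.IsSeparable (RatFunc k) F] :
    ∃ (W : Submodule k F) (g' : ℕ) (Rfin Rinf : ℤ), FiniteDimensional k W ∧
      Module.finrank k W = g' ∧
      (∀ h ∈ W, ∀ w : Valuation F ℤᵐ⁰, (∀ c : k, w (algebraMap k F c) ≤ 1) →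
        (∀ a : k, w (yGen k F - algebraMap k F a) < 1 →
          w (h * (yGen k F - algebraMap k F a)) < 1) ∧
        (1 < w (yGen k F) → w (h * yGen k F) < 1)) ∧
      (∀ S : Finset k, ∑ a ∈ S, ((Module.finrank (RatFunc k) F : ℤ)
        - Nat.card {v : Place k F // 0 < v.ord (yGen k F - algebraMap k F a)}) ≤ Rfin) ∧
      ((Module.finrank (RatFunc k) F : ℤ)
        - Nat.card {v : Place k F // 0 < v.ord (yGen k F)⁻¹} ≤ Rinf) ∧
      2 * (g' : ℤ) - 2 = Rfin + Rinf - 2 * (Module.finrank (RatFunc k) F : ℤ) := by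
  obtain ⟨h1eq, h2eq⟩ := rr_alg (k := k) (F := F)
  have hfp := finPair_dual (Algebra.traceForm (RatFunc k) F)
    (traceForm_nondegenerate (RatFunc k) F) (Bfin k F) (Binf k F)
  refine ⟨_, _, _, _, hfp.1, h1eq, ?_, fun S => H27L6.h27_count_fin k F S, h1i_count_inf k F,
    h2eq⟩
  intro h hh w hw
  rw [Submodule.mem_inf, Submodule.restrictScalars_mem, Submodule.restrictScalars_mem] at hh
  exact ⟨fun a ha => valCond_fin h hh.1 w hw a ha, fun hy => valCond_inf h hh.2 w hw hy⟩

/-- **BRIDGE.** -/
theorem h2e3_bridge (N : ℕ) [NeZero N] : BridgeStatement N := by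
  obtain ⟨hfd, hdeg⟩ := B_degree N
  haveI := hfd
  have hy := B_transcendental N
  letI := bridgePolyAlgebra (K := Kbar) (Jbar N)
  letI := bridgeRatAlgebra (Jbar N) hy
  haveI := bridge_tower_K_rat (Jbar N) hy
  haveI := bridge_tower_K_poly (K := Kbar) (Jbar N)
  haveI := bridge_tower_poly_rat (Jbar N) hy
  haveI : FiniteDimensional (RatFunc Kbar) (ModularCurve.modularFunctionFieldBar N) :=
    bridge_finiteDimensional (Jbar N) hy
  haveI : Algebra.IsSeparable (RatFunc Kbar) (ModularCurve.modularFunctionFieldBar N) :=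
    inferInstance
  have hyg : yGen Kbar (ModularCurve.modularFunctionFieldBar N) = Jbar N := bridge_yGen (Jbar N) hy
  have hn : Module.finrank (RatFunc Kbar) (ModularCurve.modularFunctionFieldBar N)
      = Module.finrank Kbar⟮Jbar N⟯ (ModularCurve.modularFunctionFieldBar N) :=
    bridge_finrank (Jbar N) hy
  obtain ⟨W, g', Rfin, Rinf, hWfin, hWrank, hval, hfin, hinf, hRR⟩ :=
    h2e3_bridge_abstract Kbar (ModularCurve.modularFunctionFieldBar N)
  rw [hyg] at hval hfin hinf
  rw [hn] at hfin hinf hRR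
  refine ⟨W, hWfin, ?_, ?_⟩
  · intro h hh w hw
    exact hval h hh w hw
  · rw [hWrank]
    exact count_num N Rfin Rinf g' hfin hinf hRR

end H2E3

end
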