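/-
T-RR E3 (helper2): the two forms of `ValCond` (`H2E3.ValCond`, hypothesis `w c ≤ 1`, and
`H24D.ValCond`, hypothesis `w c = 1` for `c ≠ 0`) are equivalent.
-/
import Fermat.Agent.RR.DictDefs
import Fermat.Agent.RR.E3Defs

set_option autoImplicit false

noncomputable section

open scoped WithZero

namespace H2E3

open RH24

theorem h2e3_triv_iff (N : ℕ) [NeZero N]
    (w : Valuation (ModularCurve.modularFunctionFieldBar N) ℤᵐ⁰) :
    (∀ c : Kbar, w (algebraMap Kbar (ModularCurve.modularFunctionFieldBar N) c) ≤ 1) ↔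
      (∀ c : Kbar, c ≠ 0 → w (algebraMap Kbar (ModularCurve.modularFunctionFieldBar N) c) = 1) := by
  constructor
  · intro h c hc
    refine le_antisymm (h c) ?_
    have h1 := h c⁻¹
    rw [map_inv₀, map_inv₀] at h1
    have hne : w (algebraMap Kbar (ModularCurve.modularFunctionFieldBar N) c) ≠ 0 := by
      rw [Valuation.ne_zero_iff]
      exact (map_ne_zero _).mpr hc
    exact (inv_le_one₀ (zero_lt_iff.mpr hne)).mp h1
  · intro h c
    rcases eq_or_ne c 0 with rfl | hc
    · rw [map_zero, map_zero]
      exact zero_le_one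
    · exact (h c hc).le

theorem valCond_iff (N : ℕ) [NeZero N] (h : ModularCurve.modularFunctionFieldBar N) :
    H2E3.ValCond N h ↔ H24D.ValCond N h := by
  constructor
  · intro H w hw
    exact H w ((h2e3_triv_iff N w).mpr hw)
  · intro H w hw
    exact H w ((h2e3_triv_iff N w).mp hw)

end H2E3

end
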