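/-
T-RR / item 75 (helper27): CHARACTERISTIC-FREE version of L6.

`k` algebraically closed of ANY characteristic, `A` a Dedekind `k`-algebra all of whose residue
fields are `k`, `L / K = Frac A` finite separable, `B` the integral closure of `A` in `L`:

* `h27f_hres`                 : the residue fields of `B` are `k`;
* `h27f_relIndex_traceDual`   : `relIndex (B^*) B = number of prime factors of the different`;
* `h27f_le_count_different`   : `e_P - 1 ≤` exponent of `P` in the different;
* `h27f_count_different_tame` : equality if `e_P` is prime to the characteristic.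
(`h27_mem_traceDual_iff` of `L6Main.lean` is already characteristic-free.)
-/
import Mathlib
import Fermat.Agent.RR.L6Main

set_option autoImplicit false
set_option linter.unusedSectionVars false

namespace H27L6

open Module Algebra nonZeroDivisors UniqueFactorizationMonoid IsDedekindDomain

attribute [local instance] FractionRing.liftAlgebra FractionRing.isScalarTower_liftAlgebra

section Tame

variable (k : Type*) [Field k] (A : Type*) {B : Type*} [CommRing A] [CommRing B] [Algebra A B]
  [IsDedekindDomain A] [IsDedekindDomain B] [IsTorsionFree A B] [Module.Finite A B]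
  [Algebra k A] [Algebra k B] [IsScalarTower k A B]

/-- If `p B = P * Q` with `P`, `Q` coprime, the residue field of `p` is `k` and `dim_k B ⧸ P` is
nonzero in `k`, then `P` does not divide the different. -/
theorem h27f_not_dvd_differentIdeal_of_tame
    [Algebra.IsSeparable (FractionRing A) (FractionRing B)]
    {p : Ideal A} [p.IsMaximal] (hk : Function.Surjective (algebraMap k (A ⧸ p)))
    (P Q : Ideal B) (hPtop : P ≠ ⊤)
    (hPQ : IsCoprime P Q) (hP : P * Q = Ideal.map (algebraMap A B) p)
    (hne : ((finrank k (B ⧸ P) : ℕ) : k) ≠ 0) :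
    ¬ P ∣ differentIdeal A B := by
  let : Field (A ⧸ p) := Ideal.Quotient.field p
  let : Algebra (A ⧸ p) (B ⧸ Q) := Ideal.Quotient.algebraQuotientOfLEComap (by
      rw [← Ideal.map_le_iff_le_comap, ← hP]
      exact Ideal.mul_le_right)
  let : Algebra (A ⧸ p) (B ⧸ P) := Ideal.Quotient.algebraQuotientOfLEComap (by
      rw [← Ideal.map_le_iff_le_comap, ← hP]
      exact Ideal.mul_le_left)
  have : IsScalarTower A (A ⧸ p) (B ⧸ Q) := .of_algebraMap_eq' rfl
  have : IsScalarTower A (A ⧸ p) (B ⧸ P) := .of_algebraMap_eq' rfl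
  have : Module.Finite (A ⧸ p) (B ⧸ Q) :=
    Module.Finite.of_restrictScalars_finite A (A ⧸ p) (B ⧸ Q)
  have : Module.Finite (A ⧸ p) (B ⧸ P) :=
    Module.Finite.of_restrictScalars_finite A (A ⧸ p) (B ⧸ P)
  have : Nontrivial (B ⧸ P) := Ideal.Quotient.nontrivial_iff.mpr hPtop
  have hbij : Function.Bijective (algebraMap k (A ⧸ p)) := ⟨(algebraMap k (A ⧸ p)).injective, hk⟩
  have hrank : finrank k (B ⧸ P) = finrank (A ⧸ p) (B ⧸ P) := by
    refine Algebra.finrank_eq_of_equiv_equiv (RingEquiv.ofBijective _ hbij) (RingEquiv.refl _) ?_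
    ext c
    show algebraMap (A ⧸ p) (B ⧸ P) (Ideal.Quotient.mk _ (algebraMap k A c))
      = Ideal.Quotient.mk _ (algebraMap k B c)
    rw [IsScalarTower.algebraMap_apply k A B]
    rfl
  have hne' : ((finrank (A ⧸ p) (B ⧸ P) : ℕ) : A ⧸ p) ≠ 0 := by
    rw [← hrank]
    intro h0
    apply hne
    have h1 : algebraMap k (A ⧸ p) ((finrank k (B ⧸ P) : ℕ) : k) = 0 := by
      rw [map_natCast]; exact h0
    exact (map_eq_zero_iff _ hbij.1).mp h1
  let e : (B ⧸ p.map (algebraMap A B)) ≃ₐ[A ⧸ p] ((B ⧸ P) × B ⧸ Q) :=
    { __ := (Ideal.quotEquivOfEq hP.symm).trans (Ideal.quotientMulEquivQuotientProd P Q hPQ),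
      commutes' := Quotient.ind fun _ ↦ rfl }
  obtain ⟨y, hy⟩ := Ideal.Quotient.mk_surjective (e.symm (1, 0))
  refine not_dvd_differentIdeal_of_intTrace_not_mem A P Q hP y ?_ ?_
  · have := congr((e $hy).2)
    simp at this
    simpa [e, Ideal.Quotient.eq_zero_iff_mem] using this
  · rw [← Ideal.Quotient.eq_zero_iff_mem, ← Algebra.trace_quotient_eq_of_isDedekindDomain,
      hy, Algebra.trace_eq_of_algEquiv, Algebra.trace_prod_apply]
    simp only [map_zero, add_zero]
    have h1 : Algebra.trace (A ⧸ p) (B ⧸ P) 1 = (Module.finrank (A ⧸ p) (B ⧸ P) : A ⧸ p) := by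
      have := Algebra.trace_algebraMap (R := A ⧸ p) (S := B ⧸ P) (1 : A ⧸ p)
      rw [map_one] at this
      rw [this, nsmul_eq_mul, mul_one]
    rw [h1]
    exact hne'

end Tame

section Main

variable (k : Type*) [Field k] [IsAlgClosed k]
  (A K : Type*) (L : Type*) (B : Type*) [CommRing A] [Field K] [CommRing B] [Field L]
  [Algebra A K] [Algebra B L] [Algebra A B] [Algebra K L] [Algebra A L]
  [IsScalarTower A K L] [IsScalarTower A B L]
  [IsDedekindDomain A] [IsFractionRing A K]
  [FiniteDimensional K L] [Algebra.IsSeparable K L] [IsIntegralClosure B A L]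
  [IsFractionRing B L] [IsDedekindDomain B] [IsTorsionFree A B]
  [Algebra k A] [Algebra k B] [Algebra k L] [IsScalarTower k A L] [IsScalarTower k B L]
  [IsScalarTower k A B]

include K L in
/-- Residue fields of `B` are `k`. -/
theorem h27f_hres (hA : ∀ p : Ideal A, p.IsPrime → p ≠ ⊥ →
      Function.Surjective (algebraMap k (A ⧸ p)))
    (P : Ideal B) (hPp : P.IsPrime) (hP : P ≠ ⊥) :
    Module.Finite k (B ⧸ P) ∧ finrank k (B ⧸ P) = 1 := by
  have hfinAB : Module.Finite A B := h27_finite_AB A K L B
  have hp0 : P.under A ≠ ⊥ := h27_under_ne_bot A L B P hP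
  have hfin : Module.Finite k (B ⧸ P) :=
    h27_finite_quot k A P (hA (P.under A) inferInstance hp0)
  refine ⟨hfin, ?_⟩
  have hPm : P.IsMaximal := Ideal.IsPrime.isMaximal hPp hP
  let : Field (B ⧸ P) := Ideal.Quotient.field P
  exact h27_finrank_eq_one_of_isAlgClosed k (B ⧸ P)

/-- **(a)** `relIndex (B^*) B` is the number of prime factors of the different. -/
theorem h27f_relIndex_traceDual (hA : ∀ p : Ideal A, p.IsPrime → p ≠ ⊥ →
      Function.Surjective (algebraMap k (A ⧸ p))) :
    RRalg.relIndex
        (((Algebra.traceForm K L).dualSubmodule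
          ((1 : Submodule B L).restrictScalars A)).restrictScalars k)
        (((1 : Submodule B L).restrictScalars A).restrictScalars k)
      = Multiset.card (normalizedFactors (differentIdeal A B)) := by
  have hsep := h27_isSeparable_fractionRing A K L B
  have hfinAB : Module.Finite A B := h27_finite_AB A K L B
  rw [RRalg.relIndex_of_le (h27_le_traceDual k A K L B), (h27_codim_traceDual k A K L B).1,
    (h27_finrank_quot_eq_card k (h27f_hres k A K L B hA) (differentIdeal A B)
      differentIdeal_ne_bot).2]

include K L in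
/-- **Exponent of the different, lower bound** (any characteristic). -/
theorem h27f_le_count_different (P : HeightOneSpectrum B) :
    Multiset.count P.asIdeal
        (normalizedFactors (Ideal.map (algebraMap A B) (P.asIdeal.under A))) - 1 ≤
      Multiset.count P.asIdeal (normalizedFactors (differentIdeal A B)) := by
  have hsep := h27_isSeparable_fractionRing A K L B
  have hfinAB : Module.Finite A B := h27_finite_AB A K L B
  have hp0 : P.asIdeal.under A ≠ ⊥ := h27_under_ne_bot A L B P.asIdeal P.ne_bot
  have hpB : Ideal.map (algebraMap A B) (P.asIdeal.under A) ≠ ⊥ :=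
    (Ideal.map_eq_bot_iff_of_injective (FaithfulSMul.algebraMap_injective A B)).not.mpr hp0
  set e := Multiset.count P.asIdeal
    (normalizedFactors (Ideal.map (algebraMap A B) (P.asIdeal.under A))) with he
  have hPe : P.asIdeal ^ e ∣ Ideal.map (algebraMap A B) (P.asIdeal.under A) :=
    (h27_pow_dvd_iff P hpB e).mpr le_rfl
  have hdvd : P.asIdeal ^ (e - 1) ∣ differentIdeal A B :=
    pow_sub_one_dvd_differentIdeal A P.asIdeal e hp0 hPe
  exact (h27_pow_dvd_iff P differentIdeal_ne_bot (e - 1)).mp hdvd

include K L in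
/-- **Exponent of the different, tame case**: if `e_P` is nonzero in `k` then the exponent of
`P` in the different is exactly `e_P - 1`. -/
theorem h27f_count_different_tame (hA : ∀ p : Ideal A, p.IsPrime → p ≠ ⊥ →
      Function.Surjective (algebraMap k (A ⧸ p))) (P : HeightOneSpectrum B)
    (htame : ((Multiset.count P.asIdeal
        (normalizedFactors (Ideal.map (algebraMap A B) (P.asIdeal.under A))) : ℕ) : k) ≠ 0) :
    Multiset.count P.asIdeal (normalizedFactors (differentIdeal A B)) =
      Multiset.count P.asIdeal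
        (normalizedFactors (Ideal.map (algebraMap A B) (P.asIdeal.under A))) - 1 := by
  have hsep := h27_isSeparable_fractionRing A K L B
  have hfinAB : Module.Finite A B := h27_finite_AB A K L B
  have hp0 : P.asIdeal.under A ≠ ⊥ := h27_under_ne_bot A L B P.asIdeal P.ne_bot
  have hpm : (P.asIdeal.under A).IsMaximal := Ideal.IsPrime.isMaximal inferInstance hp0
  have hpB : Ideal.map (algebraMap A B) (P.asIdeal.under A) ≠ ⊥ :=
    (Ideal.map_eq_bot_iff_of_injective (FaithfulSMul.algebraMap_injective A B)).not.mpr hp0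
  have hPmax : P.asIdeal.IsMaximal := Ideal.IsPrime.isMaximal P.isPrime P.ne_bot
  obtain ⟨Q, hsup, hfac⟩ := Ideal.eq_prime_pow_mul_coprime hpB P.asIdeal
  set e := Multiset.count P.asIdeal
    (normalizedFactors (Ideal.map (algebraMap A B) (P.asIdeal.under A))) with he
  have he1 : 1 ≤ e := by
    rw [Nat.one_le_iff_ne_zero]
    rintro h0
    rw [h0] at htame
    exact htame Nat.cast_zero
  have hcop : IsCoprime (P.asIdeal ^ e) Q := (Ideal.isCoprime_iff_sup_eq.mpr hsup).pow_left
  have hPe_top : P.asIdeal ^ e ≠ ⊤ := by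
    intro h
    have h1 : P.asIdeal ^ e ≤ P.asIdeal := Ideal.pow_le_self (by omega)
    rw [h] at h1
    exact hPmax.ne_top (top_le_iff.mp h1)
  have hPe0 : P.asIdeal ^ e ≠ ⊥ := pow_ne_zero e P.ne_bot
  have hirr : Irreducible P.asIdeal :=
    ((Ideal.prime_iff_isPrime P.ne_bot).mpr P.isPrime).irreducible
  have hcard : finrank k (B ⧸ P.asIdeal ^ e) = e := by
    rw [(h27_finrank_quot_eq_card k (h27f_hres k A K L B hA) (P.asIdeal ^ e) hPe0).2,
      normalizedFactors_pow, normalizedFactors_irreducible hirr, normalize_eq,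
      Multiset.card_nsmul, Multiset.card_singleton, mul_one]
  have hnot : ¬ P.asIdeal ^ e ∣ differentIdeal A B :=
    h27f_not_dvd_differentIdeal_of_tame k A
      (hA (P.asIdeal.under A) inferInstance hp0) (P.asIdeal ^ e) Q hPe_top hcop hfac.symm
      (by rw [hcard]; exact htame)
  have hdvd : P.asIdeal ^ (e - 1) ∣ differentIdeal A B :=
    pow_sub_one_dvd_differentIdeal A P.asIdeal e hp0 ⟨Q, hfac⟩
  refine UniqueFactorizationMonoid.count_normalizedFactors_eq hirr (normalize_eq _) hdvd ?_
  rwa [Nat.sub_add_cancel he1]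

end Main

end H27L6
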