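/-
T-RR / item 75 (helper27): CHARACTERISTIC-FREE version of L6 FIN.

Setting of `RR/Field.lean`, `k` algebraically closed of ANY characteristic, `F / k(X)` finite
separable, `y = yGen k F`, `n = [F : k(X)]`:

* `h27f_relIndex_Bfin` : `relIndex (Bfin^*) Bfin = number of prime factors of the different`;
* `h27f_card_fib`      : `∑_{P | (X - a)} e_P = n`;
* `h27f_card_places_fin` : primes of `Bfin` over `X - a` <-> places `v` with `0 < v.ord (y - a)`;
* `h27f_count_fin`     : `∑ a ∈ S, (n - #{v | 0 < v.ord (y - a)}) ≤ relIndex (Bfin^*) Bfin`.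
-/
import Mathlib
import Fermat.Agent.RR.L6Fin
import Fermat.Agent.RR.L6FreeMain

set_option autoImplicit false
set_option linter.unusedSectionVars false
set_option linter.deprecated false

noncomputable section

namespace H27L6

open Module Polynomial UniqueFactorizationMonoid IsDedekindDomain RRalg AlgebraicCurve

section FreeFin

variable (k : Type*) [Field k] [IsAlgClosed k] (F : Type*) [Field F]
  [Algebra (RatFunc k) F] [Algebra k F] [IsScalarTower k (RatFunc k) F] [Algebra k[X] F]
  [IsScalarTower k[X] (RatFunc k) F] [IsScalarTower k k[X] F]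
  [FiniteDimensional (RatFunc k) F] [Algebra.IsSeparable (RatFunc k) F]

theorem h27f_algebraMap_poly_injective : Function.Injective (algebraMap k[X] F) := by
  rw [IsScalarTower.algebraMap_eq k[X] (RatFunc k) F]
  exact (algebraMap (RatFunc k) F).injective.comp (IsFractionRing.injective k[X] (RatFunc k))

theorem h27f_isTorsionFree_poly : IsTorsionFree k[X] F :=
  isTorsionFree_iff_algebraMap_injective.mpr (h27f_algebraMap_poly_injective k F)

theorem h27f_isTorsionFree_B : IsTorsionFree k[X] ↥(integralClosure k[X] F) :=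
  have := h27f_isTorsionFree_poly k F
  inferInstance

theorem h27f_isDedekindDomain_B : IsDedekindDomain ↥(integralClosure k[X] F) :=
  integralClosure.isDedekindDomain k[X] (RatFunc k) F

theorem h27f_isFractionRing_B : IsFractionRing ↥(integralClosure k[X] F) F :=
  integralClosure.isFractionRing_of_finite_extension (A := k[X]) (RatFunc k) F

attribute [local instance] h27f_isTorsionFree_B h27f_isDedekindDomain_B h27f_isFractionRing_B

theorem h27f_one_eq_Bfin :
    (1 : Submodule ↥(integralClosure k[X] F) F).restrictScalars k[X] = Bfin k F := by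
  ext x
  rw [Submodule.restrictScalars_mem, Submodule.mem_one]
  constructor
  · rintro ⟨b, rfl⟩
    exact b.2
  · intro hx
    exact ⟨⟨x, hx⟩, rfl⟩

/-- **L6 (fin), colength form**: `[Bfin^* : Bfin]` is the number of prime factors of the
different of `Bfin / k[X]`. -/
theorem h27f_relIndex_Bfin :
    relIndex (sk (k := k) ((Algebra.traceForm (RatFunc k) F).dualSubmodule (Bfin k F)))
        (sk (k := k) (Bfin k F))
      = Multiset.card (normalizedFactors (differentIdeal k[X] ↥(integralClosure k[X] F))) := by
  have h := h27f_relIndex_traceDual k k[X] (RatFunc k) F ↥(integralClosure k[X] F) (h27_hA_poly k)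
  rw [h27f_one_eq_Bfin] at h
  exact h

/-- **L6 (fin), pointwise form**. -/
theorem h27f_mem_dual_Bfin_iff (x : F) :
    x ∈ (Algebra.traceForm (RatFunc k) F).dualSubmodule (Bfin k F) ↔
      ∀ P : HeightOneSpectrum ↥(integralClosure k[X] F), P.valuation F x ≤
        WithZero.exp ((Multiset.count P.asIdeal
          (normalizedFactors (differentIdeal k[X] ↥(integralClosure k[X] F))) : ℤ)) := by
  have h := h27_mem_traceDual_iff k[X] (RatFunc k) F ↥(integralClosure k[X] F) x
  rw [h27f_one_eq_Bfin] at h
  exact h

end FreeFin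

section FreeFinCount

variable (k : Type*) [Field k] [IsAlgClosed k] (F : Type*) [Field F]
  [Algebra (RatFunc k) F] [Algebra k F] [IsScalarTower k (RatFunc k) F] [Algebra k[X] F]
  [IsScalarTower k[X] (RatFunc k) F] [IsScalarTower k k[X] F]
  [FiniteDimensional (RatFunc k) F] [Algebra.IsSeparable (RatFunc k) F]

attribute [local instance] h27f_isTorsionFree_B h27f_isDedekindDomain_B h27f_isFractionRing_B

/-- The fibre ideal `(X - a) B`. -/
abbrev h27f_fib (a : k) : Ideal ↥(integralClosure k[X] F) :=
  Ideal.map (algebraMap k[X] ↥(integralClosure k[X] F)) (Ideal.span {X - C a})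

theorem h27f_fib_ne_bot (a : k) : h27f_fib k F a ≠ ⊥ := by
  rw [h27f_fib, Ne, Ideal.map_eq_bot_iff_of_injective]
  · exact h27_span_X_sub_C_ne_bot k a
  · exact FaithfulSMul.algebraMap_injective _ _

/-- `dim_k B / (X - a) B = [F : k(X)]`. -/
theorem h27f_finrank_fib (a : k) :
    finrank k (↥(integralClosure k[X] F) ⧸ h27f_fib k F a) = finrank (RatFunc k) F := by
  have hmax := h27_span_X_sub_C_isMaximal k a
  have hfin : Module.Finite k[X] ↥(integralClosure k[X] F) :=
    h27_finite_AB k[X] (RatFunc k) F ↥(integralClosure k[X] F)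
  have h1 : finrank (k[X] ⧸ Ideal.span {(X - C a : k[X])})
      (↥(integralClosure k[X] F) ⧸ h27f_fib k F a) = finrank (RatFunc k) F :=
    Ideal.finrank_quotient_map (Ideal.span {(X - C a : k[X])}) (RatFunc k) F
  rw [← h1]
  have hbij : Function.Bijective (algebraMap k (k[X] ⧸ Ideal.span {(X - C a : k[X])})) :=
    ⟨(algebraMap k _).injective, h27_hA_poly k _ hmax.isPrime (h27_span_X_sub_C_ne_bot k a)⟩
  refine Algebra.finrank_eq_of_equiv_equiv (RingEquiv.ofBijective _ hbij) (RingEquiv.refl _) ?_
  ext c
  show algebraMap (k[X] ⧸ Ideal.span {(X - C a : k[X])})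
      (↥(integralClosure k[X] F) ⧸ h27f_fib k F a)
      (Ideal.Quotient.mk _ (C c)) = Ideal.Quotient.mk _ (algebraMap k _ c)
  rw [Ideal.Quotient.algebraMap_quotient_map_quotient]
  congr 1
  rw [IsScalarTower.algebraMap_apply k k[X] ↥(integralClosure k[X] F)]
  rfl

/-- `∑_{P | (X - a)} e_P = n` (all residue degrees are one). -/
theorem h27f_card_fib (a : k) :
    Multiset.card (normalizedFactors (h27f_fib k F a)) = finrank (RatFunc k) F := by
  have hres := h27f_hres k k[X] (RatFunc k) F ↥(integralClosure k[X] F) (h27_hA_poly k)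
  have h := (h27_finrank_quot_eq_card k (fun P hP hP0 => hres P hP hP0) (h27f_fib k F a)
    (h27f_fib_ne_bot k F a)).2
  rw [← h, h27f_finrank_fib]

theorem h27f_mem_fib_iff (a : k) (P : Ideal ↥(integralClosure k[X] F)) :
    P ∈ normalizedFactors (h27f_fib k F a) ↔
      P.IsPrime ∧ algebraMap k[X] ↥(integralClosure k[X] F) (X - C a) ∈ P := by
  rw [Ideal.mem_normalizedFactors_iff (h27f_fib_ne_bot k F a), h27f_fib, Ideal.map_le_iff_le_comap,
    Ideal.span_singleton_le_iff_mem, Ideal.mem_comap]

theorem h27f_under_eq (a : k) (P : Ideal ↥(integralClosure k[X] F)) (hP : P.IsPrime)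
    (ha : algebraMap k[X] ↥(integralClosure k[X] F) (X - C a) ∈ P) :
    P.under k[X] = Ideal.span {X - C a} := by
  have hle : Ideal.span {(X - C a : k[X])} ≤ P.under k[X] := by
    rw [Ideal.span_singleton_le_iff_mem]
    exact ha
  have hne : P.under k[X] ≠ ⊤ := (Ideal.comap_isPrime _ P).ne_top
  exact ((h27_span_X_sub_C_isMaximal k a).eq_of_le hne hle).symm

theorem h27f_fib_point_unique (a a' : k) (P : Ideal ↥(integralClosure k[X] F))
    (hP : P ∈ normalizedFactors (h27f_fib k F a))
    (hP' : P ∈ normalizedFactors (h27f_fib k F a')) : a = a' := by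
  rw [h27f_mem_fib_iff] at hP hP'
  have h1 := h27f_under_eq k F a P hP.1 hP.2
  have h2 := h27f_under_eq k F a' P hP.1 hP'.2
  have h3 : (X - C a' : k[X]) ∈ Ideal.span {(X - C a : k[X])} := by
    rw [← h1, h2]
    exact Ideal.mem_span_singleton_self _
  rw [Ideal.mem_span_singleton, dvd_iff_isRoot] at h3
  have h4 : a - a' = 0 := by simpa using h3
  exact sub_eq_zero.mp h4

/-- The exponent of `P | (X - a)` in the different is at least `e_P - 1`. -/
theorem h27f_count_different_fib (a : k) (P : Ideal ↥(integralClosure k[X] F))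
    (hP : P ∈ normalizedFactors (h27f_fib k F a)) :
    Multiset.count P (normalizedFactors (h27f_fib k F a)) - 1 ≤
      Multiset.count P (normalizedFactors (differentIdeal k[X] ↥(integralClosure k[X] F))) := by
  have hP' := (h27f_mem_fib_iff k F a P).mp hP
  have hP0 : P ≠ ⊥ := by
    rintro rfl
    have h0 : algebraMap k[X] ↥(integralClosure k[X] F) (X - C a) = 0 := hP'.2
    have h1 : (X - C a : k[X]) = 0 :=
      (map_eq_zero_iff _ (FaithfulSMul.algebraMap_injective k[X] _)).mp h0
    exact X_sub_C_ne_zero a h1
  have h := h27f_le_count_different k[X] (RatFunc k) F ↥(integralClosure k[X] F)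
    (⟨P, hP'.1, hP0⟩ : HeightOneSpectrum ↥(integralClosure k[X] F))
  have hu : (P.under k[X]) = Ideal.span {X - C a} := h27f_under_eq k F a P hP'.1 hP'.2
  simp only [hu] at h
  exact h

open Classical in
/-- The part of the different over a finite set of points sits inside the different. -/
theorem h27f_sum_le_different (S : Finset k) :
    ∑ a ∈ S, (normalizedFactors (h27f_fib k F a) - (normalizedFactors (h27f_fib k F a)).dedup) ≤
      normalizedFactors (differentIdeal k[X] ↥(integralClosure k[X] F)) := by
  rw [Multiset.le_iff_count]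
  intro P
  rw [Multiset.count_sum']
  by_cases hex : ∃ a0 ∈ S, P ∈ normalizedFactors (h27f_fib k F a0)
  · obtain ⟨a0, ha0, hP⟩ := hex
    rw [Finset.sum_eq_single a0]
    · rw [Multiset.count_sub, Multiset.count_dedup, if_pos hP]
      exact h27f_count_different_fib k F a0 P hP
    · intro b _ hb
      have hPb : P ∉ normalizedFactors (h27f_fib k F b) := fun h =>
        hb (h27f_fib_point_unique k F b a0 P h hP)
      rw [Multiset.count_sub, Multiset.count_eq_zero_of_notMem hPb]
      simp
    · intro h
      exact absurd ha0 h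
  · have hz : ∀ a ∈ S, Multiset.count P (normalizedFactors (h27f_fib k F a) -
        (normalizedFactors (h27f_fib k F a)).dedup) = 0 := by
      intro a ha
      have hPa : P ∉ normalizedFactors (h27f_fib k F a) := fun h => hex ⟨a, ha, h⟩
      rw [Multiset.count_sub, Multiset.count_eq_zero_of_notMem hPa]
      simp
    rw [Finset.sum_eq_zero hz]
    exact Nat.zero_le _

open Classical in
/-- **COUNT-local (fin), prime form.** -/
theorem h27f_count_fin_primes (S : Finset k) :
    ∑ a ∈ S, ((finrank (RatFunc k) F : ℤ) - ((normalizedFactors (h27f_fib k F a)).toFinset.card : ℤ))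
      ≤ relIndex (sk (k := k) ((Algebra.traceForm (RatFunc k) F).dualSubmodule (Bfin k F)))
          (sk (k := k) (Bfin k F)) := by
  rw [h27f_relIndex_Bfin]
  have h1 := Multiset.card_le_card (h27f_sum_le_different k F S)
  rw [Multiset.card_sum] at h1
  have h2 : ∀ a ∈ S, Multiset.card (normalizedFactors (h27f_fib k F a) -
      (normalizedFactors (h27f_fib k F a)).dedup) =
      finrank (RatFunc k) F - (normalizedFactors (h27f_fib k F a)).toFinset.card := by
    intro a _
    rw [Multiset.card_sub (Multiset.dedup_le _), h27f_card_fib]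
    rfl
  rw [Finset.sum_congr rfl h2] at h1
  have h3 : ∀ a ∈ S, (normalizedFactors (h27f_fib k F a)).toFinset.card ≤ finrank (RatFunc k) F := by
    intro a _
    rw [← h27f_card_fib k F a]
    exact Multiset.toFinset_card_le _
  calc ∑ a ∈ S, ((finrank (RatFunc k) F : ℤ) -
        ((normalizedFactors (h27f_fib k F a)).toFinset.card : ℤ))
      = ∑ a ∈ S, ((finrank (RatFunc k) F -
          (normalizedFactors (h27f_fib k F a)).toFinset.card : ℕ) : ℤ) := by
        refine Finset.sum_congr rfl fun a ha => ?_
        rw [Nat.cast_sub (h3 a ha)]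
    _ = ((∑ a ∈ S, (finrank (RatFunc k) F -
          (normalizedFactors (h27f_fib k F a)).toFinset.card) : ℕ) : ℤ) := by
        rw [Nat.cast_sum]
    _ ≤ _ := by exact_mod_cast h1

theorem h27f_algebraMap_poly_eq (p : k[X]) : algebraMap k[X] F p = aeval (yGen k F) p := by
  rw [IsScalarTower.algebraMap_apply k[X] (RatFunc k) F, bridge_algebraMap_poly]

theorem h27f_algebraMap_X_sub_C (a : k) :
    algebraMap ↥(integralClosure k[X] F) F
      (algebraMap k[X] ↥(integralClosure k[X] F) (X - C a)) = yGen k F - algebraMap k F a := by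
  rw [← IsScalarTower.algebraMap_apply k[X] ↥(integralClosure k[X] F) F, h27f_algebraMap_poly_eq]
  simp

theorem h27f_X_sub_C_B_ne_zero (a : k) :
    algebraMap k[X] ↥(integralClosure k[X] F) (X - C a) ≠ 0 := by
  intro h0
  exact X_sub_C_ne_zero a ((map_eq_zero_iff _ (FaithfulSMul.algebraMap_injective k[X] _)).mp h0)

/-- A place whose valuation ring contains `y` contains the image of `k[X]`. -/
theorem h27f_poly_mem_of_mem (v : Place k F) (hy : yGen k F ∈ v.toValuationSubring) (p : k[X]) :
    algebraMap k[X] F p ∈ v.toValuationSubring := by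
  rw [h27f_algebraMap_poly_eq, aeval_eq_sum_range]
  refine sum_mem fun i _ => ?_
  rw [Algebra.smul_def]
  exact mul_mem (v.algebraMap_mem' _) (pow_mem hy i)

/-- A place whose valuation ring contains `y` contains `Bfin`. -/
theorem h27f_B_mem_of_mem (v : Place k F) (hy : yGen k F ∈ v.toValuationSubring)
    (b : ↥(integralClosure k[X] F)) :
    algebraMap ↥(integralClosure k[X] F) F b ∈ v.toValuationSubring := by
  let g : k[X] →+* v.toValuationSubring :=
    (algebraMap k[X] F).codRestrict v.toValuationSubring.toSubring (h27f_poly_mem_of_mem k F v hy)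
  let _ : Algebra k[X] v.toValuationSubring := g.toAlgebra
  have : IsScalarTower k[X] v.toValuationSubring F := IsScalarTower.of_algebraMap_eq fun _ => rfl
  have hb : IsIntegral k[X] (algebraMap ↥(integralClosure k[X] F) F b) := b.2
  have hb' : IsIntegral v.toValuationSubring (algebraMap ↥(integralClosure k[X] F) F b) :=
    hb.tower_top
  obtain ⟨c, hc⟩ := (IsIntegrallyClosed.isIntegral_iff (R := v.toValuationSubring) (K := F)).mp hb'
  rw [← hc]
  exact c.2

theorem h27f_y_mem_of_ord_pos (v : Place k F) (a : k)
    (hv : 0 < v.ord (yGen k F - algebraMap k F a)) : yGen k F ∈ v.toValuationSubring := by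
  have hne : yGen k F - algebraMap k F a ≠ 0 := by
    rintro h
    rw [h] at hv
    simp at hv
  have h1 : yGen k F - algebraMap k F a ∈ v.toValuationSubring :=
    (RH24.h20_mem_iff_ord_nonneg v hne).mpr hv.le
  have h2 : yGen k F = (yGen k F - algebraMap k F a) + algebraMap k F a := by ring
  rw [h2]
  exact add_mem h1 (v.algebraMap_mem' a)

open Classical in
/-- The primes of `Bfin` over `X - a` correspond to the places of `F / k` centred at `y = a`. -/
theorem h27f_card_places_fin (a : k) :
    Nat.card {v : Place k F // 0 < v.ord (yGen k F - algebraMap k F a)} =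
      (normalizedFactors (h27f_fib k F a)).toFinset.card := by
  rw [← Fintype.card_coe, ← Nat.card_eq_fintype_card]
  symm
  have hmem : ∀ P : ↥(normalizedFactors (h27f_fib k F a)).toFinset,
      (P : Ideal ↥(integralClosure k[X] F)).IsPrime ∧
        algebraMap k[X] ↥(integralClosure k[X] F) (X - C a) ∈ (P : Ideal _) := fun P =>
    (h27f_mem_fib_iff k F a P).mp (Multiset.mem_toFinset.mp P.2)
  have hne : ∀ P : ↥(normalizedFactors (h27f_fib k F a)).toFinset,
      (P : Ideal ↥(integralClosure k[X] F)) ≠ ⊥ := fun P h => by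
    have h1 := (hmem P).2
    rw [h, Ideal.mem_bot] at h1
    exact h27f_X_sub_C_B_ne_zero k F a h1
  let f : ↥(normalizedFactors (h27f_fib k F a)).toFinset →
      {v : Place k F // 0 < v.ord (yGen k F - algebraMap k F a)} := fun P =>
    ⟨h27_placeOf k ↥(integralClosure k[X] F) ⟨P, (hmem P).1, hne P⟩, by
      rw [← h27f_algebraMap_X_sub_C, h27_placeOf_ord_pos_iff k _ _ (h27f_X_sub_C_B_ne_zero k F a)]
      exact (hmem P).2⟩
  refine Nat.card_eq_of_bijective f ⟨?_, ?_⟩
  · intro P Q hPQ
    have h1 := congrArg Subtype.val hPQ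
    have h2 := h27_placeOf_injective k ↥(integralClosure k[X] F) h1
    have h3 := congrArg HeightOneSpectrum.asIdeal h2
    exact Subtype.ext h3
  · rintro ⟨v, hv⟩
    have hy := h27f_y_mem_of_ord_pos k F v a hv
    have hB := h27f_B_mem_of_mem k F v hy
    have hX : algebraMap k[X] ↥(integralClosure k[X] F) (X - C a) ∈
        (h27_primeOfPlace v hB).asIdeal := by
      rw [h27_mem_primeOfPlace, h27f_algebraMap_X_sub_C]
      have hne : yGen k F - algebraMap k F a ≠ 0 := by
        rintro h
        rw [h] at hv
        simp at hv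
      exact (RH24.h20_adicValuation_lt_one_iff v hne).mpr hv
    have hP : (h27_primeOfPlace v hB).asIdeal ∈ (normalizedFactors (h27f_fib k F a)).toFinset := by
      rw [Multiset.mem_toFinset, h27f_mem_fib_iff]
      exact ⟨(h27_primeOfPlace v hB).isPrime, hX⟩
    refine ⟨⟨_, hP⟩, Subtype.ext ?_⟩
    exact h27_placeOf_primeOfPlace k ↥(integralClosure k[X] F) v hB

/-- **COUNT-local (fin)**: for every finite set `S` of points,
`∑_{a ∈ S} (n - #{places over a}) ≤ [Bfin^* : Bfin]`. -/
theorem h27f_count_fin (S : Finset k) :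
    ∑ a ∈ S, ((finrank (RatFunc k) F : ℤ) -
        (Nat.card {v : Place k F // 0 < v.ord (yGen k F - algebraMap k F a)} : ℤ))
      ≤ relIndex (sk (k := k) ((Algebra.traceForm (RatFunc k) F).dualSubmodule (Bfin k F)))
          (sk (k := k) (Bfin k F)) := by
  classical
  have h := h27f_count_fin_primes k F S
  refine le_trans (le_of_eq ?_) h
  refine Finset.sum_congr rfl fun a _ => ?_
  rw [h27f_card_places_fin]

end FreeFinCount

end H27L6

end
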